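import Fermat.Agent.GaloisBasic.ValuationRing
import Mathlib
import Fermat.Prelude.Def_ModularCurve_LaurentCoeff

/-!
# Gauss models: constant reduction of a field of Laurent series

A field `F ⊆ L((q))` with a transcendental element `x` with integral expansion and a basis over
`L(x)` with integral expansions whose reductions stay independent over `k(x̄)`.  Such a model
carries a valuation ring (`intRing`) with residue field inside `k((q))`, and integral elements over
`L[x]` inside it are integral over `R[x]`.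
-/

set_option autoImplicit false

open Polynomial
open ModularCurve (coeffMap coeffMap_coeff coeffMap_coeffMap)

noncomputable section

namespace FermatAgent.Curve.Red

/-- Constant reduction data on a field of Laurent series. -/
structure GaussModel (L : Type*) [Field L] (k : Type*) [Field k] where
  /-- the valuation ring of the constants -/
  R : ValuationSubring L
  /-- the residue map -/
  π : R →+* k
  surj : Function.Surjective π
  ker_iff : ∀ a : R, π a = 0 ↔ ¬IsUnit a
  /-- the function field -/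
  F : IntermediateField L (LaurentSeries L)
  /-- the coordinate -/
  x : LaurentSeries R
  /-- the rank -/
  n : ℕ
  /-- the basis -/
  b : Fin n → LaurentSeries R
  x_mem : coeffMap R.subtype x ∈ F
  b_mem : ∀ i, coeffMap R.subtype (b i) ∈ F
  b_int : ∀ i, ((eval₂RingHom HahnSeries.C x : R[X] →+* LaurentSeries R)).IsIntegralElem (b i)
  x_tr : ∀ p : k[X], p.eval₂ HahnSeries.C (coeffMap π x) = 0 → p = 0
  indep : ∀ p : Fin n → k[X],
    ∑ i, (p i).eval₂ HahnSeries.C (coeffMap π x) * coeffMap π (b i) = 0 → p = 0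
  spans : ∀ f ∈ F, ∃ (Q : L[X]) (P : Fin n → L[X]), Q ≠ 0 ∧
    f * Q.eval₂ HahnSeries.C (coeffMap R.subtype x) =
      ∑ i, (P i).eval₂ HahnSeries.C (coeffMap R.subtype x) * coeffMap R.subtype (b i)

/-- Primitive rescaling of a family of polynomials over a valuation ring. -/
theorem exists_primitive {L : Type*} [Field L] {R : ValuationSubring L} {k : Type*} [Field k]
    (π : R →+* k) {ι : Type*} [Fintype ι] (P : ι → L[X]) (hP : P ≠ 0) :
    ∃ (l : L) (P' : ι → R[X]), l ≠ 0 ∧ (∃ i, (P' i).map π ≠ 0) ∧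
      ∀ i, P i = C l * (P' i).map R.subtype := by
  classical
  set T : Finset (ι × ℕ) := Finset.univ.biUnion fun i => (P i).support.image (Prod.mk i)
  have hT : T.Nonempty := by
    obtain ⟨i, hi⟩ := Function.ne_iff.mp hP
    obtain ⟨j, hj⟩ := nonempty_support_iff.mpr hi
    exact ⟨(i, j), Finset.mem_biUnion.mpr ⟨i, Finset.mem_univ i, Finset.mem_image_of_mem _ hj⟩⟩
  obtain ⟨q, hq, hmax⟩ := T.exists_max_image (fun q => R.valuation ((P q.1).coeff q.2)) hT
  obtain ⟨i0, -, hq'⟩ := Finset.mem_biUnion.mp hq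
  obtain ⟨j0, hj0, rfl⟩ := Finset.mem_image.mp hq'
  set l := (P i0).coeff j0 with hldef
  have hl : l ≠ 0 := mem_support_iff.mp hj0
  have hv : 0 < R.valuation l := zero_lt_iff.mpr ((Valuation.ne_zero_iff _).mpr hl)
  have hmem : ∀ i j, (P i).coeff j / l ∈ R := fun i j => by
    rw [← R.valuation_le_one_iff, map_div₀, div_le_one₀ hv]
    rcases eq_or_ne ((P i).coeff j) 0 with h | h
    · simp [h]
    · exact hmax (i, j) (Finset.mem_biUnion.mpr
        ⟨i, Finset.mem_univ i, Finset.mem_image_of_mem _ (mem_support_iff.mpr h)⟩)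
  have hlift : ∀ i, ∃ P' : R[X], P'.map R.subtype = C l⁻¹ * P i := fun i => by
    have : C l⁻¹ * P i ∈ lifts R.subtype := by
      rw [lifts_iff_coeff_lifts]
      intro j
      rw [coeff_C_mul]
      exact ⟨⟨_, hmem i j⟩, div_eq_inv_mul _ _⟩
    exact this
  choose P' hP' using hlift
  refine ⟨l, P', hl, ⟨i0, fun h => one_ne_zero (α := k) ?_⟩, fun i => ?_⟩
  · have h1 : (P' i0).coeff j0 = 1 := Subtype.ext (by
      rw [← ValuationSubring.subtype_apply, ← coeff_map, hP', coeff_C_mul, ← hldef,
        inv_mul_cancel₀ hl]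
      rfl)
    rw [← map_one π, ← h1, ← coeff_map, h, coeff_zero]
  · rw [hP', ← mul_assoc, ← map_mul, mul_inv_cancel₀ hl, map_one, one_mul]

namespace GaussModel

variable {L : Type*} [Field L] {k : Type*} [Field k] (G : GaussModel L k)

/-- Integral series as series. -/
def incl : LaurentSeries G.R →+* LaurentSeries L := coeffMap G.R.subtype

/-- The reduction of integral series. -/
def redS : LaurentSeries G.R →+* LaurentSeries k := coeffMap G.π

/-- Series over `R` embed into series over `L`. -/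
theorem incl_injective : Function.Injective G.incl := fun _ _ h =>
  HahnSeries.ext (funext fun n => Subtype.ext (congrArg (fun s => s.coeff n) h))

/-- Evaluation at `x`. -/
def evR : G.R[X] →+* LaurentSeries G.R := eval₂RingHom HahnSeries.C G.x

/-- Evaluation at `x`. -/
def evL : L[X] →+* LaurentSeries L := eval₂RingHom HahnSeries.C (G.incl G.x)

/-- Evaluation at the reduced `x`. -/
def evk : k[X] →+* LaurentSeries k := eval₂RingHom HahnSeries.C (G.redS G.x)

/-- The inclusion of a constant. -/
theorem incl_C (a : G.R) : G.incl (HahnSeries.C a) = HahnSeries.C (a : L) := by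
  simp [incl, HahnSeries.C_apply]

theorem redS_C (a : G.R) : G.redS (HahnSeries.C a) = HahnSeries.C (G.π a) := by
  simp [redS, HahnSeries.C_apply]

/-- The inclusion of a polynomial in `x`. -/
theorem incl_evR (Q : G.R[X]) : G.incl (G.evR Q) = G.evL (Q.map G.R.subtype) := by
  rw [evR, evL, coe_eval₂RingHom, coe_eval₂RingHom, hom_eval₂, eval₂_map]
  congr 1
  exact RingHom.ext G.incl_C

/-- The reduction of a polynomial in `x`. -/
theorem redS_evR (Q : G.R[X]) : G.redS (G.evR Q) = G.evk (Q.map G.π) := by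
  rw [evR, evk, coe_eval₂RingHom, coe_eval₂RingHom, hom_eval₂, eval₂_map]
  congr 1
  exact RingHom.ext G.redS_C

/-- The reduced coordinate is transcendental. -/
theorem evk_injective : Function.Injective G.evk :=
  (injective_iff_map_eq_zero _).mpr G.x_tr

theorem evR_ne_zero {Q : G.R[X]} (hQ : Q.map G.π ≠ 0) : G.evR Q ≠ 0 := fun h => hQ (by
  apply G.evk_injective
  rw [← G.redS_evR, h, map_zero, map_zero])

/-- A combination of the basis. -/
def comb (P : Fin G.n → G.R[X]) : LaurentSeries G.R := ∑ i, G.evR (P i) * G.b i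

/-- A combination of the reduced basis. -/
def combk (p : Fin G.n → k[X]) : LaurentSeries k := ∑ i, G.evk (p i) * G.redS (G.b i)

/-- The reduction of a combination of the basis. -/
theorem redS_comb (P : Fin G.n → G.R[X]) :
    G.redS (G.comb P) = G.combk fun i => (P i).map G.π := by
  simp [comb, combk, map_sum, map_mul, redS_evR]

/-- The inclusion of a combination of the basis. -/
theorem incl_comb (P : Fin G.n → G.R[X]) :
    G.incl (G.comb P) = ∑ i, G.evL ((P i).map G.R.subtype) * G.incl (G.b i) := by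
  simp [comb, map_sum, map_mul, incl_evR]

/-- A combination with a unit coefficient has nonzero reduction. -/
theorem combk_ne_zero {P : Fin G.n → G.R[X]} {i : Fin G.n} (hi : (P i).map G.π ≠ 0) :
    G.combk (fun i => (P i).map G.π) ≠ 0 := fun h =>
  hi (congrFun (G.indep (fun i => (P i).map G.π) h) i)

/-- Evaluation at a constant polynomial. -/
theorem evL_C (a : L) : G.evL (C a) = HahnSeries.C a := by simp [evL]

/-- The coordinate is transcendental. -/
theorem evL_injective : Function.Injective G.evL := by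
  rw [injective_iff_map_eq_zero]
  intro p hp
  by_contra h
  obtain ⟨l, P', hl, ⟨⟨⟩, hi⟩, he⟩ := exists_primitive G.π (fun _ : Unit => p)
    (fun h0 => h (congrFun h0 ()))
  rw [show p = _ from he (), map_mul, ← G.incl_evR, mul_eq_zero, G.evL_C] at hp
  rcases hp with h1 | h1
  · exact hl (HahnSeries.C_injective (h1.trans (map_zero _).symm))
  · exact G.evR_ne_zero hi (G.incl_injective (h1.trans (map_zero _).symm))

/-- A polynomial with nonzero reduction gives a nonzero function. -/
theorem incl_evR_ne_zero {Q : G.R[X]} (hQ : Q.map G.π ≠ 0) : G.incl (G.evR Q) ≠ 0 := fun h =>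
  G.evR_ne_zero hQ (G.incl_injective (h.trans (map_zero _).symm))

/-- Polynomials in `x` lie in the field. -/
theorem incl_evR_mem (Q : G.R[X]) : G.incl (G.evR Q) ∈ G.F := by
  rw [incl_evR, evL, coe_eval₂RingHom, eval₂_eq_sum_range]
  refine sum_mem fun i _ => mul_mem ?_ (pow_mem G.x_mem _)
  rw [HahnSeries.C_apply, ← ModularCurve.algebraMap_laurentSeries_eq_single]
  exact G.F.algebraMap_mem _

/-- Combinations of the basis lie in the field. -/
theorem incl_comb_mem (P : Fin G.n → G.R[X]) : G.incl (G.comb P) ∈ G.F := by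
  rw [comb, map_sum]
  refine sum_mem fun i _ => ?_
  rw [map_mul]
  exact mul_mem (G.incl_evR_mem _) (G.b_mem i)

/-- `f` is integral for the Gauss valuation. -/
def IntElt (f : LaurentSeries L) : Prop :=
  ∃ (Q : G.R[X]) (P : Fin G.n → G.R[X]), Q.map G.π ≠ 0 ∧ f * G.incl (G.evR Q) = G.incl (G.comb P)

/-- Integral elements lie in the field. -/
theorem IntElt.mem {f : LaurentSeries L} (hf : G.IntElt f) : f ∈ G.F := by
  obtain ⟨Q, P, hQ, h⟩ := hf
  rw [eq_div_of_mul_eq (G.incl_evR_ne_zero hQ) h]
  exact G.F.div_mem (G.incl_comb_mem P) (G.incl_evR_mem Q)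

theorem comb_add (P P' : Fin G.n → G.R[X]) : G.comb (P + P') = G.comb P + G.comb P' := by
  simp [comb, add_mul, Finset.sum_add_distrib]

theorem evR_mul_comb (Q : G.R[X]) (P : Fin G.n → G.R[X]) :
    G.evR Q * G.comb P = G.comb fun i => Q * P i := by
  simp [comb, Finset.mul_sum, mul_assoc]

theorem comb_zero : G.comb 0 = 0 := by simp [comb]

/-- Normal form: a nonzero element is a constant times an element with nonzero reduction. -/
theorem exists_normal {f : LaurentSeries L} (hf : f ∈ G.F) (hf0 : f ≠ 0) :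
    ∃ (l : L) (Q : G.R[X]) (P : Fin G.n → G.R[X]), l ≠ 0 ∧ Q.map G.π ≠ 0 ∧
      (∃ i, (P i).map G.π ≠ 0) ∧
      f * G.incl (G.evR Q) = HahnSeries.C l * G.incl (G.comb P) := by
  obtain ⟨Q, P, hQ, he⟩ := G.spans f hf
  obtain ⟨c, Q', hc, ⟨⟨⟩, hQ'⟩, hQe⟩ := exists_primitive G.π (fun _ : Unit => Q)
    (fun h => hQ (congrFun h ()))
  have hP : P ≠ 0 := by
    rintro rfl
    simp only [Pi.zero_apply, eval₂_zero, zero_mul, Finset.sum_const_zero] at he
    exact mul_ne_zero hf0 ((map_ne_zero_iff G.evL G.evL_injective).mpr hQ) he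
  obtain ⟨d, P', hd, hP', hPe⟩ := exists_primitive G.π P hP
  refine ⟨d / c, Q' (), P', div_ne_zero hd hc, hQ', hP', ?_⟩
  have he' : f * (HahnSeries.C c * G.incl (G.evR (Q' ()))) =
      HahnSeries.C d * G.incl (G.comb P') := by
    rw [G.incl_evR, ← G.evL_C, ← map_mul, ← hQe (), G.incl_comb, Finset.mul_sum]
    refine he.trans (Finset.sum_congr rfl fun i _ => ?_)
    rw [← mul_assoc, ← G.evL_C, ← map_mul, ← hPe]
    rfl
  have hc' : (HahnSeries.C c : LaurentSeries L) ≠ 0 :=
    (map_ne_zero_iff _ HahnSeries.C_injective).mpr hc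
  refine mul_left_cancel₀ hc' ?_
  rw [← mul_assoc (HahnSeries.C c) (HahnSeries.C (d / c)), ← map_mul, mul_div_cancel₀ _ hc, ← he']
  ring

/-- An element with integral expansion is integral. -/
theorem intElt_incl {s : LaurentSeries G.R} (hs : G.incl s ∈ G.F) : G.IntElt (G.incl s) := by
  rcases eq_or_ne s 0 with rfl | hs0
  · exact ⟨1, 0, by simp, by simp [comb_zero]⟩
  obtain ⟨l, Q, P, hl, hQ, ⟨i, hi⟩, he⟩ :=
    G.exists_normal hs ((map_ne_zero_iff _ G.incl_injective).mpr hs0)
  by_cases hlR : l ∈ G.R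
  · refine ⟨Q, fun i => C ⟨l, hlR⟩ * P i, hQ, ?_⟩
    rw [he, ← G.evR_mul_comb, map_mul, G.incl_evR, Polynomial.map_C, evL_C]
    rfl
  · obtain ⟨μ, hμ, hμ0⟩ := exists_inv_eq_zero G.ker_iff hlR
    refine absurd ?_ (G.combk_ne_zero hi)
    have h2 : HahnSeries.C μ * (s * G.evR Q) = G.comb P := by
      apply G.incl_injective
      rw [map_mul, map_mul, he, G.incl_C, hμ, ← mul_assoc, ← map_mul, inv_mul_cancel₀ hl, map_one,
        one_mul]
    rw [← G.redS_comb, ← h2, map_mul, G.redS_C, hμ0, map_zero, zero_mul]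

/-- The valuation ring of the model. -/
def intRing : Subring (LaurentSeries L) where
  carrier := {f | G.IntElt f}
  one_mem' := by
    have := G.intElt_incl (s := 1) (by rw [map_one]; exact one_mem _)
    rwa [map_one] at this
  zero_mem' := ⟨1, 0, by simp, by simp [comb_zero]⟩
  add_mem' {f g} := fun ⟨Q, P, hQ, hf⟩ ⟨Q', P', hQ', hg⟩ =>
    ⟨Q * Q', (fun i => Q' * P i) + fun i => Q * P' i, by
      rw [Polynomial.map_mul]; exact mul_ne_zero hQ hQ', by
      simp only [comb_add, ← evR_mul_comb, map_mul, map_add]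
      linear_combination G.incl (G.evR Q') * hf + G.incl (G.evR Q) * hg⟩
  neg_mem' {f} := fun ⟨Q, P, hQ, hf⟩ => ⟨Q, -P, hQ, by
    rw [neg_mul, hf]; simp [comb]⟩
  mul_mem' {f g} := fun ⟨Q, P, hQ, hf⟩ ⟨Q', P', hQ', hg⟩ => by
    obtain ⟨Q'', P'', hQ'', h⟩ := G.intElt_incl (s := G.comb P * G.comb P') (by
      rw [map_mul]; exact mul_mem (G.incl_comb_mem P) (G.incl_comb_mem P'))
    refine ⟨Q * Q' * Q'', P'', by
      rw [Polynomial.map_mul, Polynomial.map_mul]; exact mul_ne_zero (mul_ne_zero hQ hQ') hQ'', ?_⟩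
    rw [← h, map_mul (G.incl), ← hf, ← hg]
    simp only [map_mul]
    ring

/-- Membership in the valuation ring. -/
theorem mem_intRing {f : LaurentSeries L} : f ∈ G.intRing ↔ G.IntElt f := Iff.rfl

/-- The reduction of an integral element. -/
def red (f : G.intRing) : LaurentSeries k :=
  G.combk (fun i => ((G.mem_intRing.mp f.2).choose_spec.choose i).map G.π) /
    G.evk ((G.mem_intRing.mp f.2).choose.map G.π)

/-- The reduction through any presentation with denominator of nonzero reduction. -/
theorem red_eq {f : G.intRing} {Q : G.R[X]} {P : Fin G.n → G.R[X]} (hQ : Q.map G.π ≠ 0)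
    (h : (f : LaurentSeries L) * G.incl (G.evR Q) = G.incl (G.comb P)) :
    G.red f = G.combk (fun i => (P i).map G.π) / G.evk (Q.map G.π) := by
  obtain ⟨hQ0, h0⟩ := (G.mem_intRing.mp f.2).choose_spec.choose_spec
  set Q0 := (G.mem_intRing.mp f.2).choose
  set P0 := (G.mem_intRing.mp f.2).choose_spec.choose
  have e : G.comb P0 * G.evR Q = G.comb P * G.evR Q0 := G.incl_injective (by
    rw [map_mul, map_mul, ← h, ← h0]; ring)
  have e' := congrArg G.redS e
  simp only [map_mul, redS_comb, redS_evR] at e'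
  have hne : ∀ q : k[X], q ≠ 0 → G.evk q ≠ 0 := fun q hq h' =>
    hq (G.evk_injective (h'.trans (map_zero _).symm))
  rw [red, div_eq_div_iff (hne _ hQ0) (hne _ hQ)]
  exact e'

/-- An integral series in `F` as an element of the valuation ring. -/
def ofSer (s : LaurentSeries G.R) (hs : G.incl s ∈ G.F) : G.intRing :=
  ⟨G.incl s, G.mem_intRing.mpr (G.intElt_incl hs)⟩

@[simp] theorem coe_ofSer (s : LaurentSeries G.R) (hs : G.incl s ∈ G.F) :
    ((G.ofSer s hs : G.intRing) : LaurentSeries L) = G.incl s := rfl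

/-- The reduction of an integral series is coefficientwise. -/
theorem red_incl {s : LaurentSeries G.R} (hs : G.incl s ∈ G.F) :
    G.red (G.ofSer s hs) = G.redS s := by
  obtain ⟨Q, P, hQ, h⟩ := G.intElt_incl hs
  rw [G.red_eq (f := G.ofSer s hs) hQ (by rw [coe_ofSer]; exact h), ← G.redS_comb]
  have e : G.comb P = s * G.evR Q := G.incl_injective (by rw [map_mul]; exact h.symm)
  rw [e, map_mul, G.redS_evR, mul_div_assoc,
    div_self ((map_ne_zero_iff _ G.evk_injective).mpr hQ), mul_one]

/-- Nonzero polynomials in the reduced coordinate are nonzero. -/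
theorem evk_ne_zero {q : k[X]} (hq : q ≠ 0) : G.evk q ≠ 0 :=
  fun h => hq (G.evk_injective (h.trans (map_zero _).symm))

/-- The reduction of a presentation, without division. -/
theorem red_eq' {f : G.intRing} {Q : G.R[X]} {P : Fin G.n → G.R[X]} (hQ : Q.map G.π ≠ 0)
    (h : (f : LaurentSeries L) * G.incl (G.evR Q) = G.incl (G.comb P)) :
    G.red f * G.redS (G.evR Q) = G.redS (G.comb P) := by
  rw [G.red_eq hQ h, G.redS_evR, G.redS_comb, div_mul_cancel₀ _ (G.evk_ne_zero hQ)]

/-- Reduction is additive. -/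
theorem red_add (f g : G.intRing) : G.red (f + g) = G.red f + G.red g := by
  obtain ⟨Q, P, hQ, hf⟩ := f.2
  obtain ⟨Q', P', hQ', hg⟩ := g.2
  have hQQ : (Q * Q').map G.π ≠ 0 := by rw [Polynomial.map_mul]; exact mul_ne_zero hQ hQ'
  have hfg : ((f + g : G.intRing) : LaurentSeries L) * G.incl (G.evR (Q * Q')) =
      G.incl (G.comb ((fun i => Q' * P i) + fun i => Q * P' i)) := by
    rw [G.comb_add, ← G.evR_mul_comb, ← G.evR_mul_comb, map_add G.incl, map_mul G.incl,
      map_mul G.incl, map_mul G.evR, map_mul G.incl, Subring.coe_add, ← hf, ← hg]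
    ring
  refine mul_right_cancel₀ (b := G.redS (G.evR (Q * Q'))) ?_ ?_
  · rw [G.redS_evR]; exact G.evk_ne_zero hQQ
  rw [G.red_eq' hQQ hfg, G.comb_add, ← G.evR_mul_comb, ← G.evR_mul_comb, map_add G.redS,
    map_mul G.redS, map_mul G.redS, map_mul G.evR, map_mul G.redS, ← G.red_eq' hQ hf,
    ← G.red_eq' hQ' hg]
  ring

/-- Reduction is multiplicative. -/
theorem red_mul (f g : G.intRing) : G.red (f * g) = G.red f * G.red g := by
  obtain ⟨Q, P, hQ, hf⟩ := f.2
  obtain ⟨Q', P', hQ', hg⟩ := g.2
  have hmem : G.incl (G.comb P * G.comb P') ∈ G.F := by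
    rw [map_mul]; exact mul_mem (G.incl_comb_mem P) (G.incl_comb_mem P')
  obtain ⟨Q'', P'', hQ'', h⟩ := G.intElt_incl hmem
  have e : G.comb P'' = G.comb P * G.comb P' * G.evR Q'' := G.incl_injective (by
    rw [map_mul G.incl (G.comb P * G.comb P')]; exact h.symm)
  have hQQ : (Q * Q' * Q'').map G.π ≠ 0 := by
    rw [Polynomial.map_mul, Polynomial.map_mul]; exact mul_ne_zero (mul_ne_zero hQ hQ') hQ''
  have hfg : ((f * g : G.intRing) : LaurentSeries L) * G.incl (G.evR (Q * Q' * Q'')) =
      G.incl (G.comb P'') := by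
    rw [← h, map_mul G.incl (G.comb P), map_mul G.evR, map_mul G.evR, map_mul G.incl,
      map_mul G.incl, Subring.coe_mul, ← hf, ← hg]
    ring
  refine mul_right_cancel₀ (b := G.redS (G.evR (Q * Q' * Q''))) ?_ ?_
  · rw [G.redS_evR]; exact G.evk_ne_zero hQQ
  rw [G.red_eq' hQQ hfg, e, map_mul G.redS, map_mul G.redS, map_mul G.evR, map_mul G.evR,
    map_mul G.redS, map_mul G.redS, ← G.red_eq' hQ hf, ← G.red_eq' hQ' hg]
  ring

/-- The reduction as a ring homomorphism. -/
def redHom : G.intRing →+* LaurentSeries k where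
  toFun := G.red
  map_one' := by
    have hs : G.incl 1 ∈ G.F := by rw [map_one]; exact one_mem _
    have h := G.red_incl hs
    rw [show G.ofSer 1 hs = 1 from Subtype.ext (map_one _), map_one] at h
    exact h
  map_zero' := by
    rw [G.red_eq (Q := 1) (P := 0) (by simp) (by simp [comb_zero])]
    simp [combk]
  map_add' := G.red_add
  map_mul' := G.red_mul

/-- The reduction homomorphism is `red`. -/
theorem redHom_apply (f : G.intRing) : G.redHom f = G.red f := rfl

/-- Constants of `R` are integral. -/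
theorem C_mem_intRing (a : G.R) : HahnSeries.C (a : L) ∈ G.intRing := by
  rw [← G.incl_C]
  refine G.intElt_incl ?_
  rw [G.incl_C, HahnSeries.C_apply, ← ModularCurve.algebraMap_laurentSeries_eq_single]
  exact G.F.algebraMap_mem _

/-- The reduction of a constant. -/
theorem redHom_C (a : G.R) : G.redHom ⟨_, G.C_mem_intRing a⟩ = HahnSeries.C (G.π a) := by
  have hs : G.incl (HahnSeries.C a) ∈ G.F := by
    rw [G.incl_C, HahnSeries.C_apply, ← ModularCurve.algebraMap_laurentSeries_eq_single]
    exact G.F.algebraMap_mem _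
  rw [← G.redS_C, ← G.red_incl hs, redHom_apply]
  exact congrArg G.red (Subtype.ext (G.incl_C a).symm)

/-- A nonzero element is a constant times an integral element of nonzero reduction; the constant
is integral exactly when the element is. -/
theorem exists_eq_C_mul {f : LaurentSeries L} (hf : f ∈ G.F) (hf0 : f ≠ 0) :
    ∃ (l : L) (g : G.intRing), l ≠ 0 ∧ f = HahnSeries.C l * (g : LaurentSeries L) ∧ G.redHom g ≠ 0 ∧
      (G.IntElt f → l ∈ G.R) := by
  obtain ⟨l, Q, P, hl, hQ, ⟨i, hi⟩, he⟩ := G.exists_normal hf hf0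
  have hne : G.incl (G.evR Q) ≠ 0 := G.incl_evR_ne_zero hQ
  set g : LaurentSeries L := G.incl (G.comb P) / G.incl (G.evR Q)
  have hg : g * G.incl (G.evR Q) = G.incl (G.comb P) := div_mul_cancel₀ _ hne
  set gI : G.intRing := ⟨g, G.mem_intRing.mpr ⟨Q, P, hQ, hg⟩⟩ with hgI
  have hred : G.redHom gI ≠ 0 := by
    rw [redHom_apply, G.red_eq (f := gI) hQ hg]
    exact div_ne_zero (G.combk_ne_zero hi) ((map_ne_zero_iff _ G.evk_injective).mpr hQ)
  have hfg : f = HahnSeries.C l * g := by
    refine mul_right_cancel₀ hne ?_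
    rw [he, mul_assoc, hg]
  refine ⟨l, gI, hl, hfg, hred, fun hint => ?_⟩
  by_contra hlR
  obtain ⟨μ, hμ, hμ0⟩ := exists_inv_eq_zero G.ker_iff hlR
  refine hred ?_
  have : gI = ⟨_, G.C_mem_intRing μ⟩ * ⟨f, G.mem_intRing.mpr hint⟩ := Subtype.ext (by
    show g = HahnSeries.C (μ : L) * f
    rw [hfg, hμ, ← mul_assoc, ← map_mul, inv_mul_cancel₀ hl, map_one, one_mul])
  rw [this, map_mul, G.redHom_C, hμ0, map_zero, zero_mul]

/-- Combinations of the basis are integral over `R[x]`. -/
theorem isIntegralElem_comb (P : Fin G.n → G.R[X]) : G.evR.IsIntegralElem (G.comb P) := by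
  let := G.evR.toAlgebra
  show IsIntegral G.R[X] (G.comb P)
  exact IsIntegral.sum _ fun i _ => IsIntegral.mul isIntegral_algebraMap (G.b_int i)

/-- An element integral over `R[x]` is integral for the Gauss valuation. -/
theorem intElt_of_isIntegralElem {f : LaurentSeries L} (hf : f ∈ G.F)
    (h : (G.evL.comp (mapRingHom G.R.subtype)).IsIntegralElem f) : G.IntElt f := by
  rcases eq_or_ne f 0 with rfl | hf0
  · exact ⟨1, 0, by simp, by simp [comb_zero]⟩
  obtain ⟨l, g, hl, hfg, hg, -⟩ := G.exists_eq_C_mul hf hf0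
  by_cases hlR : l ∈ G.R
  · rw [hfg, ← mem_intRing]
    exact mul_mem (G.C_mem_intRing ⟨l, hlR⟩) g.2
  exfalso
  obtain ⟨μ, hμ, hμ0⟩ := exists_inv_eq_zero G.ker_iff hlR
  obtain ⟨p, hp, hroot⟩ := h
  have hmem : ∀ Q : G.R[X], G.evL (Q.map G.R.subtype) ∈ G.intRing := fun Q => by
    rw [← G.incl_evR]
    exact G.intElt_incl (G.incl_evR_mem Q)
  -- multiply the relation by `μ ^ d`
  set d := p.natDegree
  set c : ℕ → G.intRing := fun i => ⟨_, hmem (p.coeff i)⟩
  set m : G.intRing := ⟨_, G.C_mem_intRing μ⟩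
  have hgm : (g : LaurentSeries L) = (m : LaurentSeries L) * f := by
    rw [hfg, ← mul_assoc, show (m : LaurentSeries L) = HahnSeries.C (μ : L) from rfl, hμ,
      ← map_mul, inv_mul_cancel₀ hl, map_one, one_mul]
  have hrel : ∑ i ∈ Finset.range (d + 1), c i * m ^ (d - i) * g ^ i = 0 := by
    apply Subtype.ext
    push_cast
    rw [eval₂_eq_sum_range] at hroot
    calc ∑ i ∈ Finset.range (d + 1), (c i : LaurentSeries L) * (m : LaurentSeries L) ^ (d - i) *
          (g : LaurentSeries L) ^ i
        = (m : LaurentSeries L) ^ d *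
          ∑ i ∈ Finset.range (d + 1), (c i : LaurentSeries L) * f ^ i := by
          rw [Finset.mul_sum]
          refine Finset.sum_congr rfl fun i hi => ?_
          rw [hgm, mul_pow, ← Nat.sub_add_cancel (Nat.lt_succ_iff.mp (Finset.mem_range.mp hi)),
            Nat.add_sub_cancel, pow_add]
          ring
      _ = 0 := mul_eq_zero_of_right _ hroot
  have := congrArg G.redHom hrel
  rw [map_sum, map_zero, Finset.sum_range_succ, Finset.sum_eq_zero (fun i hi => by
    rw [map_mul, map_mul, map_pow, show G.redHom m = 0 by rw [G.redHom_C, hμ0, map_zero],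
      zero_pow (Nat.sub_ne_zero_of_lt (Finset.mem_range.mp hi)), mul_zero, zero_mul]),
    zero_add, Nat.sub_self, pow_zero, mul_one, map_mul, map_pow] at this
  have hc : c d = 1 := Subtype.ext (by
    show G.evL ((p.coeff d).map G.R.subtype) = 1
    rw [hp.coeff_natDegree, Polynomial.map_one, map_one])
  rw [hc, map_one, one_mul] at this
  exact hg (eq_zero_of_pow_eq_zero this)

/-- **Gauss's lemma.** If `Q` has nonzero reduction and `a Q ^ e` has coefficients in `R`, then so
has `a`. -/
theorem exists_map_eq_of_mul_pow {Q : G.R[X]} (hQ : Q.map G.π ≠ 0) {a : L[X]} (e : ℕ)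
    (h3 : ∀ n, (a * Q.map G.R.subtype ^ e).coeff n ∈ G.R) :
    ∃ b : G.R[X], b.map G.R.subtype = a := by
  rcases eq_or_ne a 0 with h0 | h0
  · exact ⟨0, by simp [h0]⟩
  obtain ⟨l, b, hl, ⟨⟨⟩, hb⟩, hab⟩ := exists_primitive G.π (fun _ : Unit => a)
    (fun h => h0 (congrFun h ()))
  by_cases hlR : l ∈ G.R
  · refine ⟨C ⟨l, hlR⟩ * b (), ?_⟩
    rw [Polynomial.map_mul, Polynomial.map_C, show a = _ from hab ()]
    rfl
  · exfalso
    obtain ⟨μ, hμ, hμ0⟩ := exists_inv_eq_zero G.ker_iff hlR
    obtain ⟨w, hw⟩ : a * Q.map G.R.subtype ^ e ∈ lifts G.R.subtype :=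
      (lifts_iff_coeff_lifts _).mpr fun n => ⟨⟨_, h3 n⟩, rfl⟩
    have h4 : C μ * w = b () * Q ^ e := by
      apply Polynomial.map_injective G.R.subtype Subtype.coe_injective
      rw [Polynomial.map_mul, show Polynomial.map G.R.subtype w = _ from hw, Polynomial.map_mul,
        Polynomial.map_pow,
        show a = _ from hab (), Polynomial.map_C, ← mul_assoc, ← mul_assoc,
        ← map_mul, ValuationSubring.subtype_apply, hμ, inv_mul_cancel₀ hl, map_one, one_mul]
    have h5 := congrArg (Polynomial.map G.π) h4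
    rw [Polynomial.map_mul, Polynomial.map_C, hμ0, map_zero, zero_mul, Polynomial.map_mul,
      Polynomial.map_pow] at h5
    exact mul_ne_zero hb (pow_ne_zero _ hQ) h5.symm

/-- Gauss-integral elements integral over `L[x]` are integral over `R[x]`. -/
theorem isIntegralElem_of_intElt {f : LaurentSeries L} (hf : G.IntElt f)
    (h : G.evL.IsIntegralElem f) : (G.evL.comp (mapRingHom G.R.subtype)).IsIntegralElem f := by
  classical
  obtain ⟨Q, P, hQ, hfQ⟩ := hf
  obtain ⟨g, hg, hgroot⟩ := G.isIntegralElem_comb P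
  obtain ⟨h', hh', hhroot⟩ := h
  set i : L[X] →+* FractionRing L[X] := algebraMap L[X] (FractionRing L[X])
  have hi : Function.Injective i := IsFractionRing.injective _ _
  let : Algebra (FractionRing L[X]) (LaurentSeries L) :=
    (IsFractionRing.lift (K := FractionRing L[X]) G.evL_injective).toAlgebra
  have htow : ∀ p : L[X], algebraMap (FractionRing L[X]) (LaurentSeries L) (i p) = G.evL p :=
    fun p => IsFractionRing.lift_algebraMap G.evL_injective p
  have hcomp : (algebraMap (FractionRing L[X]) (LaurentSeries L)).comp i = G.evL :=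
    RingHom.ext htow
  have hroot1 : aeval f (h'.map i) = 0 := by
    rw [aeval_def, eval₂_map, hcomp]; exact hhroot
  have hintK : IsIntegral (FractionRing L[X]) f := ⟨_, hh'.map i, hroot1⟩
  set q := minpoly (FractionRing L[X]) f
  -- the coefficients of `q` are polynomials
  have hcoeffL : ∀ j, ∃ a : L[X], i a = q.coeff j := fun j =>
    IsIntegrallyClosed.isIntegral_iff.mp (Polynomial.isIntegral_coeff_of_dvd h' q hh'
      (minpoly.monic hintK) (minpoly.dvd _ f hroot1) j)
  choose a ha using hcoeffL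
  -- the rescaled polynomial divides the relation of `Q f`
  set c := i (Q.map G.R.subtype) with hc
  have hc0 : c ≠ 0 := by
    rw [hc, map_ne_zero_iff _ hi]
    intro h0
    exact G.incl_evR_ne_zero hQ (by rw [G.incl_evR, h0, map_zero])
  let gK : (FractionRing L[X])[X] := g.map (i.comp (mapRingHom G.R.subtype))
  have hgK : aeval (algebraMap (FractionRing L[X]) (LaurentSeries L) c * f) gK = 0 := by
    have h1 := congrArg G.incl hgroot
    rw [hom_eval₂, map_zero] at h1
    rw [aeval_def, eval₂_map, hc, htow, ← G.incl_evR, mul_comm, hfQ, ← h1]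
    refine congrArg (fun φ => eval₂ φ (G.incl (G.comb P)) g) (RingHom.ext fun p => ?_)
    show algebraMap _ _ (i (p.map G.R.subtype)) = G.incl (G.evR p)
    rw [htow, G.incl_evR]
  have hdvd : q ∣ gK.scaleRoots c⁻¹ := by
    refine minpoly.dvd _ f ?_
    have h2 := scaleRoots_aeval_eq_zero (r := c⁻¹) hgK
    rwa [map_inv₀, inv_mul_cancel_left₀ ((_root_.map_ne_zero _).mpr hc0)] at h2
  have hdvd2 : q.scaleRoots c ∣ gK := by
    obtain ⟨r, hr⟩ := hdvd
    refine ⟨r.scaleRoots c, ?_⟩
    rw [← mul_scaleRoots_of_noZeroDivisors, ← hr, ← scaleRoots_mul, inv_mul_cancel₀ hc0,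
      scaleRoots_one]
  -- coefficients over `R`
  have hcoeffR : ∀ j, ∃ b : G.R[X], b.map G.R.subtype = a j := by
    intro j
    rcases le_or_gt q.natDegree j with hj | hj
    · rcases eq_or_lt_of_le hj with rfl | hj
      · refine ⟨1, ?_⟩
        rw [Polynomial.map_one]
        exact hi (by rw [ha, map_one, (minpoly.monic hintK).coeff_natDegree])
      · refine ⟨0, ?_⟩
        rw [Polynomial.map_zero]
        exact hi (by rw [ha, map_zero, coeff_eq_zero_of_natDegree_lt hj])
    · let : Algebra G.R[X] L[X] := (mapRingHom G.R.subtype).toAlgebra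
      set e := q.natDegree - j
      have hmap : algebraMap G.R[X] (FractionRing L[X]) = i.comp (mapRingHom G.R.subtype) :=
        IsScalarTower.algebraMap_eq G.R[X] L[X] (FractionRing L[X])
      have h1 : IsIntegral G.R[X] ((q.scaleRoots c).coeff j) :=
        Polynomial.isIntegral_coeff_of_dvd g _ hg
          ((monic_scaleRoots_iff _).mpr (minpoly.monic hintK)) (by rw [hmap]; exact hdvd2) j
      rw [coeff_scaleRoots, ← ha, hc, ← map_pow, ← map_mul] at h1
      have h2 : IsIntegral G.R[X] (a j * Q.map G.R.subtype ^ e) :=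
        (isIntegral_algHom_iff (IsScalarTower.toAlgHom G.R[X] L[X] (FractionRing L[X])) hi).mp h1
      have h3 : ∀ n, (a j * Q.map G.R.subtype ^ e).coeff n ∈ G.R := fun n => by
        obtain ⟨y, hy⟩ := IsIntegrallyClosed.isIntegral_iff.mp (IsIntegral.coeff (R := G.R) h2 n)
        rw [← hy]
        exact y.2
      exact G.exists_map_eq_of_mul_pow hQ e h3
  have hlift : q ∈ lifts (i.comp (mapRingHom G.R.subtype)) := by
    rw [lifts_iff_coeff_lifts]
    intro j
    obtain ⟨b, hb⟩ := hcoeffR j
    exact ⟨b, by rw [← ha, ← hb]; rfl⟩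
  obtain ⟨r, hr, -, hrmon⟩ := lifts_and_degree_eq_and_monic hlift (minpoly.monic hintK)
  refine ⟨r, hrmon, ?_⟩
  have h6 := minpoly.aeval (FractionRing L[X]) f
  rw [show minpoly (FractionRing L[X]) f = r.map _ from hr.symm, aeval_def, eval₂_map,
    ← RingHom.comp_assoc, hcomp] at h6
  exact h6

end GaussModel

end FermatAgent.Curve.Red
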