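import Fermat.Agent.Curve.Red.Gauss

/-!
# Changing the coordinate of a Gauss model to its inverse

If `x` is invertible in `R((q))` then, with the basis multiplied by a high power of `1/x`, it
becomes a Gauss model with coordinate `1/x` and the same field: the second chart.
-/

set_option autoImplicit false

open Polynomial
open ModularCurve (coeffMap)

noncomputable section

namespace FermatAgent.Curve.Red.GaussModel

variable {L : Type*} [Field L] {k : Type*} [Field k] (G : GaussModel L k)

/-- Evaluation of a reflected polynomial at the inverse. -/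
theorem eval₂_reflect' {R S : Type*} [CommRing R] [CommRing S] (i : R →+* S) {x y : S}
    (h : x * y = 1) (D : ℕ) (f : R[X]) (hf : f.natDegree ≤ D) :
    eval₂ i y (reflect D f) = eval₂ i x f * y ^ D := by
  let : Invertible x := ⟨y, by rw [mul_comm]; exact h, h⟩
  have := eval₂_reflect_mul_pow i x D f hf
  rw [show (⅟x : S) = y from rfl] at this
  rw [← this, mul_assoc, ← mul_pow, h, one_pow, mul_one]

/-- An element integral over `R[x]`, times a high power of `1/x`, is integral over `R[1/x]`. -/
theorem exists_isIntegralElem_mul_pow {R S : Type*} [CommRing R] [CommRing S] (i : R →+* S)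
    {x y : S} (h : x * y = 1) {b : S} (hb : (eval₂RingHom i x).IsIntegralElem b) :
    ∃ m : ℕ, ∀ M, m ≤ M → (eval₂RingHom i y).IsIntegralElem (b * y ^ M) := by
  obtain ⟨p, hp, hp0⟩ := hb
  set d := p.natDegree
  refine ⟨(Finset.range (d + 1)).sup fun j => (p.coeff j).natDegree, fun M hM => ?_⟩
  have hdeg : ∀ j < d, (p.coeff j).natDegree ≤ M * (d - j) := fun j hj =>
    ((Finset.le_sup (f := fun j => (p.coeff j).natDegree)
      (Finset.mem_range.mpr (Nat.lt_succ_of_lt hj))).trans hM).trans
      (Nat.le_mul_of_pos_right M (by omega))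
  set q : R[X][X] := X ^ d + ∑ j ∈ Finset.range d, C (reflect (M * (d - j)) (p.coeff j)) * X ^ j
  refine ⟨q, monic_X_pow_add ?_, ?_⟩
  · refine (degree_sum_le _ _).trans_lt
      ((Finset.sup_lt_iff (WithBot.bot_lt_coe d)).2 fun j hj => ?_)
    exact (degree_C_mul_X_pow_le j _).trans_lt (WithBot.coe_lt_coe.2 (Finset.mem_range.1 hj))
  · rw [eval₂_eq_sum_range, Finset.sum_range_succ, hp.coeff_natDegree, map_one, one_mul] at hp0
    rw [eval₂_add, eval₂_X_pow, eval₂_finsetSum]
    simp only [eval₂_mul, eval₂_C, eval₂_X_pow, coe_eval₂RingHom]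
    simp only [coe_eval₂RingHom] at hp0
    rw [Finset.sum_congr rfl fun j hj => show
        eval₂ i y (reflect (M * (d - j)) (p.coeff j)) * (b * y ^ M) ^ j =
          (eval₂ i x (p.coeff j) * b ^ j) * y ^ (M * d) by
      have hjd := (Finset.mem_range.mp hj).le
      rw [eval₂_reflect' i h _ _ (hdeg j (Finset.mem_range.mp hj)), mul_pow, ← pow_mul,
        show M * d = M * (d - j) + M * j by rw [← mul_add, Nat.sub_add_cancel hjd], pow_add]
      ring, ← Finset.sum_mul, mul_pow, ← pow_mul, ← add_mul, add_comm (b ^ d), hp0, zero_mul]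

/-- Powers of `1/x` make the basis integral over `R[1/x]`. -/
theorem exists_shift {y : LaurentSeries G.R} (h : G.x * y = 1) :
    ∃ M : ℕ, ∀ i, (eval₂RingHom HahnSeries.C y).IsIntegralElem (G.b i * y ^ M) := by
  choose m hm using fun i => exists_isIntegralElem_mul_pow HahnSeries.C h (G.b_int i)
  exact ⟨Finset.univ.sup m, fun i => hm i _ (Finset.le_sup (Finset.mem_univ i))⟩

/-- The model with coordinate `1/x`. -/
def invCoord {y : LaurentSeries G.R} (h : G.x * y = 1) : GaussModel L k where
  R := G.R
  π := G.π
  surj := G.surj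
  ker_iff := G.ker_iff
  F := G.F
  x := y
  n := G.n
  b i := G.b i * y ^ (G.exists_shift h).choose
  x_mem := by
    have h1 := congrArg G.incl h
    rw [map_mul, map_one] at h1
    show G.incl y ∈ G.F
    rw [eq_inv_of_mul_eq_one_right h1]
    exact inv_mem G.x_mem
  b_mem i := by
    have h1 := congrArg G.incl h
    rw [map_mul, map_one] at h1
    show G.incl (G.b i * _) ∈ G.F
    rw [map_mul, map_pow, eq_inv_of_mul_eq_one_right h1]
    exact mul_mem (G.b_mem i) (pow_mem (inv_mem G.x_mem) _)
  b_int := (G.exists_shift h).choose_spec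
  x_tr p hp := by
    have h1 : coeffMap G.π y * coeffMap G.π G.x = 1 := by rw [← map_mul, mul_comm, h, map_one]
    have h2 := eval₂_reflect' HahnSeries.C h1 p.natDegree p le_rfl
    rw [hp, zero_mul] at h2
    exact reflect_eq_zero_iff.mp (G.x_tr _ h2)
  indep p hp := by
    classical
    have h1 : coeffMap G.π y * coeffMap G.π G.x = 1 := by rw [← map_mul, mul_comm, h, map_one]
    set D := Finset.univ.sup fun i => (p i).natDegree
    set M := (G.exists_shift h).choose
    have h2 : (∑ i, (reflect D (p i)).eval₂ HahnSeries.C (coeffMap G.π G.x) *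
        coeffMap G.π (G.b i)) = 0 := by
      calc (∑ i, (reflect D (p i)).eval₂ HahnSeries.C (coeffMap G.π G.x) * coeffMap G.π (G.b i))
          = coeffMap G.π G.x ^ (D + M) *
            ∑ i, (p i).eval₂ HahnSeries.C (coeffMap G.π y) * coeffMap G.π (G.b i * y ^ M) := by
            rw [Finset.mul_sum]
            refine Finset.sum_congr rfl fun i _ => ?_
            rw [eval₂_reflect' HahnSeries.C h1 D (p i)
              (Finset.le_sup (f := fun i => (p i).natDegree)
                (Finset.mem_univ i)), map_mul, map_pow, pow_add,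
              show ∀ a b c d e : LaurentSeries k, a * b * (c * (d * e)) = c * a * d * (b * e) from
                fun a b c d e => by ring, ← mul_pow, mul_comm (coeffMap G.π G.x), h1, one_pow,
              mul_one]
        _ = 0 := by rw [hp, mul_zero]
    funext i
    exact reflect_eq_zero_iff.mp (congrFun (G.indep _ h2) i)
  spans f hf := by
    classical
    obtain ⟨Q, P, hQ, he⟩ := G.spans f hf
    have h1 : coeffMap G.R.subtype G.x * coeffMap G.R.subtype y = 1 := by
      rw [← map_mul, h, map_one]
    set M := (G.exists_shift h).choose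
    set D := max Q.natDegree (Finset.univ.sup fun i => (P i).natDegree)
    refine ⟨X ^ M * reflect D Q, fun i => reflect D (P i), mul_ne_zero (pow_ne_zero _ X_ne_zero)
      (fun h0 => hQ (reflect_eq_zero_iff.mp h0)), ?_⟩
    rw [eval₂_mul, eval₂_X_pow, eval₂_reflect' HahnSeries.C h1 D Q (le_max_left _ _),
      show ∀ a b c d : LaurentSeries L, a * (b * (c * d)) = (a * c) * (b * d) from
        fun a b c d => by ring, he, Finset.sum_mul]
    refine Finset.sum_congr rfl fun i _ => ?_
    rw [eval₂_reflect' HahnSeries.C h1 D (P i) ((Finset.le_sup (f := fun i => (P i).natDegree)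
      (Finset.mem_univ i)).trans (le_max_right _ _)), map_mul, map_pow]
    ring

end FermatAgent.Curve.Red.GaussModel
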