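import Fermat.Agent.Curve.Red.CuspTail
import Fermat.Agent.Curve.Red.InvCoord

/-!
# Regularity at the cusps

An element of the residual field with bounded poles is the reduction of a series with coefficients
in `R` which is rational in `j, j(q^N)`, integral over `R[j]`, and whose quotient by `j ^ n` is
integral over `R[1/j]`.
-/

set_option autoImplicit false

open UpperHalfPlane hiding I
open CongruenceSubgroup Polynomial Metric
open scoped MatrixGroups
open ModularCurve (coeffMap qExpand jqModC jqNModC coeffMap_coeff modularFunctionFieldFullC)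

noncomputable section

namespace FermatAgent.Curve.Red

open FermatAgent.ES

/-- An element integral over power series is a power series. -/
theorem sge_zero_of_monic_rel {L : Type*} [Field L] {w : LaurentSeries L} (d : ℕ)
    (c : ℕ → LaurentSeries L) (hc : ∀ i, SGE 0 (c i)) (hd : c d = 1)
    (h : ∑ i ∈ Finset.range (d + 1), c i * w ^ i = 0) : SGE 0 w := by
  by_contra hneg
  have hw : w ≠ 0 := fun h0 => hneg (h0 ▸ SGE.zero)
  have ho : w.order < 0 := by
    by_contra h'
    exact hneg (sge_iff.mpr (Or.inr (not_lt.mp h')))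
  have h1 := congrArg (fun s => s.coeff ((d : ℤ) * w.order)) h
  simp only [Finset.sum_range_succ, hd, one_mul, HahnSeries.coeff_add, HahnSeries.coeff_sum,
    HahnSeries.coeff_zero] at h1
  rw [Finset.sum_eq_zero fun i hi => ?_, zero_add] at h1
  · rw [← order_pow, HahnSeries.coeff_order_eq_zero] at h1
    exact pow_ne_zero d hw h1
  · have hi := Finset.mem_range.mp hi
    refine ((hc i).mul (sge_order (w ^ i))) _ ?_
    rw [order_pow, zero_add]
    have : (i : ℤ) < d := by exact_mod_cast hi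
    nlinarith

theorem sge_eval₂ {L : Type*} [Field L] {x : LaurentSeries L} (hx : SGE 0 x) (p : L[X]) :
    SGE 0 (p.eval₂ HahnSeries.C x) := by
  have hpow : ∀ i : ℕ, SGE 0 (x ^ i) := fun i => by
    induction i with
    | zero => intro j hj; rw [pow_zero, HahnSeries.coeff_one, if_neg hj.ne]
    | succ i ih => rw [pow_succ]; simpa using ih.mul hx
  rw [eval₂_eq_sum_range]
  refine SGE.sum fun i _ => ?_
  have h1 : SGE 0 (HahnSeries.C (p.coeff i) : LaurentSeries L) := fun j hj => by
    rw [HahnSeries.C_apply, HahnSeries.coeff_single_of_ne hj.ne]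
  have h2 := hpow i
  simpa using h1.mul h2

/-- Bound on the coefficients of a product of linear factors. -/
theorem sge_coeff_prod {L ι : Type*} [Field L] [DecidableEq ι] {s : ι → LaurentSeries L} {b : ℤ}
    (S : Finset ι) (hs : ∀ c ∈ S, SGE b (s c)) (i : ℕ) :
    SGE (((S.card : ℤ) - i) * b) ((∏ c ∈ S, (X - C (s c))).coeff i) := by
  induction S using Finset.induction generalizing i with
  | empty =>
    rw [Finset.prod_empty, coeff_one]
    split_ifs with h
    · subst h; intro j hj; simp at hj; rw [HahnSeries.coeff_one, if_neg hj.ne]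
    · exact SGE.zero
  | insert a S ha ih =>
    rw [Finset.prod_insert ha, sub_mul X, coeff_sub, coeff_C_mul, Finset.card_insert_of_notMem ha]
    have ih' := fun i => ih (fun c hc => hs c (Finset.mem_insert_of_mem hc)) i
    refine SGE.sub ?_ (((hs a (Finset.mem_insert_self a S)).mul (ih' i)).mono
      (le_of_eq (by push_cast; ring)))
    cases i with
    | zero => rw [coeff_X_mul_zero]; exact SGE.zero
    | succ i => rw [coeff_X_mul]; exact (ih' i).mono (le_of_eq (by push_cast; ring))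

/-- A polynomial in `j` with pole of order at most `b` has degree at most `b`. -/
theorem natDegree_le_of_coeff_eval₂_eq_zero {R : Type*} [CommRing R] (p : R[X]) (b : ℕ)
    (h : ∀ e < -(b : ℤ), (p.eval₂ HahnSeries.C (jqModC R)).coeff e = 0) : p.natDegree ≤ b := by
  by_contra hlt
  push Not at hlt
  have h1 := h (-(p.natDegree : ℤ)) (by omega)
  rw [eval₂_eq_sum_range, HahnSeries.coeff_sum, Finset.sum_range_succ,
    Finset.sum_eq_zero (fun j hj => by
      rw [HahnSeries.C_apply, HahnSeries.coeff_single_mul, sub_zero,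
        ModularCurve.coeff_jqModC_pow_of_lt R (by have := Finset.mem_range.mp hj; omega),
        mul_zero]), zero_add, HahnSeries.C_apply, HahnSeries.coeff_single_mul, sub_zero,
    ModularCurve.coeff_jqModC_pow_self, mul_one] at h1
  have : p = 0 := leadingCoeff_eq_zero.mp h1
  simp [this] at hlt

/-- `1/j` is a power series in `q^{1/M}`. -/
theorem sge_inv_qExpand_jqModC {k : Type*} [Field k] (M : ℕ) [NeZero M] :
    SGE 0 (qExpand k M (jqModC k))⁻¹ := by
  set Xq : LaurentSeries k := qExpand k M (jqModC k)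
  have hlead : Xq.coeff (-(M : ℤ)) ≠ 0 := by
    rw [show -(M : ℤ) = (M : ℤ) * (-1) by ring, ModularCurve.qExpand_coeff_mul,
      ModularCurve.coeff_jqModC_neg_one]
    exact one_ne_zero
  refine sge_iff.mpr (Or.inr ?_)
  rw [order_inv fun h0 : Xq = 0 => hlead (by rw [h0]; rfl)]
  have := HahnSeries.order_le_of_coeff_ne_zero hlead
  omega

/-- The pole of `j ^ i` in `q^{1/M}` has order at most `i M`. -/
theorem sge_qExpand_jqModC_pow {k : Type*} [Field k] (M : ℕ) [NeZero M] (i : ℕ) :
    SGE (-((i * M : ℕ) : ℤ)) (qExpand k M (jqModC k) ^ i) := by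
  set Xq : LaurentSeries k := qExpand k M (jqModC k)
  have hordX : ∀ e < -(M : ℤ), Xq.coeff e = 0 := fun e he => by
    by_cases hd : (M : ℤ) ∣ e
    · obtain ⟨j, rfl⟩ := hd
      rw [ModularCurve.qExpand_coeff_mul, ModularCurve.coeff_jqModC_of_lt]
      nlinarith
    · exact ModularCurve.qExpand_coeff_of_not_dvd _ _ hd
  induction i with
  | zero => intro e he; simp at he; rw [pow_zero, HahnSeries.coeff_one, if_neg he.ne]
  | succ j ih => rw [pow_succ]; exact (ih.mul hordX).mono (by push_cast; ring_nf; rfl)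

/-- `p(j, j(q^N))`. -/
def evJN (R : Type*) [CommRing R] (N : ℕ) [NeZero N] : R[X][X] →+* LaurentSeries R :=
  eval₂RingHom (eval₂RingHom HahnSeries.C (jqModC R)) (jqNModC R N)

variable {M m N : ℕ} [NeZero M] [NeZero N] {k : Type*} [Field k] (D : RedDatum M k)
  (haux : AuxLevel M m)

omit [NeZero N] in
/-- The expansion at `∞` of a `Γ₀(N)`-invariant element is a series in `q` over `R`. -/
theorem RedDatum.exists_downscale {f : BRing M D.R} (hf : f ∈ D.invB (Gamma0 N)) :
    ∃ s : LaurentSeries D.R, qExpand ℂ M (coeffMap D.R.subtype s) = lexp M 1 (f : ℍ → ℂ) := by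
  set l := lexp M 1 (f : ℍ → ℂ) with hl
  have hsupp : ∀ e : ℤ, ¬ (M : ℤ) ∣ e → l.coeff e = 0 := by
    intro e he
    have hT : ModularGroup.T ∈ Gamma0 N := by simp [Gamma0_mem, ModularGroup.coe_T]
    have h := lexp_mul_T_pow f.2.1 (1 : SL(2, ℤ)) 1
    rw [one_mul, pow_one, pow_one, ← mul_one ModularGroup.T, ← lexp_act,
      show act ModularGroup.T (f : ℍ → ℂ) = f from congrArg Subtype.val (hf _ hT)] at h
    have h1 := congrArg (fun s => s.coeff e) h
    simp only [coeff_twistSer] at h1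
    by_contra h0
    exact he (((zetaC_isPrimitiveRoot M).zpow_eq_one_iff_dvd e).mp
      (mul_left_cancel₀ h0 (by rw [← hl] at h1; rw [← h1, mul_one])))
  refine ⟨HahnSeries.ofSuppBddBelow (fun n => (⟨l.coeff ((M : ℤ) * n), f.2.2 1 _⟩ : D.R))
    ⟨min 0 l.order, fun n hn => ?_⟩, ?_⟩
  · by_contra hlt
    push Not at hlt
    refine hn (Subtype.ext (HahnSeries.coeff_eq_zero_of_lt_order ?_))
    have h1 : n < 0 := hlt.trans_le (min_le_left _ _)
    have h2 : n < l.order := hlt.trans_le (min_le_right _ _)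
    have h3 : (1 : ℤ) ≤ M := by exact_mod_cast NeZero.one_le
    nlinarith
  · ext e
    by_cases he : (M : ℤ) ∣ e
    · obtain ⟨n, rfl⟩ := he
      rw [ModularCurve.qExpand_coeff_mul, coeffMap_coeff, HahnSeries.coeff_ofSuppBddBelow]
      rfl
    · rw [ModularCurve.qExpand_coeff_of_not_dvd _ _ he, hsupp e he]

omit [NeZero N] in
/-- `SL(2, ℤ)` permutes the translates of an invariant element as it does the cosets. -/
theorem RedDatum.actB_out {f : BRing M D.R} (hf : f ∈ D.invB (Gamma0 N)) (γ : SL(2, ℤ))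
    (c : SL(2, ℤ) ⧸ Gamma0 N) : D.actB γ (D.actB c.out⁻¹ f) = D.actB (γ⁻¹ • c).out⁻¹ f := by
  have hc : γ⁻¹ • c = QuotientGroup.mk (γ⁻¹ * c.out) := by
    conv_lhs => rw [← QuotientGroup.out_eq' c]
    rfl
  obtain ⟨h, hh⟩ := QuotientGroup.mk_out_eq_mul (Gamma0 N) (γ⁻¹ * c.out)
  rw [hc, hh, mul_inv_rev, D.actB_mul, hf _ (inv_mem h.2), mul_inv_rev, inv_inv, D.actB_mul]

omit [NeZero N] in
theorem RedDatum.actB_out_one {f : BRing M D.R} (hf : f ∈ D.invB (Gamma0 N)) :
    D.actB ((QuotientGroup.mk 1 : SL(2, ℤ) ⧸ Gamma0 N)).out⁻¹ f = f := by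
  obtain ⟨h, hh⟩ := QuotientGroup.mk_out_eq_mul (Gamma0 N) (1 : SL(2, ℤ))
  rw [hh, one_mul]
  exact hf _ (inv_mem h.2)

/-- Rationality: `f` times a fixed nonzero series is a polynomial in `j, j(q^N)`. -/
theorem RedDatum.exists_rational (hNM : N ∣ M) :
    ∃ W : LaurentSeries ℂ, W ≠ 0 ∧ ∀ f ∈ D.invB (Gamma0 N), ∃ p : D.R[X][X],
      qExpand ℂ M (coeffMap D.R.subtype (evJN D.R N p)) = lexp M 1 (f : ℍ → ℂ) * W := by
  classical
  have : Fintype (SL(2, ℤ) ⧸ Gamma0 N) := Fintype.ofFinite _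
  set J := D.jGenB hNM (JIdx.top N)
  have hJ : J ∈ D.invB (Gamma0 N) := fun γ hγ => Subtype.ext (funext fun τ => jGenF_gamma0 hγ _ τ)
  set c0 : SL(2, ℤ) ⧸ Gamma0 N := QuotientGroup.mk 1
  let φ : BRing M D.R →+* LaurentSeries ℂ := (serSub D.R).subtype.comp (D.serHom 1)
  refine ⟨φ (∏ d ∈ Finset.univ.erase c0, (J - D.actB d.out⁻¹ J)), ?_, fun f hf => ?_⟩
  · rw [map_prod]
    refine Finset.prod_ne_zero_iff.mpr fun d hd => ?_
    rw [map_sub, sub_ne_zero]
    conv_lhs => rw [← D.actB_out_one hJ]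
    show lexp M 1 (act _ (J : ℍ → ℂ)) ≠ lexp M 1 (act _ (J : ℍ → ℂ))
    rw [lexp_act, lexp_act, mul_one, mul_one]
    exact fun h => Finset.ne_of_mem_erase hd (D.cosetJ_injective hNM h).symm
  set G : (BRing M D.R)[X] := ∑ c : SL(2, ℤ) ⧸ Gamma0 N, C (D.actB c.out⁻¹ f) *
    ∏ d ∈ Finset.univ.erase c, (X - C (D.actB d.out⁻¹ J)) with hG
  have hinv : ∀ i, ∃ P : D.R[X], G.coeff i = D.evJB P := by
    refine fun i => D.exists_eq_evJB fun γ => ?_
    suffices h : G.map (D.actB γ) = G by
      conv_rhs => rw [← h, coeff_map]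
    simp only [hG, Polynomial.map_sum, Polynomial.map_mul, Polynomial.map_C, Polynomial.map_prod,
      Polynomial.map_sub, Polynomial.map_X, D.actB_out hf, D.actB_out hJ]
    refine Fintype.sum_bijective (fun c => γ⁻¹ • c) (MulAction.bijective γ⁻¹) _ _ fun c => ?_
    refine congrArg _ (Finset.prod_bij (fun d _ => γ⁻¹ • d) ?_ ?_ ?_ fun d _ => rfl)
    · intro d hd
      simpa using hd
    · intro a _ b _ h
      exact (MulAction.injective γ⁻¹) h
    · intro d hd
      exact ⟨γ • d, by simpa [← eq_inv_smul_iff] using hd, inv_smul_smul _ _⟩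
  choose P hP using hinv
  refine ⟨∑ i ∈ Finset.range (G.natDegree + 1), C (P i) * X ^ i, ?_⟩
  have heval : G.eval J = f * ∏ d ∈ Finset.univ.erase c0, (J - D.actB d.out⁻¹ J) := by
    rw [hG, eval_finsetSum, Finset.sum_eq_single c0]
    · simp only [eval_mul, eval_C, eval_prod, eval_sub, eval_X, c0, D.actB_out_one hf]
    · intro c _ hc
      rw [eval_mul, eval_prod, Finset.prod_eq_zero (Finset.mem_erase.mpr
        ⟨Ne.symm hc, Finset.mem_univ c0⟩), mul_zero]
      rw [eval_sub, eval_X, eval_C, D.actB_out_one hJ, sub_self]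
    · simp
  have h1 := congrArg φ heval
  rw [eval_eq_sum_range, map_sum, map_mul] at h1
  refine Eq.trans ?_ h1
  rw [map_sum, map_sum, map_sum]
  refine Finset.sum_congr rfl fun i _ => ?_
  rw [map_mul φ, map_pow φ, hP, show φ J = qExpand ℂ M (jqNModC ℂ N) from lexp_one_jGenF _,
    show φ (D.evJB (P i)) = _ from D.lexp_evJB 1 (P i), evJN, coe_eval₂RingHom, eval₂_mul,
    eval₂_C, eval₂_X_pow, map_mul, map_mul, map_pow, map_pow, ModularCurve.coeffMap_jqNModC]
  rfl

/-- A bound on poles gives integrality over `R[1/j]` of the quotient by `j ^ n`. -/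
theorem RedDatum.integral_of_bounded {f : BRing M D.R}
    (hf : f ∈ D.invB (Gamma0 N)) {n : ℕ}
    (hb : ∀ (γ : SL(2, ℤ)), ∀ e < -((n * M : ℕ) : ℤ), (lexp M γ (f : ℍ → ℂ)).coeff e = 0)
    {s : LaurentSeries D.R} (hs : qExpand ℂ M (coeffMap D.R.subtype s) = lexp M 1 (f : ℍ → ℂ))
    {y : LaurentSeries D.R} (hy : jqModC D.R * y = 1) :
    (eval₂RingHom HahnSeries.C (jqModC D.R)).IsIntegralElem s ∧
      (eval₂RingHom HahnSeries.C y).IsIntegralElem (s * y ^ n) := by
  classical
  have : Fintype (SL(2, ℤ) ⧸ Gamma0 N) := Fintype.ofFinite _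
  set F : (BRing M D.R)[X] := ∏ c : SL(2, ℤ) ⧸ Gamma0 N, (X - C (D.actB c.out⁻¹ f)) with hF
  set ψ := Fintype.card (SL(2, ℤ) ⧸ Gamma0 N)
  have hmon : F.Monic := monic_prod_of_monic _ _ fun _ _ => monic_X_sub_C _
  have hdeg : F.natDegree = ψ := by simp [F, ψ]
  have hinv : ∀ i, ∃ P : D.R[X], F.coeff i = D.evJB P := by
    refine fun i => D.exists_eq_evJB fun γ => ?_
    suffices h : F.map (D.actB γ) = F by
      conv_rhs => rw [← h, coeff_map]
    simp only [hF, Polynomial.map_sub, Polynomial.map_prod, Polynomial.map_C, Polynomial.map_X,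
      D.actB_out hf]
    exact Fintype.prod_bijective (fun c => γ⁻¹ • c) (MulAction.bijective γ⁻¹) _ _ fun c => rfl
  choose P hP using hinv
  let φ : BRing M D.R →+* LaurentSeries ℂ := (serSub D.R).subtype.comp (D.serHom 1)
  let ψ' : LaurentSeries D.R →+* LaurentSeries ℂ := (qExpand ℂ M).comp (coeffMap D.R.subtype)
  have hinj : Function.Injective ψ' :=
    (ModularCurve.qExpand_injective M).comp (coeffMap_subtype_injective D.R)
  have hev : ∀ i, φ (F.coeff i) = ψ' ((P i).eval₂ HahnSeries.C (jqModC D.R)) := fun i => by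
    rw [hP]
    exact D.lexp_evJB 1 (P i)
  have hroot : ∑ i ∈ Finset.range (ψ + 1), (P i).eval₂ HahnSeries.C (jqModC D.R) * s ^ i = 0 := by
    apply hinj
    rw [map_sum, map_zero]
    have h0 : F.eval f = 0 := by
      rw [hF, eval_prod]
      refine Finset.prod_eq_zero (Finset.mem_univ (QuotientGroup.mk 1)) ?_
      rw [eval_sub, eval_X, eval_C, D.actB_out_one hf, sub_self]
    have h1 := congrArg φ h0
    rw [eval_eq_sum_range, hdeg, map_sum, map_zero] at h1
    refine Eq.trans (Finset.sum_congr rfl fun i _ => ?_) h1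
    rw [map_mul, map_pow, map_mul, map_pow, hev]
    exact congrArg _ (congrArg (· ^ i) hs)
  have hlead : (P ψ).eval₂ HahnSeries.C (jqModC D.R) = 1 := by
    apply hinj
    rw [← hev, ← hdeg, hmon.coeff_natDegree, map_one, map_one]
  have hPdeg : ∀ i ≤ ψ, (P i).natDegree ≤ n * (ψ - i) := by
    intro i hi
    refine natDegree_le_of_coeff_eval₂_eq_zero _ _ fun e he => ?_
    have h1 := sge_coeff_prod (s := fun c : SL(2, ℤ) ⧸ Gamma0 N => φ (D.actB c.out⁻¹ f))
      (b := -((n * M : ℕ) : ℤ)) Finset.univ (fun c _ j hj => by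
        show (lexp M 1 (act c.out⁻¹ (f : ℍ → ℂ))).coeff j = 0
        rw [lexp_act, mul_one]
        exact hb _ j hj) i ((M : ℤ) * e) (by
        rw [Finset.card_univ, show Fintype.card (SL(2, ℤ) ⧸ Gamma0 N) = ψ from rfl]
        obtain ⟨j, hj⟩ : ∃ j, ψ = i + j := Nat.exists_eq_add_of_le hi
        rw [hj, Nat.add_sub_cancel_left] at he
        rw [hj]
        push_cast at he ⊢
        have : (0 : ℤ) < M := by exact_mod_cast Nat.pos_of_ne_zero (NeZero.ne M)
        nlinarith)
    have h2 : (∏ c : SL(2, ℤ) ⧸ Gamma0 N, (X - C (φ (D.actB c.out⁻¹ f)))) = F.map φ := by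
      simp [hF, Polynomial.map_prod]
    rw [h2, coeff_map, hev] at h1
    refine Subtype.ext ?_
    rw [← D.R.subtype_apply, ← coeffMap_coeff, ← ModularCurve.qExpand_coeff_mul M]
    exact h1
  refine ⟨⟨X ^ ψ + ∑ i ∈ Finset.range ψ, C (P i) * X ^ i, monic_X_pow_add ?_, ?_⟩,
    ⟨X ^ ψ + ∑ i ∈ Finset.range ψ, C (reflect (n * (ψ - i)) (P i)) * X ^ i, monic_X_pow_add ?_, ?_⟩⟩
  · exact (degree_sum_le _ _).trans_lt ((Finset.sup_lt_iff (WithBot.bot_lt_coe ψ)).2 fun i hi =>
      (degree_C_mul_X_pow_le i _).trans_lt (WithBot.coe_lt_coe.2 (Finset.mem_range.1 hi)))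
  · rw [Finset.sum_range_succ, hlead, one_mul] at hroot
    rw [eval₂_add, eval₂_X_pow, eval₂_finsetSum, add_comm]
    simpa using hroot
  · exact (degree_sum_le _ _).trans_lt ((Finset.sup_lt_iff (WithBot.bot_lt_coe ψ)).2 fun i hi =>
      (degree_C_mul_X_pow_le i _).trans_lt (WithBot.coe_lt_coe.2 (Finset.mem_range.1 hi)))
  · rw [Finset.sum_range_succ, hlead, one_mul] at hroot
    rw [eval₂_add, eval₂_X_pow, eval₂_finsetSum]
    simp only [eval₂_mul, eval₂_C, eval₂_X_pow, coe_eval₂RingHom]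
    rw [Finset.sum_congr rfl fun i hi => show
        (reflect (n * (ψ - i)) (P i)).eval₂ HahnSeries.C y * (s * y ^ n) ^ i =
          ((P i).eval₂ HahnSeries.C (jqModC D.R) * s ^ i) * y ^ (n * ψ) by
      have hle := (Finset.mem_range.mp hi).le
      rw [GaussModel.eval₂_reflect' HahnSeries.C hy _ _ (hPdeg i hle), mul_pow, ← pow_mul,
        show n * ψ = n * (ψ - i) + n * i by rw [← mul_add, Nat.sub_add_cancel hle], pow_add]
      ring, ← Finset.sum_mul, mul_pow, ← pow_mul, ← add_mul, add_comm (s ^ ψ), hroot, zero_mul]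

omit [NeZero N] in
include haux in
/-- If `z / j̄ ^ n` is integral over `k[1/j̄]`, an element reducing to `z` at `∞` has reduced poles
of order at most `n M` at every cusp. -/
theorem RedDatum.redHom_coeff_eq_zero_of_integral_inv {f : BRing M D.R} {z : LaurentSeries k}
    (hfz : D.redHom 1 f = qExpand k M z) {n : ℕ}
    (hinf : (eval₂RingHom HahnSeries.C (jqModC k)⁻¹).IsIntegralElem (z * (jqModC k)⁻¹ ^ n))
    (γ : SL(2, ℤ)) : ∀ e < -((n * M : ℕ) : ℤ), (D.redHom γ f).coeff e = 0 := by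
  classical
  set Xq : LaurentSeries k := qExpand k M (jqModC k)
  have hX : Xq ≠ 0 := (_root_.map_ne_zero _).mpr (ModularCurve.jqModC_ne_zero_of_nontrivial k)
  obtain ⟨r, hr, hr0⟩ := hinf
  set d := r.natDegree
  set D' := (Finset.range (d + 1)).sup fun i => (r.coeff i).natDegree
  choose R' hR' using fun i => Polynomial.map_surjective D.π D.surj (reflect D' (r.coeff i))
  have key : ∀ w : LaurentSeries k, ∀ γ : SL(2, ℤ), D.redHom γ f = w →
      D.redHom γ (∑ i ∈ Finset.range (d + 1), D.evJB (R' i) * f ^ i * D.jB ^ (n * (d - i))) =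
        Xq ^ (D' + n * d) * ∑ i ∈ Finset.range (d + 1),
          (r.coeff i).eval₂ HahnSeries.C Xq⁻¹ * (w * Xq⁻¹ ^ n) ^ i := by
    intro w γ hw
    rw [map_sum, Finset.mul_sum]
    refine Finset.sum_congr rfl fun i hi => ?_
    have hle : i ≤ d := Nat.lt_succ_iff.mp (Finset.mem_range.mp hi)
    have hev : qExpand k M (evalJ k (reflect D' (r.coeff i))) =
        (r.coeff i).eval₂ HahnSeries.C Xq⁻¹ * Xq ^ D' := by
      rw [← GaussModel.eval₂_reflect' HahnSeries.C (inv_mul_cancel₀ hX) D' _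
        (Finset.le_sup (f := fun i => (r.coeff i).natDegree) hi), evalJ, coe_eval₂RingHom,
        hom_eval₂]
      congr 1
      exact RingHom.ext fun a => by
        rw [RingHom.comp_apply, HahnSeries.C_apply, ModularCurve.qExpand_single, mul_zero]
    rw [map_mul, map_mul, map_pow, map_pow, D.redHom_evJB, hR', hev, hw,
      show D.redHom γ D.jB = Xq from D.redHom_jB γ, mul_pow, inv_pow, inv_pow, ← pow_mul,
      pow_add, show Xq ^ (n * d) = Xq ^ (n * (d - i)) * Xq ^ (n * i) by
        rw [← pow_add, ← mul_add, Nat.sub_add_cancel hle]]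
    field_simp
  have h0 : D.redHom 1 (∑ i ∈ Finset.range (d + 1),
      D.evJB (R' i) * f ^ i * D.jB ^ (n * (d - i))) = 0 := by
    rw [key _ 1 hfz]
    refine mul_eq_zero_of_right _ ?_
    have h1 := congrArg (qExpand k M) hr0
    rw [map_zero, eval₂_eq_sum_range, map_sum] at h1
    refine Eq.trans (Finset.sum_congr rfl fun i _ => ?_) h1
    rw [map_mul, map_pow, map_mul, map_pow, map_inv₀, coe_eval₂RingHom, hom_eval₂, map_inv₀]
    congr 2
    exact RingHom.ext fun a => by
      rw [RingHom.comp_apply, HahnSeries.C_apply, ModularCurve.qExpand_single, mul_zero]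
  have h2 := (D.redHom_eq_zero_iff haux 1 γ).mp h0
  rw [key _ γ rfl, mul_eq_zero] at h2
  have h3 := h2.resolve_left (pow_ne_zero _ hX)
  have hXinv := sge_inv_qExpand_jqModC (k := k) M
  have hw : SGE 0 (D.redHom γ f * Xq⁻¹ ^ n) := sge_zero_of_monic_rel d
    (fun i => (r.coeff i).eval₂ HahnSeries.C Xq⁻¹) (fun i => sge_eval₂ hXinv _)
    (by show (r.coeff d).eval₂ _ _ = _; rw [hr.coeff_natDegree, eval₂_one]) h3
  intro e he
  have h4 := hw.mul (sge_qExpand_jqModC_pow M n) e (by rw [zero_add]; exact he)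
  rwa [inv_pow, mul_assoc, inv_mul_cancel₀ (pow_ne_zero _ hX), mul_one] at h4

include haux in
/-- **Regularity at the cusps.** -/
theorem RedDatum.exists_bounded_lift [IsAlgClosed k] (hNM : N ∣ M) {n : ℕ}
    (hn : (Gamma0 N).index * N ≤ n) {z : LaurentSeries k} (hz : z ∈ modularFunctionFieldFullC k N)
    (hint : (evalJ k).IsIntegralElem z)
    (hinf : (eval₂RingHom HahnSeries.C (jqModC k)⁻¹).IsIntegralElem (z * (jqModC k)⁻¹ ^ n))
    {y : LaurentSeries D.R} (hy : jqModC D.R * y = 1) :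
    ∃ (s : LaurentSeries D.R) (p q : D.R[X][X]), coeffMap D.π s = z ∧
      coeffMap D.R.subtype (evJN D.R N q) ≠ 0 ∧ s * evJN D.R N q = evJN D.R N p ∧
      (eval₂RingHom HahnSeries.C (jqModC D.R)).IsIntegralElem s ∧
      (eval₂RingHom HahnSeries.C y).IsIntegralElem (s * y ^ n) := by
  classical
  obtain ⟨f, hf, hfz⟩ := D.exists_invariant_lift haux hNM hz hint
  have hred := D.redHom_coeff_eq_zero_of_integral_inv haux hfz hinf
  obtain ⟨g, hg, hg0, hgb⟩ := D.exists_tail_correction hNM hn hf hred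
  have hfg : f - g ∈ D.invB (Gamma0 N) := sub_mem hf hg
  obtain ⟨s, hs⟩ := D.exists_downscale hfg
  obtain ⟨W, hW, hrat⟩ := D.exists_rational hNM
  obtain ⟨p, hp⟩ := hrat _ hfg
  obtain ⟨q, hq⟩ := hrat 1 (one_mem _)
  have h1 : lexp M 1 ((1 : BRing M D.R) : ℍ → ℂ) = 1 := lexp_eq HasLExp.one
  rw [h1, one_mul] at hq
  have hinj : Function.Injective fun s : LaurentSeries D.R =>
    qExpand ℂ M (coeffMap D.R.subtype s) :=
    (ModularCurve.qExpand_injective M).comp (coeffMap_subtype_injective D.R)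
  obtain ⟨hi1, hi2⟩ := D.integral_of_bounded hfg hgb hs hy
  refine ⟨s, p, q, ?_, fun h0 => hW (by rw [← hq, h0, map_zero]), hinj ?_, hi1, hi2⟩
  · apply ModularCurve.qExpand_injective M
    rw [← hfz, show D.redHom 1 f = D.redHom 1 (f - g) by rw [map_sub, hg0, sub_zero]]
    ext e
    by_cases he : (M : ℤ) ∣ e
    · obtain ⟨j, rfl⟩ := he
      rw [ModularCurve.qExpand_coeff_mul, coeffMap_coeff, D.coeff_redHom]
      congr 1
      refine Subtype.ext ?_
      exact ((ModularCurve.qExpand_coeff_mul M (coeffMap D.R.subtype s) j).symm.trans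
        (congrArg (fun t : LaurentSeries ℂ => t.coeff ((M : ℤ) * j)) hs)).trans rfl
    · rw [ModularCurve.qExpand_coeff_of_not_dvd _ _ he, D.coeff_redHom, ← map_zero D.π]
      congr 1
      refine Subtype.ext ?_
      exact (ModularCurve.qExpand_coeff_of_not_dvd M (coeffMap D.R.subtype s) he).symm.trans
        (congrArg (fun t : LaurentSeries ℂ => t.coeff e) hs)
  · show qExpand ℂ M (coeffMap D.R.subtype (s * _)) = qExpand ℂ M (coeffMap D.R.subtype _)
    rw [map_mul, map_mul, hp, hs, hq]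

end FermatAgent.Curve.Red
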