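import Fermat.Agent.Curve.Red.LevelN

/-!
# Gauss models of the modular function field

The powers `j(q^N) ^ i`, `i` below the index of `Γ₀(N)`, form a basis of the function field of
`X₀(N)` over `K(j)`.  When their reductions stay independent and `j(q^N)` is integral over
`R[j]`, they give a Gauss model over the valuation ring `R` (`levelModel`); `ratModel` is the one
over `ℤ_(ℓ)`, `ℓ ∤ N`.
-/

set_option autoImplicit false

open Polynomial IntermediateField
open CongruenceSubgroup (Gamma0)
open scoped MatrixGroups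
open ModularCurve (coeffMap qExpand jqModC jqNModC)

noncomputable section

namespace FermatAgent.Curve.Red

/-- An element of `K(x)` as a quotient of polynomials in `x`. -/
theorem exists_mul_aeval_eq {K F : Type*} [Field K] [Field F] [Algebra K F] {x z : F}
    (hz : z ∈ K⟮x⟯) : ∃ r s : K[X], s ≠ 0 ∧ z * aeval x s = aeval x r := by
  obtain ⟨r, s, h⟩ := (mem_adjoin_simple_iff K _).mp hz
  by_cases hs : aeval x s = 0
  · exact ⟨0, 1, one_ne_zero, by rw [h, hs, div_zero, zero_mul, map_zero]⟩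
  · exact ⟨r, s, fun h0 => hs (by rw [h0, map_zero]), by rw [h, div_mul_cancel₀ _ hs]⟩

section Spans

variable (K : Type*) [Field K] [CharZero K] [Algebra K ℂ] (N : ℕ) [NeZero N]

/-- `j(q^N)` in the field. -/
def jNElt : jField K N := toJField K N (MvPolynomial.X (JIdx.top N))

omit [CharZero K] [Algebra K ℂ] in
/-- The series of `j(Nτ)`. -/
theorem coe_jNElt : (jNElt K N : LaurentSeries K) = jqNModC K N := by
  rw [jNElt, coe_toJField, evL, MvPolynomial.aeval_X, jGenL]
  rfl

omit [CharZero K] [Algebra K ℂ] in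
theorem coe_sum_aeval (P : ℕ → K[X]) (s : Finset ℕ) :
    ((∑ i ∈ s, aeval (jElt K N) (P i) * jNElt K N ^ i : jField K N) : LaurentSeries K) =
      ∑ i ∈ s, (P i).eval₂ HahnSeries.C (jqModC K) * jqNModC K N ^ i := by
  rw [AddSubmonoidClass.coe_finsetSum]
  refine Finset.sum_congr rfl fun i _ => ?_
  rw [MulMemClass.coe_mul, SubmonoidClass.coe_pow, coe_jNElt, coe_aeval_jElt]
  rfl

omit [CharZero K] in
/-- The first `[SL₂(ℤ) : Γ₀(N)]` powers of `j(q^N)` are independent over `K(j)`. -/
theorem linearIndependent_jNElt_pow :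
    LinearIndependent K⟮jElt K N⟯
      (fun i : Fin (Gamma0 N).index => jNElt K N ^ (i : ℕ)) := by
  classical
  set ψ := (Gamma0 N).index
  rw [Fintype.linearIndependent_iff]
  intro c hc
  choose r s hs hrs using fun i => exists_mul_aeval_eq (c i).2
  set Q := ∏ i, s i
  have hP : ∀ i, (c i : jField K N) * aeval (jElt K N) Q =
      aeval (jElt K N) (r i * ∏ j ∈ Finset.univ.erase i, s j) := by
    intro i
    rw [map_mul, ← hrs, mul_assoc, ← map_mul, Finset.mul_prod_erase _ _ (Finset.mem_univ i)]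
  have hsum : ∑ i ∈ Finset.range ψ, aeval (jElt K N)
      (if h : i < ψ then r ⟨i, h⟩ * ∏ j ∈ Finset.univ.erase ⟨i, h⟩, s j else 0) *
        jNElt K N ^ i = 0 := by
    rw [Finset.sum_range]
    simp only [Fin.is_lt, dite_true, Fin.eta, ← hP]
    rw [← mul_zero (aeval (jElt K N) Q), ← hc, Finset.mul_sum]
    refine Finset.sum_congr rfl fun i _ => ?_
    show _ = _ * ((c i : jField K N) * jNElt K N ^ (i : ℕ))
    ring
  have h0 := coe_sum_aeval K N
    (fun i => if h : i < ψ then r ⟨i, h⟩ * ∏ j ∈ Finset.univ.erase ⟨i, h⟩, s j else 0)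
    (Finset.range ψ)
  rw [hsum] at h0
  have hind := indep_of_algebra K N _ h0.symm
  intro i
  have h1 := hind i i.2
  simp only [Fin.is_lt, dite_true, Fin.eta] at h1
  have h2 := hP i
  rw [h1, map_zero, mul_eq_zero] at h2
  rcases h2 with h2 | h2
  · exact Subtype.ext h2
  · exfalso
    have h3 := transcendental_iff.mp (transcendental_jElt (K := K) (N := N)) Q h2
    exact Finset.prod_ne_zero_iff.mpr (fun j _ => hs j) h3

/-- The powers of `j(q^N)` span. -/
theorem exists_combination (f : jField K N) :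
    ∃ (Q : K[X]) (P : ℕ → K[X]), Q ≠ 0 ∧ f * aeval (jElt K N) Q =
      ∑ i ∈ Finset.range (Gamma0 N).index, aeval (jElt K N) (P i) * jNElt K N ^ i := by
  classical
  set E := K⟮jElt K N⟯
  set ψ := (Gamma0 N).index with hψ
  let v : Fin ψ → jField K N := fun i => jNElt K N ^ (i : ℕ)
  have hli : LinearIndependent E v := linearIndependent_jNElt_pow K N
  have : Nonempty (Fin ψ) := ⟨⟨0, Nat.pos_of_ne_zero Subgroup.FiniteIndex.index_ne_zero⟩⟩
  have hcard : Fintype.card (Fin ψ) = Module.finrank E (jField K N) := by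
    have := (finite_and_finrank_jField_le K N).1
    refine le_antisymm hli.fintype_card_le_finrank ((finite_and_finrank_jField_le K N).2.trans ?_)
    rw [Fintype.card_fin, hψ, Subgroup.index, Nat.card_eq_fintype_card]
  let B := basisOfLinearIndependentOfCardEqFinrank hli hcard
  have hrepr : f = ∑ i, ((B.repr f i : E) : jField K N) * jNElt K N ^ (i : ℕ) := by
    conv_lhs => rw [← B.sum_repr f]
    refine Finset.sum_congr rfl fun i _ => ?_
    rw [coe_basisOfLinearIndependentOfCardEqFinrank]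
    rfl
  choose r s hs hrs using fun i => exists_mul_aeval_eq (B.repr f i).2
  refine ⟨∏ i, s i, fun i => if h : i < ψ then r ⟨i, h⟩ * ∏ j ∈ Finset.univ.erase ⟨i, h⟩, s j
    else 0, Finset.prod_ne_zero_iff.mpr fun j _ => hs j, ?_⟩
  rw [Finset.sum_range]
  simp only [Fin.is_lt, dite_true, Fin.eta]
  conv_lhs => rw [hrepr, Finset.sum_mul]
  refine Finset.sum_congr rfl fun i _ => ?_
  rw [map_mul, ← hrs, map_prod, map_prod,
    ← Finset.mul_prod_erase Finset.univ (fun j => aeval (jElt K N) (s j)) (Finset.mem_univ i)]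
  ring

end Spans

variable {K : Type*} [Field K] [CharZero K] [Algebra K ℂ] {k : Type*} [Field k] (N : ℕ) [NeZero N]
  (R : ValuationSubring K) (π : R →+* k)

theorem sum_fin_eq_sum_range {α : Type*} [AddCommMonoid α] {S : Type*} [Zero S] (n : ℕ)
    (p : Fin n → S) (g : ℕ → S → α) :
    ∑ i ∈ Finset.range n, g i (if h : i < n then p ⟨i, h⟩ else 0) = ∑ i : Fin n, g i (p i) := by
  rw [Finset.sum_range]
  simp

/-- The model of `X₀(N)` from residual independence and an integral relation. -/
def levelModel (surj : Function.Surjective π) (ker : ∀ a : R, π a = 0 ↔ ¬IsUnit a)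
    (hind : Indep k N)
    (hrel : ∃ Φ : R[X][X], Φ.Monic ∧
      Φ.eval₂ ((evalJ K).comp (mapRingHom R.subtype)) (jqNModC K N) = 0) :
    GaussModel K k where
  R := R
  π := π
  surj := surj
  ker_iff := ker
  F := jField K N
  x := jqModC R
  n := (Gamma0 N).index
  b i := jqNModC R N ^ (i : ℕ)
  x_mem := by
    rw [ModularCurve.coeffMap_jqModC, ← coe_jElt K N]
    exact (jElt K N).2
  b_mem i := by
    rw [map_pow, ModularCurve.coeffMap_jqNModC, ← coe_jNElt K N]
    exact pow_mem (jNElt K N).2 _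
  b_int i := by
    obtain ⟨Φ, hΦ, h0⟩ := hrel
    let := (eval₂RingHom HahnSeries.C (jqModC R) : R[X] →+* LaurentSeries R).toAlgebra
    show IsIntegral R[X] (jqNModC R N ^ (i : ℕ))
    refine IsIntegral.pow ⟨Φ, hΦ, ?_⟩ _
    have hinj : Function.Injective (coeffMap R.subtype) := fun s t h =>
      HahnSeries.ext (funext fun n => Subtype.ext (congrArg (fun s => s.coeff n) h))
    apply hinj
    rw [map_zero, hom_eval₂, ModularCurve.coeffMap_jqNModC]
    refine Eq.trans ?_ h0
    congr 1
    exact RingHom.ext fun p => coeffMap_eval₂_jqModC _ p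
  x_tr p hp := by
    rw [ModularCurve.coeffMap_jqModC] at hp
    exact eq_zero_of_eval₂_of_neg (d := -1) (by norm_num)
      (by rw [ModularCurve.coeff_jqModC_neg_one]; exact one_ne_zero) p hp
  indep p hp := by
    have h := hind (fun i => if h : i < (Gamma0 N).index then p ⟨i, h⟩ else 0) (by
      rw [sum_fin_eq_sum_range _ p
        fun i q => q.eval₂ HahnSeries.C (jqModC k) * jqNModC k N ^ i]
      simpa [ModularCurve.coeffMap_jqModC, ModularCurve.coeffMap_jqNModC] using hp)
    funext i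
    simpa using h i i.2
  spans f hf := by
    obtain ⟨Q, P, hQ, he⟩ := exists_combination K N ⟨f, hf⟩
    refine ⟨Q, fun i => P i, hQ, ?_⟩
    have h := congrArg (fun y : jField K N => (y : LaurentSeries K)) he
    simp only [MulMemClass.coe_mul, coe_aeval_jElt] at h
    rw [coe_sum_aeval, Finset.sum_range] at h
    simp only [map_pow, ModularCurve.coeffMap_jqModC, ModularCurve.coeffMap_jqNModC]
    exact h

section Rational

variable {ℓ : ℕ} [hℓ : Fact ℓ.Prime] {A : ValuationSubring (AlgebraicClosure ℚ)}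

/-- The map of `ℤ_(ℓ)` to its residue field. -/
def ratRed (hA : A.LiesOverPrime ℓ) : ratVal A →+* ZMod ℓ where
  toFun q := ((q : ℚ) : ZMod ℓ)
  map_one' := by simp
  map_zero' := by simp
  map_mul' a b := by
    have ha := den_ne_zero hA a
    have hb := den_ne_zero hA b
    push_cast
    exact Rat.cast_mul_of_ne_zero ha hb
  map_add' a b := by
    push_cast
    exact Rat.cast_add_of_ne_zero (den_ne_zero hA a) (den_ne_zero hA b)
where
  den_ne_zero (hA : A.LiesOverPrime ℓ) (q : ratVal A) : (((q : ℚ).den : ℕ) : ZMod ℓ) ≠ 0 := by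
    rw [Ne, ZMod.natCast_eq_zero_iff]
    exact hℓ.out.coprime_iff_not_dvd.mp ((mem_ratVal_iff hA).mp q.2).symm

theorem ratRed_apply (hA : A.LiesOverPrime ℓ) (q : ratVal A) :
    ratRed hA q = ((q : ℚ) : ZMod ℓ) := rfl

theorem ratRed_surjective (hA : A.LiesOverPrime ℓ) : Function.Surjective (ratRed hA) := fun x =>
  ⟨⟨((x.val : ℕ) : ℚ),
    (mem_ratVal_iff hA).mpr (by rw [Rat.den_natCast]; exact Nat.coprime_one_left ℓ)⟩,
    by rw [ratRed_apply, Rat.cast_natCast, ZMod.natCast_zmod_val]⟩

theorem ratRed_eq_zero_iff (hA : A.LiesOverPrime ℓ) (q : ratVal A) :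
    ratRed hA q = 0 ↔ ¬IsUnit q := by
  have hd := ratRed.den_ne_zero hA q
  rw [ratRed_apply, Rat.cast_def, div_eq_zero_iff, or_iff_left hd,
    ZMod.intCast_zmod_eq_zero_iff_dvd]
  constructor
  · intro hn hu
    obtain ⟨u, hu⟩ := hu
    have h1 : (ratRed hA q) * ratRed hA ((u⁻¹ : (ratVal A)ˣ) : ratVal A) = 1 := by
      rw [← map_mul, ← hu, Units.mul_inv, map_one]
    rw [ratRed_apply, Rat.cast_def,
      show ((((q : ℚ).num : ℤ)) : ZMod ℓ) = 0 from (ZMod.intCast_zmod_eq_zero_iff_dvd _ _).mpr hn,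
      zero_div, zero_mul] at h1
    exact zero_ne_one h1
  · intro hu
    by_contra hn
    have hq0 : (q : ℚ) ≠ 0 := fun h => hn (by simp [h])
    have hinv : (q : ℚ)⁻¹ ∈ ratVal A := by
      rw [mem_ratVal_iff hA, Rat.den_inv, if_neg (Rat.num_ne_zero.mpr hq0), Nat.coprime_comm,
        hℓ.out.coprime_iff_not_dvd, ← Int.natCast_dvd]
      exact hn
    exact hu ⟨⟨q, ⟨_, hinv⟩, Subtype.ext (mul_inv_cancel₀ hq0),
      Subtype.ext (inv_mul_cancel₀ hq0)⟩, rfl⟩

/-- Independence over `𝔽_ℓ` at a good prime. -/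
theorem indep_zmod (hA : A.LiesOverPrime ℓ) (hN : ¬ ℓ ∣ N) : Indep (ZMod ℓ) N := by
  have : CharP (IsLocalRing.ResidueField A) ℓ := by
    refine (CharP.charP_iff_prime_eq_zero hℓ.out).mpr ?_
    have hmem : (ℓ : AlgebraicClosure ℚ) ∈ A := natCast_mem A ℓ
    rw [show ((ℓ : ℕ) : IsLocalRing.ResidueField A) = IsLocalRing.residue A ⟨_, hmem⟩ from
      (map_natCast (IsLocalRing.residue A) ℓ).symm, IsLocalRing.residue_eq_zero_iff,
      IsLocalRing.mem_maximalIdeal, mem_nonunits_iff, A.valuation_eq_one_iff]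
    exact (A.mem_nonunits_iff.mp hA).ne
  exact (indep_residueField hA hN).descend (ZMod.castHom dvd_rfl _)

/-- The model over `ℤ_(ℓ)`. -/
def ratModel (hA : A.LiesOverPrime ℓ) (hN : ¬ ℓ ∣ N) : GaussModel ℚ (ZMod ℓ) :=
  levelModel N (ratVal A) (ratRed hA) (ratRed_surjective hA) (ratRed_eq_zero_iff hA)
    (indep_zmod N hA hN) (exists_relation_ratVal hA hN)

end Rational

end FermatAgent.Curve.Red
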