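import Fermat.Agent.Curve.Red.ChartZeros
import Fermat.Agent.Curve.Riemann

/-!
# The specialisation of places from two regular charts

Two regular charts of a Gauss model, with coordinates `x` and `1/x`, together reach every place
of `F`.  A place at which `x` has an integral value specialises through the first chart and any
other place through the second.  For a place `Q` of the special fibre, the orders of a function
at the places over `Q` add up to at most the order of the reduced function at `Q`; both sides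
have degree zero, so they are equal: specialisation carries principal divisors to principal
divisors.
-/

set_option autoImplicit false

open Polynomial AlgebraicCurve IntermediateField
open ModularCurve (coeffMap)

noncomputable section

-- searched first: the other route ends in a long failing unification on the scalar towers
attribute [local instance 1100] SubalgebraClass.toAlgebra

namespace FermatAgent.Curve

section Degree

variable {K F : Type*} [Field K] [Field F] [Algebra K F]

theorem sum_le_ord_of_ordGE {ι : Type*} {T : Finset ι} {a : ι → ℤ} (ha : ∀ i ∈ T, 0 ≤ a i)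
    {v : Place K F} {z : F} (hz : z ≠ 0)
    (h : OrdGE v ((∑ i ∈ T, (a i).toNat : ℕ) : ℤ) z) : ∑ i ∈ T, a i ≤ v.ord z := by
  rw [ordGE_iff_le hz, Nat.cast_sum] at h
  exact le_trans (le_of_eq (Finset.sum_congr rfl fun i hi =>
    (Int.toNat_of_nonneg (ha i hi)).symm)) h

theorem ord_mul_inv_pow (v : Place K F) {f x : F} (hf : f ≠ 0) (hx : x ≠ 0) (m : ℕ) :
    v.ord (f * x⁻¹ ^ m) = v.ord f - m * v.ord x := by
  rw [v.ord_mul hf (pow_ne_zero _ (inv_ne_zero hx)), ord_pow, Place.ord_inv]; ring

theorem sum_ord_mul_inv_pow (T : Finset (Place K F)) {f x : F} (hf : f ≠ 0) (hx : x ≠ 0) (m : ℕ) :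
    ∑ P ∈ T, P.ord (f * x⁻¹ ^ m) = (∑ P ∈ T, P.ord f) - (m : ℤ) * ∑ P ∈ T, P.ord x := by
  rw [Finset.mul_sum, ← Finset.sum_sub_distrib]
  exact Finset.sum_congr rfl fun P _ => ord_mul_inv_pow P hf hx m

theorem ord_eq_sub_of_eq_mul (P : Place K F) {f g c : F} (hc : c = f * g) (hf : f ≠ 0)
    (hg : g ≠ 0) : P.ord f = P.ord c - P.ord g := by
  rw [hc, P.ord_mul hf hg, add_sub_cancel_right]

variable [IsAlgClosed K] [IsFF K F]

/-- The image of a divisor sums the multiplicities over each fibre. -/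
theorem mapDomain_apply_eq_sum {α β : Type*} [DecidableEq β] (r : α → β) (D : α →₀ ℤ) (S : Finset α)
    (hS : D.support ⊆ S) (Q : β) :
    Finsupp.mapDomain r D Q = ∑ P ∈ S.filter (fun P => r P = Q), D P := by
  classical
  rw [Finsupp.mapDomain, Finsupp.sum_of_support_subset _ hS _ (by simp), Finsupp.finsetSum_apply,
    Finset.sum_filter]
  exact Finset.sum_congr rfl fun P _ => by rw [Finsupp.single_apply]

theorem mapDomain_eq_ord {K' F' : Type*} [Field K'] [Field F'] [Algebra K' F'] [IsAlgClosed K']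
    [IsFF K' F'] (r : Place K' F' → Place K F) {D : Divisor K' F'} {f : F'} {z : F}
    (hD : ∀ P, D P = P.ord f) (hle : ∀ v, Finsupp.mapDomain r D v ≤ v.ord z) (Q : Place K F) :
    Finsupp.mapDomain r D Q = Q.ord z := by
  suffices h2 : Finsupp.mapDomain r D = divisorOf z by rw [h2, divisorOf_apply]
  refine eq_of_le_of_degree_eq (fun v => by rw [divisorOf_apply]; exact hle v) ?_
  rw [degree_divisorOf, degree_eq_sum, Finsupp.sum_mapDomain_index (fun _ => rfl)
    (fun _ _ _ => rfl), ← degree_eq_sum,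
    show D = divisorOf f from Finsupp.ext fun P => by rw [hD, divisorOf_apply],
    degree_divisorOf]

end Degree

namespace Red.GaussModel

variable {L : Type*} [Field L] {k : Type*} [Field k] [IsAlgClosed L] [IsAlgClosed k]
  {G : GaussModel L k} {Fb : IntermediateField k (LaurentSeries k)} [IsFF k Fb]

omit [IsAlgClosed L] in
/-- The residual field has a place. -/
theorem Regular.nonempty_place (hR : G.Regular Fb) (hn : 0 < G.n) : Nonempty (Place k Fb) := by
  have h := sum_zeros_eq_finrank' hR.transcendental_xb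
  rw [hR.finrank_Fb] at h
  rcases (finite_ord_pos (K := k) hR.xb).toFinset.eq_empty_or_nonempty with h0 | ⟨v, -⟩
  · rw [h0, Finset.sum_empty] at h; omega
  · exact ⟨v⟩

omit [IsAlgClosed k] in
/-- The zeros of the coordinate lie in the first chart. -/
theorem finPlace_of_ord_pos {P : Place L G.F} (hP : 0 < P.ord G.xF) : G.FinPlace P := by
  have := G.isFF_F
  have h1 : OrdGE P 1 G.xF := Or.inr hP
  have h2 : placeVal P G.xF = 0 := placeVal_eq (by rw [map_zero, sub_zero]; exact h1)
  exact ⟨h1.mono zero_le_one, h2 ▸ zero_mem _⟩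

/-- For a point `v` of the reduced chart, the orders of an integral function at places
specialising to `v` add up to at most the order at `v` of its reduction. -/
theorem Regular.sum_ord_le_ord_redB [Nonempty (Place k Fb)] (hR : G.Regular Fb) {f : G.F}
    (hfc : f ∈ G.chart) (hf0 : f ≠ 0) {z : Fb} (hzr : hR.redB ⟨f, hfc⟩ = z) (hz0 : z ≠ 0)
    {T : Finset (Place L G.F)} {v : Place k Fb} (hfin : ∀ P ∈ T, G.FinPlace P)
    (hT : ∀ P ∈ T, hR.spec P = v) (hv : 0 ≤ v.ord hR.xb) :
    ∑ P ∈ T, P.ord f ≤ v.ord z := by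
  classical
  have := G.isFF_F
  have hnn : ∀ P ∈ T, 0 ≤ P.ord f := fun P hP =>
    ((hfin P hP).ordGE ⟨f, hfc⟩).resolve_left hf0
  have h1 := hR.ordGE_redB T hfin (fun P => (P.ord f).toNat) ⟨f, hfc⟩
    (fun P hP => Or.inr (le_of_eq (Int.toNat_of_nonneg (hnn P hP)))) v (Or.inr hv)
  rw [hzr, Finset.filter_true_of_mem hT] at h1
  exact sum_le_ord_of_ordGE hnn hz0 h1

open Classical in
/-- The zeros of the coordinate specialise onto the zeros of the reduced coordinate, with
multiplicities. -/
theorem Regular.zeros_eq [Nonempty (Place k Fb)] (hR : G.Regular Fb) (S : Finset (Place L G.F))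
    (hS : ∀ P, P ∈ S ↔ 0 < P.ord G.xF) (Q : Place k Fb) (hQ : 0 ≤ Q.ord hR.xb) :
    ∑ P ∈ S.filter (fun P => hR.spec P = Q), P.ord G.xF = Q.ord hR.xb := by
  have := G.isFF_F
  set Z := (finite_ord_pos (K := k) hR.xb).toFinset
  have hxb0 := hR.xb_ne_zero
  have hval : ∀ P ∈ S, G.FinPlace P ∧ placeVal P G.xF = 0 := fun P hP =>
    ⟨finPlace_of_ord_pos ((hS P).mp hP), placeVal_eq (by
      rw [map_zero, sub_zero]; exact Or.inr ((hS P).mp hP))⟩
  have hmap : ∀ P ∈ S, hR.spec P ∈ Z := fun P hP => by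
    obtain ⟨hf, hv⟩ := hval P hP
    have h1 := hR.placeVal_spec_eq hf (G.toChart X)
    rw [hR.redB_toChart, Polynomial.map_X, aeval_X, hf.valk_apply] at h1
    have h2 : placeVal (hR.spec P) hR.xb = 0 := by
      rw [h1, ← map_zero G.π]
      refine congrArg G.π (Subtype.ext ?_)
      simpa using hv
    rw [placeVal_eq_zero_iff (hR.spec_ordGE hf)] at h2
    have h3 := h2.resolve_left hxb0
    simp only [Z, Set.Finite.mem_toFinset, Set.mem_ofPred_eq]
    omega
  have hle : ∀ v : Place k Fb, 0 ≤ v.ord hR.xb →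
      ∑ P ∈ S.filter (fun P => hR.spec P = v), P.ord G.xF ≤ v.ord hR.xb := fun v hv => by
    have h1 := hR.ordGE_redB S (fun P hP => (hval P hP).1) (fun P => (P.ord G.xF).toNat)
      (G.toChart X) (fun P hP => by
        refine Or.inr ?_
        rw [coe_toChart, Polynomial.map_X, aeval_X, Int.toNat_of_nonneg ((hS P).mp hP).le])
      v (Or.inr hv)
    rw [hR.redB_toChart, Polynomial.map_X, aeval_X, ordGE_iff_le hxb0, Nat.cast_sum] at h1
    refine le_trans (le_of_eq (Finset.sum_congr rfl fun P hP => ?_)) h1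
    rw [Int.toNat_of_nonneg ((hS P).mp (Finset.mem_filter.mp hP).1).le]
  have htot : ∑ v ∈ Z, ∑ P ∈ S.filter (fun P => hR.spec P = v), P.ord G.xF =
      ∑ v ∈ Z, v.ord hR.xb := by
    rw [Finset.sum_fiberwise_of_maps_to hmap, sum_zeros_eq_finrank' hR.transcendental_xb,
      hR.finrank_Fb, ← G.finrank_F, ← sum_zeros_eq_finrank' G.transcendental_xF]
    exact Finset.sum_congr (Finset.ext fun P => by simp [hS]) fun _ _ => rfl
  by_cases hQZ : Q ∈ Z
  · exact (Finset.sum_eq_sum_iff_of_le fun v hv => hle v (by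
      have : 0 < v.ord hR.xb := by simpa [Z] using hv
      omega)).mp htot Q hQZ
  · rw [Finset.sum_eq_zero fun P hP => absurd
      ((show hR.spec P = Q from (Finset.mem_filter.mp hP).2) ▸ hmap P (Finset.mem_filter.mp hP).1)
      hQZ]
    simp only [Z, Set.Finite.mem_toFinset, Set.mem_ofPred_eq, not_lt] at hQZ
    omega

section TwoCharts

variable (hR : G.Regular Fb) {y : LaurentSeries G.R} (h : G.x * y = 1)
  (hR' : (G.invCoord h).Regular Fb)

omit [IsAlgClosed L] [IsAlgClosed k] in
theorem invCoord_xF : ((G.invCoord h).xF : G.F) = G.xF⁻¹ := Subtype.ext (by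
  show G.incl y = ((G.xF⁻¹ : G.F) : LaurentSeries L)
  rw [show ((G.xF⁻¹ : G.F) : LaurentSeries L) = (G.incl G.x)⁻¹ from rfl,
    eq_inv_of_mul_eq_one_right (a := G.incl G.x) (b := G.incl y) (by rw [← map_mul, h, map_one])])

omit [IsAlgClosed L] [IsAlgClosed k] [IsFF k Fb] in
theorem Regular.invCoord_xb : (hR'.xb : Fb) = hR.xb⁻¹ := Subtype.ext (by
  show coeffMap G.π y = ((hR.xb⁻¹ : Fb) : LaurentSeries k)
  rw [show ((hR.xb⁻¹ : Fb) : LaurentSeries k) = (coeffMap G.π G.x)⁻¹ from rfl,
    eq_inv_of_mul_eq_one_right (a := coeffMap G.π G.x) (b := coeffMap G.π y)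
      (by rw [← map_mul, h, map_one])])

omit [IsAlgClosed k] in
/-- A place outside the first chart lies in the second, with nonunit coordinate. -/
theorem finPlace_inv_of_not {P : Place L G.F} (hP : ¬ G.FinPlace P) :
    ∃ hP' : (G.invCoord h).FinPlace P, G.π hP'.coord = 0 := by
  have := G.isFF_F
  have hx0 := G.xF_ne_zero
  suffices H : OrdGE P 0 G.xF⁻¹ ∧ ∃ hm : placeVal P G.xF⁻¹ ∈ G.R,
      G.π ⟨placeVal P G.xF⁻¹, hm⟩ = 0 by
    obtain ⟨h1, hm, h2⟩ := H
    have hf : (G.invCoord h).FinPlace P :=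
      ⟨(invCoord_xF h).symm ▸ h1, (invCoord_xF h).symm ▸ hm⟩
    refine ⟨hf, ?_⟩
    rw [← h2]
    exact congrArg G.π (Subtype.ext (congrArg (placeVal P) (invCoord_xF h)))
  by_cases hneg : P.ord G.xF < 0
  · have h1 : OrdGE P 1 G.xF⁻¹ := Or.inr (by rw [Place.ord_inv]; omega)
    have h2 : placeVal P G.xF⁻¹ = 0 := placeVal_eq (by rw [map_zero, sub_zero]; exact h1)
    refine ⟨h1.mono zero_le_one, h2 ▸ zero_mem _, ?_⟩
    rw [← map_zero G.π]
    exact congrArg G.π (Subtype.ext h2)
  · have h0 : OrdGE P 0 G.xF := Or.inr (not_lt.mp hneg)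
    set a := placeVal P G.xF
    have ha : a ∉ G.R := fun ha => hP ⟨h0, ha⟩
    have ha0 : a ≠ 0 := fun e => ha (e ▸ zero_mem _)
    have hord : P.ord G.xF = 0 := by
      by_contra hne
      refine ha0 ((placeVal_eq_zero_iff h0).mpr (Or.inr ?_))
      omega
    have h1 : OrdGE P 0 G.xF⁻¹ := Or.inr (by rw [Place.ord_inv, hord, neg_zero])
    have h2 : placeVal P G.xF⁻¹ = a⁻¹ := by
      refine eq_inv_of_mul_eq_one_right ?_
      show a * placeVal P G.xF⁻¹ = 1
      rw [← placeVal_mul h0 h1, mul_inv_cancel₀ hx0, ← map_one (algebraMap L G.F),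
        placeVal_algebraMap]
    obtain ⟨μ, hμ, hμ0⟩ := exists_inv_eq_zero G.ker_iff ha
    refine ⟨h1, h2 ▸ hμ ▸ μ.2, ?_⟩
    rw [← hμ0]
    exact congrArg G.π (Subtype.ext (h2.trans hμ.symm))

variable [Nonempty (Place k Fb)]

open Classical in
/-- The specialisation of places. -/
def Regular.specAll (P : Place L G.F) : Place k Fb :=
  if G.FinPlace P then hR.spec P else hR'.spec P

include hR' in
/-- A place lies in the first chart exactly when it specialises to a point with finite
coordinate. -/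
theorem Regular.finPlace_iff (P : Place L G.F) :
    G.FinPlace P ↔ 0 ≤ (hR.specAll h hR' P).ord hR.xb := by
  have := G.isFF_F
  have hxb0 := hR.xb_ne_zero
  unfold Regular.specAll
  constructor
  · intro hP
    rw [if_pos hP]
    exact (hR.spec_ordGE hP).resolve_left hxb0
  · intro hQ
    by_contra hP
    rw [if_neg hP] at hQ
    obtain ⟨hP', hπ⟩ := finPlace_inv_of_not h hP
    have h1 := hR'.placeVal_spec_eq hP' ((G.invCoord h).toChart X)
    rw [hR'.redB_toChart, Polynomial.map_X, aeval_X, hP'.valk_apply] at h1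
    have h2 : placeVal (hR'.spec P) hR'.xb = 0 := by
      rw [h1, ← hπ]
      refine congrArg G.π (Subtype.ext ?_)
      show placeVal P _ = placeVal P (G.invCoord h).xF
      rw [coe_toChart, Polynomial.map_X, aeval_X]
    rw [placeVal_eq_zero_iff (hR'.spec_ordGE hP'), hR.invCoord_xb h hR'] at h2
    rcases h2 with h2 | h2
    · exact hxb0 (inv_eq_zero.mp h2)
    · rw [Place.ord_inv] at h2; omega

open Classical in
include hR' in
/-- Poles of the coordinate specialise onto poles of the reduced coordinate. -/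
theorem Regular.poles_eq (S : Finset (Place L G.F)) (hS : ∀ P, P ∈ S ↔ P.ord G.xF < 0)
    (Q : Place k Fb) (hQ : Q.ord hR.xb < 0) :
    ∑ P ∈ S.filter (fun P => hR'.spec P = Q), P.ord G.xF = Q.ord hR.xb := by
  have key : ∀ P : Place L G.F, P.ord G.xF < 0 ↔ 0 < P.ord G.xF⁻¹ := fun P => by
    rw [Place.ord_inv]; omega
  have h1 := hR'.zeros_eq (G := G.invCoord h) S (fun P => by
      refine (hS P).trans ?_
      rw [invCoord_xF h]
      exact key P) Q (by rw [hR.invCoord_xb h hR', Place.ord_inv]; omega)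
  rw [hR.invCoord_xb h hR', Place.ord_inv] at h1
  rw [← neg_inj, ← h1, ← Finset.sum_neg_distrib]
  refine Finset.sum_congr rfl fun P _ => ?_
  rw [invCoord_xF h]
  exact (Place.ord_inv P G.xF).symm

include hR' in
/-- For a pole `v` of the reduced coordinate, the orders of the coordinate at the places over
`v` add up to its order at `v`. -/
theorem Regular.sum_ord_xF_eq {T : Finset (Place L G.F)} {v : Place k Fb} (hv : v.ord hR.xb < 0)
    (hT : ∀ P ∈ T, hR.specAll h hR' P = v)
    (hTm : ∀ P, P.ord G.xF ≠ 0 → hR.specAll h hR' P = v → P ∈ T) :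
    ∑ P ∈ T, P.ord G.xF = v.ord hR.xb := by
  classical
  have := G.isFF_F
  have hx0 := G.xF_ne_zero
  set Sp := (divisorOf G.xF : Divisor L G.F).support.filter fun P => P.ord G.xF < 0
  rw [← hR.poles_eq h hR' Sp (fun P => by simp [Sp]; omega) v hv]
  refine (Finset.sum_subset (fun P hP => ?_) fun P hPT hP => ?_).symm
  · obtain ⟨hPS, hPv⟩ := Finset.mem_filter.mp hP
    obtain ⟨-, hneg⟩ := Finset.mem_filter.mp hPS
    have hnfP : ¬ G.FinPlace P := fun hfP => by
      have h2 := hfP.1.resolve_left hx0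
      omega
    exact hTm P hneg.ne ((if_neg hnfP).trans hPv)
  · by_contra hne0
    have hnf : ¬ G.FinPlace P := fun hfP => by
      have h2 := (hR.finPlace_iff h hR' P).mp hfP
      rw [hT P hPT] at h2
      omega
    have hneg : P.ord G.xF < 0 := by
      by_contra hge
      exact hnf (finPlace_of_ord_pos (by omega))
    exact hP (Finset.mem_filter.mpr ⟨Finset.mem_filter.mpr
      ⟨by rw [Finsupp.mem_support_iff, divisorOf_apply]; omega, hneg⟩,
      (if_neg hnf).symm.trans (hT P hPT)⟩)

include hR' in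
/-- Divisors of integral functions of the first chart reduce. -/
theorem Regular.mapDomain_specAll_of_isIntegral {s : LaurentSeries G.R} (hs : G.incl s ∈ G.F)
    (hint : G.evR.IsIntegralElem s) (hz : G.redS s ∈ Fb) (hne : G.redS s ≠ 0)
    (D : Divisor L G.F) (hD : ∀ P, D P = P.ord (⟨G.incl s, hs⟩ : G.F)) (Q : Place k Fb) :
    Finsupp.mapDomain (hR.specAll h hR') D Q = Q.ord (⟨G.redS s, hz⟩ : Fb) := by
  classical
  have := G.isFF_F
  set f : G.F := ⟨G.incl s, hs⟩
  set z : Fb := ⟨G.redS s, hz⟩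
  set r := hR.specAll h hR'
  have hz0 : z ≠ 0 := fun h => hne (congrArg Subtype.val h)
  have hf0 : f ≠ 0 := fun h0 => hne (by
    rw [show s = 0 from G.incl_injective ((congrArg Subtype.val h0).trans (map_zero _).symm),
      map_zero])
  have hx0 := G.xF_ne_zero
  have hxb0 := hR.xb_ne_zero
  have hfc : f ∈ G.chart := G.incl_mem_chart hs hint
  obtain ⟨m, hm⟩ := GaussModel.exists_isIntegralElem_mul_pow
    (HahnSeries.C : G.R →+* LaurentSeries G.R) h hint
  specialize hm m le_rfl
  have hs' : G.incl (s * y ^ m) ∈ G.F := by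
    rw [map_mul, map_pow]
    exact mul_mem hs (pow_mem (G.invCoord h).x_mem m)
  have hfc' : (⟨G.incl (s * y ^ m), hs'⟩ : G.F) ∈ (G.invCoord h).chart :=
    (G.invCoord h).incl_mem_chart hs' hm
  have hf' : (⟨G.incl (s * y ^ m), hs'⟩ : G.F) = f * G.xF⁻¹ ^ m := Subtype.ext (by
    rw [MulMemClass.coe_mul, SubmonoidClass.coe_pow,
      show ((G.xF⁻¹ : G.F) : LaurentSeries L) = G.incl y from
        congrArg Subtype.val (invCoord_xF h).symm]
    show G.incl (s * y ^ m) = G.incl s * G.incl y ^ m
    rw [map_mul, map_pow])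
  have hzr : hR.redB ⟨f, hfc⟩ = z := Subtype.ext (hR.coe_redB_incl hs hfc)
  have hzr' : hR'.redB ⟨⟨G.incl (s * y ^ m), hs'⟩, hfc'⟩ = z * hR.xb⁻¹ ^ m := Subtype.ext (by
    rw [← hR.invCoord_xb h hR', MulMemClass.coe_mul, SubmonoidClass.coe_pow]
    refine (hR'.coe_redB_incl (s := s * y ^ m) hs' hfc').trans ?_
    show G.redS (s * y ^ m) = _
    rw [map_mul, map_pow]
    rfl)
  set S : Finset (Place L G.F) := D.support ∪ (divisorOf G.xF : Divisor L G.F).support
  have hmap : ∀ v, Finsupp.mapDomain r D v = ∑ P ∈ S.filter (fun P => r P = v), P.ord f :=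
    fun v => by
      rw [mapDomain_apply_eq_sum r D S Finset.subset_union_left v]
      exact Finset.sum_congr rfl fun P _ => hD P
  have hle : ∀ v, Finsupp.mapDomain r D v ≤ v.ord z := by
    intro v
    rw [hmap]
    set T := S.filter (fun P => r P = v)
    have hT : ∀ P ∈ T, r P = v := fun P hP => (Finset.mem_filter.mp hP).2
    by_cases hv : 0 ≤ v.ord hR.xb
    · have hfin : ∀ P ∈ T, G.FinPlace P := fun P hP => by
        rw [hR.finPlace_iff h hR', show hR.specAll h hR' P = v from hT P hP]; exact hv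
      exact hR.sum_ord_le_ord_redB hfc hf0 hzr hz0 hfin
        (fun P hP => (if_pos (hfin P hP)).symm.trans (hT P hP)) hv
    · push Not at hv
      have hnf : ∀ P ∈ T, ¬ G.FinPlace P := fun P hP hfP => by
        have := (hR.finPlace_iff h hR' P).mp hfP
        rw [show hR.specAll h hR' P = v from hT P hP] at this
        omega
      have hz'0 : z * hR.xb⁻¹ ^ m ≠ 0 := mul_ne_zero hz0 (pow_ne_zero _ (inv_ne_zero hxb0))
      have hf'0 : (⟨G.incl (s * y ^ m), hs'⟩ : G.F) ≠ 0 := by
        rw [hf']; exact mul_ne_zero hf0 (pow_ne_zero _ (inv_ne_zero hx0))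
      have h2 : ∑ P ∈ T, P.ord (f * G.xF⁻¹ ^ m) ≤ v.ord (z * hR.xb⁻¹ ^ m) := by
        rw [← hf']
        exact hR'.sum_ord_le_ord_redB (G := G.invCoord h) hfc' hf'0 hzr' hz'0
          (fun P hP => (finPlace_inv_of_not h (hnf P hP)).1)
          (fun P hP => (if_neg (hnf P hP)).symm.trans (hT P hP))
          (by rw [hR.invCoord_xb h hR', Place.ord_inv]; omega)
      rw [sum_ord_mul_inv_pow T hf0 hx0 m, ord_mul_inv_pow v hz0 hxb0 m,
        hR.sum_ord_xF_eq h hR' hv hT (fun P hP hPv => Finset.mem_filter.mpr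
          ⟨Finset.mem_union_right _ (by rwa [Finsupp.mem_support_iff, divisorOf_apply]), hPv⟩)]
        at h2
      linarith
  exact mapDomain_eq_ord r hD hle Q

include hR' in
/-- **The specialisation of places reduces principal divisors.** -/
theorem Regular.mapDomain_specAll {s : LaurentSeries G.R} (hs : G.incl s ∈ G.F)
    (hz : G.redS s ∈ Fb) (hne : G.redS s ≠ 0) (D : Divisor L G.F)
    (hD : ∀ P, D P = P.ord (⟨G.incl s, hs⟩ : G.F)) (Q : Place k Fb) :
    Finsupp.mapDomain (hR.specAll h hR') D Q = Q.ord (⟨G.redS s, hz⟩ : Fb) := by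
  classical
  have := G.isFF_F
  obtain ⟨q, p, hq, he⟩ := G.intElt_incl hs
  rw [← map_mul] at he
  have he' : s * G.evR q = G.comb p := G.incl_injective he
  have hqz : G.redS (G.evR q) ∈ Fb := by
    rw [G.redS_evR, ← hR.coe_aeval_xb]; exact SetLike.coe_mem _
  have hqne : G.redS (G.evR q) ≠ 0 := by rw [G.redS_evR]; exact G.evk_ne_zero hq
  have hcz : G.redS (G.comb p) ∈ Fb := by rw [← he', map_mul]; exact mul_mem hz hqz
  have hcne : G.redS (G.comb p) ≠ 0 := by rw [← he', map_mul]; exact mul_ne_zero hne hqne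
  set f : G.F := ⟨G.incl s, hs⟩
  set fq : G.F := ⟨G.incl (G.evR q), G.incl_evR_mem q⟩
  set fc : G.F := ⟨G.incl (G.comb p), G.incl_comb_mem p⟩
  have hf0 : f ≠ 0 := fun h0 => hne (by
    rw [show s = 0 from G.incl_injective ((congrArg Subtype.val h0).trans (map_zero _).symm),
      map_zero])
  have hfq0 : fq ≠ 0 := fun h0 => G.incl_evR_ne_zero hq (congrArg Subtype.val h0)
  have hfc : fc = f * fq := Subtype.ext (by
    show G.incl (G.comb p) = G.incl s * G.incl (G.evR q)
    rw [← he', map_mul])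
  have h1 := hR.mapDomain_specAll_of_isIntegral h hR' (G.incl_comb_mem p) (G.isIntegralElem_comb p)
    hcz hcne (divisorOf fc) (fun _ => rfl) Q
  have h2 := hR.mapDomain_specAll_of_isIntegral h hR' (G.incl_evR_mem q)
    (RingHom.isIntegralElem_map G.evR) hqz hqne (divisorOf fq) (fun _ => rfl) Q
  have hDf : D = divisorOf fc - divisorOf fq := Finsupp.ext fun P => by
    rw [hD, Finsupp.sub_apply, divisorOf_apply, divisorOf_apply]
    exact ord_eq_sub_of_eq_mul P hfc hf0 hfq0
  have hzz : (⟨G.redS (G.comb p), hcz⟩ : Fb) = ⟨G.redS s, hz⟩ * ⟨G.redS (G.evR q), hqz⟩ :=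
    Subtype.ext (by show G.redS (G.comb p) = G.redS s * G.redS (G.evR q); rw [← he', map_mul])
  rw [hDf, Finsupp.mapDomain_sub, Finsupp.sub_apply, h1, h2]
  exact (ord_eq_sub_of_eq_mul Q hzz (fun h0 => hne (congrArg Subtype.val h0))
    fun h0 => hqne (congrArg Subtype.val h0)).symm

end TwoCharts

end Red.GaussModel

end FermatAgent.Curve
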