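import Fermat.Agent.GaloisBasic.ValuationRing
import Fermat.Agent.Curve.Red.TwoCharts
import Fermat.Agent.Curve.Red.InfLift
import Fermat.Agent.Curve.Red.Model
import Fermat.Prelude.Def_ModularCurve_ReductionModL

/-!
# Reduction inputs for `X₀(N)` at a prime of good reduction

For `A` a valuation ring of `ℚ̄` over `ℓ ∤ N`, the Gauss model `barModel` and its chart at
`1/j` are regular, as functions with poles only at the cusps lift with bounded poles.  So
specialisation maps the places of `X₀(N)` over `ℚ̄` to those of the reduced field, respecting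
principal divisors, and the latter are generated by divisors of functions with nonzero
reduction: `reductionInputsModL`.
-/

set_option autoImplicit false

open Polynomial AlgebraicCurve IntermediateField
open CongruenceSubgroup (Gamma0)
open scoped MatrixGroups
open ModularCurve (coeffMap qExpand jqModC jqNModC modularFunctionFieldFullC)

noncomputable section

-- searched first: the other route ends in a long failing unification on the scalar towers
attribute [local instance 1100] SubalgebraClass.toAlgebra
-- never applies here; each attempt costs seconds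
attribute [-instance] IsLocalRing.ResidueField.algebraOfIsIntegral

namespace FermatAgent.Curve.Red

open FermatAgent.ES

local notation "Qb" => AlgebraicClosure ℚ

variable {ℓ : ℕ} [hℓ : Fact ℓ.Prime] {A : ValuationSubring Qb}

/-- `j(q^d)` is integral over `k[j]`. -/
theorem isIntegralElem_jqNModC (hA : A.LiesOverPrime ℓ) {d : ℕ} [NeZero d] (hd : ¬ ℓ ∣ d) :
    (eval₂RingHom HahnSeries.C (jqModC (IsLocalRing.ResidueField A))).IsIntegralElem
      (jqNModC (IsLocalRing.ResidueField A) d) := by
  obtain ⟨Φ, hΦ, h0⟩ := exists_relation_ratVal (N := d) hA hd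
  let ι : ratVal A →+* A :=
    ((algebraMap ℚ Qb).comp (ratVal A).subtype).codRestrict A.toSubring fun q => q.2
  let φ : ratVal A →+* IsLocalRing.ResidueField A := (IsLocalRing.residue A).comp ι
  refine ⟨Φ.map (mapRingHom φ), hΦ.map _, ?_⟩
  have hinj : Function.Injective (coeffMap (ratVal A).subtype) := fun s t h =>
    HahnSeries.ext (funext fun n => Subtype.ext (congrArg (fun s => s.coeff n) h))
  have h1 : Φ.eval₂ (eval₂RingHom HahnSeries.C (jqModC (ratVal A))) (jqNModC (ratVal A) d) = 0 :=
    hinj (by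
      rw [map_zero, hom_eval₂, ModularCurve.coeffMap_jqNModC, ← h0]
      congr 1
      exact RingHom.ext fun p => coeffMap_eval₂_jqModC _ p)
  have h2 := congrArg (coeffMap φ) h1
  rw [map_zero, hom_eval₂, ModularCurve.coeffMap_jqNModC] at h2
  rw [eval₂_map, ← h2]
  congr 1
  exact RingHom.ext fun p => (coeffMap_eval₂_jqModC _ p).symm

/-- The function field of `X₀(M)` over `ℚ̄` is a function field of one variable. -/
theorem isFF_bar (M : ℕ) [NeZero M] :
    IsFF Qb (ModularCurve.modularFunctionFieldBar M) := by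
  let : Algebra Qb ℂ := iotaC.toAlgebra
  rw [modularFunctionFieldBar_eq_jField]
  exact isFF_jField Qb M

/-- The reduced modular function field is a function field of one variable. -/
theorem isFF_fullC (hA : A.LiesOverPrime ℓ) {N : ℕ} [NeZero N] (hN : ¬ ℓ ∣ N) :
    IsFF (IsLocalRing.ResidueField A)
      (modularFunctionFieldFullC (IsLocalRing.ResidueField A) N) := by
  set k := IsLocalRing.ResidueField A
  set E := modularFunctionFieldFullC k N
  let x : E := ⟨jqModC k, ModularCurve.jqModC_mem_full k N⟩
  have hx : Transcendental k x := fun h => transcendental_jqModC k (h.algHom E.val)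
  refine ⟨⟨x, hx, ?_⟩⟩
  set S : Set E := Subtype.val ⁻¹' ModularCurve.divisorExpansionsC k N
  have hfin : S.Finite := by
    refine Set.Finite.preimage Subtype.val_injective.injOn
      ((Set.finite_range fun d : Nat.divisors N =>
      if h : (d : ℕ) = 0 then (0 : LaurentSeries k)
      else haveI : NeZero (d : ℕ) := ⟨h⟩; qExpand k (d : ℕ) (jqModC k)).subset ?_)
    rintro _ ⟨d, hd0, hd, rfl⟩
    exact ⟨⟨d, Nat.mem_divisors.mpr ⟨hd, NeZero.ne N⟩⟩, by simp [NeZero.ne d]⟩
  have := hfin.to_subtype
  have hint : ∀ s ∈ S, IsIntegral k⟮x⟯ s := by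
    rintro s ⟨d, hd0, hd, hs⟩
    obtain ⟨p, hp, h0⟩ := isIntegralElem_jqNModC hA (d := d) fun h => hN (h.trans hd)
    let ev : k[X] →+* k⟮x⟯ := (aeval (⟨x, mem_adjoin_simple_self k x⟩ : k⟮x⟯)).toRingHom
    refine ⟨p.map ev, hp.map _, ?_⟩
    apply (algebraMap E (LaurentSeries k)).injective
    rw [eval₂_map, hom_eval₂, map_zero]
    refine Eq.trans ?_ h0
    congr 1
    · refine Polynomial.ringHom_ext (fun a => ?_) ?_
      · simp [ev, HahnSeries.C_apply, ModularCurve.algebraMap_laurentSeries_eq_single]
      · simp [ev, x]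
        rfl
  have hgen : IntermediateField.adjoin k S = ⊤ := by
    apply IntermediateField.map_injective E.val
    rw [IntermediateField.adjoin_map, ← AlgHom.fieldRange_eq_map, IntermediateField.fieldRange_val]
    refine le_antisymm (adjoin_le_iff.mpr ?_) (adjoin_le_iff.mpr fun s hs => ?_)
    · rintro _ ⟨s, -, rfl⟩
      exact s.2
    · exact subset_adjoin k _ ⟨⟨s, subset_adjoin k _ hs⟩, hs, rfl⟩
  have htop : IntermediateField.adjoin k⟮x⟯ S = ⊤ := by
    rw [eq_top_iff]
    intro z _
    have hz : z ∈ IntermediateField.adjoin k S := by rw [hgen]; trivial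
    have hle : IntermediateField.adjoin k S ≤
        (IntermediateField.adjoin k⟮x⟯ S).restrictScalars k :=
      adjoin_le_iff.mpr fun s hs =>
        (IntermediateField.mem_restrictScalars k).mpr (subset_adjoin _ _ hs)
    exact (IntermediateField.mem_restrictScalars k).mp (hle hz)
  have := IntermediateField.finiteDimensional_adjoin hint
  rw [htop] at this
  exact (IntermediateField.topEquiv (F := k⟮x⟯) (E := E)).toLinearEquiv.finiteDimensional

variable {N : ℕ} [NeZero N]

/-- The Gauss model of `X₀(N)` over a place of `ℚ̄`. -/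
def barModel (hA : A.LiesOverPrime ℓ) (hN : ¬ ℓ ∣ N) : GaussModel Qb (IsLocalRing.ResidueField A) :=
  letI : Algebra Qb ℂ := iotaC.toAlgebra
  levelModel N A (IsLocalRing.residue A) IsLocalRing.residue_surjective
    (fun a => by rw [IsLocalRing.residue_eq_zero_iff]; rfl) (indep_residueField hA hN)
    (by
      obtain ⟨Φ, hΦ, h0⟩ := exists_relation_ratVal (N := N) hA hN
      let ι : ratVal A →+* A :=
        ((algebraMap ℚ Qb).comp (ratVal A).subtype).codRestrict A.toSubring fun q => q.2
      refine ⟨Φ.map (mapRingHom ι), hΦ.map _, ?_⟩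
      have h2 := congrArg (coeffMap (algebraMap ℚ Qb)) h0
      rw [map_zero, hom_eval₂, ModularCurve.coeffMap_jqNModC] at h2
      rw [eval₂_map, ← h2]
      congr 1
      refine RingHom.ext fun p => ?_
      show evalJ Qb ((p.map ι).map A.subtype) = coeffMap _ (evalJ ℚ (p.map (ratVal A).subtype))
      rw [evalJ, evalJ, coe_eval₂RingHom, coe_eval₂RingHom, coeffMap_eval₂_jqModC,
        Polynomial.map_map, Polynomial.map_map]
      rfl)

/-- The lift with bounded poles, over `A`. -/
theorem exists_bounded_lift_bar (hA : A.LiesOverPrime ℓ) (hN : ¬ ℓ ∣ N) :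
    ∃ n0 : ℕ, ∀ n, n0 ≤ n → ∀ (y : LaurentSeries A), jqModC A * y = 1 →
      ∀ z ∈ modularFunctionFieldFullC (IsLocalRing.ResidueField A) N,
        (eval₂RingHom HahnSeries.C (jqModC (IsLocalRing.ResidueField A))).IsIntegralElem z →
        (eval₂RingHom HahnSeries.C (jqModC (IsLocalRing.ResidueField A))⁻¹).IsIntegralElem
          (z * (jqModC (IsLocalRing.ResidueField A))⁻¹ ^ n) →
        ∃ s : LaurentSeries A, coeffMap A.subtype s ∈ jField Qb N ∧
          coeffMap (IsLocalRing.residue A) s = z ∧
          (eval₂RingHom HahnSeries.C (jqModC A)).IsIntegralElem s ∧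
          (eval₂RingHom HahnSeries.C y).IsIntegralElem (s * y ^ n) := by
  have := isAlgClosed_residueField A
  obtain ⟨M, m, _, haux, hNM, hM⟩ := exists_auxLevel N hN
  refine ⟨(Gamma0 N).index * N, fun n hn y hy z hz hint hinf => ?_⟩
  set D := redDatum A hA M hM
  let e : A ≃+* D.R := subringCEquiv A
  have hy' : jqModC D.R * coeffMap (e : A →+* D.R) y = 1 := by
    rw [← ModularCurve.coeffMap_jqModC (e : A →+* D.R), ← map_mul, hy, map_one]
  obtain ⟨s, p, q, hsz, hq, hspq, hi1, hi2⟩ :=
    D.exists_bounded_lift haux hNM hn hz hint hinf hy'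
  set ψ : LaurentSeries D.R →+* LaurentSeries A := coeffMap (e.symm : D.R →+* A)
  have hψy : ψ (coeffMap (e : A →+* D.R) y) = y := by
    ext i; simp [ψ]
  have hev : ∀ x, ψ.comp (eval₂RingHom HahnSeries.C x) =
      (eval₂RingHom HahnSeries.C (ψ x)).comp (mapRingHom (e.symm : D.R →+* A)) := fun x =>
    Polynomial.ringHom_ext (fun a => by simp [ψ, HahnSeries.C_apply]) (by simp)
  have htransfer : ∀ x w, (eval₂RingHom HahnSeries.C x).IsIntegralElem w →
      (eval₂RingHom HahnSeries.C (ψ x)).IsIntegralElem (ψ w) := fun x w ⟨P, hP, h0⟩ => by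
    refine ⟨P.map (mapRingHom (e.symm : D.R →+* A)), hP.map _, ?_⟩
    rw [eval₂_map, ← hev, ← hom_eval₂, h0, map_zero]
  refine ⟨ψ s, ?_, ?_, ?_, ?_⟩
  · set θ : LaurentSeries D.R →+* LaurentSeries Qb := (coeffMap A.subtype).comp ψ
    have hmem : ∀ p : D.R[X][X], θ (evJN D.R N p) ∈ jField Qb N := fun p => by
      rw [evJN, coe_eval₂RingHom, hom_eval₂, eval₂_eq_sum_range]
      refine sum_mem fun i _ => mul_mem ?_ (pow_mem ?_ _)
      · rw [RingHom.comp_apply, coe_eval₂RingHom, hom_eval₂, eval₂_eq_sum_range]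
        refine sum_mem fun j _ => mul_mem ?_ (pow_mem ?_ _)
        · rw [RingHom.comp_apply, HahnSeries.C_apply,
            show θ (HahnSeries.single 0 _) =
                HahnSeries.single 0 (((e.symm ((p.coeff i).coeff j) : A) : Qb)) by
              simp [θ, ψ], ← ModularCurve.algebraMap_laurentSeries_eq_single]
          exact (jField Qb N).algebraMap_mem _
        · rw [show θ (jqModC D.R) = jqModC Qb by simp [θ, ψ, ModularCurve.coeffMap_jqModC],
            ← coe_jElt Qb N]
          exact (jElt Qb N).2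
      · rw [show θ (jqNModC D.R N) = jqNModC Qb N by simp [θ, ψ, ModularCurve.coeffMap_jqNModC],
          ← coe_jNElt Qb N]
        exact (jNElt Qb N).2
    have hθ : Function.Injective θ := fun a b h => by
      refine HahnSeries.ext (funext fun i => e.symm.injective (Subtype.ext ?_))
      exact congrArg (fun s : LaurentSeries Qb => s.coeff i) h
    have hq' : θ (evJN D.R N q) ≠ 0 := (map_ne_zero_iff θ hθ).mpr fun h => hq (by rw [h, map_zero])
    show θ s ∈ _
    rw [eq_div_of_mul_eq hq' ((map_mul θ _ _).symm.trans (congrArg θ hspq))]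
    exact div_mem (hmem p) (hmem q)
  · rw [← hsz]
    ext i
    simp only [ψ, ModularCurve.coeffMap_coeff]
    rfl
  · have h1 := htransfer _ _ hi1
    rwa [show ψ (jqModC D.R) = jqModC A from ModularCurve.coeffMap_jqModC _] at h1
  · have h1 := htransfer _ _ hi2
    rwa [hψy, map_mul, map_pow, hψy] at h1

theorem mem_fullC_jq (K : Type*) [Field K] :
    jqModC K ∈ modularFunctionFieldFullC K N ∧ jqNModC K N ∈ modularFunctionFieldFullC K N :=
  ⟨ModularCurve.jqModC_mem_full K N, ModularCurve.jqModCd_mem_full K N dvd_rfl⟩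

/-- Integrality over `k[x]` inside Laurent series. -/
theorem intOver_iff_eval₂ {k : Type*} [Field k] {E : IntermediateField k (LaurentSeries k)}
    {x z : E} : IntOver k x z ↔
      (eval₂RingHom HahnSeries.C (x : LaurentSeries k)).IsIntegralElem (z : LaurentSeries k) := by
  have he : (algebraMap E (LaurentSeries k)).comp (aeval (R := k) x).toRingHom =
      eval₂RingHom HahnSeries.C (x : LaurentSeries k) :=
    Polynomial.ringHom_ext (fun a => by
      simp [HahnSeries.C_apply, ← ModularCurve.algebraMap_laurentSeries_eq_single]) (by simp)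
  constructor
  · rintro ⟨p, hp, h0⟩
    refine ⟨p, hp, ?_⟩
    rw [← he, show (z : LaurentSeries k) = algebraMap E (LaurentSeries k) z from rfl, ← hom_eval₂,
      h0, map_zero]
  · rintro ⟨p, hp, h0⟩
    refine ⟨p, hp, (algebraMap E (LaurentSeries k)).injective ?_⟩
    rw [hom_eval₂, he, map_zero]
    exact h0

/-- The chart at `j` is regular: residual functions integral over `k[j]` lift. -/
theorem regular_barModel (hA : A.LiesOverPrime ℓ) (hN : ¬ ℓ ∣ N) :
    (barModel hA hN).Regular (modularFunctionFieldFullC (IsLocalRing.ResidueField A) N) := by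
  set k := IsLocalRing.ResidueField A
  have hxm : coeffMap (IsLocalRing.residue A) (jqModC A) = jqModC k :=
    ModularCurve.coeffMap_jqModC _
  refine ⟨?_, ?_, ?_⟩
  · show coeffMap (IsLocalRing.residue A) (jqModC A) ∈ _
    rw [hxm]; exact (mem_fullC_jq k).1
  · intro i
    show coeffMap (IsLocalRing.residue A) (jqNModC A N ^ (i : ℕ)) ∈ _
    rw [map_pow, ModularCurve.coeffMap_jqNModC]
    exact pow_mem (mem_fullC_jq k).2 _
  · intro z hz
    rw [intOver_iff_eval₂] at hz
    change (eval₂RingHom HahnSeries.C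
      (coeffMap (IsLocalRing.residue A) (jqModC A))).IsIntegralElem _ at hz
    rw [hxm] at hz
    obtain ⟨n0, hn0⟩ := exists_bounded_lift_bar hA hN
    obtain ⟨y, hy⟩ := (isUnit_jqModC A).exists_right_inv
    have hjk : jqModC k * (jqModC k)⁻¹ = 1 :=
      mul_inv_cancel₀ (ModularCurve.jqModC_ne_zero_of_nontrivial k)
    obtain ⟨m, hm⟩ := GaussModel.exists_isIntegralElem_mul_pow
      (HahnSeries.C : k →+* LaurentSeries k) hjk hz
    obtain ⟨s, hs, hsz, hi, -⟩ := hn0 (max n0 m) (le_max_left _ _) y hy z z.2 hz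
      (hm _ (le_max_right _ _))
    refine ⟨⟨⟨coeffMap A.subtype s, hs⟩, (barModel hA hN).incl_mem_chart (s := s) hs hi⟩, ?_⟩
    rw [← hsz]
    exact (barModel hA hN).red_incl (s := s) hs

/-- The chart at `1/j` is regular. -/
theorem regular_invCoord (hA : A.LiesOverPrime ℓ) (hN : ¬ ℓ ∣ N) {y : LaurentSeries A}
    (hy : jqModC A * y = 1) :
    ((barModel hA hN).invCoord (y := y) hy).Regular
      (modularFunctionFieldFullC (IsLocalRing.ResidueField A) N) := by
  set k := IsLocalRing.ResidueField A
  have hjk0 : jqModC k ≠ 0 := ModularCurve.jqModC_ne_zero_of_nontrivial k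
  have hyk : coeffMap (IsLocalRing.residue A) y = (jqModC k)⁻¹ := eq_inv_of_mul_eq_one_right (by
    rw [← ModularCurve.coeffMap_jqModC (IsLocalRing.residue A), ← map_mul, hy, map_one])
  refine ⟨?_, ?_, ?_⟩
  · show coeffMap (IsLocalRing.residue A) y ∈ _
    rw [hyk]; exact inv_mem (mem_fullC_jq k).1
  · intro i
    have key : ∀ e : ℕ, coeffMap (IsLocalRing.residue A) (jqNModC A N ^ (i : ℕ) * y ^ e) ∈
        modularFunctionFieldFullC k N := fun e => by
      rw [map_mul, map_pow, map_pow, hyk, ModularCurve.coeffMap_jqNModC]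
      exact mul_mem (pow_mem (mem_fullC_jq k).2 _) (pow_mem (inv_mem (mem_fullC_jq k).1) _)
    exact key _
  · intro z hz
    rw [intOver_iff_eval₂] at hz
    change (eval₂RingHom HahnSeries.C (coeffMap (IsLocalRing.residue A) y)).IsIntegralElem _ at hz
    rw [hyk] at hz
    obtain ⟨n0, hn0⟩ := exists_bounded_lift_bar hA hN
    obtain ⟨m, hm⟩ := GaussModel.exists_isIntegralElem_mul_pow
      (HahnSeries.C : k →+* LaurentSeries k) (inv_mul_cancel₀ hjk0) hz
    set n := max n0 m
    have hz' : (z : LaurentSeries k) * jqModC k ^ n ∈ modularFunctionFieldFullC k N :=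
      mul_mem z.2 (pow_mem (mem_fullC_jq k).1 _)
    obtain ⟨s, hs, hsz, -, hi⟩ := hn0 n (le_max_left _ _) y hy _ hz' (hm n (le_max_right _ _)) (by
      rw [mul_assoc, ← mul_pow, mul_inv_cancel₀ hjk0, one_pow, mul_one]; exact hz)
    have hyF : coeffMap A.subtype y ∈ (barModel hA hN).F :=
      ((barModel hA hN).invCoord (y := y) hy).x_mem
    have hs' : coeffMap A.subtype (s * y ^ n) ∈ (barModel hA hN).F := by
      rw [map_mul, map_pow]; exact mul_mem hs (pow_mem hyF _)
    refine ⟨⟨⟨coeffMap A.subtype (s * y ^ n), hs'⟩,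
      ((barModel hA hN).invCoord (y := y) hy).incl_mem_chart (s := s * y ^ n) hs' hi⟩, ?_⟩
    refine (((barModel hA hN).invCoord (y := y) hy).red_incl (s := s * y ^ n) hs').trans ?_
    show coeffMap (IsLocalRing.residue A) (s * y ^ n) = _
    rw [map_mul, map_pow, hsz, hyk, mul_assoc, ← mul_pow, mul_inv_cancel₀ hjk0, one_pow, mul_one]

/-- Reductions of integral expansions of level `N` lie in the residual field. -/
theorem coeffMap_residue_mem_fullC (hA : A.LiesOverPrime ℓ) (hN : ¬ ℓ ∣ N) (s : LaurentSeries A)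
    (hs : coeffMap A.subtype s ∈ ModularCurve.modularFunctionFieldBar N) :
    coeffMap (IsLocalRing.residue A) s ∈
      modularFunctionFieldFullC (IsLocalRing.ResidueField A) N := by
  rw [modularFunctionFieldBar_eq_jField] at hs
  have h1 := (regular_barModel hA hN).red_mem ((barModel hA hN).ofSer s hs)
  rwa [(barModel hA hN).red_incl] at h1

/-- The reduction inputs for an arbitrary description of the function field. -/
theorem exists_reduction_for (hA : A.LiesOverPrime ℓ) (hN : ¬ ℓ ∣ N)
    (E : IntermediateField Qb (LaurentSeries Qb)) (hE : E = jField Qb N) :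
    ∃ r : Place Qb E → Place (IsLocalRing.ResidueField A)
        (modularFunctionFieldFullC (IsLocalRing.ResidueField A) N),
      ((∀ P, (r P).deg = P.deg) ∧
        ∀ (s : LaurentSeries A) (hs : coeffMap A.subtype s ∈ E)
          (hsk : coeffMap (IsLocalRing.residue A) s ∈
            modularFunctionFieldFullC (IsLocalRing.ResidueField A) N),
          coeffMap (IsLocalRing.residue A) s ≠ 0 →
            ∀ D : Divisor Qb E, (∀ P, D P = P.ord (⟨coeffMap A.subtype s, hs⟩ : E)) →
              ∀ Q, Finsupp.mapDomain r D Q = Q.ord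
                (⟨coeffMap (IsLocalRing.residue A) s, hsk⟩ :
                  modularFunctionFieldFullC (IsLocalRing.ResidueField A) N)) ∧
      Divisor.principal (K := Qb) (F := E) ≤ AddSubgroup.closure
        {D : Divisor Qb E | ∃ (s : LaurentSeries A) (hs : coeffMap A.subtype s ∈ E),
          coeffMap (IsLocalRing.residue A) s ∈
              modularFunctionFieldFullC (IsLocalRing.ResidueField A) N ∧
            coeffMap (IsLocalRing.residue A) s ≠ 0 ∧
              ∀ P, D P = P.ord (⟨coeffMap A.subtype s, hs⟩ : E)} := by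
  subst hE
  have := isAlgClosed_residueField A
  set G := barModel hA hN
  have : IsFF Qb G.F := G.isFF_F
  have := isFF_fullC hA hN
  have : IsFF Qb (jField Qb N) := G.isFF_F
  have hR := regular_barModel hA hN
  obtain ⟨y, hy⟩ := (isUnit_jqModC A).exists_right_inv
  have hR' := regular_invCoord hA hN hy
  have : Nonempty (Place (IsLocalRing.ResidueField A)
      (modularFunctionFieldFullC (IsLocalRing.ResidueField A) N)) :=
    hR.nonempty_place (Nat.pos_of_ne_zero Subgroup.FiniteIndex.index_ne_zero)
  refine ⟨hR.specAll (G := G) hy hR', ⟨fun P => by rw [deg_eq_one, deg_eq_one],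
    fun s hs hsk hne D hD Q => hR.mapDomain_specAll (G := G) hy hR' hs hsk hne D hD Q⟩, ?_⟩
  rintro D ⟨f, hf0, hD⟩
  obtain ⟨l, Q, P, hl, hQ, ⟨i, hi⟩, he⟩ := G.exists_normal f.2 (fun h => hf0 (Subtype.ext h))
  set fc : G.F := ⟨G.incl (G.comb P), G.incl_comb_mem P⟩
  set fq : G.F := ⟨G.incl (G.evR Q), G.incl_evR_mem Q⟩
  have hc0 : G.redS (G.comb P) ≠ 0 := by rw [G.redS_comb]; exact G.combk_ne_zero hi
  have hq0 : G.redS (G.evR Q) ≠ 0 := by rw [G.redS_evR]; exact G.evk_ne_zero hQ
  have hfc0 : fc ≠ 0 := fun h => hc0 (by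
    rw [G.incl_injective ((congrArg Subtype.val h).trans (map_zero G.incl).symm), map_zero])
  have hfq0 : fq ≠ 0 := fun h => G.incl_evR_ne_zero hQ (congrArg Subtype.val h)
  have hmem : ∀ s, G.incl s ∈ G.F → G.redS s ∈
      modularFunctionFieldFullC (IsLocalRing.ResidueField A) N := fun s hs => by
    rw [← G.red_incl hs]; exact hR.red_mem _
  set fG : G.F := ⟨(f : LaurentSeries Qb), f.2⟩
  have hfG0 : fG ≠ 0 := fun h => hf0 (Subtype.ext (congrArg Subtype.val h :))
  have hrel : fG * fq = algebraMap Qb G.F l * fc := Subtype.ext (by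
    show (f : LaurentSeries Qb) * G.incl (G.evR Q) = algebraMap Qb (LaurentSeries Qb) l * _
    rw [he, HahnSeries.C_apply, ← ModularCurve.algebraMap_laurentSeries_eq_single])
  have key : ∀ v : Place Qb G.F, v.ord fG = v.ord fc - v.ord fq := fun v => by
    have h1 := congrArg v.ord hrel
    rw [v.ord_mul hfG0 hfq0, v.ord_mul ((_root_.map_ne_zero _).mpr hl) hfc0, ord_algebraMap hl,
      zero_add] at h1
    omega
  have hDeq : D = (divisorOf fc - divisorOf fq : Divisor Qb G.F) := Finsupp.ext fun v =>
    (hD v).trans (key v)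
  rw [hDeq]
  refine AddSubgroup.sub_mem _ (AddSubgroup.subset_closure ?_) (AddSubgroup.subset_closure ?_)
  · exact ⟨G.comb P, G.incl_comb_mem P, hmem _ (G.incl_comb_mem P), hc0, fun v => rfl⟩
  · exact ⟨G.evR Q, G.incl_evR_mem Q, hmem _ (G.incl_evR_mem Q), hq0, fun v => rfl⟩

/-- **Reduction inputs at every prime of good reduction.** -/
theorem reductionInputsModL (N : ℕ) [NeZero N] {ℓ : ℕ} [Fact ℓ.Prime] (hN : ¬ ℓ ∣ N)
    (A : ValuationSubring (AlgebraicClosure ℚ)) (hA : A.LiesOverPrime ℓ) :
    ModularCurve.ReductionInputsModL A N :=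
  exists_reduction_for hA hN _ (modularFunctionFieldBar_eq_jField N)

end FermatAgent.Curve.Red
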