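import Fermat.Agent.Curve.Red.Setup
import Fermat.Agent.ECLocal.PlaceVal
import Mathlib

/-!
# The reduction datum attached to a place of `ℚ̄` above `ℓ ∤ M`

For a valuation ring `A` of `ℚ̄` over `ℓ`, the image of `A` under a fixed embedding `ℚ̄ → ℂ`,
with reduction onto the residue field, is a `RedDatum` of level `M`: the valuation is
archimedean, and `1 - ζ ^ i` is a unit for `ζ` of order `M` and `M ∤ i`.
-/

set_option autoImplicit false

open Polynomial

noncomputable section

namespace FermatAgent.Curve.Red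

open FermatAgent.ES
open FermatAgent.ECLocal (valuation_intCast_eq_one valuation_intCast_le valuation_natCast_lt_one)

local notation "Qb" => AlgebraicClosure ℚ

theorem qb_isAlgebraic : Algebra.IsAlgebraic ℚ Qb := AlgebraicClosure.isAlgebraic ℚ

attribute [local instance] qb_isAlgebraic

/-- A fixed embedding of `ℚ̄` in `ℂ`. -/
def iotaC : Qb →+* ℂ := (IsAlgClosed.lift (R := ℚ) (S := Qb) (M := ℂ)).toRingHom

variable {A : ValuationSubring Qb} {ℓ : ℕ}

/-- A primitive integral polynomial with root `x`, with nonzero constant term if `x ≠ 0`. -/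
theorem exists_int_poly (x : Qb) : ∃ P : ℤ[X], P.IsPrimitive ∧ aeval x P = 0 ∧
    (x ≠ 0 → P.coeff 0 ≠ 0) := by
  have hint : IsIntegral ℚ x := Algebra.IsIntegral.isIntegral x
  obtain ⟨b, hb0, hb⟩ :=
    IsLocalization.integerNormalization_spec (nonZeroDivisors ℤ) (minpoly ℚ x)
  set Q := IsLocalization.integerNormalization (nonZeroDivisors ℤ) (minpoly ℚ x) with hQ
  have hQ0 : aeval x Q = 0 :=
    IsLocalization.integerNormalization_aeval_eq_zero _ _ (minpoly.aeval ℚ x)
  have hne : Q ≠ 0 := fun h => by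
    have h1 := congrArg (fun p : ℚ[X] => p.coeff (minpoly ℚ x).natDegree) hb
    simp only [coeff_smul, coeff_map, h, coeff_zero, map_zero,
      (minpoly.monic hint).coeff_natDegree] at h1
    simp [zsmul_eq_mul] at h1
    exact nonZeroDivisors.ne_zero hb0 (by exact_mod_cast h1.symm)
  refine ⟨Q.primPart, Q.isPrimitive_primPart, ?_, fun hx h0 => ?_⟩
  · have hc : Q.content ≠ 0 := content_eq_zero_iff.not.mpr hne
    have : algebraMap ℤ Qb Q.content * aeval x Q.primPart = 0 := by
      rw [← aeval_C (R := ℤ) x, ← map_mul, ← eq_C_content_mul_primPart, hQ0]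
    exact (mul_eq_zero.mp this).resolve_left (by simp [hc])
  · have h1 : Q.coeff 0 = 0 := by
      rw [eq_C_content_mul_primPart Q, coeff_C_mul, h0, mul_zero]
    have h2 := congrArg (fun p : ℚ[X] => p.coeff 0) hb
    simp only [coeff_smul, coeff_map, h1, map_zero] at h2
    have h3 : (minpoly ℚ x).coeff 0 = 0 := by
      simpa [zsmul_eq_mul, nonZeroDivisors.ne_zero hb0] using h2.symm
    exact minpoly.coeff_zero_ne_zero hint hx h3

/-- A power of a nonunit is divisible by `ℓ`. -/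
theorem exists_pow_le_natCast [hℓ : Fact ℓ.Prime] (hA : A.LiesOverPrime ℓ) {a : Qb}
    (ha : A.valuation a < 1) : ∃ i : ℕ, A.valuation a ^ i ≤ A.valuation (ℓ : Qb) := by
  classical
  rcases eq_or_ne a 0 with rfl | ha0
  · exact ⟨1, by simp⟩
  obtain ⟨P, hP, hroot, -⟩ := exists_int_poly a
  have hex : ∃ i, ¬ (ℓ : ℤ) ∣ P.coeff i := by
    by_contra! h
    have := hP (ℓ : ℤ) (C_dvd_iff_dvd_coeff _ _ |>.mpr h)
    exact (Nat.prime_iff_prime_int.mp hℓ.out).not_isUnit this
  set i := Nat.find hex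
  refine ⟨i, not_lt.mp fun hlt => ?_⟩
  have hv0 : 0 < A.valuation a ^ i :=
    pow_pos (zero_lt_iff.mpr ((Valuation.ne_zero_iff _).mpr ha0)) i
  have hle : i ≤ P.natDegree := le_natDegree_of_ne_zero fun h => Nat.find_spec hex (by
    show (ℓ : ℤ) ∣ P.coeff i
    rw [h]; exact dvd_zero _)
  rw [aeval_eq_sum_range, ← Finset.add_sum_erase _ _ (Finset.mem_range.mpr (Nat.lt_succ_of_le hle))]
    at hroot
  have hmain : A.valuation (P.coeff i • a ^ i) = A.valuation a ^ i := by
    rw [zsmul_eq_mul, map_mul, valuation_intCast_eq_one hℓ.out hA (Nat.find_spec hex),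
      one_mul, map_pow]
  have hrest : A.valuation (∑ j ∈ (Finset.range (P.natDegree + 1)).erase i, P.coeff j • a ^ j) <
      A.valuation a ^ i := by
    refine Valuation.map_sum_lt _ hv0.ne' fun j hj => ?_
    rw [zsmul_eq_mul, map_mul, map_pow]
    rcases lt_or_gt_of_ne (Finset.ne_of_mem_erase hj) with hji | hji
    · obtain ⟨u, hu⟩ : (ℓ : ℤ) ∣ P.coeff j := not_not.mp (Nat.find_min hex hji)
      refine lt_of_le_of_lt ?_ hlt
      rw [hu, Int.cast_mul, map_mul, Int.cast_natCast]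
      exact (mul_le_of_le_one_right' (pow_le_one₀ zero_le ha.le)).trans
        (mul_le_of_le_one_right' (valuation_intCast_le A u))
    · refine lt_of_le_of_lt (mul_le_of_le_one_left' (valuation_intCast_le A _)) ?_
      exact pow_lt_pow_right_of_lt_one₀ (zero_lt_iff.mpr ((Valuation.ne_zero_iff _).mpr ha0)) ha hji
  have := congrArg A.valuation (eq_neg_of_add_eq_zero_left hroot)
  rw [hmain, Valuation.map_neg] at this
  exact hrest.ne this.symm

/-- A nonzero element of the valuation ring divides a power of `ℓ`. -/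
theorem exists_natCast_pow_le [hℓ : Fact ℓ.Prime] (hA : A.LiesOverPrime ℓ) {c : Qb}
    (hc : c ∈ A) (hc0 : c ≠ 0) : ∃ n : ℕ, A.valuation (ℓ : Qb) ^ n ≤ A.valuation c := by
  obtain ⟨P, -, hroot, hP0⟩ := exists_int_poly c
  obtain ⟨n, u, hu, e⟩ := WfDvdMonoid.max_power_factor (hP0 hc0)
    (Nat.prime_iff_prime_int.mp hℓ.out).irreducible
  refine ⟨n, ?_⟩
  have h1 : A.valuation ((P.coeff 0 : ℤ) : Qb) = A.valuation (ℓ : Qb) ^ n := by
    rw [e, Int.cast_mul, map_mul, valuation_intCast_eq_one hℓ.out hA hu, mul_one, Int.cast_pow,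
      map_pow,
      Int.cast_natCast]
  rw [← h1]
  conv at hroot =>
    lhs
    rw [← X_mul_divX_add P, map_add, map_mul, aeval_X, aeval_C]
  rw [show ((P.coeff 0 : ℤ) : Qb) = -(c * aeval c P.divX) by
    rw [eq_intCast] at hroot; linear_combination hroot, Valuation.map_neg, map_mul]
  refine mul_le_of_le_one_right' ((A.valuation_le_one_iff _).mpr ?_)
  rw [aeval_eq_sum_range]
  exact sum_mem fun j _ => zsmul_mem (pow_mem hc j) _

/-- The valuation is archimedean. -/
theorem exists_pow_div_mem [Fact ℓ.Prime] (hA : A.LiesOverPrime ℓ) {a c : Qb}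
    (ha : A.valuation a < 1) (hc : c ∈ A) (hc0 : c ≠ 0) : ∃ n : ℕ, a ^ n / c ∈ A := by
  obtain ⟨i, hi⟩ := exists_pow_le_natCast hA ha
  obtain ⟨n, hn⟩ := exists_natCast_pow_le hA hc hc0
  refine ⟨i * n, (A.valuation_le_one_iff _).mp ?_⟩
  rw [map_div₀, map_pow, pow_mul,
    div_le_one₀ (zero_lt_iff.mpr ((Valuation.ne_zero_iff _).mpr hc0))]
  exact (pow_le_pow_left₀ zero_le hi n).trans hn

/-- A primitive root of unity of `ℚ̄` sent to `e^{2πi/M}`. -/
theorem exists_iotaC_eq_zetaC (M : ℕ) [NeZero M] :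
    ∃ z : Qb, IsPrimitiveRoot z M ∧ iotaC z = zetaC M := by
  obtain ⟨z, hz⟩ := HasEnoughRootsOfUnity.exists_primitiveRoot Qb M
  have h := hz.map_of_injective iotaC.injective
  obtain ⟨i, hi, he⟩ := h.eq_pow_of_pow_eq_one (zetaC_isPrimitiveRoot M).pow_eq_one
  refine ⟨z ^ i, ?_, by rw [map_pow, he]⟩
  rw [← IsPrimitiveRoot.map_iff_of_injective (f := iotaC) iotaC.injective, map_pow, he]
  exact zetaC_isPrimitiveRoot M

/-- For `ℓ ∤ M` and `z` of order `M`, each nonzero `1 - z ^ i` is a unit at `ℓ`: their product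
is `M`. -/
theorem valuation_one_sub_pow_eq_one [hℓ : Fact ℓ.Prime] (hA : A.LiesOverPrime ℓ) {M : ℕ}
    [NeZero M] (hM : ¬ ℓ ∣ M) {z : Qb} (hz : IsPrimitiveRoot z M) :
    z ∈ A ∧ ∀ i : ℕ, ¬ M ∣ i → A.valuation (1 - z ^ i) = 1 := by
  have hzv : A.valuation z = 1 := by
    have h := congrArg A.valuation hz.pow_eq_one
    rw [map_pow, map_one] at h
    exact (pow_eq_one_iff_of_nonneg zero_le (NeZero.ne M)).mp h
  have hzA : z ∈ A := (A.valuation_le_one_iff _).mp hzv.le
  refine ⟨hzA, fun i hi => ?_⟩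
  obtain ⟨n, rfl⟩ : ∃ n, M = n + 1 := ⟨M - 1, (Nat.sub_add_cancel NeZero.one_le).symm⟩
  have hprod := congrArg A.valuation hz.prod_one_sub_pow_eq_order
  rw [map_prod, show ((n : Qb) + 1) = ((n + 1 : ℕ) : Qb) by push_cast; rfl,
    ECLocal.valuation_natCast_eq_one hℓ.out hA hM] at hprod
  have hle : ∀ j : ℕ, A.valuation (1 - z ^ j) ≤ 1 := fun j =>
    (A.valuation_le_one_iff _).mpr (sub_mem (one_mem _) (pow_mem hzA j))
  have hmod : z ^ i = z ^ (i % (n + 1)) := pow_eq_pow_mod i hz.pow_eq_one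
  have hi0 : i % (n + 1) ≠ 0 := fun h => hi (Nat.dvd_of_mod_eq_zero h)
  have hi1 : i % (n + 1) - 1 ∈ Finset.range n :=
    Finset.mem_range.mpr (by have := Nat.mod_lt i (show 0 < n + 1 by omega); omega)
  rw [hmod]
  refine le_antisymm (hle _) (not_lt.mp fun hlt => ?_)
  rw [← Finset.mul_prod_erase _ _ hi1, Nat.sub_add_cancel (Nat.one_le_iff_ne_zero.mpr hi0)]
    at hprod
  have : A.valuation (1 - z ^ (i % (n + 1))) *
      ∏ j ∈ (Finset.range n).erase (i % (n + 1) - 1), A.valuation (1 - z ^ (j + 1)) < 1 :=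
    mul_lt_one_of_nonneg_of_lt_one_left zero_le hlt (Finset.prod_le_one' fun j _ => hle _)
  exact this.ne hprod

variable (A)

/-- The valuation ring transported into `ℂ`. -/
def subringC : Subring ℂ := A.toSubring.map iotaC

/-- Membership in the copy of `A` in `ℂ`. -/
theorem iotaC_mem_subringC {x : Qb} : iotaC x ∈ subringC A ↔ x ∈ A :=
  ⟨fun ⟨_, hy, h⟩ => iotaC.injective h ▸ hy, fun h => ⟨x, h, rfl⟩⟩

/-- The identification of `A` with its image. -/
def subringCEquiv : A ≃+* subringC A :=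
  A.toSubring.equivMapOfInjective iotaC iotaC.injective

@[simp] theorem coe_subringCEquiv (x : A) : ((subringCEquiv A x : subringC A) : ℂ) = iotaC x := rfl

/-- Units of the copy of `A` are the units of `A`. -/
theorem unitIn_subringC_iff (x : A) :
    UnitIn (subringC A) (iotaC (x : Qb)) ↔ IsUnit x := by
  rw [A.valuation_eq_one_iff]
  constructor
  · rintro ⟨h0, -, hinv⟩
    rw [← map_inv₀, iotaC_mem_subringC, ← A.valuation_le_one_iff, map_inv₀] at hinv
    have hx0 : (0 : A.ValueGroup) < A.valuation (x : Qb) :=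
      zero_lt_iff.mpr ((Valuation.ne_zero_iff _).mpr fun h => h0 (by rw [h, map_zero]))
    exact le_antisymm (A.valuation_le_one x) (by rwa [inv_le_one₀ hx0] at hinv)
  · intro h
    have hx0 : (x : Qb) ≠ 0 := fun h0 => by simp [h0] at h
    refine ⟨fun h0 => hx0 (iotaC.injective (by rwa [map_zero])), (iotaC_mem_subringC A).mpr x.2, ?_⟩
    rw [← map_inv₀, iotaC_mem_subringC, ← A.valuation_le_one_iff, map_inv₀, h, inv_one]

/-- The datum at `A` for a level prime to the residue characteristic. -/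
def redDatum [hℓ : Fact ℓ.Prime] (hA : A.LiesOverPrime ℓ) (M : ℕ) [NeZero M] (hM : ¬ ℓ ∣ M) :
    RedDatum M (IsLocalRing.ResidueField A) where
  L := iotaC.fieldRange
  R := subringC A
  le := by rintro _ ⟨x, -, rfl⟩; exact ⟨x, rfl⟩
  val := by
    rintro _ ⟨x, rfl⟩
    rcases A.mem_or_inv_mem x with h | h
    · exact Or.inl ((iotaC_mem_subringC A).mpr h)
    · exact Or.inr (by rw [← map_inv₀]; exact (iotaC_mem_subringC A).mpr h)
  π := (IsLocalRing.residue A).comp (subringCEquiv A).symm.toRingHom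
  surj := IsLocalRing.residue_surjective.comp (subringCEquiv A).symm.surjective
  unit_iff x := by
    obtain ⟨y, rfl⟩ := (subringCEquiv A).surjective x
    simp [unitIn_subringC_iff, IsLocalRing.residue_eq_zero_iff]
  arch := by
    rintro _ _ ⟨a, ha, rfl⟩ ⟨c, hc, rfl⟩ hu hc0
    have hc0' : c ≠ 0 := fun h => hc0 (by rw [h, map_zero])
    have hv : A.valuation a < 1 := by
      refine lt_of_le_of_ne ((A.valuation_le_one_iff _).mpr ha) fun h1 => hu ?_
      exact (unitIn_subringC_iff A ⟨a, ha⟩).mpr ((A.valuation_eq_one_iff ⟨a, ha⟩).mpr h1)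
    obtain ⟨n, hn⟩ := exists_pow_div_mem hA hv hc hc0'
    refine ⟨n, iotaC (a ^ n / c), (iotaC_mem_subringC A).mpr hn, ?_⟩
    rw [← map_pow, ← map_mul, mul_div_cancel₀ _ hc0']
  good := by
    obtain ⟨z, hz, hze⟩ := exists_iotaC_eq_zetaC M
    obtain ⟨hzA, hone⟩ := valuation_one_sub_pow_eq_one hA hM hz
    refine ⟨zetaC_isPrimitiveRoot M, hze ▸ (iotaC_mem_subringC A).mpr hzA, fun i hi => ?_⟩
    set w : A := 1 - ⟨z, hzA⟩ ^ i
    have hw : IsUnit w := (A.valuation_eq_one_iff w).mpr (hone i hi)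
    have := (unitIn_subringC_iff A w).mpr hw
    simpa [w, hze] using this

end FermatAgent.Curve.Red
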