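import Fermat.Agent.Curve.Red.JLevel
import Fermat.Agent.Curve.Red.Datum
import Fermat.Agent.Curve.Red.Gauss
import Fermat.Agent.Curve.ModularDegree

/-!
# Independence and integrality of `j(q^N)` at a prime of good reduction

The powers of `j(q^N)` below the index `ψ` of `Γ₀(N)` are independent over `K[j]` for `K = ℂ` and
for residue fields at `ℓ ∤ N` (`Indep`).  The product of `X - j(N γτ)` over the cosets gives a
monic relation of degree `ψ` with coefficients in `R[j]`; for `R = ℤ_(ℓ)` this is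
`exists_relation_ratVal`.
-/

set_option autoImplicit false

open UpperHalfPlane hiding I
open CongruenceSubgroup Polynomial Metric Filter Topology
open scoped MatrixGroups Manifold
open ModularCurve (coeffMap qExpand jqModC jqNModC coeffMap_coeff)

noncomputable section

namespace FermatAgent.Curve.Red

open FermatAgent.ES

/-- `1, j(q^N), …` up to the index minus one are independent over `K[j]`. -/
def Indep (K : Type*) [Field K] (N : ℕ) [NeZero N] : Prop :=
  ∀ p : ℕ → K[X], (∑ i ∈ Finset.range (Gamma0 N).index,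
    (p i).eval₂ HahnSeries.C (jqModC K) * jqNModC K N ^ i = 0) →
      ∀ i < (Gamma0 N).index, p i = 0

/-- Coefficient maps commute with evaluation at `j`. -/
theorem coeffMap_eval₂_jqModC {R S : Type*} [CommRing R] [CommRing S] (f : R →+* S) (p : R[X]) :
    coeffMap f (p.eval₂ HahnSeries.C (jqModC R)) = (p.map f).eval₂ HahnSeries.C (jqModC S) := by
  rw [hom_eval₂, eval₂_map, ModularCurve.coeffMap_jqModC]
  congr 1
  exact RingHom.ext fun a => by simp [HahnSeries.C_apply]

/-- Independence descends along field homomorphisms. -/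
theorem Indep.descend {K K' : Type*} [Field K] [Field K'] {N : ℕ} [NeZero N] (f : K →+* K')
    (h : Indep K' N) : Indep K N := by
  intro p hp i hi
  have h' := congrArg (coeffMap f) hp
  simp only [map_sum, map_mul, map_pow, coeffMap_eval₂_jqModC, ModularCurve.coeffMap_jqNModC,
    map_zero] at h'
  exact (Polynomial.map_eq_zero f).mp (h (fun i => (p i).map f) h' i hi)

/-- Independence over the residue field of a reduction datum. -/
theorem RedDatum.indep {M m N : ℕ} [NeZero M] [NeZero N] {k : Type*} [Field k] (D : RedDatum M k)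
    (haux : AuxLevel M m) (hNM : N ∣ M) : Indep k N :=
  fun p hp => D.eq_zero_of_relation haux hNM p hp

/-- The trivial datum. -/
def topDatum (M : ℕ) [NeZero M] : RedDatum M ℂ where
  L := ⊤
  R := ⊤
  le _ _ := trivial
  val _ _ := Or.inl trivial
  π := (⊤ : Subring ℂ).subtype
  surj x := ⟨⟨x, trivial⟩, rfl⟩
  unit_iff x := ⟨fun h => ⟨h, trivial, trivial⟩, fun h => h.1⟩
  arch a c _ _ hu hc := by
    refine ⟨1, 0, trivial, ?_⟩
    have : a = 0 := by
      by_contra h
      exact hu ⟨h, trivial, trivial⟩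
    simp [this]
  good := zetaC_goodRoot_top

theorem auxLevel_three_mul (N : ℕ) [NeZero N] : AuxLevel (3 * N) 3 :=
  ⟨Or.inr rfl, Dvd.intro N rfl, by have := Nat.pos_of_ne_zero (NeZero.ne N); omega⟩

theorem auxLevel_four_mul (N : ℕ) [NeZero N] : AuxLevel (4 * N) 2 :=
  ⟨Or.inl rfl, ⟨2 * N, by ring⟩, by have := Nat.pos_of_ne_zero (NeZero.ne N); omega⟩

theorem indep_complex (N : ℕ) [NeZero N] : Indep ℂ N :=
  (topDatum (3 * N)).indep (auxLevel_three_mul N) (dvd_mul_left N 3)

/-- Independence over any subfield of `ℂ`. -/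
theorem indep_of_algebra (K : Type*) [Field K] [Algebra K ℂ] (N : ℕ) [NeZero N] : Indep K N :=
  (indep_complex N).descend (algebraMap K ℂ)

/-- An auxiliary level prime to `ℓ`. -/
theorem exists_auxLevel (N : ℕ) [NeZero N] {ℓ : ℕ} [hℓ : Fact ℓ.Prime] (hN : ¬ ℓ ∣ N) :
    ∃ (M m : ℕ) (_ : NeZero M), AuxLevel M m ∧ N ∣ M ∧ ¬ ℓ ∣ M := by
  by_cases h3 : ℓ = 3
  · refine ⟨4 * N, 2, inferInstance, auxLevel_four_mul N, dvd_mul_left N 4, ?_⟩
    subst h3
    rw [hℓ.out.dvd_mul]
    exact not_or.mpr ⟨by norm_num, hN⟩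
  · refine ⟨3 * N, 3, inferInstance, auxLevel_three_mul N, dvd_mul_left N 3, ?_⟩
    rw [hℓ.out.dvd_mul]
    exact not_or.mpr ⟨fun h => h3 ((Nat.prime_dvd_prime_iff_eq hℓ.out Nat.prime_three).mp h), hN⟩

/-- Independence over the residue field at a good prime. -/
theorem indep_residueField {N ℓ : ℕ} [NeZero N] [Fact ℓ.Prime]
    {A : ValuationSubring (AlgebraicClosure ℚ)} (hA : A.LiesOverPrime ℓ) (hN : ¬ ℓ ∣ N) :
    Indep (IsLocalRing.ResidueField A) N := by
  obtain ⟨M, m, _, haux, hNM, hM⟩ := exists_auxLevel N hN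
  exact (redDatum A hA M hM).indep haux hNM

/-! ### The monic relation of `j(q^N)` with integral coefficients -/

/-- A polynomial in `j` whose expansion has coefficients in a subring has its coefficients there. -/
theorem coeff_mem_of_serIn_eval₂ {A : Subring ℂ} :
    ∀ (d : ℕ) (p : ℂ[X]), p.natDegree ≤ d → SerIn A (p.eval₂ HahnSeries.C (jqModC ℂ)) →
      ∀ i, p.coeff i ∈ A := by
  intro d
  induction d with
  | zero =>
    intro p hd hs i
    rw [Polynomial.eq_C_of_natDegree_le_zero hd, eval₂_C] at hs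
    rw [Polynomial.eq_C_of_natDegree_le_zero hd, coeff_C]
    split_ifs
    · simpa [HahnSeries.C_apply] using hs 0
    · exact A.zero_mem
  | succ d ih =>
    intro p hd hs i
    have hlead : p.coeff (d + 1) ∈ A := by
      have h := hs (-((d + 1 : ℕ) : ℤ))
      rw [eval₂_eq_sum_range' _ (Nat.lt_succ_of_le hd), HahnSeries.coeff_sum,
        Finset.sum_range_succ, Finset.sum_eq_zero (fun j hj => by
          rw [HahnSeries.C_apply, HahnSeries.coeff_single_mul, sub_zero,
            ModularCurve.coeff_jqModC_pow_of_lt ℂ (by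
              have := Finset.mem_range.mp hj; push_cast; omega), mul_zero]), zero_add,
        HahnSeries.C_apply, HahnSeries.coeff_single_mul, sub_zero,
        ModularCurve.coeff_jqModC_pow_self, mul_one] at h
      exact h
    set q := p - C (p.coeff (d + 1)) * X ^ (d + 1)
    have hq : q.natDegree ≤ d := by
      rw [natDegree_le_iff_coeff_eq_zero]
      intro j hj
      rcases eq_or_ne j (d + 1) with rfl | hne
      · simp [q]
      · simp [q, coeff_X_pow, hne, coeff_eq_zero_of_natDegree_lt (show p.natDegree < j by omega)]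
    have hqs : SerIn A (q.eval₂ HahnSeries.C (jqModC ℂ)) := by
      rw [eval₂_sub, eval₂_mul, eval₂_C, eval₂_pow, eval₂_X]
      exact hs.sub ((SerIn.C hlead).mul ((serIn_jqModC A).pow _))
    have := ih q hq hqs i
    rcases eq_or_ne i (d + 1) with rfl | hne
    · exact hlead
    · simpa [q, coeff_X_pow, hne] using this

theorem lexp_polyEval {M : ℕ} [NeZero M] (p : ℂ[X]) :
    lexp M 1 (fun τ => p.eval (jFun τ)) = qExpand ℂ M (evalJ ℂ p) :=
  lexp_eq (by rw [act_one]; exact hasLExp_of_hasLoc_one (hasLoc_polyEval p))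

/-- An invariant function with expansions in `R` is a polynomial in `j` with coefficients in `R`. -/
theorem RedDatum.exists_poly_of_invariant {M : ℕ} [NeZero M] {k : Type*} [Field k]
    (D : RedDatum M k) {f : ℍ → ℂ} (hfB : f ∈ BRing M D.R) (hinv : ∀ γ, act γ f = f) :
    ∃ q : D.R[X], f = fun τ => (q.map D.R.subtype).eval (jFun τ) := by
  obtain ⟨p, hp⟩ := exists_eval_of_mem_cuspSubring (N := M) (f := f)
    ⟨mdifferentiable_of_mem hfB.1, _, by
      have h := hasLoc_of_hasLExp (hasLExp_lexp hfB.1 1)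
      rwa [act_one] at h⟩ fun γ τ => congrFun (hinv γ) τ
  obtain rfl : f = fun τ => p.eval (jFun τ) := funext hp
  have hser : SerIn D.R (p.eval₂ HahnSeries.C (jqModC ℂ)) := fun n => by
    have := hfB.2 1 ((M : ℤ) * n)
    rwa [lexp_polyEval, ModularCurve.qExpand_coeff_mul] at this
  obtain ⟨q, rfl⟩ : p ∈ lifts D.R.subtype := (lifts_iff_coeff_lifts _).mpr fun j =>
    ⟨⟨_, coeff_mem_of_serIn_eval₂ p.natDegree p le_rfl hser j⟩, rfl⟩
  exact ⟨q, rfl⟩

/-- `j(q^N)` is a root of a monic polynomial over `R[j]` of degree the index of `Γ₀(N)`. -/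
theorem RedDatum.exists_monic_relation {M N : ℕ} [NeZero M] [NeZero N] {k : Type*} [Field k]
    (D : RedDatum M k) (hNM : N ∣ M) :
    ∃ Φ : D.R[X][X], Φ.Monic ∧ Φ.natDegree = (Gamma0 N).index ∧
      Φ.eval₂ ((evalJ ℂ).comp (mapRingHom D.R.subtype)) (jqNModC ℂ N) = 0 := by
  classical
  set J := D.jGenB hNM (JIdx.top N)
  set F : (BRing M D.R)[X] := ∏ c : SL(2, ℤ) ⧸ Gamma0 N, (X - C (D.actB c.out⁻¹ J))
  have hmon : F.Monic := monic_prod_of_monic _ _ fun _ _ => monic_X_sub_C _
  have hdeg : F.natDegree = (Gamma0 N).index := by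
    simp [F, Subgroup.index, Nat.card_eq_fintype_card]
  have hJ : ∀ δ ∈ Gamma0 N, act δ (J : ℍ → ℂ) = J := fun δ hδ =>
    funext fun τ => jGenF_gamma0 hδ _ τ
  have hout : ∀ γ : SL(2, ℤ), act (γ : SL(2, ℤ) ⧸ Gamma0 N).out⁻¹ (J : ℍ → ℂ) =
      act γ⁻¹ (J : ℍ → ℂ) := by
    intro γ
    obtain ⟨h, hh⟩ := QuotientGroup.mk_out_eq_mul (Gamma0 N) γ
    rw [hh, mul_inv_rev, act_mul, hJ _ (inv_mem h.2)]
  have hinv : ∀ (γ : SL(2, ℤ)) i, act γ ((F.coeff i : BRing M D.R) : ℍ → ℂ) =
      (F.coeff i : BRing M D.R) := by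
    intro γ i
    have h : F.map (D.actB γ) = F := by
      simp only [F, Polynomial.map_prod, Polynomial.map_sub, Polynomial.map_X, Polynomial.map_C]
      refine Fintype.prod_bijective (fun c => γ⁻¹ • c) (MulAction.bijective γ⁻¹) _ _ fun c => ?_
      refine congrArg (fun f : BRing M D.R => (X : (BRing M D.R)[X]) - C f) (Subtype.ext ?_)
      have hc : γ⁻¹ • c = QuotientGroup.mk (γ⁻¹ * c.out) := by
        conv_lhs => rw [← QuotientGroup.out_eq' c]
        rfl
      simp only [coe_actB]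
      rw [hc, hout, mul_inv_rev, inv_inv, act_mul]
    conv_rhs => rw [← h, coeff_map]
    exact (D.coe_actB γ _).symm
  -- coefficients are polynomials in `j` over `R`
  have hpol : ∀ i, ∃ p : D.R[X], ((F.coeff i : BRing M D.R) : ℍ → ℂ) =
      fun τ => (p.map D.R.subtype).eval (jFun τ) :=
    fun i => D.exists_poly_of_invariant (F.coeff i).2 fun γ => hinv γ i
  choose p hp using hpol
  set ψ := (Gamma0 N).index
  refine ⟨X ^ ψ + ∑ i ∈ Finset.range ψ, C (p i) * X ^ i, ?_, ?_, ?_⟩
  · refine monic_X_pow_add ?_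
    refine (degree_sum_le _ _).trans_lt
      ((Finset.sup_lt_iff (WithBot.bot_lt_coe ψ)).2 fun i hi => ?_)
    exact (degree_C_mul_X_pow_le i (p i)).trans_lt (WithBot.coe_lt_coe.2 (Finset.mem_range.1 hi))
  · refine natDegree_eq_of_degree_eq_some ?_
    rw [degree_add_eq_left_of_degree_lt] <;> rw [degree_X_pow]
    refine (degree_sum_le _ _).trans_lt
      ((Finset.sup_lt_iff (WithBot.bot_lt_coe ψ)).2 fun i hi => ?_)
    exact (degree_C_mul_X_pow_le i (p i)).trans_lt (WithBot.coe_lt_coe.2 (Finset.mem_range.1 hi))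
  · have hroot : F.eval J = 0 := by
      rw [eval_prod]
      refine Finset.prod_eq_zero (Finset.mem_univ (QuotientGroup.mk 1)) ?_
      rw [eval_sub, eval_X, eval_C, sub_eq_zero]
      refine Subtype.ext ?_
      simp only [coe_actB]
      rw [hout, inv_one, act_one]
    rw [eval_eq_sum_range, hdeg, Finset.sum_range_succ, ← hdeg, hmon.coeff_natDegree, hdeg,
      one_mul] at hroot
    have h1 := congrArg (fun f : BRing M D.R => lexp M 1 (f : ℍ → ℂ)) hroot
    let φ : BRing M D.R →+* LaurentSeries ℂ :=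
      (serSub D.R).subtype.comp (D.serHom (M := M) 1)
    have hφ : ∀ f : BRing M D.R, φ f = lexp M 1 (f : ℍ → ℂ) := fun f => rfl
    simp only [← hφ, map_add, map_sum, map_mul, map_pow, map_zero] at h1
    have hJ1 : φ J = qExpand ℂ M (jqNModC ℂ N) := lexp_one_jGenF _
    have hc : ∀ i, φ (F.coeff i) = qExpand ℂ M (evalJ ℂ ((p i).map D.R.subtype)) := by
      intro i
      rw [hφ, hp i, lexp_polyEval]
    simp only [hJ1, hc] at h1
    apply ModularCurve.qExpand_injective M
    rw [eval₂_add, eval₂_X_pow, eval₂_finsetSum, map_zero, map_add, map_sum, map_pow, add_comm]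
    refine Eq.trans ?_ h1
    congr 1
    refine Finset.sum_congr rfl fun i _ => ?_
    rw [eval₂_mul, eval₂_C, eval₂_X_pow, map_mul, map_pow]
    rfl

/-- `ℤ_(ℓ)` as a valuation subring of `ℚ`. -/
def ratVal (A : ValuationSubring (AlgebraicClosure ℚ)) : ValuationSubring ℚ :=
  A.comap (algebraMap ℚ (AlgebraicClosure ℚ))

/-- The rational valuation ring is `ℤ_(ℓ)`. -/
theorem mem_ratVal_iff {A : ValuationSubring (AlgebraicClosure ℚ)} {ℓ : ℕ} [hℓ : Fact ℓ.Prime]
    (hA : A.LiesOverPrime ℓ) {q : ℚ} : q ∈ ratVal A ↔ q.den.Coprime ℓ := by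
  rw [ratVal, ValuationSubring.mem_comap, ← A.valuation_le_one_iff, eq_ratCast]
  have hden0 : ((q.den : ℕ) : AlgebraicClosure ℚ) ≠ 0 := Nat.cast_ne_zero.mpr q.den_nz
  have hv : A.valuation (q : AlgebraicClosure ℚ) =
      A.valuation (q.num : AlgebraicClosure ℚ) / A.valuation (q.den : AlgebraicClosure ℚ) := by
    rw [← map_div₀, ← Rat.cast_def]
  rw [hv, div_le_one₀ (zero_lt_iff.mpr ((Valuation.ne_zero_iff _).mpr hden0))]
  constructor
  · intro hle
    rw [Nat.coprime_comm, hℓ.out.coprime_iff_not_dvd]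
    intro hd
    have hnum : ¬ (ℓ : ℤ) ∣ q.num := fun hn =>
      hℓ.out.not_dvd_one (q.reduced ▸ Nat.dvd_gcd (Int.natCast_dvd.mp hn) hd)
    rw [ECLocal.valuation_intCast_eq_one hℓ.out hA hnum] at hle
    obtain ⟨c, hc⟩ := hd
    rw [hc, Nat.cast_mul, map_mul] at hle
    exact absurd hle (not_le.mpr (mul_lt_one_of_nonneg_of_lt_one_left zero_le
      (ECLocal.valuation_natCast_lt_one hA) (ECLocal.valuation_intCast_le A c |> fun h => by simp)))
  · intro hc
    have h1 : A.valuation (q.den : AlgebraicClosure ℚ) = 1 :=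
      ECLocal.valuation_natCast_eq_one hℓ.out hA fun hd =>
        hℓ.out.not_dvd_one (hc ▸ Nat.dvd_gcd hd dvd_rfl)
    rw [h1]
    exact ECLocal.valuation_intCast_le A _

/-- The relation of `j(q^N)` with `ℓ`-integral rational coefficients. -/
theorem exists_relation_ratVal {N ℓ : ℕ} [NeZero N] [Fact ℓ.Prime]
    {A : ValuationSubring (AlgebraicClosure ℚ)} (hA : A.LiesOverPrime ℓ) (hN : ¬ ℓ ∣ N) :
    ∃ Φ : (ratVal A)[X][X], Φ.Monic ∧
      Φ.eval₂ ((evalJ ℚ).comp (mapRingHom (ratVal A).subtype)) (jqNModC ℚ N) = 0 := by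
  classical
  obtain ⟨M, m, _, -, hNM, hM⟩ := exists_auxLevel N hN
  obtain ⟨Φ, hΦ, hΦd, hΦ0⟩ := (redDatum A hA M hM).exists_monic_relation hNM
  obtain ⟨Ψ, hΨ, hΨd, hΨ0⟩ := exists_relation (K := ℚ) (N := N) (MvPolynomial.X (JIdx.top N))
  set ψ := (Gamma0 N).index with hψ
  rw [show Fintype.card (SL(2, ℤ) ⧸ Gamma0 N) = ψ by
    rw [hψ, Subgroup.index, Nat.card_eq_fintype_card]] at hΨd
  set Φ' : ℂ[X][X] := Φ.map (mapRingHom (redDatum A hA M hM).R.subtype) with hΦ'
  set Ψ' : ℂ[X][X] := Ψ.map (mapRingHom (algebraMap ℚ ℂ))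
  have h1 : Φ'.eval₂ (evalJ ℂ) (jqNModC ℂ N) = 0 := by rw [eval₂_map]; exact hΦ0
  have h2 : Ψ'.eval₂ (evalJ ℂ) (jqNModC ℂ N) = 0 := by
    have h := congrArg (coeffMap (algebraMap ℚ ℂ)) hΨ0
    rw [hom_eval₂, map_zero] at h
    rw [eval₂_map]
    refine Eq.trans ?_ h
    congr 1
    · refine RingHom.ext fun p => ?_
      exact (coeffMap_eval₂_jqModC _ p).symm
    · simp [evL, jGenL, JIdx.top, jqNModC, ModularCurve.coeffMap_qExpand,
        ModularCurve.coeffMap_jqModC]
  have hd1 : Φ'.natDegree = ψ := by rw [hΦ.natDegree_map, hΦd]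
  have hd2 : Ψ'.natDegree = ψ := by rw [hΨ.natDegree_map, hΨd]
  have hsub : ∀ i < ψ, (Φ' - Ψ').coeff i = 0 := by
    refine indep_complex N (fun i => (Φ' - Ψ').coeff i) ?_
    have hdeg : (Φ' - Ψ').natDegree ≤ ψ :=
      (natDegree_sub_le _ _).trans (by rw [hd1, hd2, max_self])
    have h : (Φ' - Ψ').eval₂ (evalJ ℂ) (jqNModC ℂ N) = 0 := by rw [eval₂_sub, h1, h2, sub_zero]
    rw [eval₂_eq_sum_range' _ (Nat.lt_succ_of_le hdeg), Finset.sum_range_succ, coeff_sub,
      show Φ'.coeff ψ = 1 by rw [← hd1]; exact (hΦ.map _).coeff_natDegree,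
      show Ψ'.coeff ψ = 1 by rw [← hd2]; exact (hΨ.map _).coeff_natDegree, sub_self, map_zero,
      zero_mul, add_zero] at h
    exact h
  have hcoeff : ∀ i j, (Ψ.coeff i).coeff j ∈ ratVal A := by
    intro i j
    rcases lt_or_ge i ψ with hi | hi
    · have := hsub i hi
      rw [coeff_sub, sub_eq_zero, coeff_map, coeff_map] at this
      have h3 := congrArg (fun p : ℂ[X] => p.coeff j) this
      simp only [coe_mapRingHom, coeff_map] at h3
      rw [ratVal, ValuationSubring.mem_comap, ← iotaC_mem_subringC A, eq_ratCast, map_ratCast,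
        ← eq_ratCast (algebraMap ℚ ℂ), ← h3]
      exact SetLike.coe_mem _
    · rcases eq_or_lt_of_le hi with rfl | hi
      · rw [← hΨd, hΨ.coeff_natDegree, coeff_one]
        split_ifs <;> simp
      · rw [coeff_eq_zero_of_natDegree_lt (show Ψ.natDegree < i by omega), coeff_zero]
        exact zero_mem _
  have hlift : Ψ ∈ lifts (mapRingHom (ratVal A).subtype) := by
    rw [lifts_iff_coeff_lifts]
    intro i
    exact (mem_lifts _).mp ((lifts_iff_coeff_lifts _).mpr fun j => ⟨⟨_, hcoeff i j⟩, rfl⟩)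
  obtain ⟨q, hq, -, hqm⟩ := lifts_and_degree_eq_and_monic hlift hΨ
  refine ⟨q, hqm, ?_⟩
  rw [← hq, eval₂_map] at hΨ0
  simpa [evL, jGenL, JIdx.top, jqNModC] using hΨ0

end FermatAgent.Curve.Red
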