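import Fermat.Agent.Curve.Red.Rational

/-!
# Connectedness of the reduction at level `M`: the `q`-expansion principle

An element of `BRing M R` whose reduced expansion at `∞` vanishes has all reduced expansions
zero.  Idempotents modulo the maximal ideal are lifted by Newton iteration into a finitely
generated lattice and compared with the injectivity of the expansion at `∞`.
-/

set_option autoImplicit false

open UpperHalfPlane CongruenceSubgroup Polynomial
open scoped MatrixGroups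

noncomputable section

namespace FermatAgent.Curve.Red

open FermatAgent.ES

variable {M m : ℕ} [NeZero M] {k : Type*} [Field k] (D : RedDatum M k)

omit [NeZero M] in
/-- Zero is not a unit. -/
theorem RedDatum.not_unitIn_zero : ¬UnitIn D.R (0 : ℂ) := fun h => h.1 rfl

omit [NeZero M] in
/-- An idempotent series modulo `b`, zero modulo the maximal ideal and with polar part in `bR`,
is zero modulo `b`: by induction on the degree `n`, as the coefficient of `s ^ 2 - s` in degree `n`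
is, up to terms in `bR`, a unit times that of `s`. -/
theorem RedDatum.coeff_mem_of_idem_mod {s : LaurentSeries ℂ} (hs : SerIn D.R s)
    (hnu : ∀ n, ¬UnitIn D.R (s.coeff n)) {b : ℂ} (hneg : ∀ n < 0, s.coeff n ∈ D.mulSub b)
    (h : SerInJ (D.mulSub b) (s * s - s)) : ∀ n, s.coeff n ∈ D.mulSub b := by
  set s0 := s.coeff 0
  set t := s - HahnSeries.C s0
  have ht : ∀ n, n ≠ 0 → t.coeff n = s.coeff n := fun n hn => by
    simp [t, HahnSeries.C_apply, HahnSeries.coeff_single_of_ne hn]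
  have ht0 : t.coeff 0 = 0 := by simp [t, s0, HahnSeries.C_apply]
  have hexp : ∀ n, (s * s - s).coeff n =
      (t * t).coeff n + t.coeff n * (2 * s0 - 1) + (if n = 0 then s0 * s0 - s0 else 0) := by
    intro n
    have e : s * s - s = t * t + HahnSeries.C (2 * s0 - 1) * t + HahnSeries.C (s0 * s0 - s0) := by
      simp only [t, map_sub, map_mul, map_one, map_ofNat]
      ring
    rw [e, HahnSeries.coeff_add, HahnSeries.coeff_add, HahnSeries.C_apply, HahnSeries.C_apply,
      HahnSeries.coeff_single_mul, sub_zero, mul_comm _ (t.coeff n)]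
    split_ifs with hn
    · subst hn; rw [HahnSeries.coeff_single_same]
    · rw [HahnSeries.coeff_single_of_ne hn]
  suffices H : ∀ N : ℕ, ∀ n < (N : ℤ), s.coeff n ∈ D.mulSub b from
    fun n => H (n.toNat + 1) n (by omega)
  intro N
  induction N with
  | zero => simpa using hneg
  | succ N ih =>
    intro n hn
    rcases lt_or_eq_of_le (show n ≤ (N : ℤ) by omega) with hlt | rfl
    · exact ih n hlt
    have hsq : (t * t).coeff (N : ℤ) ∈ D.mulSub b := by
      rw [HahnSeries.coeff_mul]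
      refine sum_mem fun ij hij => ?_
      rw [Finset.mem_antidiagonal] at hij
      obtain ⟨-, -, hsum⟩ := hij
      rcases eq_or_ne ij.1 0 with h1 | h1
      · rw [h1, ht0, zero_mul]; exact zero_mem _
      rcases eq_or_ne ij.2 0 with h2 | h2
      · rw [h2, ht0, mul_zero]; exact zero_mem _
      rw [ht _ h1, ht _ h2]
      rcases lt_or_ge ij.1 (N : ℤ) with hi1 | hi1
      · rw [mul_comm]; exact D.mulSub_closed b _ (hs _) _ (ih _ hi1)
      · exact D.mulSub_closed b _ (hs _) _ (hneg _ (by omega))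
    have hkey : t.coeff (N : ℤ) * (2 * s0 - 1) + (if (N : ℤ) = 0 then s0 * s0 - s0 else 0) ∈
        D.mulSub b := by
      have := sub_mem (h N) hsq
      rw [hexp] at this
      convert this using 1
      ring
    have hu : ∀ u : D.R, D.π u ≠ 0 → ∀ y, y * (u : ℂ) ∈ D.mulSub b → y ∈ D.mulSub b := by
      intro u hu y hy
      have hui := (D.unit_iff u).mp hu
      have := D.mulSub_closed b _ hui.2.2 _ hy
      rwa [mul_comm y, ← mul_assoc, inv_mul_cancel₀ hui.1, one_mul] at this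
    have hs0 : D.π ⟨s0, hs 0⟩ = 0 := D.pi_eq_zero_iff.mpr (hnu 0)
    by_cases hN : (N : ℤ) = 0
    · rw [if_pos hN, hN, ht0, zero_mul, zero_add] at hkey
      rw [hN]
      refine hu (⟨s0, hs 0⟩ - 1) (by simp [hs0]) s0 ?_
      simpa [mul_sub] using hkey
    · rw [if_neg hN, add_zero, ht _ hN] at hkey
      refine hu (2 * ⟨s0, hs 0⟩ - 1) (by simp [hs0]) _ ?_
      simpa using! hkey

omit [NeZero M] in
/-- If `s ≡ 0` mod `b` and `s ^ 2 ≡ s` mod `c`, then `s ≡ 0` modulo `(b ^ (j + 1), c)`. -/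
theorem RedDatum.coeff_mem_pow_sup {s : LaurentSeries ℂ} (hs : SerIn D.R s) {b c : ℂ}
    (hall : ∀ n, s.coeff n ∈ D.mulSub b) (h : SerInJ (D.mulSub c) (s * s - s)) (j : ℕ) :
    ∀ n, s.coeff n ∈ D.mulSub (b ^ (j + 1)) ⊔ D.mulSub c := by
  induction j with
  | zero => intro n; rw [pow_one]; exact AddSubgroup.mem_sup_left (hall n)
  | succ j ih =>
    intro n
    have h1 : (s * s).coeff n ∈ D.mulSub (b ^ (j + 1 + 1)) ⊔ D.mulSub c := by
      rw [HahnSeries.coeff_mul]
      refine sum_mem fun ij _ => ?_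
      obtain ⟨p, hp, q, hq, hpq⟩ := AddSubgroup.mem_sup.mp (ih ij.1)
      obtain ⟨p', hp', rfl⟩ := D.mem_mulSub.mp hp
      obtain ⟨r, hr, hr'⟩ := D.mem_mulSub.mp (hall ij.2)
      rw [← hpq, add_mul]
      refine add_mem (AddSubgroup.mem_sup_left (D.mem_mulSub.mpr
        ⟨p' * r, D.R.mul_mem hp' hr, ?_⟩)) (AddSubgroup.mem_sup_right ?_)
      · rw [← hr']; ring
      · rw [mul_comm]; exact D.mulSub_closed c _ (hs _) _ hq
    have := sub_mem h1 (AddSubgroup.mem_sup_right (h n) :
      (s * s - s).coeff n ∈ D.mulSub (b ^ (j + 1 + 1)) ⊔ D.mulSub c)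
    rwa [HahnSeries.coeff_sub, sub_sub_cancel] at this

omit [NeZero M] in
/-- An idempotent series modulo `c` which vanishes modulo the maximal ideal vanishes modulo `c`. -/
theorem RedDatum.idem_coeff_mem {s : LaurentSeries ℂ} (hs : SerIn D.R s)
    (hnu : ∀ n, ¬UnitIn D.R (s.coeff n)) {c : ℂ} (hc : c ∈ D.R) (hcu : ¬UnitIn D.R c)
    (hc0 : c ≠ 0) (h : SerInJ (D.mulSub c) (s * s - s)) : SerInJ (D.mulSub c) s := by
  classical
  -- one nonunit dividing `c` and all coefficients
  set T : Finset ℤ := insert 0 (Finset.Icc s.order (-1))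
  set x : ℤ → ℂ := fun n => if n = 0 then c else s.coeff n
  obtain ⟨i, hi, hmax⟩ := D.exists_max T ⟨0, Finset.mem_insert_self _ _⟩ x fun n _ => by
    simp only [x]; split_ifs
    exacts [D.le _ hc, D.le _ (hs n)]
  set b := x i with hb
  have hbR : b ∈ D.R := by simp only [hb, x]; split_ifs; exacts [hc, hs i]
  have hbu : ¬UnitIn D.R b := by simp only [hb, x]; split_ifs; exacts [hcu, hnu i]
  have hcb : c ∈ D.mulSub b := by simpa [x] using hmax 0 (Finset.mem_insert_self _ _)
  have hneg : ∀ n < 0, s.coeff n ∈ D.mulSub b := by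
    intro n hn
    rcases lt_or_ge n s.order with h1 | h1
    · rw [HahnSeries.coeff_eq_zero_of_lt_order h1]; exact zero_mem _
    · simpa [x, hn.ne] using hmax n (Finset.mem_insert_of_mem (Finset.mem_Icc.mpr ⟨h1, by omega⟩))
  have hall := D.coeff_mem_of_idem_mod hs hnu hneg fun n => D.mulSub_le_of_mem hcb (h n)
  obtain ⟨N, d, hd, hN⟩ := D.arch b c hbR hc hbu hc0
  intro n
  refine sup_le (D.mulSub_le_of_mem ?_) le_rfl (D.coeff_mem_pow_sup hs hall h N n)
  exact D.mem_mulSub.mpr ⟨d * b, D.R.mul_mem hd hbR, by rw [pow_succ, hN]; ring⟩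

variable (haux : AuxLevel M m)

/-- Newton iteration `e ↦ 3e² - 2e³`: an idempotent modulo `a` lifts to one modulo `a ^ 2 ^ n`
with the same reductions. -/
theorem RedDatum.exists_newton {e : BRing M D.R} {a : D.R} (ha : D.π a = 0) {g : BRing M D.R}
    (h : e * e - e = D.constB a * g) : ∀ n : ℕ, ∃ e' g' : BRing M D.R,
      (∀ γ, D.redHom γ e' = D.redHom γ e) ∧ e' * e' - e' = D.constB (a ^ 2 ^ n) * g' := by
  intro n
  induction n with
  | zero => exact ⟨e, g, fun _ => rfl, by simpa using h⟩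
  | succ n ih =>
    obtain ⟨e', g', hred, he'⟩ := ih
    refine ⟨3 * (e' * e') - 2 * (e' * e' * e'), g' * g' * (4 * (e' * e' - e') - 3),
      fun γ => ?_, ?_⟩
    · have hd : D.redHom γ (e' * e' - e') = 0 := by
        rw [he', map_mul, D.redHom_constB, map_pow, ha, zero_pow (by positivity), map_zero,
          zero_mul]
      have : 3 * (e' * e') - 2 * (e' * e' * e') = e' - (e' * e' - e') * (2 * e' - 1) := by ring
      rw [this, map_sub, map_mul, hd, zero_mul, sub_zero, hred]
    · rw [pow_succ 2, pow_mul]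
      have e2 : D.constB (M := M) ((a ^ 2 ^ n) ^ 2) =
          D.constB (a ^ 2 ^ n) * D.constB (a ^ 2 ^ n) := by
        rw [← map_mul, sq]
      have e1 : (3 * (e' * e') - 2 * (e' * e' * e')) * (3 * (e' * e') - 2 * (e' * e' * e')) -
          (3 * (e' * e') - 2 * (e' * e' * e')) =
          (e' * e' - e') * (e' * e' - e') * (4 * (e' * e' - e') - 3) := by ring
      rw [e1, e2, he']
      ring

/-- An exact idempotent with zero reduction at `∞` is zero. -/
theorem RedDatum.eq_zero_of_idem {e : BRing M D.R} (he : e * e = e) (h1 : D.redHom 1 e = 0) :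
    e = 0 := by
  have h2 := congrArg (expHom (M := M) 1) (show (⟨_, e.2.1⟩ : BSub M) * ⟨_, e.2.1⟩ = ⟨_, e.2.1⟩
    from Subtype.ext (congrArg (fun x : BRing M D.R => (x : ℍ → ℂ)) he))
  rw [map_mul] at h2
  rcases eq_or_ne (expHom (M := M) 1 ⟨_, e.2.1⟩) 0 with h0 | h0
  · exact Subtype.ext (lexp_injective (γ := 1) e.2.1 (zero_mem _)
      (h0.trans (lexp_zero 1).symm))
  · have h3 : e = 1 := Subtype.ext (lexp_injective (γ := 1) e.2.1 (one_mem _)
      ((mul_eq_left₀ h0).mp h2 |>.trans (lexp_eq (γ := 1) (f := (1 : ℍ → ℂ)) HasLExp.one).symm))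
    rw [h3, map_one] at h1
    exact absurd h1 one_ne_zero

/-- A coefficient at `γ` of the lifting generators is a combination of those at `∞`. -/
theorem RedDatum.exists_coeff_combination (K : ℕ) (γ : SL(2, ℤ)) :
    ∃ ψ : ℤ →₀ D.L, ∀ x ∈ liftGen haux K, (lexp M γ x).coeff 0 =
      ∑ n ∈ ψ.support, (ψ n : ℂ) * (lexp M 1 x).coeff n := by
  classical
  have : Fintype (liftGen haux K) := (liftGen_finite haux K).fintype
  have hgen : ∀ x : liftGen haux K, (x : ℍ → ℂ) ∈ BRing M D.R :=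
    fun x => liftGen_subset haux D.good K x.2
  let cf : SL(2, ℤ) → ℤ → (liftGen haux K → D.L) →ₗ[D.L] D.L := fun γ n =>
    { toFun := fun v => ∑ x, v x * ⟨_, D.le _ ((hgen x).2 γ n)⟩
      map_add' := fun v w => by simp [add_mul, Finset.sum_add_distrib]
      map_smul' := fun c v => by simp [Finset.mul_sum, mul_assoc] }
  have hker : ⨅ n, LinearMap.ker (cf 1 n) ≤ LinearMap.ker (cf γ 0) := by
    intro v hv
    simp only [Submodule.mem_iInf, LinearMap.mem_ker] at hv ⊢
    set F : ℍ → ℂ := ∑ x : liftGen haux K, (fun _ => ((v x : D.L) : ℂ)) * (x : ℍ → ℂ)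
    have hmem : ∀ x : liftGen haux K, (fun _ : ℍ => ((v x : D.L) : ℂ)) * (x : ℍ → ℂ) ∈ BSub M :=
      fun x => mul_mem ((BSub M).algebraMap_mem _) (hgen x).1
    have hF : ∀ δ n, (lexp M δ F).coeff n = ((cf δ n v : D.L) : ℂ) := fun δ n => by
      rw [lexp_sum _ fun x _ => hmem x, HahnSeries.coeff_sum]
      simp only [cf, LinearMap.coe_mk, AddHom.coe_mk, AddSubmonoidClass.coe_finsetSum]
      exact Finset.sum_congr rfl fun x _ => coeff_lexp_const_mul (hgen x).1 _ _ _
    have hF0 : F = 0 := lexp_injective (γ := 1) (sum_mem fun x _ => hmem x) (zero_mem _) (by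
      rw [lexp_zero]; ext n; rw [hF, hv, ZeroMemClass.coe_zero, HahnSeries.coeff_zero])
    have := hF γ 0
    rw [hF0, lexp_zero, HahnSeries.coeff_zero] at this
    exact Subtype.ext this.symm
  obtain ⟨ψ, hψ⟩ := Finsupp.mem_span_range_iff_exists_finsupp.mp
    (FiniteDimensional.mem_span_of_iInf_ker_le_ker hker)
  refine ⟨ψ, fun x hx => ?_⟩
  have h' := congrArg (fun φ : (liftGen haux K → D.L) →ₗ[D.L] D.L =>
    ((φ (Pi.single ⟨x, hx⟩ 1) : D.L) : ℂ)) hψ
  simp only [Finsupp.sum, LinearMap.coe_sum, Finset.sum_apply, LinearMap.smul_apply, cf,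
    LinearMap.coe_mk, AddHom.coe_mk, smul_eq_mul, Pi.single_apply, ite_mul, one_mul, zero_mul,
    Finset.sum_ite_eq', Finset.mem_univ, if_true, AddSubmonoidClass.coe_finsetSum,
    MulMemClass.coe_mul] at h'
  exact h'.symm

omit [NeZero M] in
/-- A common denominator in `R` of finitely many elements of `L`. -/
theorem RedDatum.exists_common_denom (ψ : ℤ →₀ D.L) :
    ∃ r0 ∈ D.R, r0 ≠ 0 ∧ ∀ n ∈ ψ.support, r0 * (ψ n : ℂ) ∈ D.R := by
  classical
  set y : Option ℤ → ℂ := fun o => o.elim 1 fun n => (ψ n : ℂ)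
  obtain ⟨i, -, hmax⟩ := D.exists_max (insert none (ψ.support.image some))
    ⟨none, Finset.mem_insert_self _ _⟩ y fun o _ => by
      cases o with
      | none => exact D.L.one_mem
      | some n => exact (ψ n).2
  obtain ⟨r0, hr0, hr0'⟩ := D.mem_mulSub.mp (hmax none (Finset.mem_insert_self _ _))
  refine ⟨r0, hr0, fun h => one_ne_zero (α := ℂ) (by simpa [y, h] using hr0'.symm), fun n hn => ?_⟩
  obtain ⟨r, hr, hr'⟩ := D.mem_mulSub.mp
    (hmax (some n) (Finset.mem_insert_of_mem (Finset.mem_image_of_mem _ hn)))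
  rw [show (ψ n : ℂ) = y i * r from hr'.symm, ← mul_assoc, mul_comm r0,
    show y i * r0 = 1 from hr0', one_mul]
  exact hr

/-- An integral relation between a coefficient at `γ` and those at `∞` on the lifting lattice. -/
theorem RedDatum.exists_coeff_relation (K : ℕ) (γ : SL(2, ℤ)) :
    ∃ (r0 : ℂ) (s : Finset ℤ) (a : ℤ → ℂ), r0 ∈ D.R ∧ r0 ≠ 0 ∧ (∀ n ∈ s, a n ∈ D.R) ∧
      ∀ f ∈ Submodule.span D.R (liftGen haux K), f ∈ BSub M ∧
        r0 * (lexp M γ f).coeff 0 = ∑ n ∈ s, a n * (lexp M 1 f).coeff n := by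
  obtain ⟨ψ, hψ⟩ := D.exists_coeff_combination haux K γ
  obtain ⟨r0, hr0, hr00, hψR⟩ := D.exists_common_denom ψ
  refine ⟨r0, ψ.support, fun n => r0 * (ψ n : ℂ), hr0, hr00, hψR, fun f hf => ?_⟩
  induction hf using Submodule.span_induction with
  | mem x hx =>
    exact ⟨(liftGen_subset haux D.good K hx).1,
      by rw [hψ x hx, Finset.mul_sum]; simp only [mul_assoc]⟩
  | zero => exact ⟨zero_mem _, by simp [lexp_zero]⟩
  | add x y _ _ hx hy =>
    refine ⟨add_mem hx.1 hy.1, ?_⟩
    simp only [lexp_add hx.1 hy.1, HahnSeries.coeff_add, mul_add, Finset.sum_add_distrib, hx.2,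
      hy.2]
  | smul r x _ hx =>
    rw [D.coe_smul_eq]
    refine ⟨mul_mem ((BSub M).algebraMap_mem _) hx.1, ?_⟩
    simp only [coeff_lexp_const_mul hx.1, mul_left_comm _ (r : ℂ), ← Finset.mul_sum, hx.2]

/-- An idempotent modulo `c` with zero reduction at `γ` vanishes there modulo `c`. -/
theorem RedDatum.serInJ_of_idem {f g : BRing M D.R} {c : D.R} (hcu : D.π c = 0)
    (hc0 : (c : ℂ) ≠ 0) (hf : f * f - f = D.constB c * g) {γ : SL(2, ℤ)}
    (hγ : D.redHom γ f = 0) : SerInJ (D.mulSub (c : ℂ)) (lexp M γ (f : ℍ → ℂ)) := by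
  refine D.idem_coeff_mem (f.2.2 γ) (fun n => ?_) c.2 (D.pi_eq_zero_iff.mp hcu) hc0 fun n => ?_
  · have := congrArg (fun s : LaurentSeries k => s.coeff n) hγ
    simp only [coeff_redHom, HahnSeries.coeff_zero] at this
    exact D.pi_eq_zero_iff.mp this
  · rw [← lexp_mul f.2.1 f.2.1, ← lexp_sub (mul_mem f.2.1 f.2.1) f.2.1,
      show (f : ℍ → ℂ) * (f : ℍ → ℂ) - (f : ℍ → ℂ) = (fun _ => (c : ℂ)) * (g : ℍ → ℂ) from
        congrArg (fun x : BRing M D.R => (x : ℍ → ℂ)) hf,
      coeff_lexp_const_mul g.2.1]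
    exact D.mem_mulSub.mpr ⟨_, g.2.2 γ n, rfl⟩

include haux in
/-- No nontrivial idempotents modulo the maximal ideal. -/
theorem RedDatum.idem_trivial {e : BRing M D.R}
    (h : ∀ γ, D.redHom γ e = 0 ∨ D.redHom γ e = 1) (h1 : D.redHom 1 e = 0) (γ0 : SL(2, ℤ)) :
    D.redHom γ0 e = 0 := by
  classical
  by_contra hne
  have hγ0 : D.redHom γ0 e = 1 := (h γ0).resolve_left hne
  have hd : ∀ γ, D.redHom γ (e * e - e) = 0 := fun γ => by
    rcases h γ with h' | h' <;> simp [h']
  by_cases hd0 : e * e - e = 0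
  · exact hne (by rw [D.eq_zero_of_idem (sub_eq_zero.mp hd0 :) h1, map_zero])
  obtain ⟨a, haR, ha0, g, hg, γg, hgγ⟩ := D.exists_content haux (e * e - e).2
    fun h' => hd0 (Subtype.ext h')
  have hg' : e * e - e = D.constB ⟨a, haR⟩ * g := Subtype.ext hg
  have haπ : D.π ⟨a, haR⟩ = 0 := by
    have := hd γg
    rw [hg', map_mul, D.redHom_constB] at this
    have := (mul_eq_zero.mp this).resolve_right hgγ
    exact HahnSeries.C_injective (this.trans (map_zero _).symm)
  obtain ⟨K, hK⟩ := D.exists_lift haux 0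
  obtain ⟨r0, S, b, hr0, hr00, hbR, hrel⟩ := D.exists_coeff_relation haux K γ0
  -- the contradiction: `r0` is divisible by every power of `a`
  refine hr00 (D.eq_zero_of_forall_pow_dvd haR hr0 (D.pi_eq_zero_iff.mp haπ) fun n => ?_)
  obtain ⟨e', g', hred, he'⟩ := D.exists_newton haπ hg' n
  set c : D.R := ⟨a, haR⟩ ^ 2 ^ n with hc
  have hcu : D.π c = 0 := by rw [hc, map_pow, haπ, zero_pow (by positivity)]
  have hc0 : (c : ℂ) ≠ 0 := by rw [hc, SubmonoidClass.coe_pow]; exact pow_ne_zero _ ha0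
  have hzero : ∀ γ, D.redHom γ e = 0 → SerInJ (D.mulSub (c : ℂ)) (lexp M γ (e' : ℍ → ℂ)) :=
    fun γ hγ => D.serInJ_of_idem hcu hc0 he' ((hred γ).trans hγ)
  have hone : ∀ γ, D.redHom γ e = 1 →
      SerInJ (D.mulSub (c : ℂ)) (lexp M γ ((1 - e' : BRing M D.R) : ℍ → ℂ)) :=
    fun γ hγ => D.serInJ_of_idem hcu hc0 (g := g') (by rw [← he']; ring)
      (by rw [map_sub, map_one, hred, hγ, sub_self])
  have hcoe : ∀ γ, lexp M γ ((1 - e' : BRing M D.R) : ℍ → ℂ) =
      1 - lexp M γ (e' : ℍ → ℂ) := fun γ => by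
    rw [show ((1 - e' : BRing M D.R) : ℍ → ℂ) = 1 - (e' : ℍ → ℂ) from rfl,
      lexp_sub (one_mem _) e'.2.1, lexp_eq (γ := γ) (f := (1 : ℍ → ℂ)) HasLExp.one]
  obtain ⟨f', hf', hcong⟩ := hK (D.mulSub (c : ℂ)) (D.mulSub_closed _) _ e'.2 fun γ j hj => by
    rcases h γ with h' | h'
    · exact hzero γ h' j
    · have := hone γ h' j
      rw [hcoe, HahnSeries.coeff_sub, HahnSeries.coeff_one, if_neg (by omega), zero_sub] at this
      exact neg_mem_iff.mp this
  obtain ⟨hfB, hlin⟩ := hrel f' hf'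
  have hA : 1 - (lexp M γ0 f').coeff 0 ∈ D.mulSub (c : ℂ) := by
    have h2 := hone γ0 hγ0 0
    have h3 := hcong γ0 0
    rw [hcoe, HahnSeries.coeff_sub, HahnSeries.coeff_one, if_pos rfl] at h2
    rw [lexp_sub e'.2.1 hfB, HahnSeries.coeff_sub] at h3
    have := add_mem h2 h3
    rwa [sub_add_sub_cancel] at this
  have hB : r0 * (lexp M γ0 f').coeff 0 ∈ D.mulSub (c : ℂ) := by
    rw [hlin]
    refine sum_mem fun j hj => D.mulSub_closed _ _ (hbR j hj) _ ?_
    have h3 := hcong 1 j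
    rw [lexp_sub e'.2.1 hfB, HahnSeries.coeff_sub] at h3
    have := sub_mem (hzero 1 h1 j) h3
    rwa [sub_sub_cancel] at this
  have hmem := add_mem (D.mulSub_closed _ _ hr0 _ hA) hB
  rw [mul_sub, mul_one, sub_add_cancel] at hmem
  refine D.mulSub_le_of_mem ?_ hmem
  exact D.mem_mulSub.mpr ⟨a ^ (2 ^ n - n), D.R.pow_mem haR _, by
    rw [hc, SubmonoidClass.coe_pow, ← pow_add, Nat.add_sub_cancel' Nat.lt_two_pow_self.le]⟩

include haux in
/-- The `q`-expansion principle modulo the maximal ideal. -/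
theorem RedDatum.redHom_eq_zero_of_one {f : BRing M D.R} (h : D.redHom 1 f = 0) (γ : SL(2, ℤ)) :
    D.redHom γ f = 0 := by
  classical
  set P : (BRing M D.R)[X] := ∏ g : GalGrp M m, (X - C (D.actB (repG M m g) f)) with hP
  obtain ⟨hmon, hcoe, hPf⟩ := D.charPol_spec haux f P hP
  have hex : ∃ i, D.redHom 1 (P.coeff i) ≠ 0 :=
    ⟨P.natDegree, by rw [hmon.coeff_natDegree, map_one]; exact one_ne_zero⟩
  set s := Nat.find hex with hs
  have hsd : s ≤ P.natDegree := Nat.find_min' hex (by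
    rw [hmon.coeff_natDegree, map_one]; exact one_ne_zero)
  set r := P.coeff s with hrdef
  have hr0 : ∀ δ, D.redHom δ r ≠ 0 := fun δ h' =>
    Nat.find_spec hex (D.redHom_polRing_eq_zero haux (hcoe s) h' 1)
  set u : BRing M D.R := ∑ i ∈ Finset.range (P.natDegree - s), P.coeff (s + (i + 1)) * f ^ i
  have hrel : ∀ δ, D.redHom δ f ^ s * (D.redHom δ r + D.redHom δ f * D.redHom δ u) = 0 := by
    intro δ
    have h0 := congrArg (D.redHom δ) hPf
    rw [eval_eq_sum_range, show P.natDegree + 1 = s + (P.natDegree - s + 1) by omega,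
      Finset.sum_range_add, Finset.sum_range_succ', map_zero] at h0
    simp only [map_add, map_sum, map_mul, map_pow, add_zero] at h0
    rw [Finset.sum_eq_zero (s := Finset.range s) (fun i hi => by
      rw [D.redHom_polRing_eq_zero haux (hcoe i)
        (not_not.mp (Nat.find_min hex (Finset.mem_range.mp hi))) δ, zero_mul]), zero_add] at h0
    rw [← h0, ← hrdef]
    simp only [u, map_sum, map_mul, map_pow, Finset.mul_sum, mul_add]
    rw [add_comm]
    congr 1
    · refine Finset.sum_congr rfl fun i _ => ?_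
      ring
    · ring
  set b : BRing M D.R := -(f * u)
  have hz : ∀ δ, D.redHom δ b = 0 ∧ D.redHom δ f = 0 ∨
      D.redHom δ b = D.redHom δ r ∧ D.redHom δ f ≠ 0 := by
    intro δ
    rcases eq_or_ne (D.redHom δ f) 0 with hf | hf
    · left; simp [b, hf]
    · right
      refine ⟨?_, hf⟩
      have := (mul_eq_zero.mp (hrel δ)).resolve_left (pow_ne_zero _ hf)
      simp only [b, map_neg, map_mul]
      linear_combination -this
  obtain ⟨e, he⟩ := D.mem_image_of_integral haux (hcoe s) (hr0 1) (b := b) fun δ => by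
    rcases hz δ with ⟨hb, -⟩ | ⟨hb, -⟩
    · rw [hb, zero_div]; exact isIntegral_zero
    · rw [hb, div_self (hr0 δ)]; exact isIntegral_one
  have h01 : ∀ δ, D.redHom δ e = 0 ∨ D.redHom δ e = 1 := fun δ => by
    rcases hz δ with ⟨hb, -⟩ | ⟨hb, -⟩
    · exact Or.inl ((mul_eq_zero.mp ((he δ).trans hb)).resolve_right (hr0 δ))
    · exact Or.inr ((mul_eq_right₀ (hr0 δ)).mp ((he δ).trans hb))
  have he1 : D.redHom 1 e = 0 := by
    rcases hz 1 with ⟨hb, -⟩ | ⟨-, hne⟩
    · exact (mul_eq_zero.mp ((he 1).trans hb)).resolve_right (hr0 1)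
    · exact absurd h hne
  rcases hz γ with ⟨-, hf⟩ | ⟨hb, -⟩
  · exact hf
  · have := he γ
    rw [D.idem_trivial haux h01 he1 γ, zero_mul, hb] at this
    exact absurd this.symm (hr0 γ)

include haux in
/-- The vanishing of a reduced expansion does not depend on the cusp. -/
theorem RedDatum.redHom_eq_zero_iff {f : BRing M D.R} (γ δ : SL(2, ℤ)) :
    D.redHom γ f = 0 ↔ D.redHom δ f = 0 := by
  suffices H : ∀ γ δ, D.redHom γ f = 0 → D.redHom δ f = 0 from ⟨H γ δ, H δ γ⟩
  intro γ δ h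
  have h1 : D.redHom 1 (D.actB γ f) = 0 := by rw [D.redHom_actB, mul_one]; exact h
  have := D.redHom_eq_zero_of_one haux h1 (γ⁻¹ * δ)
  rwa [D.redHom_actB, ← mul_assoc, mul_inv_cancel, one_mul] at this

end FermatAgent.Curve.Red
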