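import Fermat.Agent.Curve.LocExp
import Fermat.Agent.Curve.Red.Connected
import Fermat.Agent.Curve.ModularEmb
import Fermat.Prelude.Def_ModularCurve_X0ModL

/-!
# `j` and `j(dτ)` in `BRing M R`, and the residual degree of `X₀(N)`

The reductions of the translates of `j(Nτ)` are pairwise distinct, one for each coset of
`Γ₀(N)`, so `j̄(q^N)` has degree at least the index over `k(j̄)`.
-/

set_option autoImplicit false

open UpperHalfPlane hiding I
open CongruenceSubgroup Polynomial Metric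
open scoped MatrixGroups
open ModularCurve (coeffMap qExpand jqModC jqNModC coeffMap_coeff)

noncomputable section

namespace FermatAgent.Curve.Red

open FermatAgent.ES

variable {M : ℕ} [NeZero M]

/-- The leading coefficient of `j (q ^ N)`. -/
theorem lead_qExpand_jqModC (N : ℕ) [NeZero N] :
    (qExpand ℂ N (jqModC ℂ)).coeff (-(N : ℤ)) = 1 ∧
      ∀ n < -(N : ℤ), (qExpand ℂ N (jqModC ℂ)).coeff n = 0 := by
  constructor
  · rw [show -(N : ℤ) = (N : ℤ) * -1 by ring, ModularCurve.qExpand_coeff_mul]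
    have := ModularCurve.coeff_jqModC_pow_self ℂ 1
    simpa using this
  · intro n hn
    by_cases hd : (N : ℤ) ∣ n
    · obtain ⟨i, rfl⟩ := hd
      rw [ModularCurve.qExpand_coeff_mul]
      have hi : i < -((1 : ℕ) : ℤ) := by
        by_contra hno
        push Not at hno
        have := mul_le_mul_of_nonneg_left hno (Nat.cast_nonneg (α := ℤ) N)
        push_cast at this
        linarith
      have := ModularCurve.coeff_jqModC_pow_of_lt ℂ hi
      rwa [pow_one] at this
    · exact ModularCurve.qExpand_coeff_of_not_dvd _ _ hd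

/-- The series of `j ((a τ + b) / e)` in `q^{1/(e m)}`. -/
theorem hasLoc_jFun_affinePt_explicit (a e m : ℕ) [NeZero a] [NeZero e] [NeZero m] (b : ℤ)
    {c : ℂ} (hc : c = Complex.exp (2 * Real.pi * Complex.I * b / e)) (hc0 : c ≠ 0) :
    HasLoc (qw (e * m : ℕ)) (fun τ => jFun (affinePt a e b τ))
      (qExpand ℂ (a * m) (rotate hc0 (jqModC ℂ))) := by
  have hc1 : ‖c‖ = 1 := by
    rw [hc, Complex.norm_exp]
    have : (2 * (Real.pi : ℂ) * Complex.I * b / e).re = 0 := by simp [Complex.div_natCast_re]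
    rw [this, Real.exp_zero]
  exact hasLoc_jFun.pullback (affinePt a e b) hc1 hc0 (a * m)
    (fun τ => by rw [qw_affinePt a e m b τ, hc])

/-- A series in `q` as a series in `q^{1/M}`. -/
theorem hasLExp_of_hasLoc_one {f : ℍ → ℂ} {s : LaurentSeries ℂ} (h : HasLoc (qw 1) f s) :
    HasLExp M f (qExpand ℂ M s) :=
  hasLExp_of_hasLoc h.spread

/-- `j` has the same expansion at every cusp. -/
theorem hasLExp_act_jFun (γ : SL(2, ℤ)) : HasLExp M (act γ jFun) (qExpand ℂ M (jqModC ℂ)) := by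
  rw [show act γ jFun = jFun from funext fun τ => jFun_smul γ τ]
  exact hasLExp_of_hasLoc_one hasLoc_jFun

/-- `j` has the same expansion at every cusp. -/
theorem lexp_jFun (γ : SL(2, ℤ)) : lexp M γ jFun = qExpand ℂ M (jqModC ℂ) :=
  lexp_eq (hasLExp_act_jFun γ)

/-- `q ↦ q ^ n` keeps integrality. -/
theorem serIn_qExpand {A : Subring ℂ} {s : LaurentSeries ℂ} (hs : SerIn A s) (n : ℕ) [NeZero n] :
    SerIn A (qExpand ℂ n s) := by
  intro i
  by_cases hi : (n : ℤ) ∣ i
  · obtain ⟨j, rfl⟩ := hi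
    rw [ModularCurve.qExpand_coeff_mul]
    exact hs j
  · rw [ModularCurve.qExpand_coeff_of_not_dvd _ _ hi]
    exact A.zero_mem

/-- The series of `j` has integral coefficients. -/
theorem serIn_jqModC (A : Subring ℂ) : SerIn A (jqModC ℂ) := by
  intro i
  rw [ModularCurve.coeff_jqModC_eq_intCast]
  exact intCast_mem A _

/-- `j` is integral. -/
theorem jFun_mem_BRing (A : Subring ℂ) : jFun ∈ BRing M A := by
  refine ⟨⟨fun γ _ => funext fun τ => jFun_smul γ τ, fun γ => ⟨_, hasLExp_act_jFun γ⟩⟩, fun γ => ?_⟩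
  rw [lexp_jFun]
  exact serIn_qExpand (serIn_jqModC A) M

/-- Rotation by a unit keeps integrality. -/
theorem rotate_serIn {A : Subring ℂ} {c : ℂ} (hc : UnitIn A c) {s : LaurentSeries ℂ}
    (hs : SerIn A s) : SerIn A (rotate hc.1 s) := by
  intro i
  rw [coeff_rotate]
  refine A.mul_mem ?_ (hs i)
  rcases Int.eq_nat_or_neg i with ⟨n, rfl | rfl⟩
  · rw [zpow_natCast]; exact (hc.pow n).2.1
  · rw [zpow_neg, zpow_natCast]; exact (hc.pow n).2.2

variable {N : ℕ} [NeZero N]

/-- The normal form of a translate of `j (d τ)` at level `M`. -/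
theorem exists_lexp_jGenF (hNM : N ∣ M) (d : JIdx N) (γ : SL(2, ℤ)) :
    ∃ (δ : SL(2, ℤ)) (a e m : ℕ) (_ : ℤ) (_ : NeZero a) (_ : NeZero m)
      (c : ℂ) (hc : c ≠ 0), a * e = (d : ℕ) ∧ e * m = M ∧ γ 1 0 = δ 1 0 * a ∧
      (∃ i : ℤ, c = zetaC M ^ i) ∧
      HasLExp M (act γ (jGenF N d)) (qExpand ℂ (a * m) (rotate hc (jqModC ℂ))) := by
  obtain ⟨δ, a, e, m0, b, ha, he, hm, hae, hem, h10, hf⟩ := exists_jGenF_smul N d γ
  obtain ⟨q, hq⟩ := hNM
  have hq0 : NeZero q := ⟨fun h => NeZero.ne M (by rw [hq, h, mul_zero])⟩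
  have hm' : NeZero (m0 * q) := ⟨mul_ne_zero (NeZero.ne m0) (NeZero.ne q)⟩
  have hM : e * (m0 * q) = M := by rw [← mul_assoc, hem, hq]
  refine ⟨δ, a, e, m0 * q, b, ha, hm', Complex.exp (2 * Real.pi * Complex.I * b / e),
    Complex.exp_ne_zero _, hae, hM, h10, ⟨b * (m0 * q : ℕ), ?_⟩, ?_⟩
  · rw [show zetaC M = Complex.exp (2 * Real.pi * Complex.I / M) from rfl, ← Complex.exp_int_mul]
    congr 1
    have he0 : (e : ℂ) ≠ 0 := Nat.cast_ne_zero.mpr (NeZero.ne e)
    have hmq : ((m0 * q : ℕ) : ℂ) ≠ 0 := Nat.cast_ne_zero.mpr (NeZero.ne _)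
    rw [show (M : ℂ) = (e : ℂ) * ((m0 * q : ℕ) : ℂ) by rw [← Nat.cast_mul, hM], Int.cast_mul,
      Int.cast_natCast]
    field_simp
  · apply hasLExp_of_hasLoc
    have h := hasLoc_jFun_affinePt_explicit a e (m0 * q) b rfl (Complex.exp_ne_zero _)
    rw [hM] at h
    exact h.congr_fun fun τ => hf τ

/-- `j(dτ)` is integral at level `M`. -/
theorem jGenF_mem_BRing {A : Subring ℂ} (hA : GoodRoot M A (zetaC M)) (hNM : N ∣ M) (d : JIdx N) :
    jGenF N d ∈ BRing M A := by
  refine ⟨⟨fun γ hγ => funext fun τ => jGenF_gamma0 ?_ d τ, fun γ => ?_⟩, fun γ => ?_⟩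
  · rw [Gamma0_mem, ZMod.intCast_zmod_eq_zero_iff_dvd]
    refine (Int.natCast_dvd_natCast.mpr hNM).trans ?_
    rw [Gamma_mem] at hγ
    exact (ZMod.intCast_zmod_eq_zero_iff_dvd _ _).mp hγ.2.2.1
  · obtain ⟨δ, a, e, m, b, _, _, c, hc, -, -, -, -, h⟩ := exists_lexp_jGenF (M := M) hNM d γ
    exact ⟨_, h⟩
  · obtain ⟨δ, a, e, m, b, _, _, c, hc, -, -, -, ⟨i, rfl⟩, h⟩ :=
      exists_lexp_jGenF (M := M) hNM d γ
    rw [lexp_eq h]
    have hu : UnitIn A (zetaC M ^ i) := by
      rcases Int.eq_nat_or_neg i with ⟨n, rfl | rfl⟩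
      · rw [zpow_natCast]; exact hA.unit_root.pow n
      · rw [zpow_neg, zpow_natCast]; exact (hA.unit_root.pow n).inv
    exact serIn_qExpand (rotate_serIn hu (serIn_jqModC A)) _

omit [NeZero N] in
/-- The expansion of `j(dτ)` at `∞`. -/
theorem lexp_one_jGenF (d : JIdx N) :
    lexp M 1 (jGenF N d) = qExpand ℂ M (qExpand ℂ (d : ℕ) (jqModC ℂ)) := by
  refine lexp_eq (hasLExp_of_hasLoc ?_)
  rw [act_one]
  have : NeZero ((d : ℕ) * M) := ⟨mul_ne_zero (NeZero.ne _) (NeZero.ne M)⟩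
  have h := hasLoc_jFun.pullback (t' := qw (M : ℝ)) (scalePt (d : ℕ)) norm_one one_ne_zero
    ((d : ℕ) * M) fun τ => by
    simp only [qw, Function.Periodic.qParam, coe_scalePt, ← Complex.exp_nat_mul, one_mul]
    congr 1
    have : (M : ℂ) ≠ 0 := Nat.cast_ne_zero.mpr (NeZero.ne M)
    push_cast
    field_simp
  rw [rotate_one] at h
  have e : qExpand ℂ ((d : ℕ) * M) (jqModC ℂ) = qExpand ℂ M (qExpand ℂ (d : ℕ) (jqModC ℂ)) := by
    rw [ModularCurve.qExpand_qExpand]
    congr 1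
    simp [mul_comm]
  rw [← e]
  exact h

variable {k : Type*} [Field k] (D : RedDatum M k)

/-- `j` as an element of `BRing M R`. -/
def RedDatum.jB : BRing M D.R := ⟨jFun, jFun_mem_BRing D.R⟩

/-- `j (d τ)` as an element of `BRing M R`. -/
def RedDatum.jGenB (hNM : N ∣ M) (d : JIdx N) : BRing M D.R :=
  ⟨jGenF N d, jGenF_mem_BRing D.good hNM d⟩

theorem RedDatum.redHom_eq_coeffMap {f : BRing M D.R} {γ : SL(2, ℤ)} {z : LaurentSeries ℤ}
    (h : lexp M γ (f : ℍ → ℂ) = coeffMap (Int.castRingHom ℂ) z) :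
    D.redHom γ f = coeffMap (Int.castRingHom k) z := by
  ext n
  rw [D.coeff_redHom, coeffMap_coeff]
  have e : (⟨(lexp M γ (f : ℍ → ℂ)).coeff n, f.2.2 γ n⟩ : D.R) = ((z.coeff n : ℤ) : D.R) :=
    Subtype.ext (by simp [h])
  rw [e, map_intCast]
  rfl

theorem qExpand_jqModC_eq_coeffMap (K : Type*) [CommRing K] (n : ℕ) [NeZero n] :
    qExpand K n (jqModC K) = coeffMap (Int.castRingHom K) (qExpand ℤ n (jqModC ℤ)) := by
  rw [ModularCurve.coeffMap_qExpand, ModularCurve.coeffMap_jqModC]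

/-- The reduced expansions of `j`. -/
theorem RedDatum.redHom_jB (γ : SL(2, ℤ)) : D.redHom γ D.jB = qExpand k M (jqModC k) := by
  rw [qExpand_jqModC_eq_coeffMap k]
  refine D.redHom_eq_coeffMap ?_
  show lexp M γ jFun = _
  rw [lexp_jFun, qExpand_jqModC_eq_coeffMap ℂ]

/-- The reduced expansion of `j(dτ)` at `∞`. -/
theorem RedDatum.redHom_one_jGenB (hNM : N ∣ M) (d : JIdx N) :
    D.redHom 1 (D.jGenB hNM d) = qExpand k M (qExpand k (d : ℕ) (jqModC k)) := by
  rw [qExpand_jqModC_eq_coeffMap k, ← ModularCurve.coeffMap_qExpand]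
  refine D.redHom_eq_coeffMap ?_
  show lexp M 1 (jGenF N d) = _
  rw [lexp_one_jGenF, qExpand_jqModC_eq_coeffMap ℂ, ← ModularCurve.coeffMap_qExpand]

variable {m : ℕ} (haux : AuxLevel M m)

/-- If a translate of `j (N τ)` has the same reduction then it comes from `Γ₀(N)`. -/
theorem RedDatum.mem_gamma0_of_redHom_eq (hNM : N ∣ M) {γ : SL(2, ℤ)}
    (h : D.redHom γ (D.jGenB hNM (JIdx.top N)) = D.redHom 1 (D.jGenB hNM (JIdx.top N))) :
    γ ∈ Gamma0 N := by
  obtain ⟨δ, a, e, m', b, _, _, c, hc, hae, hem, h10, ⟨i, hci⟩, hexp⟩ :=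
    exists_lexp_jGenF (M := M) hNM (JIdx.top N) γ
  change a * e = N at hae
  -- the order at `γ∞` of the reduction is `-a m`
  have hc' : UnitIn D.R c := by
    rw [hci]
    rcases Int.eq_nat_or_neg i with ⟨n, rfl | rfl⟩
    · rw [zpow_natCast]; exact D.good.unit_root.pow n
    · rw [zpow_neg, zpow_natCast]; exact (D.good.unit_root.pow n).inv
  have hlow : ∀ n, n < -((a * m' : ℕ) : ℤ) →
      (D.redHom γ (D.jGenB hNM (JIdx.top N))).coeff n = 0 := by
    intro n hn
    rw [D.coeff_redHom, ← map_zero D.π]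
    congr 1
    refine Subtype.ext ?_
    show (lexp M γ (jGenF N (JIdx.top N))).coeff n = 0
    rw [lexp_eq hexp]
    by_cases hd : ((a * m' : ℕ) : ℤ) ∣ n
    · obtain ⟨j, rfl⟩ := hd
      rw [ModularCurve.qExpand_coeff_mul, coeff_rotate, ModularCurve.coeff_jqModC_of_lt, mul_zero]
      have : (0 : ℤ) < ((a * m' : ℕ) : ℤ) := Nat.cast_pos.2 (Nat.pos_of_ne_zero (NeZero.ne _))
      nlinarith
    · rw [ModularCurve.qExpand_coeff_of_not_dvd _ _ hd]
  have hlead : (D.redHom γ (D.jGenB hNM (JIdx.top N))).coeff (-((a * m' : ℕ) : ℤ)) ≠ 0 := by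
    rw [D.coeff_redHom, D.unit_iff]
    show UnitIn D.R ((lexp M γ (jGenF N (JIdx.top N))).coeff _)
    rw [lexp_eq hexp, show -((a * m' : ℕ) : ℤ) = ((a * m' : ℕ) : ℤ) * (-1) by ring,
      ModularCurve.qExpand_coeff_mul, coeff_rotate, ModularCurve.coeff_jqModC_neg_one, mul_one,
      zpow_neg_one]
    exact hc'.inv
  rw [h, D.redHom_one_jGenB, ModularCurve.qExpand_qExpand] at hlow hlead
  have hN : ((M * (JIdx.top N : ℕ) : ℕ) : ℤ) = (M : ℤ) * N := by push_cast; rfl
  have hcf : ∀ j : ℤ, (qExpand k (M * (JIdx.top N : ℕ)) (jqModC k)).coeff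
      (((M * (JIdx.top N : ℕ) : ℕ) : ℤ) * j) = (jqModC k).coeff j :=
    fun j => ModularCurve.qExpand_coeff_mul _ _ _
  have h1 : a * m' ≥ M * N := by
    by_contra hlt
    push Not at hlt
    refine hlead ?_
    by_cases hd : ((M * (JIdx.top N : ℕ) : ℕ) : ℤ) ∣ -((a * m' : ℕ) : ℤ)
    · exfalso
      rw [Int.dvd_neg, Int.natCast_dvd_natCast] at hd
      exact absurd (Nat.le_of_dvd (Nat.pos_of_ne_zero (NeZero.ne (a * m'))) hd) (not_le.mpr hlt)
    · exact ModularCurve.qExpand_coeff_of_not_dvd _ _ hd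
  have ha : a ≤ N := hae ▸ Nat.le_mul_of_pos_right a
    (Nat.pos_of_ne_zero (fun h => NeZero.ne N (by rw [← hae, h, mul_zero])))
  have hm : m' ≤ M := hem ▸ Nat.le_mul_of_pos_left m'
    (Nat.pos_of_ne_zero (fun h => NeZero.ne M (by rw [← hem, h, zero_mul])))
  have haN : a = N := by
    nlinarith [Nat.mul_le_mul_left a hm, Nat.pos_of_ne_zero (NeZero.ne M)]
  rw [Gamma0_mem, ZMod.intCast_zmod_eq_zero_iff_dvd, h10, haN]
  exact dvd_mul_left _ _

include D haux in
/-- The residual degree of `j̄(q^N)` over `k(j̄)` is at least the index of `Γ₀(N)`. -/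
theorem RedDatum.eq_zero_of_relation (hNM : N ∣ M) (p : ℕ → k[X])
    (hp : ∑ i ∈ Finset.range (Gamma0 N).index,
      (p i).eval₂ HahnSeries.C (jqModC k) * jqNModC k N ^ i = 0) :
    ∀ i < (Gamma0 N).index, p i = 0 := by
  classical
  set n := (Gamma0 N).index
  -- lift the relation
  choose P hP using fun i => Polynomial.map_surjective D.π D.surj (p i)
  set J := D.jGenB hNM (JIdx.top N)
  have hev : ∀ (γ : SL(2, ℤ)) (i : ℕ), D.redHom γ (eval₂ D.constB D.jB (P i)) =
      qExpand k M ((p i).eval₂ HahnSeries.C (jqModC k)) := by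
    intro γ i
    rw [hom_eval₂, ← hP i, eval₂_map, hom_eval₂, D.redHom_jB]
    congr 1
    ext a : 1
    rw [RingHom.comp_apply, D.redHom_constB, RingHom.comp_apply, RingHom.comp_apply,
      HahnSeries.C_apply, ModularCurve.qExpand_single, mul_zero]
  set E : BRing M D.R := ∑ i ∈ Finset.range n, eval₂ D.constB D.jB (P i) * J ^ i
  have hE : D.redHom 1 E = 0 := by
    simp only [E, map_sum, map_mul, map_pow, hev, J, D.redHom_one_jGenB]
    have := congrArg (qExpand k M) hp
    simpa [map_sum, map_mul, map_pow, jqNModC, JIdx.top] using this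
  -- every translate is a root of the polynomial
  set F : (LaurentSeries k)[X] :=
    ∑ i ∈ Finset.range n, C (qExpand k M ((p i).eval₂ HahnSeries.C (jqModC k))) * X ^ i with hF
  have : Fintype (SL(2, ℤ) ⧸ Gamma0 N) := Fintype.ofFinite _
  set r : SL(2, ℤ) ⧸ Gamma0 N → LaurentSeries k := fun c => D.redHom c.out⁻¹ J
  have hr : Function.Injective r := by
    intro c c' h
    have h' : D.redHom (c.out⁻¹ * c'.out) J = D.redHom 1 J := by
      set f : BRing M D.R := D.actB (c.out⁻¹ * c'.out) J - J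
      have h2 : D.redHom c'.out⁻¹ f = 0 := by
        simp only [f, map_sub, D.redHom_actB, mul_inv_cancel_right]
        exact sub_eq_zero.mpr h
      have h3 := (D.redHom_eq_zero_iff haux c'.out⁻¹ 1).mp h2
      simpa [f, D.redHom_actB, sub_eq_zero] using h3
    have := D.mem_gamma0_of_redHom_eq hNM h'
    rw [← Quotient.out_eq c, ← Quotient.out_eq c']
    exact QuotientGroup.eq.mpr this
  have hroot : ∀ c, F.IsRoot (r c) := by
    intro c
    have := (D.redHom_eq_zero_iff haux 1 c.out⁻¹).mp hE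
    simp only [E, map_sum, map_mul, map_pow, hev] at this
    simpa [IsRoot, hF, r, eval_finsetSum] using this
  have hcard : (Finset.univ.image r).card = n := by
    rw [Finset.card_image_of_injective _ hr, Finset.card_univ]
    rw [Fintype.card_eq_nat_card]
    rfl
  have hF0 : F = 0 := by
    by_contra hne
    have hdeg : F.natDegree < n := by
      have hn : 0 < n := Nat.pos_of_ne_zero Subgroup.FiniteIndex.index_ne_zero
      have : F.natDegree ≤ n - 1 := natDegree_sum_le_of_forall_le _ _ fun i hi =>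
        (natDegree_C_mul_X_pow_le _ i).trans (by have := Finset.mem_range.mp hi; omega)
      omega
    have := Polynomial.card_le_degree_of_subset_roots (p := F) (Z := Finset.univ.image r) (by
      intro x hx
      obtain ⟨c, -, rfl⟩ := Finset.mem_image.mp (Finset.mem_val.mp hx)
      exact (mem_roots hne).mpr (hroot c))
    omega
  intro i hi
  have hci := congrArg (fun q : (LaurentSeries k)[X] => q.coeff i) hF0
  simp only [hF, finsetSum_coeff, coeff_C_mul_X_pow, coeff_zero, Finset.sum_ite_eq,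
    Finset.mem_range, hi, if_true] at hci
  rw [← map_zero (qExpand k M)] at hci
  have h0 := ModularCurve.qExpand_injective M hci
  exact eq_zero_of_eval₂_of_neg (d := -1) (by norm_num)
    (by rw [ModularCurve.coeff_jqModC_neg_one]; exact one_ne_zero) _ h0

end FermatAgent.Curve.Red
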