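import Fermat.Agent.Curve.Red.Connected
import Fermat.Agent.ES.Coeff.Place

/-!
# The `q`-expansion principle in terms of absolute values
-/

set_option autoImplicit false

open UpperHalfPlane CongruenceSubgroup
open scoped MatrixGroups

noncomputable section

namespace FermatAgent.Curve.Red

open FermatAgent.ES

variable {ℓ : ℕ} (P : CPlace ℓ)

/-- The maximal ideal of the valuation ring of `P`. -/
def maxIdeal : Ideal P.ring where
  carrier := {x | (x : ℂ) ∈ P.maxBall}
  add_mem' ha hb := P.maxBall.add_mem ha hb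
  zero_mem' := P.maxBall.zero_mem
  smul_mem' r _ hx := P.mul_mem_maxBall _ r.2 _ hx

/-- Membership in the maximal ideal. -/
theorem mem_maxIdeal {x : P.ring} : x ∈ maxIdeal P ↔ (x : ℂ) ∈ P.maxBall := Iff.rfl

instance maxIdeal_isMaximal : (maxIdeal P).IsMaximal := by
  rw [Ideal.isMaximal_iff]
  refine ⟨fun h => by simp [mem_maxIdeal, P.mem_maxBall] at h, fun J x _ hx hxJ => ?_⟩
  rw [mem_maxIdeal, P.mem_maxBall] at hx
  have hu := P.unitIn_of_abv_eq_one (le_antisymm x.2 (not_lt.mp hx))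
  convert J.mul_mem_left ⟨_, hu.2.2⟩ hxJ using 1
  exact Subtype.ext (inv_mul_cancel₀ hu.1).symm

/-- The residue field of `P`. -/
abbrev ResField : Type := P.ring ⧸ maxIdeal P

noncomputable instance resFieldInst : Field (ResField P) := Ideal.Quotient.field _

/-- The datum of an absolute value of `ℂ`. -/
def placeDatum (M : ℕ) [NeZero M] (hM : M.Coprime ℓ) : RedDatum M (ResField P) where
  L := ⊤
  R := P.ring
  le _ _ := trivial
  val x _ := by
    rcases le_or_gt (P.abv x) 1 with h | h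
    · exact Or.inl h
    · exact Or.inr (by rw [P.mem_ring, map_inv₀]; exact inv_le_one_of_one_le₀ h.le)
  π := Ideal.Quotient.mk _
  surj := Ideal.Quotient.mk_surjective
  unit_iff x := by
    rw [Ne, Ideal.Quotient.eq_zero_iff_mem, mem_maxIdeal, P.mem_maxBall, not_lt]
    exact ⟨fun h => P.unitIn_of_abv_eq_one (le_antisymm x.2 h),
      fun h => (P.abv_eq_one_of_unitIn h).ge⟩
  arch a c ha hc hu hc0 := by
    have hlt : P.abv a < 1 :=
      lt_of_le_of_ne ha fun h => hu (P.unitIn_of_abv_eq_one h)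
    obtain ⟨n, hn⟩ := exists_pow_lt_of_lt_one (P.abv.pos hc0) hlt
    refine ⟨n, a ^ n / c, ?_, (mul_div_cancel₀ _ hc0).symm⟩
    rw [P.mem_ring, map_div₀, map_pow, div_le_one₀ (P.abv.pos hc0)]
    exact hn.le
  good := P.goodRoot hM

variable {M m : ℕ} [NeZero M] (haux : AuxLevel M m) (hM : M.Coprime ℓ)

theorem redHom_placeDatum_eq_zero {f : BRing M P.ring} (γ : SL(2, ℤ)) :
    (placeDatum P M hM).redHom γ f = 0 ↔ ∀ n, (lexp M γ (f : ℍ → ℂ)).coeff n ∈ P.maxBall := by
  constructor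
  · intro h n
    have := congrArg (fun s : LaurentSeries (ResField P) => s.coeff n) h
    simp only [RedDatum.coeff_redHom, HahnSeries.coeff_zero] at this
    exact (mem_maxIdeal P).mp ((Ideal.Quotient.eq_zero_iff_mem (I := maxIdeal P)).mp this)
  · intro h
    ext n
    simp only [RedDatum.coeff_redHom, HahnSeries.coeff_zero]
    exact (Ideal.Quotient.eq_zero_iff_mem (I := maxIdeal P)).mpr ((mem_maxIdeal P).mpr (h n))

include haux hM in
/-- The `q`-expansion principle modulo the maximal ideal. -/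
theorem coeff_mem_maxBall {f : ℍ → ℂ} (hf : f ∈ BRing M P.ring)
    (h : ∀ n, (lexp M 1 f).coeff n ∈ P.maxBall) (γ : SL(2, ℤ)) (n : ℤ) :
    (lexp M γ f).coeff n ∈ P.maxBall :=
  (redHom_placeDatum_eq_zero P hM (f := ⟨f, hf⟩) γ).mp
    (((placeDatum P M hM).redHom_eq_zero_iff haux γ 1).mpr
      ((redHom_placeDatum_eq_zero P hM (f := ⟨f, hf⟩) 1).mpr h)) n

include haux hM in
/-- The `q`-expansion principle: a bound at one cusp holds at every cusp. -/
theorem exists_normalize_one {f : ℍ → ℂ} (hf : f ∈ BSub M) (hf0 : f ≠ 0) :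
    ∃ a : ℂ, a ≠ 0 ∧ ∃ g ∈ BRing M P.ring, f = (fun _ => a) * g ∧
      ∃ n, P.abv ((lexp M 1 g).coeff n) = 1 := by
  set D := placeDatum P M hM
  obtain ⟨a, -, ha0, g, hg, γ, hγ⟩ := D.exists_normalize haux
    (f := f) ⟨hf, fun _ _ => trivial⟩ hf0
  refine ⟨a, ha0, g, g.2, hg, ?_⟩
  by_contra! h
  refine hγ
    ((D.redHom_eq_zero_iff haux γ 1).mpr ((redHom_placeDatum_eq_zero P hM 1).mpr fun n => ?_))
  exact lt_of_le_of_ne (g.2.2 1 n) (h n)

include haux hM in
/-- **The `q`-expansion principle**: a bound on the expansion at `∞` holds at every cusp. -/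
theorem abv_coeff_le {f : ℍ → ℂ} (hf : f ∈ BSub M) {c : ℝ} (hc : 0 ≤ c)
    (h : ∀ n, P.abv ((lexp M 1 f).coeff n) ≤ c) (γ : SL(2, ℤ)) (n : ℤ) :
    P.abv ((lexp M γ f).coeff n) ≤ c := by
  rcases eq_or_ne f 0 with rfl | hf0
  · simpa [lexp_zero] using hc
  obtain ⟨a, -, g, hg, rfl, n0, hn0⟩ := exists_normalize_one P haux hM hf hf0
  have hac : P.abv a ≤ c := by
    have := h n0
    rwa [coeff_lexp_const_mul hg.1, map_mul, hn0, mul_one] at this
  rw [coeff_lexp_const_mul hg.1, map_mul]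
  calc P.abv a * P.abv ((lexp M γ g).coeff n) ≤ c * 1 :=
        mul_le_mul hac (hg.2 γ n) (P.abv.nonneg _) hc
    _ = c := mul_one c

include haux hM in
/-- Integrality at `∞` implies integrality at every cusp. -/
theorem mem_BRing_of_serIn {f : ℍ → ℂ} (hf : f ∈ BSub M) (h : SerIn P.ring (lexp M 1 f)) :
    f ∈ BRing M P.ring :=
  ⟨hf, fun γ n => abv_coeff_le P haux hM hf zero_le_one h γ n⟩

end FermatAgent.Curve.Red
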