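import Fermat.Agent.Curve.Red.LevelN
import Fermat.Agent.Curve.Regular.InvariantLift
import Mathlib

/-!
# The residual level-`M` field and its automorphisms

The residual expansions at `∞` of `BRing M R` form a domain on which `SL(2,ℤ)/±Γ(M)` acts
faithfully; its fraction field is a function field over `k`.  Elements of the residual field of
`X₀(N)` integral over `k[j]` are reductions of `Γ₀(N)`-invariant elements.
-/

set_option autoImplicit false

open UpperHalfPlane hiding I
open CongruenceSubgroup Polynomial Metric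
open scoped MatrixGroups
open ModularCurve (coeffMap qExpand jqModC jqNModC qExpandAlgHomC modularFunctionFieldFullC)

noncomputable section

namespace FermatAgent.Curve.Red

open FermatAgent.ES

variable {M m : ℕ} [NeZero M] {k : Type*} [Field k] (D : RedDatum M k) (haux : AuxLevel M m)

include haux in
/-- Equal reductions at one cusp give equal reductions at every cusp. -/
theorem RedDatum.redHom_congr {f g : BRing M D.R} {γ : SL(2, ℤ)} (δ : SL(2, ℤ))
    (h : D.redHom γ f = D.redHom γ g) : D.redHom δ f = D.redHom δ g := by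
  rw [← sub_eq_zero, ← map_sub] at h ⊢
  exact (D.redHom_eq_zero_iff haux γ δ).mp h

include haux in
theorem RedDatum.redHom_conj {γ : SL(2, ℤ)}
    (h : ∀ f : BRing M D.R, D.redHom γ f = D.redHom 1 f) (δ : SL(2, ℤ)) (f : BRing M D.R) :
    D.redHom (δ⁻¹ * γ * δ) f = D.redHom 1 f := by
  have h1 : ∀ g : BRing M D.R, D.redHom (γ * δ) g = D.redHom δ g := fun g => by
    rw [← D.redHom_actB]
    refine D.redHom_congr haux (γ := 1) δ ?_
    rw [D.redHom_actB, mul_one]
    exact h g
  have := h1 (D.actB δ⁻¹ f)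
  rwa [D.redHom_actB, D.redHom_actB, ← mul_assoc, inv_mul_cancel] at this

omit [NeZero M] in
theorem mem_Gamma_of_scalar {γ : SL(2, ℤ)} (hm : m = 2 ∨ m = 3) (hdvd : m ∣ M)
    (h10 : ((γ 1 0 : ℤ) : ZMod M) = 0) (h01 : ((γ 0 1 : ℤ) : ZMod M) = 0)
    (hd : ((γ 0 0 : ℤ) : ZMod M) = ((γ 1 1 : ℤ) : ZMod M)) : γ ∈ Gamma m ∨ -γ ∈ Gamma m := by
  let c : ZMod M →+* ZMod m := ZMod.castHom hdvd _
  have h10' : ((γ 1 0 : ℤ) : ZMod m) = 0 := by simpa using congrArg c h10
  have h01' : ((γ 0 1 : ℤ) : ZMod m) = 0 := by simpa using congrArg c h01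
  have hd' : ((γ 0 0 : ℤ) : ZMod m) = ((γ 1 1 : ℤ) : ZMod m) := by simpa using congrArg c hd
  have hdet : (γ 0 0 : ℤ) * γ 1 1 - γ 0 1 * γ 1 0 = 1 := by
    have := γ.2; rwa [Matrix.det_fin_two] at this
  have h := congrArg (Int.cast : ℤ → ZMod m) hdet
  push_cast at h
  rw [h10', h01', ← hd', mul_zero, sub_zero] at h
  have hsq : ∀ a : ZMod m, a * a = 1 → a = 1 ∨ a = -1 := by
    rcases hm with rfl | rfl <;> decide
  rcases hsq _ h with h1 | h1
  · left
    rw [Gamma_mem]
    exact ⟨h1, h01', h10', hd' ▸ h1⟩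
  · right
    rw [Gamma_mem]
    simp only [Matrix.SpecialLinearGroup.coe_neg, Matrix.neg_apply, Int.cast_neg, h01', h10',
      neg_zero, h1, ← hd', neg_neg, and_self]

include haux in
/-- The residual action is faithful modulo `±Γ(M)`. -/
theorem RedDatum.act_eq_of_redHom {γ : SL(2, ℤ)}
    (h : ∀ f : BRing M D.R, D.redHom γ f = D.redHom 1 f) (f : BRing M D.R) :
    D.actB γ f = f := by
  classical
  have hG0 : ∀ δ : SL(2, ℤ), δ⁻¹ * γ * δ ∈ Gamma0 M := fun δ =>
    D.mem_gamma0_of_redHom_eq (dvd_refl M) (D.redHom_conj haux h δ _)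
  have h10 : ((γ 1 0 : ℤ) : ZMod M) = 0 := by
    have := hG0 1
    rw [inv_one, one_mul, mul_one, Gamma0_mem] at this
    exact this
  have hS := hG0 ModularGroup.S
  have hTS := hG0 (ModularGroup.T * ModularGroup.S)
  rw [Gamma0_mem] at hS hTS
  simp [Matrix.SpecialLinearGroup.coe_inv, ModularGroup.coe_S, ModularGroup.coe_T,
    Matrix.mul_apply, Matrix.vecMul, dotProduct, Fin.sum_univ_two,
    Matrix.adjugate_fin_two] at hS hTS
  have h01 : ((γ 0 1 : ℤ) : ZMod M) = 0 := by simpa using hS
  have hd : ((γ 0 0 : ℤ) : ZMod M) = ((γ 1 1 : ℤ) : ZMod M) := by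
    linear_combination (-1 : ZMod M) * hTS + h10 + (-1 : ZMod M) * h01
  -- reduce to an element of `Γ(m)`
  suffices H : ∀ x : SL(2, ℤ), x ∈ Gamma m → (∀ f : BRing M D.R, D.redHom x f = D.redHom 1 f) →
      D.actB x f = f by
    rcases mem_Gamma_of_scalar haux.small haux.dvd h10 h01 hd with h' | h'
    · exact H γ h' h
    · have := H (-γ) h' fun g => by rw [D.redHom_neg]; exact h g
      refine Eq.trans (Subtype.ext ?_) this
      simp only [coe_actB]
      rw [show (-γ : SL(2, ℤ)) = -1 * γ by simp, act_mul, act_neg_one]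
  intro x hx hxf
  set g : GalGrp M m := ((⟨x, hx⟩ : Gamma m) : GalGrp M m)
  set s := (Finset.univ.erase (1 : GalGrp M m)).powerset
  let a : Finset (GalGrp M m) → BRing M D.R := fun S => ⟨sepA haux S, sepA_mem haux D.good S⟩
  let b : Finset (GalGrp M m) → BRing M D.R := fun S => ⟨sepB haux S, sepB_mem haux D.good S⟩
  have hsum : ∀ g' : GalGrp M m, ∑ S ∈ s, a S * D.actB (repG M m g') (b S) =
      if g' = 1 then 1 else 0 := fun g' => Subtype.ext (by
    rw [AddSubmonoidClass.coe_finsetSum]
    refine (sum_sepA_mul_act_sepB haux g').trans ?_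
    split_ifs <;> rfl)
  have hactx : ∀ y : BRing M D.R, D.actB (repG M m g) y = D.actB x y := fun y => Subtype.ext (by
    simp only [coe_actB]
    exact (act_eq_act_repG y.2.1 (⟨x, hx⟩ : Gamma m)).symm)
  have hact1 : ∀ y : BRing M D.R, D.actB (repG M m 1) y = y := fun y => Subtype.ext (by
    simp only [coe_actB]
    have := act_eq_act_repG (m := m) y.2.1 (1 : Gamma m)
    rw [Subgroup.coe_one, act_one, QuotientGroup.mk_one] at this
    exact this.symm)
  have hg : g = 1 := by
    by_contra hne
    have h1 := congrArg (D.redHom 1) (hsum g)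
    have h2 := congrArg (D.redHom 1) (hsum 1)
    simp only [map_sum, map_mul, hactx, D.redHom_actB, mul_one, hxf, hact1, if_neg hne, if_pos,
      map_one, map_zero] at h1 h2
    exact one_ne_zero (h2.symm.trans h1)
  refine Subtype.ext ?_
  simp only [coe_actB]
  exact act_of_kerAct f.2.1 (x := (⟨x, hx⟩ : Gamma m)) ((QuotientGroup.eq_one_iff _).1 hg)

/-- The residual expansions at `∞`. -/
def RedDatum.resSub : Subalgebra k (LaurentSeries k) where
  toSubsemiring := (D.redHom (M := M) 1).range.toSubsemiring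
  algebraMap_mem' a := by
    obtain ⟨r, rfl⟩ := D.surj a
    exact ⟨D.constB r, by rw [D.redHom_constB, HahnSeries.C_apply,
      ← ModularCurve.algebraMap_laurentSeries_eq_single]⟩

/-- The residual field of level `M`. -/
abbrev RedDatum.ResField : Type _ := FractionRing D.resSub

/-- The residual expansion. -/
def RedDatum.toSub : BRing M D.R →+* D.resSub :=
  (D.redHom (M := M) 1).codRestrict _ fun f => ⟨f, rfl⟩

/-- The domain of reductions is the image of `BRing M R`. -/
theorem RedDatum.toSub_surjective : Function.Surjective D.toSub := by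
  rintro ⟨_, f, rfl⟩
  exact ⟨f, rfl⟩

include haux in
theorem RedDatum.toSub_actB {f g : BRing M D.R} (h : D.toSub f = D.toSub g) (γ : SL(2, ℤ)) :
    D.toSub (D.actB γ f) = D.toSub (D.actB γ g) := by
  refine Subtype.ext ?_
  show D.redHom 1 (D.actB γ f) = D.redHom 1 (D.actB γ g)
  rw [D.redHom_actB, D.redHom_actB]
  exact D.redHom_congr haux _ (congrArg Subtype.val h)

/-- The translations form a right action. -/
theorem RedDatum.actB_mul (γ δ : SL(2, ℤ)) (f : BRing M D.R) :
    D.actB (γ * δ) f = D.actB δ (D.actB γ f) := Subtype.ext (act_mul γ δ f)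

/-- The identity acts trivially. -/
theorem RedDatum.actB_one (f : BRing M D.R) : D.actB 1 f = f := Subtype.ext (act_one _)

/-- Translations fix constants. -/
theorem RedDatum.actB_constB (γ : SL(2, ℤ)) (a : D.R) :
    D.actB γ (D.constB a) = D.constB (M := M) a := Subtype.ext (act_const γ _)

/-- The residual action of `γ`. -/
def RedDatum.subAct (γ : SL(2, ℤ)) : D.resSub →ₐ[k] D.resSub where
  toFun y := D.toSub (D.actB γ⁻¹ (Function.surjInv D.toSub_surjective y))
  map_one' := by
    rw [D.toSub_actB haux (g := 1) (by rw [Function.surjInv_eq D.toSub_surjective, map_one]),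
      map_one, map_one]
  map_mul' a b := by
    rw [D.toSub_actB haux (g := Function.surjInv D.toSub_surjective a *
      Function.surjInv D.toSub_surjective b) (by simp [Function.surjInv_eq D.toSub_surjective]),
      map_mul, map_mul]
  map_zero' := by
    rw [D.toSub_actB haux (g := 0) (by rw [Function.surjInv_eq D.toSub_surjective, map_zero]),
      map_zero, map_zero]
  map_add' a b := by
    rw [D.toSub_actB haux (g := Function.surjInv D.toSub_surjective a +
      Function.surjInv D.toSub_surjective b) (by simp [Function.surjInv_eq D.toSub_surjective]),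
      map_add, map_add]
  commutes' a := by
    obtain ⟨r, rfl⟩ := D.surj a
    have h : D.toSub (D.constB r) = algebraMap k D.resSub (D.π r) := Subtype.ext (by
      show D.redHom 1 (D.constB r) = algebraMap k (LaurentSeries k) (D.π r)
      rw [D.redHom_constB, HahnSeries.C_apply, ModularCurve.algebraMap_laurentSeries_eq_single])
    rw [D.toSub_actB haux (g := D.constB r) (by rw [Function.surjInv_eq D.toSub_surjective, h]),
      D.actB_constB, h]

theorem RedDatum.subAct_toSub (γ : SL(2, ℤ)) (f : BRing M D.R) :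
    D.subAct haux γ (D.toSub f) = D.toSub (D.actB γ⁻¹ f) :=
  D.toSub_actB haux (Function.surjInv_eq _ _) _

theorem RedDatum.subAct_mul (γ δ : SL(2, ℤ)) (y : D.resSub) :
    D.subAct haux (γ * δ) y = D.subAct haux γ (D.subAct haux δ y) := by
  obtain ⟨f, rfl⟩ := D.toSub_surjective y
  rw [D.subAct_toSub, D.subAct_toSub, D.subAct_toSub, mul_inv_rev, D.actB_mul]

theorem RedDatum.subAct_one (y : D.resSub) : D.subAct haux 1 y = y := by
  obtain ⟨f, rfl⟩ := D.toSub_surjective y
  rw [D.subAct_toSub, inv_one, D.actB_one]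

/-- The residual action as an automorphism. -/
def RedDatum.subEquiv (γ : SL(2, ℤ)) : D.resSub ≃ₐ[k] D.resSub :=
  AlgEquiv.ofAlgHom (D.subAct haux γ) (D.subAct haux γ⁻¹)
    (AlgHom.ext fun y => by
      rw [AlgHom.comp_apply, ← D.subAct_mul, mul_inv_cancel, D.subAct_one]; rfl)
    (AlgHom.ext fun y => by
      rw [AlgHom.comp_apply, ← D.subAct_mul, inv_mul_cancel, D.subAct_one]; rfl)

/-- The residual reduction into the field. -/
def RedDatum.resMap : BRing M D.R →+* D.ResField :=
  (algebraMap D.resSub D.ResField).comp D.toSub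

/-- An element maps to zero in the residual field iff its reduction at `∞` vanishes. -/
theorem RedDatum.resMap_eq_zero {f : BRing M D.R} : D.resMap f = 0 ↔ D.redHom 1 f = 0 := by
  rw [resMap, RingHom.comp_apply, map_eq_zero_iff _ (IsFractionRing.injective D.resSub D.ResField)]
  exact Subtype.ext_iff

/-- Equal images mean equal reductions at `∞`. -/
theorem RedDatum.resMap_eq_resMap {f g : BRing M D.R} :
    D.resMap f = D.resMap g ↔ D.redHom 1 f = D.redHom 1 g := by
  rw [← sub_eq_zero, ← map_sub, D.resMap_eq_zero, map_sub, sub_eq_zero]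

/-- The residual field consists of quotients of reductions. -/
theorem RedDatum.exists_eq_div (z : D.ResField) :
    ∃ b r : BRing M D.R, D.resMap r ≠ 0 ∧ z = D.resMap b / D.resMap r := by
  obtain ⟨a, c, hc, rfl⟩ := IsFractionRing.div_surjective D.resSub z
  obtain ⟨b, rfl⟩ := D.toSub_surjective a
  obtain ⟨r, rfl⟩ := D.toSub_surjective c
  exact ⟨b, r, fun h => nonZeroDivisors.ne_zero hc
    (IsFractionRing.injective D.resSub D.ResField (h.trans (map_zero _).symm)), rfl⟩

/-- The automorphism of the residual field attached to `γ`. -/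
def RedDatum.fieldAct (γ : SL(2, ℤ)) : D.ResField ≃ₐ[k] D.ResField :=
  IsFractionRing.fieldEquivOfAlgEquiv k D.ResField D.ResField (D.subEquiv haux γ)

theorem RedDatum.fieldAct_resMap (γ : SL(2, ℤ)) (f : BRing M D.R) :
    D.fieldAct haux γ (D.resMap f) = D.resMap (D.actB γ⁻¹ f) := by
  show IsFractionRing.fieldEquivOfAlgEquiv k D.ResField D.ResField (D.subEquiv haux γ)
    (algebraMap D.resSub D.ResField (D.toSub f)) = _
  rw [IsFractionRing.fieldEquivOfAlgEquiv_algebraMap]
  exact congrArg _ (D.subAct_toSub haux γ f)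

/-- The residual automorphisms as a homomorphism. -/
def RedDatum.resAut : SL(2, ℤ) →* (D.ResField ≃ₐ[k] D.ResField) where
  toFun := D.fieldAct haux
  map_one' := AlgEquiv.ext fun z => by
    obtain ⟨b, r, -, rfl⟩ := D.exists_eq_div z
    simp [D.fieldAct_resMap, D.actB_one]
  map_mul' γ δ := AlgEquiv.ext fun z => by
    obtain ⟨b, r, -, rfl⟩ := D.exists_eq_div z
    simp [D.fieldAct_resMap, mul_inv_rev, D.actB_mul, AlgEquiv.mul_apply]

/-- The automorphism of `γ` on a reduction. -/
theorem RedDatum.resAut_resMap (γ : SL(2, ℤ)) (f : BRing M D.R) :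
    D.resAut haux γ (D.resMap f) = D.resMap (D.actB γ⁻¹ f) := D.fieldAct_resMap haux γ f

include haux in
/-- Matrices with the same automorphism translate `BRing M R` in the same way. -/
theorem RedDatum.actB_inv_eq_of_resAut_eq {a b : SL(2, ℤ)} (h : D.resAut haux a = D.resAut haux b)
    (f : BRing M D.R) : D.actB a⁻¹ f = D.actB b⁻¹ f := by
  have h1 : D.resAut haux (b⁻¹ * a) = 1 := by rw [map_mul, h, ← map_mul, inv_mul_cancel, map_one]
  have h2 : ∀ g : BRing M D.R, D.actB (a⁻¹ * b) g = g := fun g =>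
    D.act_eq_of_redHom haux (fun g => by
      have h3 := DFunLike.congr_fun h1 (D.resMap g)
      rw [D.resAut_resMap, mul_inv_rev, inv_inv, AlgEquiv.one_apply, D.resMap_eq_resMap,
        D.redHom_actB, mul_one] at h3
      exact h3) g
  have h4 : D.actB b⁻¹ (D.actB (a⁻¹ * b) f) = D.actB b⁻¹ f := congrArg (D.actB b⁻¹) (h2 f)
  rwa [← D.actB_mul, mul_assoc, mul_inv_cancel, mul_one] at h4

/-- The automorphisms coming from a subgroup. -/
def RedDatum.resGroup (H : Subgroup SL(2, ℤ)) : Subgroup (D.ResField ≃ₐ[k] D.ResField) :=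
  H.map (D.resAut haux)

theorem RedDatum.gamma_le_ker : Gamma M ≤ (D.resAut haux).ker := fun γ hγ => by
  rw [MonoidHom.mem_ker]
  refine AlgEquiv.ext fun z => ?_
  obtain ⟨b, r, -, rfl⟩ := D.exists_eq_div z
  have h : ∀ f : BRing M D.R, D.actB γ⁻¹ f = f := fun f => Subtype.ext (f.2.1.1 _ (inv_mem hγ))
  rw [map_div₀, D.resAut_resMap, D.resAut_resMap, h, h]
  rfl

instance RedDatum.finite_resGroup (H : Subgroup SL(2, ℤ)) : Finite (D.resGroup haux H) := by
  have : Finite (SL(2, ℤ) ⧸ Gamma M) := inferInstance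
  have := Gamma_normal M
  have hf : ((D.resAut haux).range : Set (D.ResField ≃ₐ[k] D.ResField)).Finite := by
    refine Set.Finite.subset (Set.finite_range
      (QuotientGroup.lift (Gamma M) (D.resAut haux) (D.gamma_le_ker haux))) ?_
    rintro _ ⟨γ, rfl⟩
    exact ⟨QuotientGroup.mk γ, rfl⟩
  exact (hf.subset (by rintro _ ⟨γ, -, rfl⟩; exact ⟨γ, rfl⟩)).to_subtype

instance RedDatum.fintype_resGroup (H : Subgroup SL(2, ℤ)) : Fintype (D.resGroup haux H) :=
  Fintype.ofFinite _

/-- The elements invariant under `H`. -/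
def RedDatum.invB (H : Subgroup SL(2, ℤ)) : Subring (BRing M D.R) where
  carrier := {f | ∀ γ ∈ H, D.actB γ f = f}
  one_mem' γ _ := map_one _
  zero_mem' γ _ := map_zero _
  mul_mem' hf hg γ hγ := by rw [map_mul, hf γ hγ, hg γ hγ]
  add_mem' hf hg γ hγ := by rw [map_add, hf γ hγ, hg γ hγ]
  neg_mem' hf γ hγ := by rw [map_neg, hf γ hγ]

/-- Representatives of the automorphisms. -/
def RedDatum.resRep {H : Subgroup SL(2, ℤ)} (g : D.resGroup haux H) : SL(2, ℤ) :=
  (Subgroup.mem_map.1 g.2).choose

/-- The chosen representative induces the given automorphism. -/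
theorem RedDatum.resAut_resRep {H : Subgroup SL(2, ℤ)} (g : D.resGroup haux H) :
    D.resAut haux (D.resRep haux g) = g := (Subgroup.mem_map.1 g.2).choose_spec.2

/-- The symmetrisation polynomial. -/
def RedDatum.symPoly (H : Subgroup SL(2, ℤ)) (f : BRing M D.R) : (BRing M D.R)[X] :=
  ∏ g : D.resGroup haux H, (X - C (D.actB (D.resRep haux g)⁻¹ f))

/-- The symmetrised polynomial reduces to the product over the group. -/
theorem RedDatum.map_symPoly (H : Subgroup SL(2, ℤ)) (f : BRing M D.R) :
    (D.symPoly haux H f).map D.resMap =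
      ∏ g : D.resGroup haux H, (X - C ((g : D.ResField ≃ₐ[k] D.ResField) (D.resMap f))) := by
  simp only [symPoly, Polynomial.map_prod, Polynomial.map_sub, Polynomial.map_X, Polynomial.map_C]
  refine Finset.prod_congr rfl fun g _ => ?_
  rw [← D.resAut_resMap haux, D.resAut_resRep haux]

include haux in
/-- The symmetrised polynomial has invariant coefficients. -/
theorem RedDatum.coeff_symPoly_mem (H : Subgroup SL(2, ℤ)) (f : BRing M D.R) (i : ℕ) :
    (D.symPoly haux H f).coeff i ∈ D.invB H := by
  intro δ hδ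
  suffices h : (D.symPoly haux H f).map (D.actB δ) = D.symPoly haux H f by
    conv_rhs => rw [← h, coeff_map]
  simp only [symPoly, Polynomial.map_prod, Polynomial.map_sub, Polynomial.map_X, Polynomial.map_C]
  let d : D.resGroup haux H := ⟨D.resAut haux δ, δ, hδ, rfl⟩
  refine Fintype.prod_equiv (Equiv.mulLeft d⁻¹) _ _ fun g => ?_
  have h1 : D.resAut haux (δ⁻¹ * D.resRep haux g) = D.resAut haux (D.resRep haux (d⁻¹ * g)) := by
    rw [D.resAut_resRep, map_mul, map_inv, D.resAut_resRep, Subgroup.coe_mul, Subgroup.coe_inv]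
  rw [Equiv.coe_mulLeft, ← D.actB_inv_eq_of_resAut_eq haux h1, mul_inv_rev, inv_inv, D.actB_mul]

end FermatAgent.Curve.Red
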