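import Fermat.Agent.Curve.Red.InvCoord
import Fermat.Agent.Curve.Regular.PlaceVal

/-!
# The affine chart of a regular Gauss model and its reduction

The chart of a Gauss model `G` consists of the `f ∈ F` with integral expansion that are integral
over `L[x]`; they are then integral over `R[x]`.  `G` is regular for a residual field `Fb` when
`x` and the basis reduce into `Fb` and every function of `Fb` integral over `k[x̄]` lifts to the
chart; then reduction `redB` is onto those functions, its kernel is generated by the maximal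
ideal, and `Fb` has degree `n` over `k(x̄)`.
-/

set_option autoImplicit false

open Polynomial AlgebraicCurve IntermediateField
open ModularCurve (coeffMap)

noncomputable section

-- searched first: the other route ends in a long failing unification on the scalar towers
attribute [local instance 1100] SubalgebraClass.toAlgebra

namespace FermatAgent.Curve

section Degree

variable {K F : Type*} [Field K] [Field F] [Algebra K F]

/-- A polynomially independent spanning family computes the degree over `K(x)`. -/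
theorem finite_and_finrank_of_family {x : F} (hx : Transcendental K x) {n : ℕ} (b : Fin n → F)
    (hind : ∀ p : Fin n → K[X], ∑ i, aeval x (p i) * b i = 0 → p = 0)
    (hspan : ∀ f, ∃ (Q : K[X]) (P : Fin n → K[X]), Q ≠ 0 ∧
      f * aeval x Q = ∑ i, aeval x (P i) * b i) :
    FiniteDimensional K⟮x⟯ F ∧ Module.finrank K⟮x⟯ F = n := by
  classical
  have hne : ∀ q : K[X], q ≠ 0 → aeval x q ≠ 0 := fun q hq h =>
    hq (transcendental_iff.mp hx q h)
  have hmemE : ∀ p : K[X], aeval x p ∈ K⟮x⟯ := fun p =>
    IntermediateField.algebra_adjoin_le_adjoin K _ (aeval_mem_adjoin_singleton K x)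
  have hspan' : ⊤ ≤ Submodule.span K⟮x⟯ (Set.range b) := by
    intro f _
    obtain ⟨Q, P, hQ, h⟩ := hspan f
    have hf : f = ∑ i, (⟨aeval x (P i) / aeval x Q,
        div_mem (hmemE _) (hmemE _)⟩ : K⟮x⟯) • b i := by
      simp only [IntermediateField.smul_def, smul_eq_mul]
      rw [eq_div_of_mul_eq (hne Q hQ) h, Finset.sum_div]
      exact Finset.sum_congr rfl fun i _ => by ring
    rw [hf]
    exact Submodule.sum_mem _ fun i _ => Submodule.smul_mem _ _
      (Submodule.subset_span ⟨i, rfl⟩)
  have hli : LinearIndependent K⟮x⟯ b := by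
    rw [Fintype.linearIndependent_iff]
    intro g hg
    have hden : ∀ i, ∃ r s : K[X], s ≠ 0 ∧ (g i : F) * aeval x s = aeval x r := fun i => by
      obtain ⟨r, s, h⟩ := (IntermediateField.mem_adjoin_simple_iff K _).mp (g i).2
      by_cases hs : s = 0
      · exact ⟨0, 1, one_ne_zero, by simp [h, hs]⟩
      · exact ⟨r, s, hs, by rw [h, div_mul_cancel₀ _ (hne s hs)]⟩
    choose r s hs hrs using hden
    have h0 := hind (fun i => r i * ∏ j ∈ Finset.univ.erase i, s j) (by
      have h1 : (∏ j, aeval x (s j)) * ∑ i, (g i : F) * b i = 0 :=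
        mul_eq_zero_of_right _ (by simpa [IntermediateField.smul_def] using hg)
      rw [Finset.mul_sum] at h1
      refine Eq.trans (Finset.sum_congr rfl fun i _ => ?_) h1
      rw [map_mul, ← hrs, map_prod, ← Finset.mul_prod_erase _ _ (Finset.mem_univ i)]
      ring)
    intro i
    have h2 := congrFun h0 i
    rw [Pi.zero_apply, mul_eq_zero] at h2
    rcases h2 with h2 | h2
    · have h3 := hrs i
      rw [h2, map_zero, mul_eq_zero] at h3
      exact Subtype.ext (h3.resolve_right (hne _ (hs i)))
    · exact absurd h2 (Finset.prod_ne_zero_iff.mpr fun j _ => hs j)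
  let B := Module.Basis.mk hli hspan'
  exact ⟨Module.Finite.of_basis B, by rw [Module.finrank_eq_card_basis B, Fintype.card_fin]⟩

/-- The zeros of `x` over an algebraically closed field number `[F : K(x)]` with multiplicity. -/
theorem sum_zeros_eq_finrank' [IsAlgClosed K] [IsFF K F] {x : F} (hx : Transcendental K x) :
    ∑ v ∈ (finite_ord_pos (K := K) x).toFinset, v.ord x = Module.finrank K⟮x⟯ F := by
  rw [← sum_zeros_eq_finrank hx]
  exact Finset.sum_congr rfl fun v _ => by rw [deg_eq_one v, Nat.cast_one, mul_one]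

end Degree

namespace Red.GaussModel

variable {L : Type*} [Field L] {k : Type*} [Field k] (G : GaussModel L k)

/-- The coordinate in the field. -/
def xF : G.F := ⟨G.incl G.x, G.x_mem⟩

theorem evL_eq_aeval (p : L[X]) : G.evL p = aeval (G.incl G.x) p := by
  rw [evL, coe_eval₂RingHom, aeval_def]
  congr 1
  exact RingHom.ext fun a => by
    rw [HahnSeries.C_apply, ModularCurve.algebraMap_laurentSeries_eq_single]

/-- Polynomials in the coordinate, in the field and as series. -/
theorem coe_aeval_xF (p : L[X]) : ((aeval G.xF p : G.F) : LaurentSeries L) = G.evL p := by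
  rw [evL_eq_aeval]
  exact (Polynomial.aeval_algHom_apply G.F.val G.xF p).symm

theorem intOver_xF_iff {f : G.F} :
    IntOver L G.xF f ↔ G.evL.IsIntegralElem (f : LaurentSeries L) := by
  constructor
  · rintro ⟨p, hp, h0⟩
    refine ⟨p, hp, ?_⟩
    have h1 := congrArg G.F.val.toRingHom h0
    rw [hom_eval₂, map_zero] at h1
    refine Eq.trans ?_ h1
    congr 1
    exact RingHom.ext fun q => (G.coe_aeval_xF q).symm
  · rintro ⟨p, hp, h0⟩
    refine ⟨p, hp, G.F.val.toRingHom.injective ?_⟩
    rw [hom_eval₂, map_zero]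
    refine Eq.trans ?_ h0
    congr 1
    exact RingHom.ext fun q => G.coe_aeval_xF q

/-- The coordinate is transcendental. -/
theorem transcendental_xF : Transcendental L G.xF :=
  transcendental_iff.mpr fun p hp => G.evL_injective (by
    rw [← G.coe_aeval_xF, hp, map_zero]; rfl)

/-- The coordinate is nonzero. -/
theorem xF_ne_zero : G.xF ≠ 0 := fun h => G.transcendental_xF (h ▸ isAlgebraic_zero)

theorem indep_L (p : Fin G.n → L[X]) (h : ∑ i, G.evL (p i) * G.incl (G.b i) = 0) : p = 0 := by
  by_contra hp
  obtain ⟨l, P', hl, ⟨i, hi⟩, he⟩ := exists_primitive G.π p hp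
  have h1 : (HahnSeries.C l : LaurentSeries L) * G.incl (G.comb P') = 0 := by
    rw [G.incl_comb, Finset.mul_sum, ← h]
    exact Finset.sum_congr rfl fun i _ => by rw [he i, map_mul, G.evL_C, mul_assoc]
  have h2 : G.comb P' = 0 := G.incl_injective (by
    rw [map_zero]
    exact (mul_eq_zero.mp h1).resolve_left ((_root_.map_ne_zero _).mpr hl))
  have h3 := congrArg G.redS h2
  rw [map_zero, G.redS_comb] at h3
  exact G.combk_ne_zero hi h3

/-- The field has degree `n` over the rational functions of the coordinate. -/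
theorem finite_and_finrank_F :
    FiniteDimensional L⟮G.xF⟯ G.F ∧ Module.finrank L⟮G.xF⟯ G.F = G.n := by
  have hcoe : ∀ P : Fin G.n → L[X],
      ((∑ i, aeval G.xF (P i) * ⟨G.incl (G.b i), G.b_mem i⟩ : G.F) : LaurentSeries L) =
        ∑ i, G.evL (P i) * G.incl (G.b i) := fun P => by
    rw [AddSubmonoidClass.coe_finsetSum]
    exact Finset.sum_congr rfl fun i _ => by rw [MulMemClass.coe_mul, G.coe_aeval_xF]
  refine finite_and_finrank_of_family G.transcendental_xF (fun i => ⟨G.incl (G.b i), G.b_mem i⟩)
    (fun p hp => G.indep_L p (by rw [← hcoe, hp]; rfl)) fun f => ?_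
  obtain ⟨Q, P, hQ, h⟩ := G.spans f.1 f.2
  refine ⟨Q, P, hQ, Subtype.ext ?_⟩
  rw [hcoe, MulMemClass.coe_mul, G.coe_aeval_xF]
  exact h

/-- The field has degree `n` over the rational functions of the coordinate. -/
theorem finrank_F : Module.finrank L⟮G.xF⟯ G.F = G.n := G.finite_and_finrank_F.2

/-- The field of a Gauss model is a function field of one variable. -/
theorem isFF_F : IsFF L G.F := ⟨⟨G.xF, G.transcendental_xF, G.finite_and_finrank_F.1⟩⟩

/-- The functions regular on the chart over the valuation ring. -/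
def chart : Subring G.F where
  carrier := {f | G.IntElt (f : LaurentSeries L) ∧ IntOver L G.xF f}
  one_mem' := ⟨G.mem_intRing.mp G.intRing.one_mem, by
    rw [← map_one (algebraMap L G.F)]; exact intOver_algebraMap _ _⟩
  zero_mem' := ⟨G.mem_intRing.mp G.intRing.zero_mem, by
    rw [← map_zero (algebraMap L G.F)]; exact intOver_algebraMap _ _⟩
  add_mem' hf hg := ⟨G.mem_intRing.mp (G.intRing.add_mem hf.1 hg.1), hf.2.add hg.2⟩
  mul_mem' hf hg := ⟨G.mem_intRing.mp (G.intRing.mul_mem hf.1 hg.1), hf.2.mul hg.2⟩
  neg_mem' {f} hf := ⟨G.mem_intRing.mp (G.intRing.neg_mem hf.1), by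
    rw [← neg_one_mul]
    exact IntOver.mul (by rw [← map_one (algebraMap L G.F), ← map_neg]
                          exact intOver_algebraMap _ _) hf.2⟩

/-- An integral series integral over `R[x]` lies on the chart. -/
theorem incl_mem_chart {s : LaurentSeries G.R} (hs : G.incl s ∈ G.F)
    (h : G.evR.IsIntegralElem s) : (⟨G.incl s, hs⟩ : G.F) ∈ G.chart := by
  refine ⟨G.intElt_incl hs, G.intOver_xF_iff.mpr ?_⟩
  obtain ⟨p, hp, h0⟩ := h
  refine ⟨p.map (mapRingHom G.R.subtype), hp.map _, ?_⟩
  rw [eval₂_map, ← map_zero G.incl, ← h0, hom_eval₂]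
  congr 1
  exact RingHom.ext fun q => (G.incl_evR q).symm

/-- Polynomials over the valuation ring in the chart. -/
def toChart : G.R[X] →+* G.chart :=
  ((aeval (R := L) G.xF).toRingHom.comp (mapRingHom G.R.subtype)).codRestrict G.chart fun p => by
    refine ⟨?_, intOver_aeval _ _⟩
    show G.IntElt ((aeval G.xF (p.map G.R.subtype) : G.F) : LaurentSeries L)
    rw [G.coe_aeval_xF, ← G.incl_evR]
    exact G.intElt_incl (G.incl_evR_mem p)

/-- The function of a polynomial on the chart. -/
@[simp] theorem coe_toChart (p : G.R[X]) :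
    (G.toChart p : G.F) = aeval G.xF (p.map G.R.subtype) := rfl

/-- The series of a polynomial on the chart. -/
theorem coeSer_toChart (p : G.R[X]) :
    ((G.toChart p : G.F) : LaurentSeries L) = G.incl (G.evR p) := by
  rw [coe_toChart, G.coe_aeval_xF, G.incl_evR]

/-- The chart is integral over `R[x]`. -/
theorem isIntegral_chart (f : G.chart) : G.toChart.IsIntegralElem f := by
  obtain ⟨p, hp, h0⟩ := G.isIntegralElem_of_intElt f.2.1 (G.intOver_xF_iff.mp f.2.2)
  refine ⟨p, hp, ?_⟩
  let j : G.chart →+* LaurentSeries L := G.F.val.toRingHom.comp G.chart.subtype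
  have hj : Function.Injective j := Subtype.coe_injective.comp Subtype.coe_injective
  apply hj
  rw [hom_eval₂, map_zero]
  refine Eq.trans ?_ h0
  congr 1
  exact RingHom.ext fun q => G.coe_aeval_xF _

/-- The reduction data needed on a chart: every function regular on the reduced chart lifts. -/
structure Regular (Fb : IntermediateField k (LaurentSeries k)) : Prop where
  x_mem : coeffMap G.π G.x ∈ Fb
  b_mem : ∀ i, coeffMap G.π (G.b i) ∈ Fb
  lift : ∀ z : Fb, IntOver k (⟨coeffMap G.π G.x, x_mem⟩ : Fb) z →
    ∃ f : G.chart, G.red ⟨((f : G.F) : LaurentSeries L), f.2.1⟩ = z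

variable {G} {Fb : IntermediateField k (LaurentSeries k)} (hR : G.Regular Fb)

/-- The reduced coordinate. -/
def Regular.xb : Fb := ⟨coeffMap G.π G.x, hR.x_mem⟩

/-- Polynomials in the reduced coordinate, in the field and as series. -/
theorem Regular.coe_aeval_xb (p : k[X]) : ((aeval hR.xb p : Fb) : LaurentSeries k) = G.evk p := by
  rw [evk, coe_eval₂RingHom, show ((aeval hR.xb p : Fb) : LaurentSeries k) =
    aeval (coeffMap G.π G.x) p from (Polynomial.aeval_algHom_apply Fb.val hR.xb p).symm, aeval_def]
  congr 1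
  exact RingHom.ext fun a => by
    rw [HahnSeries.C_apply, ← ModularCurve.algebraMap_laurentSeries_eq_single]

include hR in
/-- Reductions of integral functions lie in the residual field. -/
theorem Regular.red_mem (f : G.intRing) : G.red f ∈ Fb := by
  obtain ⟨Q, P, hQ, h⟩ := f.2
  rw [G.red_eq hQ h, combk]
  refine div_mem (sum_mem fun i _ => mul_mem ?_ (hR.b_mem i)) ?_
  all_goals
    rw [← hR.coe_aeval_xb]
    exact SetLike.coe_mem _

/-- Reduction on the chart. -/
def Regular.redB : G.chart →+* Fb :=
  (G.redHom.comp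
    ((G.F.val.toRingHom.comp G.chart.subtype).codRestrict G.intRing fun f => f.2.1)).codRestrict
      Fb.toSubfield.toSubring fun _ => hR.red_mem _

theorem Regular.coe_redB (f : G.chart) :
    (hR.redB f : LaurentSeries k) = G.red ⟨((f : G.F) : LaurentSeries L), f.2.1⟩ := rfl

/-- The reduction is computed on series. -/
theorem Regular.coe_redB_incl {s : LaurentSeries G.R} (hs : G.incl s ∈ G.F)
    (h : (⟨G.incl s, hs⟩ : G.F) ∈ G.chart) :
    (hR.redB ⟨⟨G.incl s, hs⟩, h⟩ : LaurentSeries k) = G.redS s := by
  rw [hR.coe_redB, ← G.red_incl hs]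
  rfl

/-- The reduction of a polynomial. -/
theorem Regular.redB_toChart (p : G.R[X]) :
    hR.redB (G.toChart p) = aeval hR.xb (p.map G.π) := by
  refine Subtype.ext ?_
  rw [hR.coe_aeval_xb, hR.coe_redB, ← G.redS_evR, ← G.red_incl (G.incl_evR_mem p)]
  exact congrArg G.red (Subtype.ext (G.coeSer_toChart p))

/-- The reduction of a constant. -/
theorem Regular.redB_C (a : G.R) : hR.redB (G.toChart (C a)) = algebraMap k Fb (G.π a) := by
  rw [hR.redB_toChart, Polynomial.map_C, aeval_C]

/-- Reductions from the chart are integral over the reduced coordinate. -/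
theorem Regular.intOver_redB (f : G.chart) : IntOver k hR.xb (hR.redB f) := by
  obtain ⟨p, hp, h0⟩ := G.isIntegral_chart f
  refine ⟨p.map (mapRingHom G.π), hp.map _, ?_⟩
  rw [eval₂_map, ← map_zero hR.redB, ← h0, hom_eval₂]
  congr 1
  exact RingHom.ext fun q => (hR.redB_toChart q).symm

/-- Every function regular on the reduced chart lifts to the chart. -/
theorem Regular.exists_lift {z : Fb} (hz : IntOver k hR.xb z) : ∃ f : G.chart, hR.redB f = z := by
  obtain ⟨f, hf⟩ := hR.lift z hz
  exact ⟨f, Subtype.ext hf⟩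

/-- The kernel of reduction on the chart is the maximal ideal of `R` times the chart. -/
theorem Regular.exists_eq_C_mul {f : G.chart} (h : hR.redB f = 0) :
    ∃ m : G.R, G.π m = 0 ∧ ∃ g : G.chart, f = G.toChart (C m) * g := by
  rcases eq_or_ne ((f : G.F) : LaurentSeries L) 0 with h0 | h0
  · exact ⟨0, map_zero _, 0, Subtype.ext (Subtype.ext (by rw [h0]; simp))⟩
  obtain ⟨l, g, hl, he, hg, hlR⟩ := G.exists_eq_C_mul (f : G.F).2 h0
  set lR : G.R := ⟨l, hlR f.2.1⟩
  have hgF : (g : LaurentSeries L) ∈ G.F := g.2.mem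
  have hcoe : ∀ c : L,
      ((algebraMap L G.F c : G.F) : LaurentSeries L) = HahnSeries.C c := fun c => by
    show algebraMap L (LaurentSeries L) c = _
    rw [HahnSeries.C_apply, ModularCurve.algebraMap_laurentSeries_eq_single]
  have hgc : (⟨g, hgF⟩ : G.F) ∈ G.chart := by
    refine ⟨g.2, ?_⟩
    have e : (⟨g, hgF⟩ : G.F) = algebraMap L G.F l⁻¹ * (f : G.F) := Subtype.ext (by
      rw [MulMemClass.coe_mul, hcoe, he, ← mul_assoc, ← map_mul, inv_mul_cancel₀ hl, map_one,
        one_mul])
    rw [e]
    exact (intOver_algebraMap _ _).mul f.2.2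
  refine ⟨lR, ?_, ⟨⟨g, hgF⟩, hgc⟩, ?_⟩
  · by_contra hπ
    refine hg ?_
    have h1 : G.redHom ⟨((f : G.F) : LaurentSeries L), f.2.1⟩ = 0 := congrArg Subtype.val h
    rw [show (⟨((f : G.F) : LaurentSeries L), f.2.1⟩ : G.intRing) =
      ⟨_, G.C_mem_intRing lR⟩ * g from Subtype.ext he, map_mul, G.redHom_C, mul_eq_zero] at h1
    exact h1.resolve_left ((_root_.map_ne_zero _).mpr hπ)
  · refine Subtype.ext (Subtype.ext ?_)
    rw [MulMemClass.coe_mul, MulMemClass.coe_mul, G.coeSer_toChart, he]
    congr 1
    simp only [evR, coe_eval₂RingHom, eval₂_C]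
    exact (G.incl_C lR).symm

/-- The reduced coordinate is transcendental. -/
theorem Regular.transcendental_xb : Transcendental k hR.xb :=
  transcendental_iff.mpr fun p hp => G.evk_injective (by
    rw [← hR.coe_aeval_xb, hp, map_zero]; rfl)

/-- The reduced coordinate is nonzero. -/
theorem Regular.xb_ne_zero : hR.xb ≠ 0 := fun h => hR.transcendental_xb (h ▸ isAlgebraic_zero)

/-- The residual field has the same degree over the reduced coordinate. -/
theorem Regular.finrank_Fb [IsFF k Fb] :
    Module.finrank k⟮hR.xb⟯ Fb = G.n := by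
  have hcoe : ∀ P : Fin G.n → k[X],
      ((∑ i, aeval hR.xb (P i) * ⟨G.redS (G.b i), hR.b_mem i⟩ : Fb) : LaurentSeries k) =
        G.combk P := fun P => by
    rw [combk, AddSubmonoidClass.coe_finsetSum]
    exact Finset.sum_congr rfl fun i _ => by rw [MulMemClass.coe_mul, hR.coe_aeval_xb]
  refine (finite_and_finrank_of_family hR.transcendental_xb
    (fun i => ⟨G.redS (G.b i), hR.b_mem i⟩) (fun p hp => G.indep p ?_) fun z => ?_).2
  · have := congrArg Subtype.val hp
    rw [hcoe] at this
    exact this
  · obtain ⟨p, hp, hreg⟩ := exists_mul_regular hR.transcendental_xb z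
    obtain ⟨f, hf⟩ := hR.exists_lift (intOver_of_ordGE hreg)
    obtain ⟨Q, P, hQ, h⟩ := f.2.1
    refine ⟨p * Q.map G.π, fun i => (P i).map G.π, mul_ne_zero hp hQ, Subtype.ext ?_⟩
    rw [hcoe, ← G.redS_comb, ← G.red_eq' (f := ⟨_, f.2.1⟩) hQ h, G.redS_evR, ← hR.coe_redB, hf,
      map_mul, MulMemClass.coe_mul, MulMemClass.coe_mul, MulMemClass.coe_mul, hR.coe_aeval_xb,
      hR.coe_aeval_xb]
    ring

end Red.GaussModel

end FermatAgent.Curve
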