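import Fermat.Agent.Curve.Red.ChartBasic

/-!
# Specialisation of points on a regular chart

For a regular chart, a point `P` with `x(P)` in the valuation ring has values in it on all of the
chart, and the reduced evaluation factors through a place `Q` of the reduced curve:
`Regular.exists_place`.  Otherwise a product of functions not vanishing at `P` would reduce to a
multiple of `x - x(P)`.

Modulo `x - a` the chart is generated by `n` elements, `n` the degree of `x`
(`Regular.finMod_X_sub_C`): lifts of `n` functions independent modulo the reduction of `x - a`.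
-/

set_option autoImplicit false

open Polynomial AlgebraicCurve IntermediateField
open ModularCurve (coeffMap)

noncomputable section

-- searched first: the other route ends in a long failing unification on the scalar towers
attribute [local instance 1100] SubalgebraClass.toAlgebra

namespace FermatAgent.Curve

variable {K : Type*} [Field K] [IsAlgClosed K] {F : Type*} [Field F] [Algebra K F] [IsFF K F]

/-- As many functions integral over `K[x]` as the degree of `y`, independent modulo `y`. -/
theorem exists_residual_indep {x y : F} (hx : Transcendental K x) (hy : Transcendental K y)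
    (hxy : ∀ v : Place K F, 0 < v.ord y → 0 ≤ v.ord x) :
    ∃ u : Fin (Module.finrank K⟮y⟯ F) → F, (∀ i, IntOver K x (u i)) ∧
      ∀ (c : Fin (Module.finrank K⟮y⟯ F) → K) (h : F), IntOver K x h →
        ∑ i, algebraMap K F (c i) * u i = y * h → c = 0 := by
  classical
  set Z := (finite_ord_pos (K := K) y).toFinset
  have hZ : ∀ v, v ∈ Z ↔ 0 < v.ord y := fun v => by simp [Z]
  have hxZ : ∀ v ∈ Z, 0 ≤ v.ord x := fun v hv => hxy v ((hZ v).mp hv)
  set ι := Σ v : Z, Fin ((v.1.ord y).toNat)
  have hcard : Fintype.card ι = Module.finrank K⟮y⟯ F := by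
    have h1 := sum_zeros_eq_finrank' hy
    rw [Fintype.card_sigma]
    simp only [Fintype.card_fin]
    rw [← Finset.sum_coe_sort Z fun v => v.ord y] at h1
    have h2 : ((∑ v : Z, (v.1.ord y).toNat : ℕ) : ℤ) = Module.finrank K⟮y⟯ F := by
      rw [← h1, Nat.cast_sum]
      exact Finset.sum_congr rfl fun v _ => Int.toNat_of_nonneg ((hZ v).mp v.2).le
    exact_mod_cast h2
  choose t ht0 ht using fun v : Place K F => exists_ord_eq_one v
  set B : ℕ := ∑ v ∈ Z, (v.ord y).toNat
  have hu : ∀ i : ι, ∃ u : F, IntOver K x u ∧ ∀ v ∈ Z,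
      OrdGE v B (u - if v = i.1.1 then t v ^ (i.2 : ℕ) else 0) := fun i =>
    exists_intOver_approx hx Z hxZ _ (fun v _ => by
      split_ifs
      · exact Or.inr (by rw [ord_pow, ht]; positivity)
      · exact OrdGE.zero) B
  choose u hui huv using hu
  have hind : ∀ c : ι → K, ∀ h : F, IntOver K x h →
      ∑ i, algebraMap K F (c i) * u i = y * h → c = 0 := by
    intro c h hh he
    funext i
    obtain ⟨⟨v, hv⟩, j⟩ := i
    set a' : ℕ → K := fun l => if hl : l < (v.ord y).toNat then c ⟨⟨v, hv⟩, ⟨l, hl⟩⟩ else 0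
    have hm : ((v.ord y).toNat : ℤ) = v.ord y := Int.toNat_of_nonneg ((hZ v).mp hv).le
    have hmB : ((v.ord y).toNat : ℤ) ≤ B := by
      exact_mod_cast Finset.single_le_sum (f := fun v => (v.ord y).toNat)
        (fun _ _ => Nat.zero_le _) hv
    have key : OrdGE v ((v.ord y).toNat : ℤ)
        (∑ l ∈ Finset.range (v.ord y).toNat, algebraMap K F (a' l) * t v ^ l) := by
      have h1 : OrdGE v ((v.ord y).toNat : ℤ) (∑ i : ι, algebraMap K F (c i) *
          (if v = i.1.1 then t v ^ (i.2 : ℕ) else 0)) := by
        have h2 : ∑ i : ι, algebraMap K F (c i) * (if v = i.1.1 then t v ^ (i.2 : ℕ) else 0) =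
            y * h - ∑ i : ι, algebraMap K F (c i) *
              (u i - if v = i.1.1 then t v ^ (i.2 : ℕ) else 0) := by
          rw [← he, ← Finset.sum_sub_distrib]
          exact Finset.sum_congr rfl fun i _ => by ring
        rw [h2]
        refine OrdGE.sub ?_ (OrdGE.sum fun i _ =>
          (((ordGE_algebraMap _).mul (huv i v hv))).mono (by omega))
        rw [hm]
        exact ((ordGE_self y).mul (hh.ordGE (hxZ v hv))).mono (by omega)
      convert h1 using 1
      rw [Fintype.sum_sigma, Finset.sum_eq_single_of_mem (⟨v, hv⟩ : Z) (Finset.mem_univ _)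
        (fun w _ hw => Finset.sum_eq_zero fun l _ => by
          rw [if_neg (fun e => hw (Subtype.ext e.symm)), mul_zero]), Finset.sum_range]
      exact Finset.sum_congr rfl fun l _ => by
        simp only [a', dif_pos l.2, Fin.eta, if_true]
    have := eq_zero_of_ordGE_sum (ht v) key j j.2
    simp only [a', dif_pos j.2] at this
    exact this
  let e := (Fintype.equivFinOfCardEq hcard).symm
  refine ⟨fun i => u (e i), fun i => hui _, fun c h hh hsum => ?_⟩
  have h0 := hind (fun j => c (e.symm j)) h hh (by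
    rw [← hsum, ← e.sum_comp fun j => algebraMap K F (c (e.symm j)) * u j]
    exact Finset.sum_congr rfl fun i _ => by rw [e.symm_apply_apply])
  funext i
  simpa using congrFun h0 (e i)

omit [IsAlgClosed K] in
/-- A product with a zero at every zero of `x - a` becomes divisible by it. -/
theorem exists_pow_intOver_div {x : F} (hx : Transcendental K x) (a : K) {ι : Type*} [Fintype ι]
    (w : ι → F) (hw : ∀ i, IntOver K x (w i))
    (hzero : ∀ v : Place K F, 0 < v.ord (x - algebraMap K F a) → ∃ i, OrdGE v 1 (w i)) :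
    ∃ E : ℕ, IntOver K x ((∏ i, w i) ^ E / (x - algebraMap K F a)) := by
  classical
  set y := x - algebraMap K F a
  have hy0 : y ≠ 0 := fun h => transcendental_sub_algebraMap hx a
    (show IsAlgebraic K y from h ▸ isAlgebraic_zero)
  set Z := (finite_ord_pos (K := K) y).toFinset
  refine ⟨∑ v ∈ Z, (v.ord y).toNat, intOver_of_ordGE fun v hv => ?_⟩
  have hw0 : ∀ s : Finset ι, OrdGE v 0 (∏ i ∈ s, w i) := fun s =>
    Finset.prod_induction _ (OrdGE v 0) (fun f g hf hg => (hf.mul hg).mono (by omega))
      (by rw [← map_one (algebraMap K F)]; exact ordGE_algebraMap _) fun i _ => (hw i).ordGE hv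
  rw [div_eq_mul_inv]
  have hyv : 0 ≤ v.ord y := by
    have h0 : OrdGE v 0 x := Or.inr hv
    have : OrdGE v 0 y := h0.sub (ordGE_algebraMap _)
    exact this.resolve_left hy0
  rcases hyv.eq_or_lt with h0 | hpos
  · exact ((((hw0 _).pow _)).mul (ordGE_self y⁻¹)).mono (by rw [Place.ord_inv, ← h0]; simp)
  · obtain ⟨i, hi⟩ := hzero v hpos
    have h1 : OrdGE v 1 (∏ i, w i) := by
      rw [← Finset.mul_prod_erase _ _ (Finset.mem_univ i)]
      exact (hi.mul (hw0 _)).mono (by omega)
    have hvZ : v ∈ Z := by simpa [Z] using hpos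
    have h2 : (v.ord y).toNat ≤ ∑ v ∈ Z, (v.ord y).toNat :=
      Finset.single_le_sum (f := fun v => (v.ord y).toNat) (fun _ _ => Nat.zero_le _) hvZ
    exact ((h1.pow _).mul (ordGE_self y⁻¹)).mono (by rw [Place.ord_inv]; omega)

theorem sum_algebraMap_eq_of_rel {S R : Type*} [CommRing S] [CommRing R] {k F : Type*} [Field k]
    [Field F] [Algebra k F] (φ : S →+* F) (cs : R →+* S) (π : R →+* k)
    (hcs : ∀ c, φ (cs c) = algebraMap k F (π c)) {ι : Type*} [Fintype ι] {U : ι → S} {u : ι → F}
    (hU : ∀ i, φ (U i) = u i) {c : ι → R} {c0 : R} (h0 : π c0 = 0) {f t h : S}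
    (hrel : ∑ i, cs (c i) * U i + cs c0 * f = t * h) {y : F} (ht : φ t = y) :
    ∑ i, algebraMap k F (π (c i)) * u i = y * φ h := by
  have h1 := congrArg φ hrel
  simpa [map_add, map_sum, hcs, hU, h0, ht] using h1

theorem eq_sum_of_rel {S R : Type*} [CommRing S] [CommRing R] (cs : R →+* S) {ι : Type*}
    [Fintype ι] {U : ι → S} {c : ι → R} {c0 w : R} (hw : w * c0 = 1) {f t h : S}
    (hrel : ∑ i, cs (c i) * U i + cs c0 * f = t * h) :
    f = ∑ i, cs (-w * c i) * U i + t * (cs w * h) := by
  have hone : cs w * cs c0 = 1 := by rw [← map_mul, hw, map_one]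
  simp only [map_mul, map_neg, neg_mul, Finset.sum_neg_distrib, mul_assoc, ← Finset.mul_sum]
  linear_combination (cs w) * hrel - f * hone

theorem inv_mul_sum_option {R : Type*} [Field R] {ι : Type*} [Fintype ι] {l : R} (hl : l ≠ 0)
    (c u : ι → R) {c0 u0 x h : R} (hsum : l * c0 * u0 + ∑ i, l * c i * u i = x * h) :
    ∑ i, c i * u i + c0 * u0 = x * (l⁻¹ * h) := by
  rw [mul_left_comm, ← hsum, mul_add, Finset.mul_sum, add_comm]
  simp only [mul_assoc, inv_mul_cancel_left₀ hl]

theorem map_eq_zero_of_map_eq_div {R A B : Type*} [CommRing R] [Field A] [Field B] (φ : R →+* A)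
    (ψ : R →+* B) (hker : ∀ f, φ f = 0 → ψ f = 0) {T a s : R} {y : A} (hy : y ≠ 0) (ha : φ a = y)
    (hs : φ s = φ T / y) (h2 : ψ a = 0) : ψ T = 0 := by
  have h1 := hker (T - a * s) (by rw [map_sub, map_mul, ha, hs, mul_div_cancel₀ _ hy, sub_self])
  rwa [map_sub, map_mul, h2, zero_mul, sub_zero] at h1

theorem sum_append_of_rel {S R : Type*} [CommRing S] [CommRing R] (cs : R →+* S) {d e : ℕ}
    {T : Fin d → S} {U : Fin e → S} {c : Fin d → R} {c' : Fin e → R} {f h h' p q : S}
    (hf : f = ∑ i, cs (c i) * T i + p * h) (hh : h = ∑ i, cs (c' i) * U i + q * h') :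
    f = ∑ i, cs (Fin.append c c' i) * Fin.append T (fun j => p * U j) i + p * q * h' := by
  rw [Fin.sum_univ_add]
  simp only [Fin.append_left, Fin.append_right]
  rw [hf, hh, mul_add, Finset.mul_sum]
  rw [Finset.sum_congr rfl fun i _ => show p * (cs (c' i) * U i) = cs (c' i) * (p * U i) by ring]
  ring

end FermatAgent.Curve

namespace FermatAgent.Curve.Red.GaussModel

variable {L : Type*} [Field L] {k : Type*} [Field k] [IsAlgClosed L] [IsAlgClosed k]
  {G : GaussModel L k} {Fb : IntermediateField k (LaurentSeries k)} [IsFF k Fb]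
  (hR : G.Regular Fb)

variable (G) in
/-- Constants of the valuation ring in the chart. -/
def cst : G.R →+* G.chart := G.toChart.comp C

section

omit [IsAlgClosed L] [IsAlgClosed k]

/-- The function of an integral constant. -/
theorem coe_cst (c : G.R) : (G.cst c : G.F) = algebraMap L G.F (c : L) := by
  simp [cst]

omit [IsFF k Fb] in
theorem Regular.redB_cst (c : G.R) : hR.redB (G.cst c) = algebraMap k Fb (G.π c) := hR.redB_C c

/-- Rescaling a nonzero vector to a primitive one. -/
theorem exists_primitive_vec {ι : Type*} [Fintype ι] (c : ι → L) (hc : c ≠ 0) :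
    ∃ (l : L) (c' : ι → G.R), l ≠ 0 ∧ (∃ i, G.π (c' i) ≠ 0) ∧ ∀ i, c i = l * (c' i : L) := by
  obtain ⟨l, P, hl, ⟨i, hi⟩, he⟩ :=
    exists_primitive G.π (fun i => C (c i)) (fun h => hc (funext fun i => by
      simpa using congrArg (fun p : L[X] => p.coeff 0) (congrFun h i)))
  have hco : ∀ i n, (C (c i)).coeff n = l * ((P i).coeff n : L) := fun i n => by
    rw [he i, coeff_C_mul, coeff_map]; rfl
  refine ⟨l, fun i => (P i).coeff 0, hl, ⟨i, fun h0 => hi ?_⟩, fun i => by
    simpa using hco i 0⟩
  ext n
  rw [coeff_map, coeff_zero]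
  rcases Nat.eq_zero_or_pos n with rfl | hn
  · exact h0
  · have h1 := hco i n
    rw [coeff_C, if_neg (by omega), eq_comm, mul_eq_zero] at h1
    rw [show (P i).coeff n = 0 from Subtype.ext (h1.resolve_left hl), map_zero]

theorem mul_X_sub_C_map_ne_zero (a : G.R) : ((X - C a : G.R[X])).map G.π ≠ 0 := by
  rw [Polynomial.map_sub, Polynomial.map_X, Polynomial.map_C]
  exact X_sub_C_ne_zero _

/-- The function of `x - a` on the chart. -/
theorem coe_toChart_X_sub_C (a : G.R) :
    (G.toChart (X - C a) : G.F) = G.xF - algebraMap L G.F (a : L) := by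
  rw [coe_toChart, Polynomial.map_sub, Polynomial.map_X, Polynomial.map_C, aeval_sub, aeval_X,
    aeval_C]
  rfl

omit [IsFF k Fb] in
theorem Regular.redB_toChart_X_sub_C (a : G.R) :
    hR.redB (G.toChart (X - C a)) = hR.xb - algebraMap k Fb (G.π a) := by
  rw [hR.redB_toChart, Polynomial.map_sub, Polynomial.map_X, Polynomial.map_C, aeval_sub,
    aeval_X, aeval_C]

/-- Division by `x - a` keeps the chart. -/
theorem mem_chart_of_mul_sub {a : G.R} {h : G.F} (hi : IntOver L G.xF h)
    (hm : (G.toChart (X - C a) : G.F) * h ∈ G.chart) : h ∈ G.chart := by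
  obtain ⟨Q, P, hQ, e⟩ := hm.1
  refine ⟨⟨(X - C a) * Q, P, ?_, ?_⟩, hi⟩
  · rw [Polynomial.map_mul]
    exact mul_ne_zero (mul_X_sub_C_map_ne_zero a) hQ
  · rw [map_mul G.evR, map_mul G.incl, ← e, MulMemClass.coe_mul, G.coeSer_toChart]
    ring

/-- The chart is finitely generated modulo the polynomial `p`. -/
def FinMod (G : GaussModel L k) (p : G.R[X]) : Prop :=
  ∃ (d : ℕ) (T : Fin d → G.chart), ∀ f : G.chart, ∃ (c : Fin d → G.R) (h : G.chart),
    f = ∑ i, G.cst (c i) * T i + G.toChart p * h

theorem finMod_one : FinMod G 1 :=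
  ⟨0, Fin.elim0, fun f => ⟨Fin.elim0, f, by simp⟩⟩

/-- Finite generation modulo a product of polynomials. -/
theorem FinMod.mul {p q : G.R[X]} (hp : FinMod G p) (hq : FinMod G q) : FinMod G (p * q) := by
  obtain ⟨d, T, hT⟩ := hp
  obtain ⟨e, U, hU⟩ := hq
  refine ⟨d + e, Fin.append T fun i => G.toChart p * U i, fun f => ?_⟩
  obtain ⟨c, h, hf⟩ := hT f
  obtain ⟨c', h', hh⟩ := hU h
  refine ⟨Fin.append c c', h', ?_⟩
  rw [map_mul G.toChart]
  exact sum_append_of_rel G.cst hf hh

end

omit [IsAlgClosed L] in
include hR in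
/-- Modulo `x - a` a regular chart is generated by finitely many elements: lifts of residually
independent functions. -/
theorem Regular.finMod_X_sub_C (a : G.R) : FinMod G (X - C a) := by
  classical
  have := G.isFF_F
  set y : Fb := hR.xb - algebraMap k Fb (G.π a)
  have hy : Transcendental k y := transcendental_sub_algebraMap hR.transcendental_xb _
  have hxy : ∀ v : Place k Fb, 0 < v.ord y → 0 ≤ v.ord hR.xb := fun v hv => by
    have h0 : OrdGE v 0 y := Or.inr hv.le
    have := h0.add (ordGE_algebraMap (v := v) (G.π a))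
    rw [sub_add_cancel] at this
    exact this.resolve_left fun h => hR.transcendental_xb (h ▸ isAlgebraic_zero)
  have hdeg : Module.finrank k⟮y⟯ Fb = G.n := by
    rw [show k⟮y⟯ = k⟮hR.xb⟯ from ?_]
    · exact hR.finrank_Fb
    · refine le_antisymm (adjoin_simple_le_iff.2 (sub_mem (mem_adjoin_simple_self k _)
        (IntermediateField.algebraMap_mem _ _))) (adjoin_simple_le_iff.2 ?_)
      have := add_mem (mem_adjoin_simple_self k y) (IntermediateField.algebraMap_mem k⟮y⟯ (G.π a))
      simpa [y] using this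
  have hres := exists_residual_indep hR.transcendental_xb hy hxy
  rw [hdeg] at hres
  obtain ⟨u, hui, hind⟩ := hres
  choose U hU using fun i => hR.exists_lift (hui i)
  refine ⟨_, U, fun f => ?_⟩
  obtain ⟨c, hc, h, hh, hsum⟩ := exists_dependent_mod G.transcendental_xF (a : L)
    (fun o : Option (Fin G.n) => o.elim (f : G.F) fun i => (U i : G.F))
    (fun o => by cases o with | none => exact f.2.2 | some i => exact (U i).2.2)
    (by rw [G.finrank_F, Fintype.card_option, Fintype.card_fin]; omega)
  obtain ⟨l, c', hl, hprim, hcc⟩ := exists_primitive_vec (G := G) c hc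
  have hxa := coe_toChart_X_sub_C (G := G) a
  have hcomb : (∑ i, G.cst (c' (some i)) * U i + G.cst (c' none) * f : G.chart).1 =
      (G.toChart (X - C a) : G.F) * (algebraMap L G.F l⁻¹ * h) := by
    rw [Fintype.sum_option] at hsum
    simp only [Option.elim_none, Option.elim_some, hcc, map_mul] at hsum
    rw [hxa, map_inv₀, Subring.coe_add, AddSubmonoidClass.coe_finsetSum]
    simp only [MulMemClass.coe_mul, coe_cst]
    exact inv_mul_sum_option ((_root_.map_ne_zero _).mpr hl) _ _ hsum
  have hh' : algebraMap L G.F l⁻¹ * h ∈ G.chart :=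
    mem_chart_of_mul_sub (a := a) ((intOver_algebraMap _ _).mul hh) (hcomb ▸ SetLike.coe_mem _)
  set h' : G.chart := ⟨_, hh'⟩
  have hrel : ∑ i, G.cst (c' (some i)) * U i + G.cst (c' none) * f = G.toChart (X - C a) * h' :=
    Subtype.ext hcomb
  have hunit : IsUnit (c' none) := by
    by_contra hnu
    have hπ : G.π (c' none) = 0 := (G.ker_iff _).mpr hnu
    have h0 := hind (fun i => G.π (c' (some i))) _ (hR.intOver_redB h')
      (sum_algebraMap_eq_of_rel hR.redB G.cst G.π hR.redB_cst hU hπ hrel
        (hR.redB_toChart_X_sub_C a))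
    obtain ⟨i, hi⟩ := hprim
    cases i with
    | none => exact hi hπ
    | some i => exact hi (congrFun h0 i)
  obtain ⟨w, hw⟩ := hunit
  exact ⟨_, _, eq_sum_of_rel G.cst (w := ((w⁻¹ : G.Rˣ) : G.R)) (by rw [← hw, Units.inv_mul]) hrel⟩

omit [IsAlgClosed L] in
include hR in
/-- The same modulo a product of powers of linear polynomials. -/
theorem Regular.finMod_prod (S : Finset G.R) (e : G.R → ℕ) :
    FinMod G (∏ a ∈ S, (X - C a) ^ e a) := by
  refine Finset.prod_induction _ _ (fun p q => FinMod.mul) finMod_one fun a _ => ?_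
  induction e a with
  | zero => rw [pow_zero]; exact finMod_one
  | succ n ih => rw [pow_succ]; exact ih.mul (hR.finMod_X_sub_C a)

/-! ### Points with integral coordinate -/

variable (G) in
/-- A point whose coordinate is integral. -/
def FinPlace (P : Place L G.F) : Prop :=
  haveI := G.isFF_F
  OrdGE P 0 G.xF ∧ placeVal P G.xF ∈ G.R

section

omit [IsAlgClosed k]

/-- The coordinate is regular at a point with integral coordinate. -/
theorem FinPlace.ord_nonneg {P : Place L G.F} (hP : G.FinPlace P) : 0 ≤ P.ord G.xF :=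
  hP.1.resolve_left (fun h => G.transcendental_xF (h ▸ isAlgebraic_zero))

/-- The chart is regular at a point with integral coordinate. -/
theorem FinPlace.ordGE {P : Place L G.F} (hP : G.FinPlace P) (f : G.chart) :
    OrdGE P 0 (f : G.F) := by
  have := G.isFF_F
  exact f.2.2.ordGE hP.ord_nonneg

/-- At a point with integral coordinate the functions of the chart take integral values. -/
theorem FinPlace.val_mem {P : Place L G.F} (hP : G.FinPlace P) (f : G.chart) :
    haveI := G.isFF_F
    placeVal P (f : G.F) ∈ G.R := by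
  have := G.isFF_F
  let ι : G.chart →+* P.toValuationSubring :=
    G.chart.subtype.codRestrict P.toValuationSubring.toSubring fun g => mem_iff_ordGE.2 (hP.ordGE g)
  obtain ⟨p, hp, h0⟩ := G.isIntegral_chart f
  set φ : G.chart →+* L := (valHom P).comp ι
  have h1 := congrArg φ h0
  rw [hom_eval₂, map_zero] at h1
  have hint : IsIntegral G.R (φ f) := by
    refine ⟨p.map (evalRingHom ⟨_, hP.2⟩), hp.map _, ?_⟩
    rw [eval₂_map]
    refine Eq.trans ?_ h1
    congr 1
    refine Polynomial.ringHom_ext (fun c => ?_) ?_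
    · show algebraMap G.R L (eval _ (C c)) = placeVal P (G.toChart (C c) : G.F)
      rw [eval_C, coe_toChart, Polynomial.map_C, aeval_C, placeVal_algebraMap]
      rfl
    · show algebraMap G.R L (eval _ X) = placeVal P (G.toChart X : G.F)
      rw [eval_X, coe_toChart, Polynomial.map_X, aeval_X]
      rfl
  obtain ⟨z, hz⟩ := IsIntegrallyClosed.isIntegral_iff.mp hint
  rw [show placeVal P (f : G.F) = φ f from rfl, ← hz]
  exact z.2

/-- The coordinate of a point. -/
def FinPlace.coord {P : Place L G.F} (hP : G.FinPlace P) : G.R :=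
  haveI := G.isFF_F
  ⟨placeVal P G.xF, hP.2⟩

/-- The value at the point, reduced. -/
def FinPlace.valk {P : Place L G.F} (hP : G.FinPlace P) : G.chart →+* k :=
  haveI := G.isFF_F
  G.π.comp (((valHom P).comp (G.chart.subtype.codRestrict P.toValuationSubring.toSubring
    fun g => mem_iff_ordGE.2 (hP.ordGE g))).codRestrict G.R.toSubring fun g => hP.val_mem g)

/-- The reduced value is the residue of the value. -/
theorem FinPlace.valk_apply {P : Place L G.F} (hP : G.FinPlace P) (f : G.chart) :
    haveI := G.isFF_F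
    hP.valk f = G.π ⟨placeVal P (f : G.F), hP.val_mem f⟩ := rfl

theorem FinPlace.valk_cst {P : Place L G.F} (hP : G.FinPlace P) (c : G.R) :
    hP.valk (G.cst c) = G.π c := by
  have := G.isFF_F
  rw [hP.valk_apply]
  exact congrArg G.π (Subtype.ext (by simp only [coe_cst, placeVal_algebraMap]))

omit [IsFF k ↥Fb] in
include hR in
theorem Regular.valk_eq_zero_of_redB {P : Place L G.F} (hP : G.FinPlace P) {f : G.chart}
    (h : hR.redB f = 0) : hP.valk f = 0 := by
  obtain ⟨m, hm, g, rfl⟩ := hR.exists_eq_C_mul h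
  rw [map_mul, show G.toChart (C m) = G.cst m from rfl, hP.valk_cst, hm, zero_mul]

end

/-- **Specialisation of a point with integral coordinate.** -/
theorem Regular.exists_place {P : Place L G.F} (hP : G.FinPlace P) :
    ∃ Q : Place k Fb, OrdGE Q 0 hR.xb ∧ ∀ f, placeVal Q (hR.redB f) = hP.valk f := by
  classical
  have := G.isFF_F
  set a := hP.coord
  set y : Fb := hR.xb - algebraMap k Fb (G.π a)
  have hy : Transcendental k y := transcendental_sub_algebraMap hR.transcendental_xb _
  have hy0 : y ≠ 0 := fun h => hy (h ▸ isAlgebraic_zero)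
  set Z := (finite_ord_pos (K := k) y).toFinset
  have hZ : ∀ v, v ∈ Z ↔ 0 < v.ord y := fun v => by simp [Z]
  have hxv : ∀ v : Place k Fb, 0 ≤ v.ord y → OrdGE v 0 hR.xb := fun v hv => by
    have h0 : OrdGE v 0 y := Or.inr hv
    have := h0.add (ordGE_algebraMap (v := v) (G.π a))
    rwa [sub_add_cancel] at this
  by_contra hno
  push Not at hno
  have hbad : ∀ v : Z, ∃ W : G.chart, hP.valk W ≠ 0 ∧ OrdGE (v : Place k Fb) 1 (hR.redB W) := by
    rintro ⟨v, hv⟩
    have hx := hxv v ((hZ v).mp hv).le
    obtain ⟨f, hf⟩ := hno v hx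
    obtain ⟨c, hc⟩ := G.surj (placeVal v (hR.redB f))
    refine ⟨f - G.cst c, ?_, ?_⟩
    · rw [map_sub, hP.valk_cst, hc, sub_ne_zero]
      exact hf.symm
    · rw [map_sub, hR.redB_cst, hc]
      refine placeVal_spec ((hR.intOver_redB f).ordGE ?_)
      exact hx.resolve_left (fun h => hR.transcendental_xb (h ▸ isAlgebraic_zero))
  choose W hW0 hW1 using hbad
  obtain ⟨E, hE⟩ := exists_pow_intOver_div hR.transcendental_xb (G.π a)
    (fun v : Z => hR.redB (W v)) (fun v => hR.intOver_redB _)
    fun v hv => ⟨⟨v, (hZ v).mpr hv⟩, hW1 _⟩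
  set T : G.chart := (∏ v, W v) ^ E
  have hT : hP.valk T ≠ 0 := by
    rw [map_pow, map_prod]
    exact pow_ne_zero _ (Finset.prod_ne_zero_iff.mpr fun v _ => hW0 v)
  have hs : IntOver k hR.xb (hR.redB T / y) := by
    rw [map_pow, map_prod]
    exact hE
  obtain ⟨S, hS⟩ := hR.exists_lift hs
  have hxa : hR.redB (G.toChart (X - C a)) = y := hR.redB_toChart_X_sub_C a
  refine hT (map_eq_zero_of_map_eq_div hR.redB hP.valk (fun f => hR.valk_eq_zero_of_redB hP)
    hy0 hxa hS ?_)
  rw [hP.valk_apply, ← map_zero G.π]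
  refine congrArg G.π (Subtype.ext ?_)
  show placeVal P _ = 0
  rw [coe_toChart_X_sub_C]
  exact placeVal_eq (by rw [map_zero, sub_zero]; exact placeVal_spec hP.1)

open Classical in
/-- The specialisation of a point of the chart. -/
def Regular.spec [Nonempty (Place k Fb)] (P : Place L G.F) : Place k Fb :=
  if hP : G.FinPlace P then (hR.exists_place hP).choose else Classical.ofNonempty

/-- The specialisation lies on the reduced chart. -/
theorem Regular.spec_ordGE [Nonempty (Place k Fb)] {P : Place L G.F} (hP : G.FinPlace P) :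
    OrdGE (hR.spec P) 0 hR.xb := by
  rw [spec, dif_pos hP]; exact (hR.exists_place hP).choose_spec.1

/-- Values reduce to values at the specialisation. -/
theorem Regular.placeVal_spec_eq [Nonempty (Place k Fb)] {P : Place L G.F} (hP : G.FinPlace P)
    (f : G.chart) : placeVal (hR.spec P) (hR.redB f) = hP.valk f := by
  rw [spec, dif_pos hP]; exact (hR.exists_place hP).choose_spec.2 f

end FermatAgent.Curve.Red.GaussModel
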