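import Fermat.Agent.Curve.Red.ChartSpec

/-!
# Zeros on a regular chart specialise to zeros of the reduction

If an integral function `f` of the chart vanishes to order `D P` at the places `P` of a finite
set, then its reduction vanishes at each `Q` to order the sum of `D P` over the `P` specialising
to `Q` (`Regular.ordGE_redB`).

Induction on `∑ D P`: the functions vanishing to given orders stay finitely generated modulo
those vanishing to the orders `D`, so their leading values at the next point `P` are the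
multiples of one of them, of largest valuation.  Dividing by it, a function vanishing once more
at `P` has a reduction vanishing once more at the specialisation of `P` (`Regular.ordGE_succ`).
-/

set_option autoImplicit false

open Polynomial AlgebraicCurve IntermediateField

noncomputable section

-- searched first: the other route ends in a long failing unification on the scalar towers
attribute [local instance 1100] SubalgebraClass.toAlgebra

namespace FermatAgent.Curve

variable {K : Type*} [Field K] [IsAlgClosed K] {F : Type*} [Field F] [Algebra K F] [IsFF K F]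

/-- An integral function with value `1` at `Q` clearing the poles of `q` away from infinity. -/
theorem exists_intOver_mul {x : F} (hx : Transcendental K x) {Q : Place K F} (hxQ : 0 ≤ Q.ord x)
    {q : F} (hq : OrdGE Q 0 q) :
    ∃ u : F, IntOver K x u ∧ placeVal Q u = 1 ∧ IntOver K x (u * q) := by
  classical
  set bad := ((finite_ord_ne_zero (K := K) q).toFinset).filter fun v => 0 ≤ v.ord x
  obtain ⟨u, hu, huv⟩ := exists_intOver_approx hx (insert Q bad)
    (fun v hv => by
      rcases Finset.mem_insert.mp hv with rfl | hv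
      · exact hxQ
      · exact (Finset.mem_filter.mp hv).2)
    (fun v => if v = Q then 1 else 0) (fun v _ => by
      split_ifs
      · rw [← map_one (algebraMap K F)]; exact ordGE_algebraMap _
      · exact OrdGE.zero) (∑ v ∈ bad, (v.ord q).natAbs + 1)
  refine ⟨u, hu, ?_, intOver_of_ordGE fun v hv => ?_⟩
  · have h1 := huv Q (Finset.mem_insert_self _ _)
    rw [if_pos rfl, ← map_one (algebraMap K F)] at h1
    exact placeVal_eq (h1.mono (by rw [Nat.cast_add, Nat.cast_one]; omega))
  · have hu0 : OrdGE v 0 u := hu.ordGE hv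
    by_cases hvQ : v = Q
    · subst hvQ
      exact (hu0.mul hq).mono (by omega)
    by_cases hq0 : v.ord q = 0
    · exact (hu0.mul (ordGE_self q)).mono (by omega)
    · have hvb : v ∈ bad := Finset.mem_filter.mpr ⟨by simpa using hq0, hv⟩
      have h1 := huv v (Finset.mem_insert_of_mem hvb)
      rw [if_neg hvQ, sub_zero] at h1
      refine (h1.mul (ordGE_self q)).mono ?_
      have h2 : (v.ord q).natAbs ≤ ∑ v ∈ bad, (v.ord q).natAbs :=
        Finset.single_le_sum (f := fun v => (v.ord q).natAbs) (fun _ _ => Nat.zero_le _) hvb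
      rw [Nat.cast_add, Nat.cast_one]; omega

omit [IsAlgClosed K] [IsFF K F] in
theorem ordGE_div_zero {Q : Place K F} {c : ℤ} {z z0 : F} (hz : z ≠ 0) (hzord : Q.ord z = c)
    (hz0 : OrdGE Q c z0) : OrdGE Q 0 (z0 / z) := by
  rcases hz0 with h | h
  · exact Or.inl (by simp [h])
  · refine Or.inr ?_
    rcases eq_or_ne z0 0 with h' | h'
    · simp [h']
    · rw [ord_div h' hz, hzord]; omega

/-- An integral function with prescribed orders on `S`, exact at `P`. -/
theorem exists_intOver_ordGE {x : F} (hx : Transcendental K x) (S : Finset (Place K F))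
    (hS : ∀ v ∈ S, 0 ≤ v.ord x) (e : Place K F → ℕ) {P : Place K F} (hP : P ∈ S) {t : F}
    (ht0 : t ≠ 0) (ht : P.ord t = 1) :
    ∃ w : F, IntOver K x w ∧ w ≠ 0 ∧ (∀ Q ∈ S, OrdGE Q (e Q : ℤ) w) ∧
      OrdGE P 1 ((w - t ^ e P) * (t ^ e P)⁻¹) ∧ OrdGE P 0 (w * (t ^ e P)⁻¹) ∧
      placeVal P (w * (t ^ e P)⁻¹) = 1 := by
  classical
  set te : F := t ^ e P
  have hte : te ≠ 0 := pow_ne_zero _ ht0
  have hord : P.ord te = e P := by rw [ord_pow, ht, mul_one]
  have hreg0 : OrdGE P 0 te := Or.inr (by rw [hord]; positivity)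
  obtain ⟨w, hwi, hw⟩ := exists_intOver_approx hx S hS (fun v => if v = P then te else 0)
    (fun v _ => by
      split_ifs with h
      · exact h ▸ hreg0
      · exact OrdGE.zero) (∑ P' ∈ S, e P' + 1)
  have hwP : OrdGE P ((e P : ℤ) + 1) (w - te) := by
    have h2 := hw P hP
    rw [if_pos rfl] at h2
    refine h2.mono ?_
    have h1 : e P ≤ ∑ P' ∈ S, e P' := Finset.single_le_sum (fun _ _ => Nat.zero_le _) hP
    rw [Nat.cast_add, Nat.cast_one]; omega
  have hw0 : w ≠ 0 := by
    rintro rfl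
    rw [zero_sub] at hwP
    have h := hwP.neg
    rw [neg_neg, ordGE_iff_le hte, hord] at h
    omega
  have hinv : OrdGE P (-(e P : ℤ)) te⁻¹ := Or.inr (by rw [Place.ord_inv, hord])
  have h1 : OrdGE P 1 ((w - te) * te⁻¹) := (hwP.mul hinv).mono (by omega)
  have h2 : OrdGE P 1 (w * te⁻¹ - algebraMap K F 1) := by
    rwa [sub_mul, mul_inv_cancel₀ hte, ← map_one (algebraMap K F)] at h1
  refine ⟨w, hwi, hw0, fun Q hQ => ?_, h1, ?_, placeVal_eq h2⟩
  · rcases eq_or_ne Q P with rfl | hne
    · have h3 := (hwP.mono (by omega : (e Q : ℤ) ≤ (e Q : ℤ) + 1)).add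
        ((ordGE_self (v := Q) te).mono hord.ge)
      rwa [sub_add_cancel] at h3
    · have h3 := hw Q hQ
      rw [if_neg hne, sub_zero] at h3
      refine h3.mono ?_
      have h4 : e Q ≤ ∑ P' ∈ S, e P' := Finset.single_le_sum (fun _ _ => Nat.zero_le _) hQ
      rw [Nat.cast_add, Nat.cast_one]; omega
  · have h3 := (h2.mono zero_le_one).add (ordGE_algebraMap (v := P) (1 : K))
    rwa [sub_add_cancel] at h3

omit [IsAlgClosed K] [IsFF K F] in
theorem ordGE_coe_mul_pow {R : Subring F} {v : Place K F} {a b : R} (ha : OrdGE v 1 (a : F))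
    (hb : OrdGE v 0 (b : F)) {N D : ℕ} (h : D ≤ N) : OrdGE v (D : ℤ) ((a ^ N * b : R) : F) := by
  rw [MulMemClass.coe_mul, SubmonoidClass.coe_pow]
  refine ((ha.pow _).mul hb).mono ?_
  rw [mul_one, add_zero]
  exact_mod_cast h

/-- A finite family in a field, not all zero, has a member of which all are multiples in a given
valuation ring: one of largest valuation. -/
theorem exists_mul_eq_all {L : Type*} [Field L] (R : ValuationSubring L) {d : ℕ} (a : Fin d → L)
    (h : ∃ i, a i ≠ 0) : ∃ (i0 : Fin d) (r : Fin d → R), a i0 ≠ 0 ∧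
      ∀ i, (r i : L) * a i0 = a i := by
  classical
  obtain ⟨i0, hi0, hmax⟩ := (Finset.univ.filter fun i => a i ≠ 0).exists_max_image
    (fun i => R.valuation (a i)) (by obtain ⟨i, hi⟩ := h; exact ⟨i, by simpa using hi⟩)
  replace hi0 : a i0 ≠ 0 := by simpa using hi0
  have hdiv : ∀ i, a i / a i0 ∈ R := fun i => by
    rw [← R.valuation_le_one_iff, map_div₀,
      div_le_one₀ (zero_lt_iff.mpr ((Valuation.ne_zero_iff _).mpr hi0))]
    rcases eq_or_ne (a i) 0 with h | h
    · simp [h]
    · exact hmax i (by simpa using h)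
  exact ⟨i0, fun i => ⟨_, hdiv i⟩, hi0, fun i => div_mul_cancel₀ _ hi0⟩

theorem sum_mul_sub_eq {S R : Type*} [CommRing S] [CommRing R] (cs : R →+* S) {d : ℕ}
    (c r : Fin d → R) (T : Fin d → S) (U : S) (h : ∑ i, c i * r i = 0) :
    ∑ i, cs (c i) * (T i - cs (r i) * U) = ∑ i, cs (c i) * T i := by
  simp only [mul_sub, Finset.sum_sub_distrib, ← mul_assoc, ← map_mul, ← Finset.sum_mul,
    ← map_sum, h, map_zero, zero_mul, sub_zero]

theorem map_mul_sub_mul_eq_zero {R A : Type*} [CommRing R] [Field A] (φ : R →+* A)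
    {U g0 S g : R} {u : A} (hg : φ g ≠ 0) (hU : φ U = u) (hS : φ S = u * (φ g0 / φ g)) :
    φ (U * g0 - S * g) = 0 := by
  rw [map_sub, map_mul, map_mul, hU, hS, mul_assoc, div_mul_cancel₀ _ hg, sub_self]

end FermatAgent.Curve

namespace FermatAgent.Curve.Red.GaussModel

variable {L : Type*} [Field L] {k : Type*} [Field k] [IsAlgClosed L] [IsAlgClosed k]
  {G : GaussModel L k}

/-- Vanishing to the orders `e` on `S`. -/
def Van (S : Finset (Place L G.F)) (e : Place L G.F → ℕ) (g : G.chart) : Prop :=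
  ∀ P ∈ S, OrdGE P (e P : ℤ) (g : G.F)

/-- The coefficient of `t ^ j` of a function vanishing to order `j`. -/
def lead (P : Place L G.F) (j : ℕ) (t : G.F) (g : G.chart) : L :=
  haveI := G.isFF_F
  placeVal P ((g : G.F) * (t ^ j)⁻¹)

section Lead

variable {S : Finset (Place L G.F)} {e : Place L G.F → ℕ} {P : Place L G.F}
  {t : G.F} (ht0 : t ≠ 0) (ht : P.ord t = 1) {g g' : G.chart}

omit [IsAlgClosed k]

section

omit [IsAlgClosed L]

/-- Differences keep vanishing conditions. -/
theorem Van.sub (hg : Van S e g) (hg' : Van S e g') : Van S e (g - g') := fun Q hQ => by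
  rw [AddSubgroupClass.coe_sub]
  exact (hg Q hQ).sub (hg' Q hQ)

/-- Sums keep vanishing conditions. -/
theorem Van.sum {ι : Type*} {s : Finset ι} {f : ι → G.chart} (hf : ∀ i ∈ s, Van S e (f i)) :
    Van S e (∑ i ∈ s, f i) := fun Q hQ => by
  rw [AddSubmonoidClass.coe_finsetSum]
  exact OrdGE.sum fun i hi => hf i hi Q hQ

/-- Vanishing conditions may be weakened. -/
theorem Van.mono {e' : Place L G.F → ℕ} (hg : Van S e g) (h : ∀ P ∈ S, e' P ≤ e P) : Van S e' g :=
  fun Q hQ => (hg Q hQ).mono (by exact_mod_cast h Q hQ)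

include ht in
theorem ordGE_inv_pow (j : ℕ) : OrdGE P (-(j : ℤ)) (t ^ j)⁻¹ :=
  Or.inr (by rw [Place.ord_inv, ord_pow, ht, mul_one])

include ht in
/-- Dividing by the power of the parameter leaves a function regular at `P`. -/
theorem Van.regular (hP : P ∈ S) (hg : Van S e g) : OrdGE P 0 ((g : G.F) * (t ^ e P)⁻¹) :=
  ((hg P hP).mul (ordGE_inv_pow ht _)).mono (by omega)

end

/-- Chart multiples keep vanishing conditions. -/
theorem Van.mul (hS : ∀ P ∈ S, G.FinPlace P) (s : G.chart) (hg : Van S e g) : Van S e (s * g) :=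
  fun Q hQ => by
    rw [MulMemClass.coe_mul]
    exact (((hS Q hQ).ordGE s).mul (hg Q hQ)).mono (by omega)

include ht0 ht in
theorem lead_eq_zero_iff (hP : P ∈ S) (hg : Van S e g) :
    lead P (e P) t g = 0 ↔ OrdGE P ((e P : ℤ) + 1) (g : G.F) := by
  have := G.isFF_F
  have hte : t ^ e P ≠ 0 := pow_ne_zero _ ht0
  rw [lead, placeVal_eq_zero_iff (hg.regular ht hP)]
  constructor
  · intro h1
    have h2 := h1.mul (ordGE_self (v := P) (t ^ e P))
    rw [mul_assoc, inv_mul_cancel₀ hte, mul_one] at h2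
    exact h2.mono (by rw [ord_pow, ht]; omega)
  · intro h1
    exact (h1.mul (ordGE_inv_pow ht _)).mono (by omega)

include ht in
theorem lead_mul (hS : ∀ P ∈ S, G.FinPlace P) (hP : P ∈ S) (s : G.chart) (hg : Van S e g) :
    haveI := G.isFF_F
    lead P (e P) t (s * g) = placeVal P (s : G.F) * lead P (e P) t g := by
  have := G.isFF_F
  rw [lead, lead, MulMemClass.coe_mul, mul_assoc,
    placeVal_mul ((hS P hP).ordGE s) (hg.regular ht hP)]

include ht in
theorem lead_cst_mul (hS : ∀ P ∈ S, G.FinPlace P) (hP : P ∈ S) (c : G.R) (hg : Van S e g) :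
    lead P (e P) t (G.cst c * g) = (c : L) * lead P (e P) t g := by
  have := G.isFF_F
  rw [lead_mul ht hS hP _ hg, coe_cst, placeVal_algebraMap]

include ht in
theorem lead_add (hP : P ∈ S) (hg : Van S e g) (hg' : Van S e g') :
    lead P (e P) t (g + g') = lead P (e P) t g + lead P (e P) t g' := by
  have := G.isFF_F
  rw [lead, lead, lead, Subring.coe_add, add_mul,
    placeVal_add (hg.regular ht hP) (hg'.regular ht hP)]

/-- The leading value of zero. -/
theorem lead_zero (j : ℕ) : lead P j t (0 : G.chart) = 0 := by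
  have := G.isFF_F
  rw [lead, ZeroMemClass.coe_zero, zero_mul, ← map_zero (algebraMap L G.F), placeVal_algebraMap]

include ht in
theorem lead_sub (hP : P ∈ S) (hg : Van S e g) (hg' : Van S e g') :
    lead P (e P) t (g - g') = lead P (e P) t g - lead P (e P) t g' := by
  rw [eq_sub_iff_add_eq, ← lead_add ht hP (hg.sub hg') hg', sub_add_cancel]

include ht in
theorem lead_sum_cst (hS : ∀ P ∈ S, G.FinPlace P) (hP : P ∈ S) {ι : Type*} (s : Finset ι)
    {T : ι → G.chart} (hT : ∀ i, Van S e (T i)) (c : ι → G.R) :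
    lead P (e P) t (∑ i ∈ s, G.cst (c i) * T i) = ∑ i ∈ s, (c i : L) * lead P (e P) t (T i) := by
  classical
  induction s using Finset.induction with
  | empty => rw [Finset.sum_empty, Finset.sum_empty, lead_zero]
  | insert i s hi ih =>
    rw [Finset.sum_insert hi, Finset.sum_insert hi,
      lead_add ht hP ((hT i).mul hS _) (Van.sum fun j _ => (hT j).mul hS _), ih,
      lead_cst_mul ht hS hP _ (hT i)]

include ht0 ht in
/-- The leading values are not all zero. -/
theorem exists_lead_ne_zero (hS : ∀ P ∈ S, G.FinPlace P) (hP : P ∈ S) :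
    ∃ g : G.chart, Van S e g ∧ lead P (e P) t g ≠ 0 := by
  classical
  have := G.isFF_F
  obtain ⟨w, hwi, hw0, hwS, -, hreg, hval⟩ := exists_intOver_ordGE G.transcendental_xF S
    (fun v hv => (hS v hv).ord_nonneg) e hP ht0 ht
  obtain ⟨l, g, hl, hwg, -, -⟩ := G.exists_eq_C_mul w.2 (fun h => hw0 (Subtype.ext h))
  set gF : G.F := ⟨(g : LaurentSeries L), g.2.mem⟩
  have hgw : gF = algebraMap L G.F l⁻¹ * w := Subtype.ext (by
    rw [MulMemClass.coe_mul, hwg, ← mul_assoc,
      show ((algebraMap L G.F l⁻¹ : G.F) : LaurentSeries L) = HahnSeries.C l⁻¹ by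
        show algebraMap L (LaurentSeries L) l⁻¹ = _
        rw [HahnSeries.C_apply, ModularCurve.algebraMap_laurentSeries_eq_single],
      ← map_mul, inv_mul_cancel₀ hl, map_one, one_mul])
  refine ⟨⟨gF, g.2, hgw ▸ (intOver_algebraMap _ _).mul hwi⟩, fun Q hQ => ?_, fun h => ?_⟩
  · show OrdGE Q _ gF
    rw [hgw]
    exact ((ordGE_algebraMap _).mul (hwS Q hQ)).mono (by omega)
  · have h2 : placeVal P (gF * (t ^ e P)⁻¹) = l⁻¹ := by
      rw [hgw, mul_assoc, placeVal_mul (ordGE_algebraMap _) hreg, placeVal_algebraMap, hval,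
        mul_one]
    exact inv_ne_zero hl (h2.symm.trans h)

include ht0 ht in
/-- One step for generators: from generators `T` of the functions vanishing to orders `e₀` modulo
those vanishing to orders `D`, generators of those with one more zero at `P`, and an element
whose leading value at `P` divides all others. -/
theorem exists_gen_succ (hS : ∀ P ∈ S, G.FinPlace P) (hP : P ∈ S) {e' D : Place L G.F → ℕ}
    (hzero : ∀ g, Van S e g → (lead P (e P) t g = 0 ↔ Van S e' g))
    (hdown : ∀ g, Van S e' g → Van S e g) (hD0 : ∀ g, Van S D g → Van S e g)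
    (hD : ∀ g, Van S D g → Van S e' g) {d : ℕ} {T : Fin d → G.chart} (hT : ∀ i, Van S e (T i))
    (hgen : ∀ g, Van S e g → ∃ c : Fin d → G.R, Van S D (g - ∑ i, G.cst (c i) * T i)) :
    (∃ (d : ℕ) (T : Fin d → G.chart), (∀ i, Van S e' (T i)) ∧
        ∀ g, Van S e' g → ∃ c : Fin d → G.R, Van S D (g - ∑ i, G.cst (c i) * T i)) ∧
      ∃ g0, Van S e g0 ∧ lead P (e P) t g0 ≠ 0 ∧
        ∀ g, Van S e g → ∃ q : G.R, lead P (e P) t g = (q : L) * lead P (e P) t g0 := by
  classical
  have hexp : ∀ g, Van S e g → ∃ c : Fin d → G.R,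
      Van S D (g - ∑ i, G.cst (c i) * T i) ∧
        lead P (e P) t g = ∑ i, (c i : L) * lead P (e P) t (T i) := fun g hg => by
    obtain ⟨c, hc⟩ := hgen g hg
    refine ⟨c, hc, ?_⟩
    have h1 := (hzero _ (hD0 _ hc)).mpr (hD _ hc)
    have hV : Van S e (∑ i, G.cst (c i) * T i) := Van.sum fun i _ => (hT i).mul hS _
    rw [lead_sub ht hP hg hV, lead_sum_cst ht hS hP _ hT, sub_eq_zero] at h1
    exact h1
  obtain ⟨g1, hg1, hg1'⟩ := exists_lead_ne_zero (e := e) ht0 ht hS hP
  have hex : ∃ i, lead P (e P) t (T i) ≠ 0 := by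
    by_contra! hall
    obtain ⟨c, -, hc⟩ := hexp g1 hg1
    exact hg1' (by rw [hc]; exact Finset.sum_eq_zero fun i _ => by rw [hall i, mul_zero])
  obtain ⟨i0, r, hi0, hr⟩ := exists_mul_eq_all G.R (fun i => lead P (e P) t (T i)) hex
  set a := lead P (e P) t (T i0)
  have hsumr : ∀ c : Fin d → G.R, ∑ i, (c i : L) * lead P (e P) t (T i) =
      ((∑ i, c i * r i : G.R) : L) * a := fun c => by
    rw [AddSubmonoidClass.coe_finsetSum, Finset.sum_mul]
    exact Finset.sum_congr rfl fun i _ => by rw [MulMemClass.coe_mul, mul_assoc, hr]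
  refine ⟨⟨d, fun i => T i - G.cst (r i) * T i0, fun i => ?_, fun g hg => ?_⟩,
    T i0, hT i0, hi0, fun g hg => ?_⟩
  · refine (hzero _ ((hT i).sub ((hT i0).mul hS _))).mp ?_
    rw [lead_sub ht hP (hT i) ((hT i0).mul hS _), lead_cst_mul ht hS hP _ (hT i0), hr, sub_self]
  · obtain ⟨c, hc, hlead⟩ := hexp g (hdown g hg)
    rw [(hzero g (hdown g hg)).mpr hg, hsumr] at hlead
    have h2 : ∑ i, c i * r i = 0 :=
      Subtype.ext ((mul_eq_zero.mp hlead.symm).resolve_right hi0)
    refine ⟨c, ?_⟩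
    have e1 := sum_mul_sub_eq G.cst c r T (T i0) h2
    rw [e1]
    exact hc
  · obtain ⟨c, -, hc⟩ := hexp g hg
    exact ⟨_, hc.trans (hsumr c)⟩

end Lead

variable {Fb : IntermediateField k (LaurentSeries k)} [IsFF k Fb]
  [Nonempty (Place k Fb)] (hR : G.Regular Fb)

/-- One step: one more zero at `P` gives one more zero at its specialisation. -/
theorem Regular.ordGE_succ {S : Finset (Place L G.F)} (hS : ∀ P ∈ S, G.FinPlace P)
    {e : Place L G.F → ℕ} {P : Place L G.F} (hP : P ∈ S) {t : G.F}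
    (ht : P.ord t = 1) {g0 : G.chart} (hg0 : Van S e g0) (ha : lead P (e P) t g0 ≠ 0)
    (hlamR : ∀ g, Van S e g → ∃ q : G.R, lead P (e P) t g = (q : L) * lead P (e P) t g0)
    {c : ℤ} (hord : ∀ g, Van S e g → OrdGE (hR.spec P) c (hR.redB g))
    {g : G.chart} (hg : Van S e g) (hgz : lead P (e P) t g = 0) :
    OrdGE (hR.spec P) (c + 1) (hR.redB g) := by
  classical
  have := G.isFF_F
  set Q := hR.spec P
  set a := lead P (e P) t g0
  by_contra hnot
  set z := hR.redB g
  have hz : z ≠ 0 := fun h => hnot (Or.inl h)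
  have hzord : Q.ord z = c := by
    have h1 := hord g hg
    rw [ordGE_iff_le hz] at h1 hnot
    omega
  set z0 := hR.redB g0
  have hz0 : OrdGE Q c z0 := hord g0 hg0
  have hxQ : 0 ≤ Q.ord hR.xb :=
    (hR.spec_ordGE (hS P hP)).resolve_left fun h => hR.transcendental_xb (h ▸ isAlgebraic_zero)
  obtain ⟨u, hu, huQ, hs⟩ := exists_intOver_mul hR.transcendental_xb hxQ
    (ordGE_div_zero hz hzord hz0)
  obtain ⟨U, hU⟩ := hR.exists_lift hu
  obtain ⟨S', hS'⟩ := hR.exists_lift hs
  have hUI := hg0.mul hS U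
  have hSI := hg.mul hS S'
  have hE0 : hR.redB (U * g0 - S' * g) = 0 := map_mul_sub_mul_eq_zero hR.redB hz hU hS' 
  obtain ⟨μ, hμ, g', hg'⟩ := hR.exists_eq_C_mul hE0
  change U * g0 - S' * g = G.cst μ * g' at hg'
  have hlamE : lead P (e P) t (U * g0 - S' * g) = placeVal P (U : G.F) * a := by
    rw [lead_sub ht hP hUI hSI, lead_mul ht hS hP _ hg0, lead_mul ht hS hP _ hg, hgz, mul_zero,
      sub_zero]
  have hval := hR.placeVal_spec_eq (hS P hP) U
  rw [hU, huQ, (hS P hP).valk_apply] at hval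
  rcases eq_or_ne (μ : L) 0 with hμ0 | hμ0
  · have h1 : placeVal P (U : G.F) * a = 0 := by
      rw [← hlamE, hg', show μ = 0 from Subtype.ext hμ0, map_zero, zero_mul, lead_zero]
    have h2 := (mul_eq_zero.mp h1).resolve_right ha
    exact one_ne_zero (hval.trans ((congrArg G.π (Subtype.ext h2)).trans (map_zero _)))
  · have hg'I : Van S e g' := fun P' hP' => by
      have h1 := hUI.sub hSI P' hP'
      rw [hg', MulMemClass.coe_mul, coe_cst] at h1
      have h2 := (ordGE_algebraMap (v := P') ((μ : L))⁻¹).mul h1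
      rw [← mul_assoc, ← map_mul, inv_mul_cancel₀ hμ0, map_one, one_mul] at h2
      exact h2.mono (by omega)
    obtain ⟨q', hq'⟩ := hlamR g' hg'I
    have h1 : placeVal P (U : G.F) * a = (μ : L) * ((q' : L) * a) := by
      rw [← hlamE, hg', lead_cst_mul ht hS hP _ hg'I, hq']
    rw [← mul_assoc] at h1
    have h2 : (⟨placeVal P (U : G.F), (hS P hP).val_mem U⟩ : G.R) = μ * q' :=
      Subtype.ext (mul_right_cancel₀ ha h1)
    rw [h2, map_mul, hμ, zero_mul] at hval
    exact one_ne_zero hval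

omit [Nonempty (Place k Fb)] in
include hR in
/-- Finitely many elements generate the chart modulo the deepest ideal. -/
theorem Regular.exists_gen_zero {S : Finset (Place L G.F)} (hS : ∀ P ∈ S, G.FinPlace P)
    (D : Place L G.F → ℕ) : ∃ (d : ℕ) (T : Fin d → G.chart),
      ∀ g : G.chart, ∃ c : Fin d → G.R, Van S D (g - ∑ i, G.cst (c i) * T i) := by
  classical
  have := G.isFF_F
  let co : Place L G.F → G.R := fun P => if hP : G.FinPlace P then hP.coord else 0
  obtain ⟨d, T, hT⟩ := hR.finMod_prod (S.image co) fun _ => ∑ P ∈ S, D P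
  refine ⟨d, T, fun g => ?_⟩
  obtain ⟨c, h, hg⟩ := hT g
  refine ⟨c, fun P hP => ?_⟩
  rw [hg, add_sub_cancel_left]
  obtain ⟨q, hq⟩ := Finset.dvd_prod_of_mem (fun a : G.R => (X - C a) ^ (∑ P ∈ S, D P))
    (Finset.mem_image_of_mem co hP)
  have h1 : OrdGE P 1 (G.toChart (X - C (co P)) : G.F) := by
    simp only [co, dif_pos (hS P hP)]
    rw [coe_toChart_X_sub_C]
    exact placeVal_spec (hS P hP).1
  rw [hq, map_mul G.toChart, map_pow, mul_assoc]
  exact ordGE_coe_mul_pow h1 ((hS P hP).ordGE _)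
    (Finset.single_le_sum (fun _ _ => Nat.zero_le _) hP)

open Classical in
/-- **Zeros specialise to zeros**: if `f` vanishes to order `D P` at each `P ∈ S`, its reduction
vanishes at `Q` to order the sum of `D P` over the `P` specialising to `Q`. -/
theorem Regular.ordGE_redB (S : Finset (Place L G.F)) (hS : ∀ P ∈ S, G.FinPlace P)
    (D : Place L G.F → ℕ) (f : G.chart) (hf : Van S D f)
    (Q : Place k Fb) (hQ : OrdGE Q 0 hR.xb) :
    OrdGE Q (((∑ P ∈ S.filter fun P => hR.spec P = Q, D P) : ℕ) : ℤ) (hR.redB f) := by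
  have := G.isFF_F
  let sumQ : (Place L G.F → ℕ) → Place k Fb → ℕ := fun e Q =>
    ∑ P ∈ S.filter (fun P => hR.spec P = Q), e P
  suffices key : ∀ (n : ℕ) (e : Place L G.F → ℕ), (∀ P ∈ S, e P ≤ D P) → ∑ P ∈ S, e P = n →
      (∃ (d : ℕ) (T : Fin d → G.chart), (∀ i, Van S e (T i)) ∧
        ∀ g, Van S e g → ∃ c : Fin d → G.R, Van S D (g - ∑ i, G.cst (c i) * T i)) ∧
      ∀ g, Van S e g → ∀ Q, OrdGE Q 0 hR.xb → OrdGE Q (sumQ e Q : ℤ) (hR.redB g) from
    (key _ D (fun _ _ => le_rfl) rfl).2 f hf Q hQ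
  intro n
  induction n with
  | zero =>
    intro e _ he
    have he0 : ∀ P ∈ S, e P = 0 := fun P hP => (Finset.sum_eq_zero_iff.mp he) P hP
    refine ⟨?_, fun g _ Q hQ => ?_⟩
    · obtain ⟨d, T, hT⟩ := hR.exists_gen_zero hS D
      exact ⟨d, T, fun i P hP => by rw [he0 P hP]; exact (hS P hP).ordGE (T i), fun g _ => hT g⟩
    · have hsum : sumQ e Q = 0 := Finset.sum_eq_zero fun P hP => he0 P (Finset.mem_filter.mp hP).1
      rw [hsum, Nat.cast_zero]
      exact (hR.intOver_redB g).ordGE (hQ.resolve_left fun h =>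
        hR.transcendental_xb (h ▸ isAlgebraic_zero))
  | succ n ih =>
    intro e hle he
    obtain ⟨P, hP, hpos⟩ : ∃ P ∈ S, 0 < e P := by
      by_contra! h
      rw [Finset.sum_eq_zero fun P hP => Nat.le_zero.mp (h P hP)] at he
      omega
    set e0 := Function.update e P (e P - 1)
    have hne : ∀ P' ≠ P, e0 P' = e P' := fun P' h => Function.update_of_ne h _ _
    have heq : e0 P = e P - 1 := Function.update_self _ _ _
    have he0le : ∀ P' ∈ S, e0 P' ≤ e P' := fun P' _ => by
      rcases eq_or_ne P' P with rfl | h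
      · omega
      · exact (hne P' h).le
    have he0P : (e0 P : ℤ) + 1 = e P := by omega
    have he0sum : ∑ P' ∈ S, e0 P' = n := by
      rw [← Finset.add_sum_erase _ e hP] at he
      rw [← Finset.add_sum_erase _ e0 hP]
      rw [Finset.sum_congr rfl fun P' hP' => hne P' (Finset.ne_of_mem_erase hP'), heq]
      show e P - 1 + ∑ x ∈ S.erase P, e x = n
      omega
    have hleD : ∀ P' ∈ S, e0 P' ≤ D P' := fun P' hP' => (he0le P' hP').trans (hle P' hP')
    obtain ⟨⟨d, T, hT, hgen⟩, hord⟩ := ih e0 hleD he0sum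
    obtain ⟨t, ht0, ht⟩ := exists_ord_eq_one P
    have hzero : ∀ g, Van S e0 g → (lead P (e0 P) t g = 0 ↔ Van S e g) := fun g hg => by
      rw [lead_eq_zero_iff ht0 ht hP hg, he0P]
      refine ⟨fun h P' hP' => ?_, fun h => h P hP⟩
      rcases eq_or_ne P' P with rfl | h'
      · exact h
      · rw [← hne P' h']; exact hg P' hP'
    have hdown : ∀ g, Van S e g → Van S e0 g := fun g hg => hg.mono he0le
    obtain ⟨hgen', g0, hg0, hg0', hlam⟩ := exists_gen_succ ht0 ht hS hP hzero hdown
      (fun g hg => hg.mono hleD) (fun g hg => hg.mono hle) hT hgen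
    refine ⟨hgen', fun g hg Q hQ => ?_⟩
    by_cases hPQ : hR.spec P = Q
    · subst hPQ
      have hPf : P ∈ S.filter fun P' => hR.spec P' = hR.spec P :=
        Finset.mem_filter.mpr ⟨hP, rfl⟩
      have hsum : (sumQ e (hR.spec P) : ℤ) = sumQ e0 (hR.spec P) + 1 := by
        have h1 : ∑ P' ∈ (S.filter fun P' => hR.spec P' = hR.spec P).erase P, e P' =
            ∑ P' ∈ (S.filter fun P' => hR.spec P' = hR.spec P).erase P, e0 P' :=
          Finset.sum_congr rfl fun P' hP' => (hne P' (Finset.ne_of_mem_erase hP')).symm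
        simp only [sumQ, ← Finset.add_sum_erase _ _ hPf, h1]
        push_cast
        omega
      rw [hsum]
      exact hR.ordGE_succ hS hP ht hg0 hg0' hlam
        (fun g' hg' => hord g' hg' _ hQ) (hdown g hg) ((hzero g (hdown g hg)).mpr hg)
    · have hsum : sumQ e Q = sumQ e0 Q := Finset.sum_congr rfl fun P' hP' =>
        (hne P' fun h => hPQ (h ▸ (Finset.mem_filter.mp hP').2)).symm
      rw [hsum]
      exact hord g (hdown g hg) Q hQ

end FermatAgent.Curve.Red.GaussModel
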