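import Fermat.Agent.Curve.Red.Setup

/-!
# Content and uniform lifting in `BRing M R`

Everything is controlled by finitely many principal parts of the traces `trG (sepB S · f)`.
-/

set_option autoImplicit false

open Filter Topology UpperHalfPlane CongruenceSubgroup
open scoped MatrixGroups

noncomputable section

namespace FermatAgent.Curve.Red

open FermatAgent.ES

variable {M m : ℕ}

theorem serInJ_mul {A : Subring ℂ} {J : AddSubgroup ℂ} (hJ : ∀ a ∈ A, ∀ x ∈ J, a * x ∈ J)
    {s t : LaurentSeries ℂ} (hs : SerIn A s) (ht : SerInJ J t) : SerInJ J (s * t) := fun n => by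
  rw [HahnSeries.coeff_mul]
  exact sum_mem fun ij _ => hJ _ (hs _) _ (ht _)

theorem serInJ_add {J : AddSubgroup ℂ} {s t : LaurentSeries ℂ} (hs : SerInJ J s)
    (ht : SerInJ J t) : SerInJ J (s + t) := fun n => J.add_mem (hs n) (ht n)

variable [NeZero M]

/-- The expansion at a cusp of a product. -/
theorem lexp_mul {f g : ℍ → ℂ} (hf : f ∈ BSub M) (hg : g ∈ BSub M) (γ : SL(2, ℤ)) :
    lexp M γ (f * g) = lexp M γ f * lexp M γ g :=
  (expHom (M := M) γ).map_mul ⟨f, hf⟩ ⟨g, hg⟩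

/-- The expansion at a cusp of a sum. -/
theorem lexp_add {f g : ℍ → ℂ} (hf : f ∈ BSub M) (hg : g ∈ BSub M) (γ : SL(2, ℤ)) :
    lexp M γ (f + g) = lexp M γ f + lexp M γ g :=
  (expHom (M := M) γ).map_add ⟨f, hf⟩ ⟨g, hg⟩

/-- The expansion at a cusp of a difference. -/
theorem lexp_sub {f g : ℍ → ℂ} (hf : f ∈ BSub M) (hg : g ∈ BSub M) (γ : SL(2, ℤ)) :
    lexp M γ (f - g) = lexp M γ f - lexp M γ g :=
  (expHom (M := M) γ).map_sub ⟨f, hf⟩ ⟨g, hg⟩

/-- The expansion of zero. -/
theorem lexp_zero (γ : SL(2, ℤ)) : lexp M γ (0 : ℍ → ℂ) = 0 := lexp_eq HasLExp.zero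

theorem lexp_pow {f : ℍ → ℂ} (hf : f ∈ BSub M) (γ : SL(2, ℤ)) (i : ℕ) :
    lexp M γ (f ^ i) = lexp M γ f ^ i :=
  (expHom (M := M) γ).map_pow ⟨f, hf⟩ i

/-- The expansion at a cusp of a finite sum. -/
theorem lexp_sum {ι : Type*} (s : Finset ι) {f : ι → ℍ → ℂ} (hf : ∀ i ∈ s, f i ∈ BSub M)
    (γ : SL(2, ℤ)) : lexp M γ (∑ i ∈ s, f i) = ∑ i ∈ s, lexp M γ (f i) := by
  classical
  induction s using Finset.induction with
  | empty => simp [lexp_zero]
  | insert a s ha ih =>
    rw [Finset.sum_insert ha, Finset.sum_insert ha,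
      lexp_add (hf a (by simp)) (sum_mem fun i hi => hf i (by simp [hi])),
      ih fun i hi => hf i (by simp [hi])]

/-- The coefficients of a constant multiple. -/
theorem coeff_lexp_const_mul {f : ℍ → ℂ} (hf : f ∈ BSub M) (a : ℂ) (γ : SL(2, ℤ)) (n : ℤ) :
    (lexp M γ ((fun _ => a) * f)).coeff n = a * (lexp M γ f).coeff n := by
  rw [lexp_mul (f := fun _ => a) ((BSub M).algebraMap_mem a) hf,
    lexp_eq (s := HahnSeries.C a) (HasLExp.const a),
    HahnSeries.C_apply, HahnSeries.coeff_single_mul, sub_zero]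

theorem serInJ_sum {ι : Type*} {J : AddSubgroup ℂ} (s : Finset ι) {f : ι → ℍ → ℂ}
    (hf : ∀ i ∈ s, f i ∈ BSub M) {γ : SL(2, ℤ)} (h : ∀ i ∈ s, SerInJ J (lexp M γ (f i))) :
    SerInJ J (lexp M γ (∑ i ∈ s, f i)) := by
  classical
  induction s using Finset.induction with
  | empty => intro n; simp [lexp_zero, J.zero_mem]
  | insert a s ha ih =>
    rw [Finset.sum_insert ha, lexp_add (hf a (by simp)) (sum_mem fun i hi => hf i (by simp [hi]))]
    exact serInJ_add (h a (by simp)) (ih (fun i hi => hf i (by simp [hi]))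
      fun i hi => h i (by simp [hi]))

/-- A bound for the poles at all cusps. -/
theorem exists_pole_bound {f : ℍ → ℂ} (hf : f ∈ BSub M) :
    ∃ d : ℕ, ∀ (γ : SL(2, ℤ)) (n : ℤ), n < -(d : ℤ) → (lexp M γ f).coeff n = 0 := by
  classical
  have : Fintype (SL(2, ℤ) ⧸ Gamma M) := Fintype.ofFinite _
  refine ⟨Finset.univ.sup fun c : SL(2, ℤ) ⧸ Gamma M => (-(lexp M c.out f).order).toNat,
    fun γ n hn => ?_⟩
  obtain ⟨h, hh⟩ := QuotientGroup.mk_out_eq_mul (Gamma M) γ
  have e : lexp M (γ : SL(2, ℤ) ⧸ Gamma M).out f = lexp M γ f := by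
    rw [hh, show γ * (h : SL(2, ℤ)) = (γ * h * γ⁻¹) * γ by group]
    exact lexp_mul_of_mem hf ((Gamma_normal M).conj_mem _ h.2 γ) γ
  rw [← e]
  refine HahnSeries.coeff_eq_zero_of_lt_order ?_
  have := Finset.le_sup (f := fun c : SL(2, ℤ) ⧸ Gamma M => (-(lexp M c.out f).order).toNat)
    (Finset.mem_univ (γ : SL(2, ℤ) ⧸ Gamma M))
  omega

theorem coeff_mul_mem {J : AddSubgroup ℂ} {A : Subring ℂ} (hJ : ∀ a ∈ A, ∀ x ∈ J, a * x ∈ J)
    {s t : LaurentSeries ℂ} {d e : ℤ} (hs0 : ∀ n < d, s.coeff n = 0) (hs : SerIn A s)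
    (ht : ∀ n < e, t.coeff n ∈ J) {n : ℤ} (hn : n < d + e) : (s * t).coeff n ∈ J := by
  rw [HahnSeries.coeff_mul]
  refine sum_mem fun ij hij => ?_
  rw [Finset.mem_antidiagonal] at hij
  obtain ⟨-, -, h⟩ := hij
  rcases lt_or_ge ij.1 d with h1 | h1
  · rw [hs0 _ h1, zero_mul]; exact J.zero_mem
  · exact hJ _ (hs _) _ (ht _ (by omega))

variable {k : Type*} [Field k] (D : RedDatum M k) (haux : AuxLevel M m)

/-- The trace component. -/
def trComp (S : Finset (GalGrp M m)) (f : ℍ → ℂ) : ℍ → ℂ := trG M m (sepB haux S * f)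

/-- Trace components are integral. -/
theorem trComp_mem {A : Subring ℂ} (hA : GoodRoot M A (zetaC M)) {f : ℍ → ℂ}
    (hf : f ∈ BRing M A) (S : Finset (GalGrp M m)) : trComp haux S f ∈ BRing M A :=
  trG_mem (mul_mem (sepB_mem haux hA S) hf)

/-- Trace components are invariant under `Γ(m)`. -/
theorem trComp_invariant {f : ℍ → ℂ} (hf : f ∈ BSub M) (S : Finset (GalGrp M m)) {δ : SL(2, ℤ)}
    (hδ : δ ∈ Gamma m) : act δ (trComp haux S f) = trComp haux S f :=
  trG_invariant (mul_mem (sepB_mem haux zetaC_goodRoot_top S).1 hf) hδ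

theorem eq_sum_trComp {f : ℍ → ℂ} (hf : f ∈ BSub M) :
    f = ∑ S ∈ (Finset.univ.erase (1 : GalGrp M m)).powerset, sepA haux S * trComp haux S f :=
  eq_sum_sepA_mul_trG haux hf

/-- Control of `f` by the principal parts of its trace components. -/
theorem serInJ_of_trComp {A : Subring ℂ} (hA : GoodRoot M A (zetaC M)) {f : ℍ → ℂ}
    (hf : f ∈ BRing M A) {J : AddSubgroup ℂ} (hJ : ∀ a ∈ A, ∀ x ∈ J, a * x ∈ J)
    (h : ∀ S, (∀ j ≤ m, ∀ n < 0, (lexp M (cuspRep j) (trComp haux S f)).coeff n ∈ J) ∧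
      (lexp M 1 (trComp haux S f)).coeff 0 ∈ J) (γ : SL(2, ℤ)) :
    SerInJ J (lexp M γ f) := by
  rw [eq_sum_trComp haux hf.1]
  refine serInJ_sum _ (fun S _ => mul_mem (sepA_mem haux hA S).1 (trComp_mem haux hA hf S).1)
    fun S _ => ?_
  rw [lexp_mul (sepA_mem haux hA S).1 (trComp_mem haux hA hf S).1]
  refine serInJ_mul hJ ((sepA_mem haux hA S).2 γ) ?_
  exact (polControlled_of_invariant haux hA (trComp_mem haux hA hf S).1
    (fun δ hδ => trComp_invariant haux hf.1 S hδ) fun j _ => (trComp_mem haux hA hf S).2 _).2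
      J hJ (h S).1 (h S).2 γ

namespace RedDatum

/-- A function with all coefficients divisible by `a` is `a` times an integral one. -/
theorem exists_eq_const_mul {f : ℍ → ℂ} (hf : f ∈ BRing M D.R) {a : ℂ} (ha : a ≠ 0)
    (h : ∀ γ, SerInJ (D.mulSub a) (lexp M γ f)) :
    ∃ g ∈ BRing M D.R, f = (fun _ => a) * g := by
  refine ⟨(fun _ => a⁻¹) * f, ⟨mul_mem ((BSub M).algebraMap_mem _) hf.1, fun γ n => ?_⟩, ?_⟩
  · rw [coeff_lexp_const_mul hf.1]
    obtain ⟨d, hd, he⟩ := D.mem_mulSub.mp (h γ n)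
    rwa [← he, inv_mul_cancel_left₀ ha]
  · funext τ
    simp [ha]

include haux in
/-- Content: `f = a g` with some reduction of `g` nonzero. -/
theorem exists_content {f : ℍ → ℂ} (hf : f ∈ BRing M D.R) (hf0 : f ≠ 0) :
    ∃ a ∈ D.R, a ≠ 0 ∧ ∃ g : BRing M D.R, f = (fun _ => a) * (g : ℍ → ℂ) ∧
      ∃ γ, D.redHom γ g ≠ 0 := by
  classical
  choose d hd using fun S => exists_pole_bound (trComp_mem haux D.good hf S).1
  set d0 := Finset.univ.sup d
  set T : Finset (Finset (GalGrp M m) × ℕ × ℤ) :=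
    Finset.univ ×ˢ (Finset.range (m + 1) ×ˢ Finset.Icc (-(d0 : ℤ)) 0)
  set x : Finset (GalGrp M m) × ℕ × ℤ → ℂ := fun p =>
    (lexp M (cuspRep p.2.1) (trComp haux p.1 f)).coeff p.2.2
  have hT : T.Nonempty := ⟨(∅, 0, 0), by simp [T]⟩
  obtain ⟨p, hp, hmax⟩ := D.exists_max T hT x fun q _ =>
    D.le _ ((trComp_mem haux D.good hf q.1).2 _ _)
  set a := x p with hadef
  have hall : ∀ γ, SerInJ (D.mulSub a) (lexp M γ f) := by
    refine serInJ_of_trComp haux D.good hf (D.mulSub_closed a) fun S => ⟨fun j hj n hn => ?_, ?_⟩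
    · rcases lt_or_ge n (-(d0 : ℤ)) with hlt | hge
      · rw [hd S _ n (by
          have : d S ≤ d0 := Finset.le_sup (Finset.mem_univ S)
          omega)]
        exact zero_mem _
      · exact hmax (S, j, n) (by simp [T]; omega)
    · exact hmax (S, 0, 0) (by simp [T])
  have ha0 : a ≠ 0 := fun h0 => hf0 (lexp_injective hf.1 (zero_mem _) (γ := 1) (by
    rw [lexp_zero]
    ext n
    obtain ⟨e, -, he⟩ := D.mem_mulSub.mp (hall 1 n)
    simp [← he, h0]))
  obtain ⟨g, hg, hfg⟩ := D.exists_eq_const_mul hf ha0 hall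
  have haR : a ∈ D.R := (trComp_mem haux D.good hf p.1).2 _ _
  refine ⟨a, haR, ha0, ⟨g, hg⟩, hfg, ?_⟩
  by_contra! hz
  -- the maximal coefficient of a trace component of `g` is `1`
  have htr : trComp haux p.1 f = (fun _ => a) * trComp haux p.1 g := by
    funext τ
    simp only [hfg, trComp, trG, act_mulFun, act_const, Finset.sum_apply, Pi.mul_apply,
      Finset.mul_sum]
    exact Finset.sum_congr rfl fun g' _ => by ring
  have hgS : trComp haux p.1 g ∈ BRing M D.R := trComp_mem haux D.good hg p.1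
  have h1 : (lexp M (cuspRep p.2.1) (trComp haux p.1 g)).coeff p.2.2 = 1 := by
    have := congrArg (fun φ => (lexp M (cuspRep p.2.1) φ).coeff p.2.2) htr
    simp only [coeff_lexp_const_mul hgS.1] at this
    exact (mul_eq_left₀ ha0).mp this.symm
  have h2 : D.redHom (cuspRep p.2.1) ⟨_, hgS⟩ = 0 := by
    have e : (⟨_, hgS⟩ : BRing M D.R) = ∑ g' : GalGrp M m, D.actB (repG M m g')
        (⟨sepB haux p.1, sepB_mem haux D.good p.1⟩ * ⟨g, hg⟩) :=
      Subtype.ext (by simp [trComp, trG, AddSubmonoidClass.coe_finsetSum])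
    rw [e, map_sum]
    exact Finset.sum_eq_zero fun g' _ => by rw [redHom_actB, map_mul, hz, mul_zero]
  have h3 := congrArg (fun s : LaurentSeries k => s.coeff p.2.2) h2
  simp only [coeff_redHom, HahnSeries.coeff_zero] at h3
  rw [show (⟨_, hgS.2 (cuspRep p.2.1) p.2.2⟩ : D.R) = 1 from Subtype.ext h1, map_one] at h3
  exact one_ne_zero h3

include haux in
/-- Functions with algebraic expansions have bounded denominators. -/
theorem exists_const_mul_mem {f : ℍ → ℂ} (hf : f ∈ BRing M D.L.toSubring) :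
    ∃ c ∈ D.R, c ≠ 0 ∧ (fun _ : ℍ => c) * f ∈ BRing M D.R := by
  have hA : GoodRoot M D.L.toSubring (zetaC M) :=
    ⟨D.good.prim, D.le _ D.good.mem, fun i hi =>
      ⟨(D.good.unit_one_sub i hi).1, D.le _ (D.good.unit_one_sub i hi).2.1,
        D.le _ (D.good.unit_one_sub i hi).2.2⟩⟩
  have h := BRing_le_closure haux hA hf
  clear hf
  induction h using Subring.closure_induction with
  | mem x hx =>
    rcases hx with ⟨a, ha, rfl⟩ | ⟨v, w, v', w', hv, hw, h', rfl⟩
    · rcases eq_or_ne a 0 with rfl | ha0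
      · exact ⟨1, D.R.one_mem, one_ne_zero, mul_mem (const_mem_BRing D.R.one_mem)
          (const_mem_BRing D.R.zero_mem)⟩
      rcases D.val a ha with h | h
      · exact ⟨1, D.R.one_mem, one_ne_zero, mul_mem (const_mem_BRing D.R.one_mem)
          (const_mem_BRing h)⟩
      · refine ⟨a⁻¹, h, inv_ne_zero ha0, ?_⟩
        convert const_mem_BRing (M := M) D.R.one_mem using 1
        funext τ; simp [ha0]
    · exact ⟨1, D.R.one_mem, one_ne_zero, mul_mem (const_mem_BRing D.R.one_mem)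
        (ratio_mem_BRing D.good hv hw h')⟩
  | zero => exact ⟨1, D.R.one_mem, one_ne_zero, by rw [mul_zero]; exact zero_mem _⟩
  | one => exact ⟨1, D.R.one_mem, one_ne_zero, by
      rw [mul_one]; exact const_mem_BRing D.R.one_mem⟩
  | neg x _ hx =>
    obtain ⟨c, hc, hc0, h⟩ := hx
    exact ⟨c, hc, hc0, by rw [mul_neg]; exact neg_mem h⟩
  | add x y _ _ hx hy =>
    obtain ⟨c, hc, hc0, h⟩ := hx
    obtain ⟨c', hc', hc0', h'⟩ := hy
    refine ⟨c * c', D.R.mul_mem hc hc', mul_ne_zero hc0 hc0', ?_⟩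
    convert add_mem (mul_mem (const_mem_BRing hc') h) (mul_mem (const_mem_BRing hc) h') using 1
    funext τ; simp; ring
  | mul x y _ _ hx hy =>
    obtain ⟨c, hc, hc0, h⟩ := hx
    obtain ⟨c', hc', hc0', h'⟩ := hy
    refine ⟨c * c', D.R.mul_mem hc hc', mul_ne_zero hc0 hc0', ?_⟩
    convert mul_mem h h' using 1
    funext τ; simp; ring

include haux in
/-- Normal form of a nonzero function with algebraic expansions. -/
theorem exists_normalize {f : ℍ → ℂ} (hf : f ∈ BRing M D.L.toSubring) (hf0 : f ≠ 0) :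
    ∃ a ∈ D.L, a ≠ 0 ∧ ∃ g : BRing M D.R, f = (fun _ => a) * (g : ℍ → ℂ) ∧
      ∃ γ, D.redHom γ g ≠ 0 := by
  obtain ⟨c, hc, hc0, hcf⟩ := D.exists_const_mul_mem haux hf
  have hne : (fun _ : ℍ => c) * f ≠ 0 := fun h => hf0 (funext fun τ => by
    have := congrFun h τ
    simpa [hc0] using this)
  obtain ⟨a, ha, ha0, g, hg, hγ⟩ := D.exists_content haux hcf hne
  refine ⟨a / c, D.L.div_mem (D.le _ ha) (D.le _ hc), div_ne_zero ha0 hc0, g, ?_, hγ⟩
  funext τ
  have := congrFun hg τ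
  simp only [Pi.mul_apply] at this ⊢
  field_simp
  linear_combination this

/-- The generators of the functions of pole order at most `K` at each cusp of level `m`. -/
def liftGen (K : ℕ) : Set (ℍ → ℂ) :=
  (fun p : Finset (GalGrp M m) × ℕ × ℕ => sepA haux p.1 * polFun haux.dvd p.2.1 ^ p.2.2) ''
    ↑((Finset.univ : Finset (Finset (GalGrp M m))) ×ˢ
      (Finset.range (m + 1) ×ˢ Finset.range (K + 1)))

/-- There are finitely many generators. -/
theorem liftGen_finite (K : ℕ) : (liftGen haux K).Finite :=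
  (Finset.finite_toSet _).image _

/-- The generators are integral. -/
theorem liftGen_subset {A : Subring ℂ} (hA : GoodRoot M A (zetaC M)) (K : ℕ) :
    liftGen haux K ⊆ (BRing M A : Set (ℍ → ℂ)) := by
  rintro _ ⟨⟨S, l, i⟩, hp, rfl⟩
  simp only [Finset.coe_product, Set.mem_prod, Finset.coe_range, Set.mem_Iio] at hp
  exact mul_mem (sepA_mem haux hA S)
    (pow_mem (polFun_mem_BRing haux hA (Nat.le_of_lt_succ hp.2.1)) _)

omit [NeZero M] in
/-- Scalars act as constant functions. -/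
theorem coe_smul_eq (a : D.R) (f : ℍ → ℂ) : a • f = (fun _ => (a : ℂ)) * f := rfl

/-- The `R`-linear combinations of small powers of the polar functions. -/
def polSpan (K : ℕ) : Submodule D.R (ℍ → ℂ) :=
  Submodule.span D.R ((fun p : ℕ × ℕ => polFun haux.dvd p.1 ^ p.2) ''
    ↑(Finset.range (m + 1) ×ˢ Finset.range (K + 1)))

theorem polSpan_le {K : ℕ} {f : ℍ → ℂ} (hf : f ∈ D.polSpan haux K) : f ∈ BRing M D.R ∧
    (∀ δ ∈ Gamma m, act δ f = f) := by
  induction hf using Submodule.span_induction with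
  | mem x hx =>
    obtain ⟨⟨l, i⟩, hp, rfl⟩ := hx
    simp only [Finset.coe_product, Set.mem_prod, Finset.coe_range, Set.mem_Iio] at hp
    refine ⟨pow_mem (polFun_mem_BRing haux D.good (by omega)) _, fun δ hδ => ?_⟩
    show (act δ (polFun haux.dvd l)) ^ i = _
    rw [act_polFun haux hδ]
  | zero => exact ⟨zero_mem _, fun _ _ => rfl⟩
  | add x y _ _ hx hy =>
    exact ⟨add_mem hx.1 hy.1, fun δ hδ => by rw [act_add, hx.2 δ hδ, hy.2 δ hδ]⟩
  | smul a x _ hx =>
    rw [D.coe_smul_eq]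
    exact ⟨mul_mem (const_mem_BRing a.2) hx.1,
      fun δ hδ => by rw [act_mulFun, act_const, hx.2 δ hδ]⟩

/-- Matching the principal parts at one cusp. -/
theorem exists_match_cusp {K : ℕ} {l : ℕ} (hl : l ≤ m) {g : ℍ → ℂ} (hg : g ∈ BRing M D.R)
    (hinv : ∀ δ ∈ Gamma m, act δ g = g) : ∀ i ≤ K, ∃ g' ∈ D.polSpan haux K,
      (∀ n : ℤ, -((i * (M / m) : ℕ) : ℤ) ≤ n → n < 0 →
        (lexp M (cuspRep l) (g - g')).coeff n = 0) ∧
      (∀ j ≤ m, j ≠ l → ∀ n < 0, (lexp M (cuspRep j) g').coeff n = 0) ∧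
      (∀ n : ℤ, n < -((i * (M / m) : ℕ) : ℤ) → (lexp M (cuspRep l) g').coeff n = 0) := by
  intro i hi
  induction i generalizing g with
  | zero =>
    exact ⟨0, zero_mem _, fun n h1 h2 => by simp at h1; omega,
      fun j _ _ n _ => by simp [lexp_zero], fun n _ => by simp [lexp_zero]⟩
  | succ i ih =>
    have := haux.neZero
    set w := M / m with hw
    set e : ℤ := ((i + 1 : ℕ) : ℤ) * ((w : ℤ) * -1) with he
    set π := polFun haux.dvd l with hπ
    have hπB : π ∈ BRing M D.R := polFun_mem_BRing haux D.good hl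
    have hord : polOrd m l l = -1 := (polOrd_table haux.small l hl l hl).1 rfl
    have hlead := (leadUnit_polFun haux D.good l l hl).pow (i + 1)
    rw [hord] at hlead
    set u := (lexp M (cuspRep l) π ^ (i + 1)).coeff e
    have hu : UnitIn D.R u := hlead.unitIn_coeff
    set a := (lexp M (cuspRep l) g).coeff e / u with ha
    have haR : a ∈ D.R := by
      rw [ha, div_eq_mul_inv]; exact D.R.mul_mem (hg.2 _ _) hu.2.2
    set top : ℍ → ℂ := (⟨a, haR⟩ : D.R) • π ^ (i + 1) with htop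
    have htopS : top ∈ D.polSpan haux K :=
      Submodule.smul_mem _ _ (Submodule.subset_span ⟨(l, i + 1), by simp; omega, rfl⟩)
    have htopB := (D.polSpan_le haux htopS).1
    have hexp : ∀ γ n, (lexp M γ top).coeff n = a * (lexp M γ π ^ (i + 1)).coeff n := fun γ n => by
      rw [htop, D.coe_smul_eq, coeff_lexp_const_mul (pow_mem hπB.1 _), lexp_pow hπB.1]
    obtain ⟨g', hg', h1, h2, h3⟩ := ih (g := g - top) (sub_mem hg htopB)
      (fun δ hδ => by rw [act_sub, hinv δ hδ, (D.polSpan_le haux htopS).2 δ hδ]) (by omega)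
    have hg'B := (D.polSpan_le haux hg').1
    have hbelow : ∀ n < e, (lexp M (cuspRep l) top).coeff n = 0 := fun n hn => by
      rw [hexp, hlead.coeff_of_lt hn, mul_zero]
    have hei : e = -(((i + 1) * w : ℕ) : ℤ) := by rw [he]; push_cast; ring
    refine ⟨g' + top, add_mem hg' htopS, fun n hn1 hn2 => ?_, fun j hj hne n hn => ?_,
      fun n hn => ?_⟩
    · rw [← sub_sub, sub_right_comm]
      rcases lt_or_ge n (-((i * w : ℕ) : ℤ)) with hlt | hge
      · rw [lexp_sub (sub_mem hg.1 htopB.1) hg'B.1, HahnSeries.coeff_sub, h3 n hlt, sub_zero,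
          lexp_sub hg.1 htopB.1, HahnSeries.coeff_sub]
        rcases eq_or_ne n e with rfl | hne
        · rw [hexp, ha, div_mul_cancel₀ _ hu.1, sub_self]
        · have hnd : ¬ (w : ℤ) ∣ n := by
            rintro ⟨q, rfl⟩
            rw [← hei] at hn1
            rw [he] at hn1 hne
            push_cast at hn1 hlt hne
            rcases lt_trichotomy q (-((i : ℤ) + 1)) with h | h | h
            · nlinarith
            · exact hne (by rw [h]; ring)
            · have : -(i : ℤ) ≤ q := by omega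
              nlinarith
          rw [coeff_eq_zero_of_not_dvd haux hg.1 hinv _ hnd,
            coeff_eq_zero_of_not_dvd haux htopB.1 (D.polSpan_le haux htopS).2 _ hnd, sub_zero]
      · exact h1 n hge hn2
    · have := ((leadUnit_polFun haux D.good l j hl).pow (i + 1)).coeff_of_lt (n := n) (by
        have := (polOrd_table haux.small l hl j hj).2 hne
        nlinarith [mul_nonneg (show (0:ℤ) ≤ ((i + 1 : ℕ) : ℤ) by positivity)
          (mul_nonneg (show (0:ℤ) ≤ (w : ℤ) by positivity) this)])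
      rw [lexp_add hg'B.1 htopB.1, HahnSeries.coeff_add, h2 j hj hne n hn, hexp, this, mul_zero,
        add_zero]
    · rw [lexp_add hg'B.1 htopB.1, HahnSeries.coeff_add,
        h3 n (by push_cast at hn ⊢; nlinarith), hbelow n (by omega), add_zero]

/-- An invariant element with small principal parts modulo `J` is congruent to a small one. -/
theorem exists_congr_polSpan {K : ℕ} {J : AddSubgroup ℂ} (hJ : ∀ a ∈ D.R, ∀ x ∈ J, a * x ∈ J)
    {g : ℍ → ℂ} (hg : g ∈ BRing M D.R) (hinv : ∀ δ ∈ Gamma m, act δ g = g)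
    (h : ∀ j ≤ m, ∀ n : ℤ, n < -((K * (M / m) : ℕ) : ℤ) → (lexp M (cuspRep j) g).coeff n ∈ J) :
    ∃ g' ∈ D.polSpan haux K, ∀ γ, SerInJ J (lexp M γ (g - g')) := by
  classical
  have hc : ∀ l : Fin (m + 1), ∃ g' ∈ D.polSpan haux K, _ :=
    fun l => D.exists_match_cusp haux (l := (l : ℕ)) (Nat.le_of_lt_succ l.2) hg hinv K le_rfl
  choose G hG hG1 hG2 hG3 using hc
  set g0 : ℍ → ℂ := ∑ l, G l
  have hg0 : g0 ∈ D.polSpan haux K := sum_mem fun l _ => hG _
  set c := (lexp M 1 (g - g0)).coeff 0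
  have hgg : g - g0 ∈ BRing M D.R := sub_mem hg (D.polSpan_le haux hg0).1
  set cst : ℍ → ℂ := (⟨c, hgg.2 1 0⟩ : D.R) • (1 : ℍ → ℂ)
  have hcst : cst ∈ D.polSpan haux K :=
    Submodule.smul_mem _ _ (Submodule.subset_span ⟨(0, 0), by simp, by simp⟩)
  have hcste : ∀ γ, lexp M γ cst = HahnSeries.C c := fun γ => by
    rw [show cst = fun _ => c from funext fun τ => mul_one c]
    exact lexp_const γ c
  refine ⟨g0 + cst, add_mem hg0 hcst, ?_⟩
  have hB' := D.polSpan_le haux (add_mem hg0 hcst)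
  have hB : g - (g0 + cst) ∈ BRing M D.R := sub_mem hg hB'.1
  refine (polControlled_of_invariant haux D.good hB.1
    (fun δ hδ => by rw [act_sub, hinv δ hδ, hB'.2 δ hδ]) fun j _ => hB.2 _).2 J hJ
    (fun j hj n hn => ?_) ?_
  · set j' : Fin (m + 1) := ⟨j, Nat.lt_succ_of_le hj⟩
    have hGB : ∀ l, G l ∈ BSub M := fun l => (D.polSpan_le haux (hG l)).1.1
    have h0 : (lexp M (cuspRep j) g0).coeff n = (lexp M (cuspRep j) (G j')).coeff n := by
      rw [lexp_sum _ fun l _ => hGB l, HahnSeries.coeff_sum]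
      refine Finset.sum_eq_single j' (fun l _ hl => hG2 l j hj (fun e => hl ?_) n hn) (by simp)
      exact Fin.ext e.symm
    rw [lexp_sub hg.1 hB'.1.1, lexp_add (D.polSpan_le haux hg0).1.1 (D.polSpan_le haux hcst).1.1,
      hcste, HahnSeries.coeff_sub, HahnSeries.coeff_add, h0, HahnSeries.C_apply,
      HahnSeries.coeff_single_of_ne (ne_of_lt hn), add_zero]
    rcases lt_or_ge n (-((K * (M / m) : ℕ) : ℤ)) with hlt | hge
    · rw [hG3 j' n hlt, sub_zero]
      exact h j hj n hlt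
    · have := hG1 j' n hge hn
      rw [lexp_sub hg.1 (hGB j'), HahnSeries.coeff_sub] at this
      rw [this]
      exact J.zero_mem
  · rw [← sub_sub, lexp_sub hgg.1 (D.polSpan_le haux hcst).1.1, HahnSeries.coeff_sub, hcste,
      HahnSeries.C_apply, HahnSeries.coeff_single_same, sub_self]
    exact J.zero_mem

/-- Uniform lifting: small poles modulo `J` can be lifted to small poles. -/
theorem exists_lift (d : ℕ) : ∃ K : ℕ, ∀ (J : AddSubgroup ℂ), (∀ a ∈ D.R, ∀ x ∈ J, a * x ∈ J) →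
    ∀ f ∈ BRing M D.R, (∀ γ (n : ℤ), n < -(d : ℤ) → (lexp M γ f).coeff n ∈ J) →
      ∃ f' ∈ Submodule.span D.R (liftGen haux K), ∀ γ, SerInJ J (lexp M γ (f - f')) := by
  classical
  have := haux.neZero
  choose e he using fun S => exists_pole_bound (sepB_mem haux D.good S).1
  set e0 := Finset.univ.sup e
  have hw0 : 1 ≤ M / m := Nat.div_pos (Nat.le_of_dvd (Nat.pos_of_ne_zero (NeZero.ne M)) haux.dvd)
    (Nat.pos_of_ne_zero (NeZero.ne m))
  refine ⟨e0 + d, fun J hJ f hf hfJ => ?_⟩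
  have hP : ∀ S, ∃ g' ∈ D.polSpan haux (e0 + d),
      ∀ γ, SerInJ J (lexp M γ (trComp haux S f - g')) := by
    intro S
    refine D.exists_congr_polSpan haux hJ (trComp_mem haux D.good hf S)
      (fun δ hδ => trComp_invariant haux hf.1 S hδ) fun j _ n hn => ?_
    have hmul : sepB haux S * f ∈ BSub M := mul_mem (sepB_mem haux D.good S).1 hf.1
    have e1 : lexp M (cuspRep j) (trComp haux S f) =
        ∑ g, lexp M (repG M m g * cuspRep j) (sepB haux S * f) := by
      rw [trComp, trG, lexp_sum _ fun g _ => act_mem_BSub hmul _]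
      simp only [lexp_act]
    rw [e1, HahnSeries.coeff_sum]
    refine sum_mem fun g _ => ?_
    rw [lexp_mul (sepB_mem haux D.good S).1 hf.1]
    refine coeff_mul_mem hJ (d := -(e S : ℤ)) (he S _) ((sepB_mem haux D.good S).2 _)
      (fun k hk => hfJ _ k hk) ?_
    have h1 : e S ≤ e0 := Finset.le_sup (Finset.mem_univ S)
    have h2 : e0 + d ≤ (e0 + d) * (M / m) := Nat.le_mul_of_pos_right _ hw0
    omega
  choose P hPmem hPJ using hP
  set s := (Finset.univ.erase (1 : GalGrp M m)).powerset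
  refine ⟨∑ S ∈ s, sepA haux S * P S, sum_mem fun S _ => ?_, fun γ => ?_⟩
  · suffices ∀ x ∈ D.polSpan haux (e0 + d), sepA haux S * x ∈
        Submodule.span D.R (liftGen haux (e0 + d)) from this _ (hPmem S)
    intro x hx
    induction hx using Submodule.span_induction with
    | mem x hx =>
      obtain ⟨⟨l, i⟩, hp, rfl⟩ := hx
      refine Submodule.subset_span ⟨(S, l, i), ?_, rfl⟩
      simpa using hp
    | zero => rw [mul_zero]; exact zero_mem _
    | add x y _ _ hx hy => rw [mul_add]; exact add_mem hx hy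
    | smul a x _ hx => rw [mul_smul_comm]; exact Submodule.smul_mem _ _ hx
  · have e2 : f - ∑ S ∈ s, sepA haux S * P S = ∑ S ∈ s, sepA haux S * (trComp haux S f - P S) := by
      simp only [mul_sub, Finset.sum_sub_distrib]
      rw [← eq_sum_trComp haux hf.1]
    have hd : ∀ S, trComp haux S f - P S ∈ BSub M := fun S =>
      sub_mem (trComp_mem haux D.good hf S).1 (D.polSpan_le haux (hPmem S)).1.1
    rw [e2]
    refine serInJ_sum _ (fun S _ => mul_mem (sepA_mem haux D.good S).1 (hd S)) fun S _ => ?_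
    rw [lexp_mul (sepA_mem haux D.good S).1 (hd S)]
    exact serInJ_mul hJ ((sepA_mem haux D.good S).2 γ) (hPJ S γ)

end RedDatum

end FermatAgent.Curve.Red
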