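import Fermat.Agent.Curve.Red.Regular
import Mathlib.LinearAlgebra.Lagrange

/-!
# Correcting polar parts at the cusps

For `n ≥ ψ N` (`ψ` the index of `Γ₀(N)`) and a `Γ₀(N)`-invariant element whose polar parts of
order `> n M` have coefficients in the maximal ideal, some invariant element with zero reduction
has the same polar parts (`RedDatum.exists_tail_correction`).

Interpolate the parts at the `ψ` expansions of `j(Nτ)`: these differ pairwise by series with unit
leading coefficient, so the coefficients are series in `q` with zero reduction, and polynomials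
in `j` with zero reduction match them up to the constant term.
-/

set_option autoImplicit false

open UpperHalfPlane hiding I
open CongruenceSubgroup Polynomial Metric
open scoped MatrixGroups
open ModularCurve (coeffMap qExpand jqModC coeffMap_coeff)

noncomputable section

namespace FermatAgent.Curve.Red

open FermatAgent.ES

/-- A series with unit leading coefficient minus one starting later keeps it. -/
theorem leadUnit_sub_of_lt {A : Subring ℂ} {s t : LaurentSeries ℂ} {a b : ℤ}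
    (hs : LeadUnit A s a) (ht : LeadUnit A t b) (h : a < b) : LeadUnit A (s - t) a := by
  refine LeadUnit.of_coeff (hs.serIn.sub ht.serIn) (fun n hn => ?_) ?_
  · rw [HahnSeries.coeff_sub, hs.coeff_of_lt hn, ht.coeff_of_lt (hn.trans h), sub_zero]
  · rw [HahnSeries.coeff_sub, ht.coeff_of_lt h, sub_zero]
    exact hs.unitIn_coeff

theorem unitIn_zpow {A : Subring ℂ} {c : ℂ} (hc : UnitIn A c) (i : ℤ) : UnitIn A (c ^ i) := by
  rcases Int.eq_nat_or_neg i with ⟨n, rfl | rfl⟩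
  · rw [zpow_natCast]; exact hc.pow n
  · rw [zpow_neg, zpow_natCast]; exact (hc.pow n).inv

theorem goodRoot_unitIn_zpow_sub {M : ℕ} [NeZero M] {A : Subring ℂ} {ζ : ℂ} (h : GoodRoot M A ζ)
    {i j : ℤ} (hne : ζ ^ i ≠ ζ ^ j) : UnitIn A (ζ ^ i - ζ ^ j) := by
  have hζ : ζ ≠ 0 := h.prim.ne_zero (NeZero.ne M)
  obtain ⟨k, hk⟩ : ∃ k : ℕ, (k : ℤ) = (j - i) % M :=
    ⟨((j - i) % M).toNat, Int.toNat_of_nonneg (Int.emod_nonneg _ (by simp [NeZero.ne M]))⟩
  have hpow : ζ ^ (j - i) = ζ ^ k := by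
    rw [← zpow_natCast, hk]
    conv_lhs => rw [← Int.emod_add_mul_ediv (j - i) M]
    rw [zpow_add₀ hζ, zpow_mul, zpow_natCast, h.prim.pow_eq_one, one_zpow, mul_one]
  have hk' : ¬ M ∣ k := fun hd => hne (by
    rw [show j = i + (j - i) by ring, zpow_add₀ hζ, hpow,
      (h.prim.pow_eq_one_iff_dvd k).mpr hd, mul_one])
  rw [show ζ ^ i - ζ ^ j = ζ ^ i * (1 - ζ ^ k) by
    rw [← hpow, mul_sub, mul_one, ← zpow_add₀ hζ, add_sub_cancel]]
  exact (unitIn_zpow h.unit_root i).mul (h.unit_one_sub k hk')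

variable {M N : ℕ} [NeZero M] [NeZero N] {k : Type*} [Field k] (D : RedDatum M k)

/-- The series of `j` in `c q ^ w` has pole order `w` and a unit leading coefficient. -/
theorem leadUnit_qExpand_rotate {A : Subring ℂ} {c : ℂ} (hc : UnitIn A c) (w : ℕ) [NeZero w] :
    LeadUnit A (qExpand ℂ w (rotate hc.1 (jqModC ℂ))) (-(w : ℤ)) := by
  refine LeadUnit.of_coeff (serIn_qExpand (rotate_serIn hc (serIn_jqModC A)) w) (fun n hn => ?_) ?_
  · by_cases hd : (w : ℤ) ∣ n
    · obtain ⟨i, rfl⟩ := hd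
      rw [ModularCurve.qExpand_coeff_mul, coeff_rotate, ModularCurve.coeff_jqModC_of_lt, mul_zero]
      have : (0 : ℤ) < w := Nat.cast_pos.2 (Nat.pos_of_ne_zero (NeZero.ne w))
      nlinarith
    · exact ModularCurve.qExpand_coeff_of_not_dvd _ _ hd
  · rw [show -(w : ℤ) = (w : ℤ) * (-1) by ring, ModularCurve.qExpand_coeff_mul, coeff_rotate,
      ModularCurve.coeff_jqModC_neg_one, mul_one]
    exact unitIn_zpow hc _

/-- The expansion of `j (N τ)` at the cusp of a coset. -/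
def RedDatum.cosetJ (hNM : N ∣ M) (c : SL(2, ℤ) ⧸ Gamma0 N) : LaurentSeries ℂ :=
  lexp M c.out⁻¹ (D.jGenB hNM (JIdx.top N) : ℍ → ℂ)

/-- The expansion of `j (N τ)` at a cusp is that of `j` in `ζ q ^ w`, with `w ≤ N M`. -/
theorem RedDatum.exists_cosetJ_eq (hNM : N ∣ M) (c : SL(2, ℤ) ⧸ Gamma0 N) :
    ∃ (w : ℕ) (_ : NeZero w) (i : ℤ) (h : (zetaC M ^ i) ≠ 0), w ≤ N * M ∧
      D.cosetJ hNM c = qExpand ℂ w (rotate h (jqModC ℂ)) := by
  obtain ⟨δ, a, e, m', b, _, _, z, hz, hae, hem, -, ⟨i, rfl⟩, h⟩ :=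
    exists_lexp_jGenF (M := M) hNM (JIdx.top N) c.out⁻¹
  refine ⟨a * m', inferInstance, i, hz, Nat.mul_le_mul ?_ ?_, lexp_eq h⟩
  · change a * e = N at hae
    exact hae ▸ Nat.le_mul_of_pos_right a
      (Nat.pos_of_ne_zero (fun h => NeZero.ne N (by rw [← hae, h, mul_zero])))
  · exact hem ▸ Nat.le_mul_of_pos_left m'
      (Nat.pos_of_ne_zero (fun h => NeZero.ne M (by rw [← hem, h, zero_mul])))

theorem RedDatum.sge_cosetJ (hNM : N ∣ M) (c : SL(2, ℤ) ⧸ Gamma0 N) :
    SGE (-((N * M : ℕ) : ℤ)) (D.cosetJ hNM c) := by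
  obtain ⟨w, _, i, h, hw, he⟩ := D.exists_cosetJ_eq hNM c
  intro n hn
  rw [he]
  exact (leadUnit_qExpand_rotate (unitIn_zpow D.good.unit_root i) w).coeff_of_lt (by omega)

/-- The expansions of `j (N τ)` at the cosets of `Γ₀(N)` are pairwise distinct. -/
theorem RedDatum.cosetJ_injective (hNM : N ∣ M) : Function.Injective (D.cosetJ hNM) := by
  intro c d h
  set J := D.jGenB hNM (JIdx.top N)
  have h1 : act c.out⁻¹ (J : ℍ → ℂ) = act d.out⁻¹ (J : ℍ → ℂ) := by
    refine lexp_injective (act_mem_BSub J.2.1 _) (act_mem_BSub J.2.1 _) (γ := 1) ?_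
    rw [lexp_act, lexp_act, mul_one, mul_one]
    exact h
  have h2 : D.redHom (c.out⁻¹ * d.out) J = D.redHom 1 J := by
    rw [← mul_one (c.out⁻¹ * d.out), ← D.redHom_actB]
    congr 1
    refine Subtype.ext ?_
    rw [coe_actB, act_mul, h1, ← act_mul, inv_mul_cancel, act_one]
  have := D.mem_gamma0_of_redHom_eq hNM h2
  rw [← Quotient.out_eq c, ← Quotient.out_eq d]
  exact QuotientGroup.eq.mpr this

/-- Distinct expansions of `j (N τ)` differ by a series with unit leading coefficient. -/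
theorem RedDatum.serIn_inv_sub (hNM : N ∣ M) {c d : SL(2, ℤ) ⧸ Gamma0 N} (hne : c ≠ d) :
    SerIn D.R (D.cosetJ hNM c - D.cosetJ hNM d)⁻¹ := by
  obtain ⟨w, _, i, hi, -, hc⟩ := D.exists_cosetJ_eq hNM c
  obtain ⟨w', _, i', hi', -, hd⟩ := D.exists_cosetJ_eq hNM d
  have hJ : D.cosetJ hNM c ≠ D.cosetJ hNM d := fun h => hne (D.cosetJ_injective hNM h)
  rw [hc, hd] at hJ ⊢
  have hu : ∀ i : ℤ, UnitIn D.R (zetaC M ^ i) := fun i => unitIn_zpow D.good.unit_root i
  have h1 := leadUnit_qExpand_rotate (hu i) w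
  have h2 := leadUnit_qExpand_rotate (hu i') w'
  rcases lt_trichotomy w w' with hlt | rfl | hgt
  · rw [← neg_sub, inv_neg]
    exact (leadUnit_sub_of_lt h2 h1 (by omega)).inv.serIn.neg
  · have hz : zetaC M ^ i ≠ zetaC M ^ i' := fun h => hJ (by
      congr 1
      ext n
      rw [coeff_rotate, coeff_rotate, h])
    refine (LeadUnit.of_coeff (h1.serIn.sub h2.serIn) (k := -(w : ℤ)) (fun n hn => ?_) ?_).inv.serIn
    · rw [HahnSeries.coeff_sub, h1.coeff_of_lt hn, h2.coeff_of_lt hn, sub_zero]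
    · rw [HahnSeries.coeff_sub, show -(w : ℤ) = (w : ℤ) * (-1) by ring,
        ModularCurve.qExpand_coeff_mul, ModularCurve.qExpand_coeff_mul, coeff_rotate, coeff_rotate,
        ModularCurve.coeff_jqModC_neg_one, mul_one, mul_one, zpow_neg_one, zpow_neg_one,
        inv_sub_inv hi hi']
      exact ((goodRoot_unitIn_zpow_sub D.good (Ne.symm hz)).div ((hu i).mul (hu i')))
  · exact (leadUnit_sub_of_lt h1 h2 (by omega)).inv.serIn

omit [NeZero N] in
/-- Translations permute the cosets and rotate the expansions. -/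
theorem RedDatum.lexp_T_smul {f : BRing M D.R} (hf : f ∈ D.invB (Gamma0 N))
    (c : SL(2, ℤ) ⧸ Gamma0 N) :
    lexp M ((ModularGroup.T⁻¹ • c).out)⁻¹ (f : ℍ → ℂ) =
      rotate (zetaC_isPrimitiveRoot M |>.ne_zero (NeZero.ne M)) (lexp M c.out⁻¹ (f : ℍ → ℂ)) := by
  have hc : ModularGroup.T⁻¹ • c = QuotientGroup.mk (ModularGroup.T⁻¹ * c.out) := by
    conv_lhs => rw [← QuotientGroup.out_eq' c]
    rfl
  obtain ⟨h, hh⟩ := QuotientGroup.mk_out_eq_mul (Gamma0 N) (ModularGroup.T⁻¹ * c.out)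
  rw [hc, hh, mul_inv_rev, ← lexp_act, show act ((h : SL(2, ℤ))⁻¹) (f : ℍ → ℂ) = f from
      congrArg Subtype.val (hf _ (inv_mem h.2)),
    mul_inv_rev, inv_inv, ← pow_one ModularGroup.T, lexp_mul_T_pow f.2.1, pow_one]
  ext n
  rw [coeff_twistSer, coeff_rotate, mul_comm]

omit [NeZero N] in
theorem RedDatum.lexp_eq_lexp_out {f : BRing M D.R} (hf : f ∈ D.invB (Gamma0 N)) (γ : SL(2, ℤ)) :
    lexp M γ (f : ℍ → ℂ) =
      lexp M ((QuotientGroup.mk γ⁻¹ : SL(2, ℤ) ⧸ Gamma0 N)).out⁻¹ (f : ℍ → ℂ) := by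
  obtain ⟨h, hh⟩ := QuotientGroup.mk_out_eq_mul (Gamma0 N) γ⁻¹
  rw [hh, mul_inv_rev, inv_inv, ← lexp_act, show act ((h : SL(2, ℤ))⁻¹) (f : ℍ → ℂ) = f from
      congrArg Subtype.val (hf _ (inv_mem h.2))]

/-- A polynomial in `j` with zero reduction and prescribed coefficients of `q ^ (-i)`, `i ≥ 0`. -/
theorem exists_poly_match {R : Type*} [CommRing R] {S : Type*} [CommRing S] (π : R →+* S) :
    ∀ (d : ℕ) (a : ℕ → R), (∀ j, π (a j) = 0) → (∀ j, d < j → a j = 0) →
      ∃ H : R[X], H.map π = 0 ∧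
        ∀ j : ℕ, (H.eval₂ HahnSeries.C (jqModC R)).coeff (-(j : ℤ)) = a j := by
  intro d
  induction d with
  | zero =>
    intro a h0 h1
    refine ⟨C (a 0), by rw [Polynomial.map_C, h0, map_zero], fun j => ?_⟩
    rw [eval₂_C, HahnSeries.C_apply, HahnSeries.coeff_single]
    rcases Nat.eq_zero_or_pos j with rfl | hj
    · simp
    · rw [if_neg (by omega), h1 j hj]
  | succ d ih =>
    intro a h0 h1
    set t : ℕ → R := fun j => (jqModC R ^ (d + 1)).coeff (-(j : ℤ))
    obtain ⟨H, hH, hH'⟩ := ih (fun j => a j - a (d + 1) * t j)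
      (fun j => by rw [map_sub, map_mul, h0, h0, zero_mul, sub_zero])
      (fun j hj => by
        rcases eq_or_lt_of_le (Nat.succ_le_of_lt hj) with rfl | hj'
        · rw [show t (Nat.succ d) = 1 from ModularCurve.coeff_jqModC_pow_self R (d + 1), mul_one,
            sub_self]
        · rw [h1 j hj',
            show t j = 0 from ModularCurve.coeff_jqModC_pow_of_lt R (by push_cast; omega),
            mul_zero, sub_zero])
    refine ⟨C (a (d + 1)) * X ^ (d + 1) + H, by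
      rw [Polynomial.map_add, hH, Polynomial.map_mul, Polynomial.map_C, h0, map_zero, zero_mul,
        add_zero], fun j => ?_⟩
    rw [eval₂_add, HahnSeries.coeff_add, hH', eval₂_mul, eval₂_C, eval₂_X_pow, HahnSeries.C_apply,
      HahnSeries.coeff_single_mul, sub_zero]
    simp only [t]
    abel

/-- A polynomial in `j` expands at every cusp to the polynomial in the series of `j`. -/
theorem RedDatum.lexp_evJB (γ : SL(2, ℤ)) (P : D.R[X]) :
    lexp M γ (D.evJB (M := M) P : ℍ → ℂ) =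
      qExpand ℂ M (coeffMap D.R.subtype (P.eval₂ HahnSeries.C (jqModC D.R))) := by
  let φ : BRing M D.R →+* LaurentSeries ℂ := (serSub D.R).subtype.comp (D.serHom γ)
  show φ (D.evJB P) = _
  rw [evJB, coe_eval₂RingHom, hom_eval₂, hom_eval₂, hom_eval₂]
  congr 1
  · refine RingHom.ext fun a => ?_
    show lexp M γ (fun _ : ℍ => (a : ℂ)) = qExpand ℂ M (coeffMap D.R.subtype (HahnSeries.C a))
    rw [lexp_const, HahnSeries.C_apply, HahnSeries.C_apply, ModularCurve.coeffMap_single,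
      ModularCurve.qExpand_single, mul_zero]
    rfl
  · show lexp M γ jFun = _
    rw [lexp_jFun, ModularCurve.coeffMap_jqModC]

theorem RedDatum.jGenB_top_mem_invB (hNM : N ∣ M) :
    D.jGenB hNM (JIdx.top N) ∈ D.invB (Gamma0 N) :=
  fun _ hγ => Subtype.ext (funext fun τ => jGenF_gamma0 hγ _ τ)

/-- Interpolating series with zero reduction gives coefficients with zero reduction. -/
theorem RedDatum.interpolate_coeff_reduces (hNM : N ∣ M) [Fintype (SL(2, ℤ) ⧸ Gamma0 N)]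
    [DecidableEq (SL(2, ℤ) ⧸ Gamma0 N)] {η : SL(2, ℤ) ⧸ Gamma0 N → LaurentSeries ℂ}
    (hηR : ∀ c, SerIn D.R (η c)) (hη0 : ∀ c e, D.π ⟨_, hηR c e⟩ = 0) (i : ℕ) (e : ℤ) :
    ∃ h : ((Lagrange.interpolate Finset.univ (D.cosetJ hNM) η).coeff i).coeff e ∈ D.R,
      D.π ⟨_, h⟩ = 0 := by
  set S := Lagrange.interpolate Finset.univ (D.cosetJ hNM) η
  have hJR : ∀ c, SerIn D.R (D.cosetJ hNM c) := fun c =>
    (D.jGenB hNM (JIdx.top N)).2.2 _
  let η' : SL(2, ℤ) ⧸ Gamma0 N → serSub D.R := fun c => ⟨η c, hηR c⟩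
  let v : SL(2, ℤ) ⧸ Gamma0 N → SL(2, ℤ) ⧸ Gamma0 N → serSub D.R := fun c d =>
    if h : c = d then 0 else ⟨_, D.serIn_inv_sub hNM h⟩
  let S' : (serSub D.R)[X] := ∑ c, C (η' c) *
    ∏ d ∈ Finset.univ.erase c, C (v c d) * (X - C ⟨_, hJR d⟩)
  have hS' : S'.map (serSub D.R).subtype = S := by
    simp only [S', S, Lagrange.interpolate_apply, Lagrange.basis, Polynomial.map_sum,
      Polynomial.map_mul, Polynomial.map_C, Polynomial.map_prod, Polynomial.map_sub,
      Polynomial.map_X]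
    refine Finset.sum_congr rfl fun c _ => congrArg _ (Finset.prod_congr rfl fun d hd => ?_)
    simp only [v, dif_neg (Finset.ne_of_mem_erase hd).symm]
    rfl
  set Φ : serSub D.R →+* LaurentSeries k := (coeffMap D.π).comp (liftSer D.R)
  have hΦη : ∀ c, Φ (η' c) = 0 := fun c => by
    ext e
    exact hη0 c e
  have hS0 : S'.map Φ = 0 := by simp [S', Polynomial.map_sum, hΦη]
  have h1 : S.coeff i = ((S'.coeff i : serSub D.R) : LaurentSeries ℂ) := by
    rw [← hS', coeff_map]; rfl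
  have h2 := congrArg (fun p : (LaurentSeries k)[X] => (p.coeff i).coeff e) hS0
  simp only [coeff_map, coeff_zero, HahnSeries.coeff_zero] at h2
  refine ⟨by rw [h1]; exact (S'.coeff i).2 e, ?_⟩
  rw [← h2]
  show D.π _ = D.π _
  congr 1
  exact Subtype.ext (congrArg (fun s : LaurentSeries ℂ => s.coeff e) h1)

/-- Interpolating a family compatible with translations gives series in `q`. -/
theorem RedDatum.interpolate_coeff_eq_zero (hNM : N ∣ M) [Fintype (SL(2, ℤ) ⧸ Gamma0 N)]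
    [DecidableEq (SL(2, ℤ) ⧸ Gamma0 N)] {η : SL(2, ℤ) ⧸ Gamma0 N → LaurentSeries ℂ}
    (hη : ∀ c, η (ModularGroup.T⁻¹ • c) =
      rotate ((zetaC_isPrimitiveRoot M).ne_zero (NeZero.ne M)) (η c))
    (i : ℕ) {e : ℤ} (he : ¬ (M : ℤ) ∣ e) :
    ((Lagrange.interpolate Finset.univ (D.cosetJ hNM) η).coeff i).coeff e = 0 := by
  set S := Lagrange.interpolate Finset.univ (D.cosetJ hNM) η
  have hinj : Set.InjOn (D.cosetJ hNM) (Finset.univ : Finset (SL(2, ℤ) ⧸ Gamma0 N)) :=
    (D.cosetJ_injective hNM).injOn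
  set σ : LaurentSeries ℂ →+* LaurentSeries ℂ :=
    rotate ((zetaC_isPrimitiveRoot M).ne_zero (NeZero.ne M))
  have hS : S.map σ = S := by
    refine (Lagrange.eq_interpolate_iff η hinj).mp ⟨(degree_map_le).trans_lt
      (Lagrange.degree_interpolate_lt η hinj), fun c' _ => ?_⟩
    obtain ⟨c, rfl⟩ : ∃ c, c' = ModularGroup.T⁻¹ • c :=
      ⟨ModularGroup.T • c', (inv_smul_smul _ _).symm⟩
    rw [show D.cosetJ hNM (ModularGroup.T⁻¹ • c) = σ (D.cosetJ hNM c) from
      D.lexp_T_smul (D.jGenB_top_mem_invB hNM) c, eval_map, eval₂_at_apply,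
      Lagrange.eval_interpolate_at_node η hinj (Finset.mem_univ c)]
    exact (hη c).symm
  have h := congrArg (fun p : (LaurentSeries ℂ)[X] => (p.coeff i).coeff e) hS
  simp only [coeff_map, σ, coeff_rotate] at h
  by_contra h0
  exact he (((zetaC_isPrimitiveRoot M).zpow_eq_one_iff_dvd e).mp
    (mul_right_cancel₀ h0 (by rw [h, one_mul])))

/-- A polynomial in `j` with zero reduction matching the polar part of a series in `q`. -/
theorem RedDatum.exists_evJB_match {s : LaurentSeries ℂ}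
    (hs : ∀ e, ∃ h : s.coeff e ∈ D.R, D.π ⟨_, h⟩ = 0)
    (hM : ∀ e : ℤ, ¬ (M : ℤ) ∣ e → s.coeff e = 0) :
    ∃ H : D.R[X], H.map D.π = 0 ∧ ∀ e ≤ (0 : ℤ),
      (lexp M 1 (D.evJB (M := M) H : ℍ → ℂ)).coeff e = s.coeff e := by
  choose hR hπ using hs
  obtain ⟨d, hd⟩ : ∃ d : ℕ, ∀ e : ℤ, e < -(d : ℤ) → s.coeff e = 0 :=
    ⟨(-s.order).toNat, fun e he => HahnSeries.coeff_eq_zero_of_lt_order (by omega)⟩
  obtain ⟨H, hH0, hH⟩ := exists_poly_match D.π d
    (fun j => ⟨_, hR ((M : ℤ) * -(j : ℤ))⟩) (fun j => hπ _)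
    (fun j hj => Subtype.ext (hd _ (by
      have : (1 : ℤ) ≤ M := by exact_mod_cast NeZero.one_le
      nlinarith)))
  refine ⟨H, hH0, fun e he => ?_⟩
  rw [D.lexp_evJB]
  by_cases hdvd : (M : ℤ) ∣ e
  · obtain ⟨e', rfl⟩ := hdvd
    obtain ⟨j, rfl⟩ : ∃ j : ℕ, e' = -(j : ℤ) := ⟨(-e').toNat, by
      have : (0 : ℤ) < M := Nat.cast_pos.2 (Nat.pos_of_ne_zero (NeZero.ne M))
      have : e' ≤ 0 := by nlinarith
      omega⟩
    rw [ModularCurve.qExpand_coeff_mul, coeffMap_coeff, hH]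
    rfl
  · rw [ModularCurve.qExpand_coeff_of_not_dvd _ _ hdvd, hM e hdvd]

theorem RedDatum.sge_cosetJ_pow (hNM : N ∣ M) (c : SL(2, ℤ) ⧸ Gamma0 N) (i : ℕ) :
    SGE ((i : ℤ) * -((N * M : ℕ) : ℤ)) (D.cosetJ hNM c ^ i) := by
  induction i with
  | zero => intro e' he'; simp at he'; simp [HahnSeries.coeff_one, he'.ne]
  | succ i ih =>
    rw [pow_succ]
    exact (ih.mul (D.sge_cosetJ hNM c)).mono (by push_cast; ring_nf; rfl)

/-- **Correcting polar parts**: the polar parts of order `> n M` which reduce to zero are those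
of an invariant element with zero reduction. -/
theorem RedDatum.exists_tail_correction (hNM : N ∣ M) {n : ℕ}
    (hn : (Gamma0 N).index * N ≤ n) {f : BRing M D.R} (hf : f ∈ D.invB (Gamma0 N))
    (hred : ∀ (γ : SL(2, ℤ)), ∀ e < -((n * M : ℕ) : ℤ), (D.redHom γ f).coeff e = 0) :
    ∃ g ∈ D.invB (Gamma0 N), D.redHom 1 g = 0 ∧
      ∀ (γ : SL(2, ℤ)), ∀ e < -((n * M : ℕ) : ℤ),
        (lexp M γ ((f - g : BRing M D.R) : ℍ → ℂ)).coeff e = 0 := by
  classical
  have : Fintype (SL(2, ℤ) ⧸ Gamma0 N) := Fintype.ofFinite _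
  set bd : ℤ := -((n * M : ℕ) : ℤ)
  set J := D.jGenB hNM (JIdx.top N)
  set η : SL(2, ℤ) ⧸ Gamma0 N → LaurentSeries ℂ :=
    fun c => HahnSeries.truncLT bd (lexp M c.out⁻¹ (f : ℍ → ℂ))
  have hηc : ∀ c e, (η c).coeff e = if e < bd then (lexp M c.out⁻¹ (f : ℍ → ℂ)).coeff e else 0 :=
    fun c e => by simp [η]
  have hηR : ∀ c, SerIn D.R (η c) := fun c e => by
    rw [hηc]; split_ifs
    exacts [f.2.2 _ e, D.R.zero_mem]
  have hη0 : ∀ c e, D.π ⟨_, hηR c e⟩ = 0 := fun c e => by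
    rcases lt_or_ge e bd with he | he
    · rw [← hred c.out⁻¹ e he]
      show D.π _ = D.π _
      congr 1
      exact Subtype.ext (by simp [hηc, he])
    · rw [← map_zero D.π]
      congr 1
      exact Subtype.ext (by simp [hηc, not_lt.mpr he])
  have hηT : ∀ c, η (ModularGroup.T⁻¹ • c) =
      rotate ((zetaC_isPrimitiveRoot M).ne_zero (NeZero.ne M)) (η c) := fun c => by
    ext e
    simp only [coeff_rotate, hηc, D.lexp_T_smul hf c]
    split_ifs <;> simp
  set S := Lagrange.interpolate Finset.univ (D.cosetJ hNM) η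
  choose H hH0 hH using fun i => D.exists_evJB_match (s := S.coeff i)
    (D.interpolate_coeff_reduces hNM hηR hη0 i)
    fun e he => D.interpolate_coeff_eq_zero hNM hηT i he
  set ψ := (Gamma0 N).index
  set g : BRing M D.R := ∑ i ∈ Finset.range ψ, D.evJB (H i) * J ^ i
  have hg : g ∈ D.invB (Gamma0 N) := sum_mem fun i _ =>
    mul_mem (fun γ _ => D.actB_evJB γ (H i)) (pow_mem (D.jGenB_top_mem_invB hNM) i)
  refine ⟨g, hg, ?_, fun γ e he => ?_⟩
  · rw [map_sum]
    refine Finset.sum_eq_zero fun i _ => ?_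
    rw [map_mul, D.redHom_evJB, hH0, map_zero, map_zero, zero_mul]
  rw [D.lexp_eq_lexp_out (sub_mem hf hg) γ]
  set c : SL(2, ℤ) ⧸ Gamma0 N := QuotientGroup.mk γ⁻¹
  let φ : BRing M D.R →+* LaurentSeries ℂ := (serSub D.R).subtype.comp (D.serHom c.out⁻¹)
  show (φ (f - g)).coeff e = 0
  rw [map_sub, HahnSeries.coeff_sub, sub_eq_zero]
  have hη : (φ f).coeff e = (η c).coeff e := by
    rw [hηc, if_pos he]; rfl
  rw [hη]
  have hinj : Set.InjOn (D.cosetJ hNM) (Finset.univ : Finset (SL(2, ℤ) ⧸ Gamma0 N)) :=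
    (D.cosetJ_injective hNM).injOn
  have hE : η c = ∑ i ∈ Finset.range ψ, S.coeff i * D.cosetJ hNM c ^ i := by
    rw [← Lagrange.eval_interpolate_at_node η hinj (Finset.mem_univ c),
      eval_eq_sum_range' (n := ψ)]
    have := Lagrange.degree_interpolate_lt η hinj
    rw [Finset.card_univ, Fintype.card_eq_nat_card] at this
    by_cases h0 : S = 0
    · exact (show Lagrange.interpolate Finset.univ (D.cosetJ hNM) η = 0 from h0) ▸
        Nat.pos_of_ne_zero Subgroup.FiniteIndex.index_ne_zero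
    · exact (natDegree_lt_iff_degree_lt h0).mpr this
  rw [hE, map_sum, HahnSeries.coeff_sum, HahnSeries.coeff_sum]
  refine Finset.sum_congr rfl fun i hi => ?_
  rw [map_mul, map_pow, show φ J = D.cosetJ hNM c from rfl]
  refine sub_eq_zero.mp ?_
  rw [← HahnSeries.coeff_sub, ← sub_mul]
  refine (SGE.mul (n := 1) (fun e' he' => ?_) (D.sge_cosetJ_pow hNM c i)) e ?_
  · rw [HahnSeries.coeff_sub, ← hH i e' (by omega), sub_eq_zero]
    show (lexp M 1 (D.evJB (M := M) (H i) : ℍ → ℂ)).coeff e' = (φ (D.evJB (H i))).coeff e'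
    show _ = (lexp M c.out⁻¹ (D.evJB (M := M) (H i) : ℍ → ℂ)).coeff e'
    rw [D.lexp_evJB, D.lexp_evJB]
  · have : i * (N * M) ≤ n * M := by
      calc i * (N * M) ≤ ψ * (N * M) := Nat.mul_le_mul_right _ (Finset.mem_range.mp hi).le
        _ = ψ * N * M := by ring
        _ ≤ n * M := Nat.mul_le_mul_right _ hn
    simp only [bd] at he
    have h2 : ((i * (N * M) : ℕ) : ℤ) ≤ ((n * M : ℕ) : ℤ) := by exact_mod_cast this
    push_cast at h2 he ⊢
    linarith

end FermatAgent.Curve.Red
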