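import Fermat.Agent.Curve.Red.Model
import Fermat.Agent.Curve.Red.InvCoord
import Fermat.Agent.GaloisBasic.Frobenius
import Fermat.Prelude.Def_ModularCurve_IgusaScheme
import Fermat.Prelude.Def_ModularCurve_X0ModL

/-!
# The special fibres of the charts of the Igusa model

For `ℓ ∤ N` the reduction of `q`-expansions maps a chart algebra `B` over `ℤ_(ℓ)` to `𝔽_ℓ((q))` with
kernel `ℓ B`. Hence `B ⊗ K` embeds into `K((q))` for every `K` of characteristic `ℓ`, so it is a
domain, and the overlap chart has a nonzero special fibre.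
-/

set_option autoImplicit false

open Polynomial TensorProduct
open ModularCurve ModularCurve.IgusaScheme

noncomputable section

namespace FermatAgent.Curve.Red

/-- The field generated over `ℚ` by the `j(q^d)`, `d ∣ N`, is the modular function field. -/
theorem jField_rat (N : ℕ) [NeZero N] : jField ℚ N = modularFunctionFieldFull N := by
  rw [jField, modularFunctionFieldFull]
  congr 1
  ext s
  constructor
  · rintro ⟨d, rfl⟩
    exact ⟨(d : ℕ), inferInstance, Nat.dvd_of_mem_divisors d.2, rfl⟩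
  · rintro ⟨d, hd0, hd, rfl⟩
    exact ⟨⟨d, Nat.mem_divisors.mpr ⟨hd, NeZero.ne N⟩⟩, rfl⟩

section Chart

variable {N : ℕ} [NeZero N] {ℓ : ℕ} [hℓ : Fact ℓ.Prime]

/-- A Gauss model attached to a chart of the Igusa model. -/
structure ChartModel (N : ℕ) [NeZero N] (ℓ : ℕ) [Fact ℓ.Prime]
    (t : modularFunctionFieldFull N) where
  /-- the model -/
  G : GaussModel ℚ (ZMod ℓ)
  R_iff : ∀ q, q ∈ G.R ↔ q ∈ GaloisRep.ratLocalizedAt ℓ
  F_eq : G.F = modularFunctionFieldFull N
  x_eq : G.incl G.x = (t : LaurentSeries ℚ)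

variable {t : modularFunctionFieldFull N} (C' : ChartModel N ℓ t)

omit [NeZero N] hℓ in
theorem coe_algebraMap_full (r : GaloisRep.ratLocalizedAt ℓ) :
    ((algebraMap (GaloisRep.ratLocalizedAt ℓ) (modularFunctionFieldFull N) r :
      modularFunctionFieldFull N) : LaurentSeries ℚ) = HahnSeries.C (r : ℚ) := by
  exact (eq_ratCast ((algebraMap (modularFunctionFieldFull N) (LaurentSeries ℚ)).comp
    (algebraMap ℚ (modularFunctionFieldFull N))) (r : ℚ)).trans
    (eq_ratCast (HahnSeries.C : ℚ →+* LaurentSeries ℚ) _).symm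

/-- The evaluation of integral polynomials at the coordinate. -/
abbrev ChartModel.ev : C'.G.R[X] →+* LaurentSeries ℚ :=
  C'.G.evL.comp (mapRingHom C'.G.R.subtype)

theorem ChartModel.ev_C (a : C'.G.R) : C'.ev (C a) = HahnSeries.C (a : ℚ) := by
  rw [RingHom.comp_apply, coe_mapRingHom, Polynomial.map_C, C'.G.evL_C]
  rfl

theorem ChartModel.ev_X : C'.ev X = (t : LaurentSeries ℚ) := by
  rw [RingHom.comp_apply, coe_mapRingHom, map_X, GaussModel.evL, coe_eval₂RingHom, eval₂_X,
    C'.x_eq]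

theorem ChartModel.exists_mem_adjoin (p : C'.G.R[X]) :
    ∃ a ∈ Algebra.adjoin (GaloisRep.ratLocalizedAt ℓ) {t},
      ((a : modularFunctionFieldFull N) : LaurentSeries ℚ) = C'.ev p := by
  induction p using Polynomial.induction_on with
  | C a =>
    exact ⟨algebraMap _ _ (⟨(a : ℚ), (C'.R_iff _).mp a.2⟩ : GaloisRep.ratLocalizedAt ℓ),
      Subalgebra.algebraMap_mem _ _, by rw [coe_algebraMap_full, C'.ev_C]⟩
  | add p q hp hq =>
    obtain ⟨a, ha, ha'⟩ := hp
    obtain ⟨b, hb, hb'⟩ := hq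
    exact ⟨a + b, add_mem ha hb, by rw [IntermediateField.coe_add, ha', hb', map_add]⟩
  | monomial n a h =>
    obtain ⟨b, hb, hb'⟩ := h
    refine ⟨b * t, mul_mem hb (Algebra.subset_adjoin rfl), ?_⟩
    rw [IntermediateField.coe_mul, hb', pow_succ, ← mul_assoc, map_mul _ _ X, C'.ev_X]

/-- Elements of `ℤ_(ℓ)[t]` are polynomials in `t`. -/
theorem ChartModel.exists_poly {a : modularFunctionFieldFull N}
    (ha : a ∈ Algebra.adjoin (GaloisRep.ratLocalizedAt ℓ) {t}) :
    ∃ p, C'.ev p = (a : LaurentSeries ℚ) := by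
  induction ha using Algebra.adjoin_induction with
  | mem y hy => exact ⟨X, by rw [C'.ev_X, Set.mem_singleton_iff.mp hy]⟩
  | algebraMap r =>
    exact ⟨C ⟨(r : ℚ), (C'.R_iff _).mpr r.2⟩, by rw [C'.ev_C, coe_algebraMap_full]⟩
  | add y z _ _ hy hz =>
    obtain ⟨p, hp⟩ := hy
    obtain ⟨q, hq⟩ := hz
    exact ⟨p + q, by rw [map_add, hp, hq, IntermediateField.coe_add]⟩
  | mul y z _ _ hy hz =>
    obtain ⟨p, hp⟩ := hy
    obtain ⟨q, hq⟩ := hz
    exact ⟨p * q, by rw [map_mul, hp, hq, IntermediateField.coe_mul]⟩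

/-- The chart algebra is the integral closure of `ℤ_(ℓ)[t]`. -/
theorem ChartModel.mem_chartAlg_iff' (f : modularFunctionFieldFull N) :
    f ∈ chartAlg N ℓ {t} ↔ C'.ev.IsIntegralElem (f : LaurentSeries ℚ) := by
  classical
  rw [mem_chartAlg_iff]
  set A := Algebra.adjoin (GaloisRep.ratLocalizedAt ℓ) {t}
  constructor
  · rintro ⟨p, hp, hp0⟩
    choose g hg using fun i => C'.exists_poly (p.coeff i).2
    refine ⟨X ^ p.natDegree + ∑ i ∈ Finset.range p.natDegree, C (g i) * X ^ i,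
      monic_X_pow_add ?_, ?_⟩
    · exact (degree_sum_le _ _).trans_lt ((Finset.sup_lt_iff (WithBot.bot_lt_coe _)).2 fun i hi =>
        (degree_C_mul_X_pow_le i _).trans_lt (WithBot.coe_lt_coe.2 (Finset.mem_range.1 hi)))
    · have h := congrArg (algebraMap (modularFunctionFieldFull N) (LaurentSeries ℚ))
        ((eval₂_eq_sum_range (algebraMap A (modularFunctionFieldFull N)) f).symm.trans hp0)
      rw [Finset.sum_range_succ, hp.coeff_natDegree, map_one, one_mul, add_comm] at h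
      simp only [map_add, map_sum, map_mul, map_pow, map_zero] at h
      rw [eval₂_add, eval₂_X_pow, eval₂_finsetSum]
      simp only [eval₂_mul, eval₂_C, eval₂_X_pow, hg]
      exact h
  · rintro ⟨p, hp, hp0⟩
    choose g hgm hg using fun i => C'.exists_mem_adjoin (p.coeff i)
    refine ⟨X ^ p.natDegree + ∑ i ∈ Finset.range p.natDegree, C (⟨g i, hgm i⟩ : A) * X ^ i,
      monic_X_pow_add ?_, ?_⟩
    · exact (degree_sum_le _ _).trans_lt ((Finset.sup_lt_iff (WithBot.bot_lt_coe _)).2 fun i hi =>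
        (degree_C_mul_X_pow_le i _).trans_lt (WithBot.coe_lt_coe.2 (Finset.mem_range.1 hi)))
    · apply (algebraMap (modularFunctionFieldFull N) (LaurentSeries ℚ)).injective
      rw [eval₂_eq_sum_range, Finset.sum_range_succ, hp.coeff_natDegree, map_one, one_mul,
        add_comm] at hp0
      rw [eval₂_add, eval₂_X_pow, eval₂_finsetSum, map_zero, map_add, map_sum, map_pow]
      simp only [eval₂_mul, eval₂_C, eval₂_X_pow, map_mul, map_pow]
      refine Eq.trans ?_ hp0
      congr 1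
      exact Finset.sum_congr rfl fun i _ => by rw [← hg i]; rfl

theorem ChartModel.mem_intRing_of_mem {f : modularFunctionFieldFull N}
    (h : f ∈ chartAlg N ℓ {t}) : (f : LaurentSeries ℚ) ∈ C'.G.intRing :=
  C'.G.mem_intRing.mpr (C'.G.intElt_of_isIntegralElem (C'.F_eq.ge f.2)
    ((C'.mem_chartAlg_iff' f).mp h))

/-- The reduction map of a chart. -/
def ChartModel.psi : chartAlg N ℓ {t} →+* LaurentSeries (ZMod ℓ) :=
  C'.G.redHom.comp <| RingHom.codRestrict
    ((algebraMap (modularFunctionFieldFull N) (LaurentSeries ℚ)).comp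
      (Subalgebra.val (chartAlg N ℓ {t})).toRingHom) C'.G.intRing fun f => C'.mem_intRing_of_mem f.2

theorem ChartModel.psi_apply (f : chartAlg N ℓ {t}) :
    C'.psi f = C'.G.redHom ⟨_, C'.mem_intRing_of_mem f.2⟩ := rfl

theorem ChartModel.psi_algebraMap (r : GaloisRep.ratLocalizedAt ℓ) :
    C'.psi (algebraMap _ _ r) = HahnSeries.C (C'.G.π ⟨(r : ℚ), (C'.R_iff _).mpr r.2⟩) := by
  rw [psi_apply, ← C'.G.redHom_C]
  exact congrArg C'.G.redHom (Subtype.ext (coe_algebraMap_full (N := N) r))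

/-- An element of `ℤ_(ℓ)` with zero residue is divisible by `ℓ`. -/
theorem ChartModel.div_prime_mem {l : ℚ} (hl : l ≠ 0) (hlR : l ∈ C'.G.R)
    (hl0 : C'.G.π ⟨l, hlR⟩ = 0) : l / (ℓ : ℚ) ∈ C'.G.R := by
  have hℓ0 : (ℓ : ℚ) ≠ 0 := Nat.cast_ne_zero.mpr hℓ.out.ne_zero
  rcases C'.G.R.mem_or_inv_mem (l / (ℓ : ℚ)) with hm | hm
  · exact hm
  rw [inv_div, C'.R_iff] at hm
  have hnu := (C'.G.ker_iff _).mp hl0
  rw [C'.R_iff] at hlR
  have hnum : (ℓ : ℤ) ∣ l.num := by
    by_contra hn
    refine hnu ⟨⟨⟨l, (C'.R_iff _).mpr hlR⟩, ⟨l⁻¹, (C'.R_iff _).mpr ?_⟩,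
      Subtype.ext (mul_inv_cancel₀ hl), Subtype.ext (inv_mul_cancel₀ hl)⟩, rfl⟩
    show (l⁻¹).den.Coprime ℓ
    rw [Rat.den_inv, if_neg (Rat.num_ne_zero.mpr hl), Nat.coprime_comm,
      hℓ.out.coprime_iff_not_dvd, ← Int.natCast_dvd]
    exact hn
  obtain ⟨c, hc⟩ := hnum
  have he : l / (ℓ : ℚ) = (c : ℚ) * (l.den : ℚ)⁻¹ := by
    conv_lhs => rw [← Rat.num_div_den l, hc]
    push_cast
    field_simp
  rw [C'.R_iff, he]
  refine (GaloisRep.ratLocalizedAt ℓ).mul_mem (intCast_mem _ c) ?_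
  show ((l.den : ℚ)⁻¹).den.Coprime ℓ
  rw [Rat.inv_natCast_den, if_neg l.den_nz]
  exact hlR

/-- A chart element with zero reduction is divisible by `ℓ`. -/
theorem ChartModel.exists_eq_nsmul {f : chartAlg N ℓ {t}} (h : C'.psi f = 0) :
    ∃ f' : chartAlg N ℓ {t}, f = ℓ • f' := by
  rcases eq_or_ne f 0 with rfl | hf0
  · exact ⟨0, (smul_zero _).symm⟩
  have hfL : ((f : modularFunctionFieldFull N) : LaurentSeries ℚ) ≠ 0 := fun h0 =>
    hf0 (Subtype.ext (Subtype.ext h0))
  obtain ⟨l, g, hl, hfg, hg, hint⟩ := C'.G.exists_eq_C_mul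
    (C'.F_eq.ge (f : modularFunctionFieldFull N).2) hfL
  have hlR : l ∈ C'.G.R := hint (C'.G.mem_intRing.mp (C'.mem_intRing_of_mem f.2))
  have hl0 : C'.G.π ⟨l, hlR⟩ = 0 := by
    rw [psi_apply, show (⟨_, C'.mem_intRing_of_mem f.2⟩ : C'.G.intRing) =
      ⟨_, C'.G.C_mem_intRing ⟨l, hlR⟩⟩ * g from Subtype.ext hfg, map_mul, C'.G.redHom_C,
      mul_eq_zero, or_iff_left hg] at h
    exact HahnSeries.C_injective (h.trans (map_zero _).symm)
  -- `l / ℓ` is integral
  have hℓ0 : (ℓ : ℚ) ≠ 0 := Nat.cast_ne_zero.mpr hℓ.out.ne_zero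
  have hdiv : l / (ℓ : ℚ) ∈ C'.G.R := C'.div_prime_mem hl hlR hl0
  have hgF : (g : LaurentSeries ℚ) ∈ modularFunctionFieldFull N :=
    C'.F_eq.le (C'.G.mem_intRing.mp g.2).mem
  have hgmem : (⟨_, hgF⟩ : modularFunctionFieldFull N) ∈ chartAlg N ℓ {t} := by
    rw [C'.mem_chartAlg_iff']
    refine C'.G.isIntegralElem_of_intElt g.2 ?_
    obtain ⟨p, hp, hp0⟩ := (C'.mem_chartAlg_iff' _).mp f.2
    let := C'.G.evL.toAlgebra
    show IsIntegral ℚ[X] (g : LaurentSeries ℚ)
    have hfint : IsIntegral ℚ[X] ((f : modularFunctionFieldFull N) : LaurentSeries ℚ) :=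
      ⟨p.map (mapRingHom C'.G.R.subtype), hp.map _, by rw [eval₂_map]; exact hp0⟩
    rw [show (g : LaurentSeries ℚ) = algebraMap ℚ[X] (LaurentSeries ℚ) (C l⁻¹) *
      ((f : modularFunctionFieldFull N) : LaurentSeries ℚ) by
        rw [show algebraMap ℚ[X] (LaurentSeries ℚ) (C l⁻¹) = _ from C'.G.evL_C l⁻¹, hfg,
          ← mul_assoc, ← map_mul, inv_mul_cancel₀ hl, map_one, one_mul]]
    exact isIntegral_algebraMap.mul hfint
  refine ⟨algebraMap (GaloisRep.ratLocalizedAt ℓ) _ ⟨_, (C'.R_iff _).mp hdiv⟩ * ⟨_, hgmem⟩, ?_⟩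
  let Φ : chartAlg N ℓ {t} →+* LaurentSeries ℚ :=
    (algebraMap (modularFunctionFieldFull N) (LaurentSeries ℚ)).comp
      (Subalgebra.val (chartAlg N ℓ {t})).toRingHom
  have hΦ : Function.Injective Φ := fun x y h => Subtype.ext (Subtype.ext h)
  apply hΦ
  rw [nsmul_eq_mul, map_mul, map_mul, map_natCast,
    show Φ (algebraMap _ _ (⟨_, (C'.R_iff _).mp hdiv⟩ : GaloisRep.ratLocalizedAt ℓ)) = _ from
      coe_algebraMap_full (N := N) _,
    ← map_natCast (HahnSeries.C : ℚ →+* LaurentSeries ℚ), ← mul_assoc, ← map_mul,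
    mul_div_cancel₀ _ hℓ0]
  exact hfg

/-- `ℤ_(ℓ)` has one homomorphism to a field of characteristic `ℓ`. -/
theorem ratLocalizedAt_hom_ext {S : Type*} [Field S] [CharP S ℓ]
    (f g : GaloisRep.ratLocalizedAt ℓ →+* S) : f = g := by
  refine RingHom.ext fun r => ?_
  have hden : ((r : ℚ).den : S) ≠ 0 := by
    rw [Ne, CharP.cast_eq_zero_iff S ℓ]
    exact hℓ.out.coprime_iff_not_dvd.mp (Nat.Coprime.symm r.2)
  have he : r * ((r : ℚ).den : GaloisRep.ratLocalizedAt ℓ) = ((r : ℚ).num : ℤ) :=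
    Subtype.ext (by simp)
  have hf := congrArg f he
  have hg := congrArg g he
  rw [map_mul, map_natCast, map_intCast] at hf hg
  exact mul_right_cancel₀ hden (hf.trans hg.symm)

variable {K : Type*} [Field K] [CharP K ℓ] [Algebra (GaloisRep.ratLocalizedAt ℓ) K]

/-- Tensors with an `𝔽_ℓ`-vector space are combinations along a basis over `𝔽_ℓ`. -/
theorem exists_eq_sum_tmul_basis {R K : Type*} [CommRing R] [Field K] [Algebra R K]
    [Algebra (ZMod ℓ) K] {B : Type*} [CommRing B] [Algebra R B] {ι : Type*}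
    (e : Module.Basis ι (ZMod ℓ) K) (x : B ⊗[R] K) :
    ∃ f : ι →₀ B, x = f.sum fun j b => b ⊗ₜ e j := by
  classical
  induction x using TensorProduct.induction_on with
  | zero => exact ⟨0, (Finsupp.sum_zero_index).symm⟩
  | tmul b c =>
    refine ⟨(e.repr c).mapRange (fun a => a.val • b) (by simp), ?_⟩
    rw [Finsupp.sum_mapRange_index (by simp)]
    conv_lhs => rw [← e.linearCombination_repr c]
    rw [Finsupp.linearCombination_apply, Finsupp.sum, Finsupp.sum, TensorProduct.tmul_sum]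
    refine Finset.sum_congr rfl fun j _ => ?_
    rw [← ZMod.natCast_zmod_val ((e.repr c) j), Nat.cast_smul_eq_nsmul, ← TensorProduct.smul_tmul,
      ZMod.natCast_zmod_val]
  | add x y hx hy =>
    obtain ⟨f, rfl⟩ := hx
    obtain ⟨g, rfl⟩ := hy
    exact ⟨f + g, (Finsupp.sum_add_index' (h := fun j b => b ⊗ₜ[R] e j)
      (fun j => TensorProduct.zero_tmul _ _) (fun j b b' => TensorProduct.add_tmul b b' _)).symm⟩

/-- An integral model whose reduction into `𝔽_ℓ((q))` has kernel `ℓ B` has a special fibre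
embedding into Laurent series. -/
theorem exists_hom_tensor {R K : Type*} [CommRing R] [Field K] [CharP K ℓ] [Algebra R K]
    {B : Type*} [CommRing B] [Algebra R B]
    (ψ : B →+* LaurentSeries (ZMod ℓ)) (red : R →+* ZMod ℓ)
    (hred : (ZMod.castHom dvd_rfl K).comp red = algebraMap R K)
    (hψ : ∀ r, ψ (algebraMap _ B r) = HahnSeries.C (red r))
    (hker : ∀ b, ψ b = 0 → ∃ b', b = ℓ • b') :
    ∃ Φ : B ⊗[R] K →+* LaurentSeries K, Function.Injective Φ ∧
      ∀ b, Φ (b ⊗ₜ 1) = coeffMap (ZMod.castHom dvd_rfl K) (ψ b) := by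
  classical
  let _ : Algebra (ZMod ℓ) K := ZMod.algebra K ℓ
  let ι : K →+* LaurentSeries K := HahnSeries.C
  let alg : Algebra R (LaurentSeries K) := (ι.comp (algebraMap R K)).toAlgebra
  have : @IsScalarTower R R (LaurentSeries K) (Algebra.id R).toSMul alg.toSMul alg.toSMul :=
    @IsScalarTower.mk R R (LaurentSeries K) (Algebra.id R).toSMul alg.toSMul alg.toSMul
      fun a b x => by
        rw [@Algebra.smul_def R _ _ _ alg, @Algebra.smul_def R _ _ _ alg,
          @Algebra.smul_def R _ _ _ alg, smul_eq_mul, map_mul, mul_assoc]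
  have hι : ∀ r : R, @algebraMap R (LaurentSeries K) _ _ alg r = ι (algebraMap _ K r) :=
    fun r => rfl
  let cm : LaurentSeries (ZMod ℓ) →+* LaurentSeries K := coeffMap (algebraMap (ZMod ℓ) K)
  let ψK : B →ₐ[R] LaurentSeries K :=
    { cm.comp ψ with
      commutes' := fun r => by
        show cm (ψ (algebraMap _ B r)) = _
        rw [hι]
        rw [hψ, ← DFunLike.congr_fun hred r]
        simp [cm, ι, HahnSeries.C_apply]
        rfl }
  let ιA : K →ₐ[R] LaurentSeries K := { ι with commutes' := fun r => (hι r).symm }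
  set Φ := Algebra.TensorProduct.lift ψK ιA fun _ _ => Commute.all _ _
  refine ⟨Φ.toRingHom, ?_, fun b => ?_⟩
  swap
  · show Φ (b ⊗ₜ 1) = _
    rw [Algebra.TensorProduct.lift_tmul, map_one, mul_one]
    show coeffMap _ (ψ b) = coeffMap _ (ψ b)
    congr 2
  show Function.Injective Φ
  rw [injective_iff_map_eq_zero]
  let e := Module.Free.chooseBasis (ZMod ℓ) K
  intro x hx
  obtain ⟨f, rfl⟩ := exists_eq_sum_tmul_basis e x
  have hzero : ∀ j ∈ f.support, ψ (f j) = 0 := by
    intro j hj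
    ext n
    have hn := congrArg (fun s : LaurentSeries K => s.coeff n) hx
    simp only [Finsupp.sum, map_sum, Φ, Algebra.TensorProduct.lift_tmul, HahnSeries.coeff_sum,
      HahnSeries.coeff_zero] at hn
    have : ∀ j, (ψK (f j) * ιA (e j)).coeff n = (ψ (f j)).coeff n • e j := by
      intro j
      show (cm (ψ (f j)) * HahnSeries.C (e j)).coeff n = _
      rw [mul_comm, HahnSeries.C_apply, HahnSeries.coeff_single_mul, sub_zero, coeffMap_coeff,
        Algebra.smul_def, mul_comm]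
    simp only [this] at hn
    exact linearIndependent_iff'.mp e.linearIndependent f.support _ hn j hj
  refine Finset.sum_eq_zero fun j hj => ?_
  obtain ⟨b', hb'⟩ := hker _ (hzero j hj)
  show f j ⊗ₜ e j = 0
  rw [hb', TensorProduct.smul_tmul, nsmul_eq_mul, CharP.cast_eq_zero, zero_mul,
    TensorProduct.tmul_zero]

/-- The special fibre of a chart embeds into series over the residue field. -/
theorem ChartModel.exists_hom (C' : ChartModel N ℓ t) :
    ∃ Φ : chartAlg N ℓ {t} ⊗[GaloisRep.ratLocalizedAt ℓ] K →+* LaurentSeries K,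
      Function.Injective Φ ∧ ∀ b, Φ (b ⊗ₜ 1) = coeffMap (ZMod.castHom dvd_rfl K) (C'.psi b) := by
  refine exists_hom_tensor C'.psi (C'.G.π.comp (RingHom.codRestrict
    (GaloisRep.ratLocalizedAt ℓ).subtype C'.G.R.toSubring fun r => (C'.R_iff _).mpr r.2))
    (ratLocalizedAt_hom_ext _ _) (fun r => ?_) fun b => C'.exists_eq_nsmul
  exact C'.psi_algebraMap r

/-- The special fibre of a chart is a domain. -/
theorem ChartModel.isDomain (C' : ChartModel N ℓ t) :
    IsDomain (chartAlg N ℓ {t} ⊗[GaloisRep.ratLocalizedAt ℓ] K) := by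
  obtain ⟨Φ, hΦ, -⟩ := C'.exists_hom (K := K)
  exact hΦ.isDomain Φ

theorem ChartModel.coord_tmul_one_ne_zero (C' : ChartModel N ℓ t) :
    (⟨t, subset_chartAlg N ℓ _ rfl⟩ : chartAlg N ℓ {t}) ⊗ₜ[GaloisRep.ratLocalizedAt ℓ]
      (1 : K) ≠ 0 := by
  intro h
  obtain ⟨Φ, -, hb⟩ := C'.exists_hom (K := K)
  have h1 : coeffMap (ZMod.castHom dvd_rfl K) (C'.psi ⟨t, subset_chartAlg N ℓ _ rfl⟩) = 0 := by
    rw [← hb, h, map_zero]
  have hs : C'.G.incl C'.G.x ∈ C'.G.F := C'.G.x_mem
  have h2 : C'.psi ⟨t, subset_chartAlg N ℓ _ rfl⟩ = C'.G.redS C'.G.x := by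
    rw [psi_apply, ← C'.G.red_incl hs, GaussModel.redHom_apply]
    exact congrArg C'.G.red (Subtype.ext C'.x_eq.symm)
  rw [h2] at h1
  have h3 : C'.G.redS C'.G.x = 0 := HahnSeries.ext (funext fun n =>
    (ZMod.castHom dvd_rfl K).injective (by
      simpa using congrArg (fun s : LaurentSeries K => s.coeff n) h1))
  refine Polynomial.X_ne_zero (C'.G.x_tr X ?_)
  rw [eval₂_X]
  exact h3

/-- The localised chart has a nontrivial special fibre. -/
theorem nontrivial_tensor_away {R K B M : Type*} [CommRing R] [CommRing K] [CommRing B]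
    [CommRing M] [Algebra R B] [Algebra R M] [Algebra R K] [IsDomain (B ⊗[R] K)]
    (i : B →ₐ[R] M) (x : B) (hloc : letI := i.toRingHom.toAlgebra; IsLocalization.Away x M)
    (hx : x ⊗ₜ[R] (1 : K) ≠ 0) : Nontrivial (M ⊗[R] K) := by
  let _ : Algebra B M := i.toRingHom.toAlgebra
  have := hloc
  set L := FractionRing (B ⊗[R] K)
  let f : B →ₐ[R] L :=
    (IsScalarTower.toAlgHom R (B ⊗[R] K) L).comp Algebra.TensorProduct.includeLeft
  have hu : IsUnit (f x) := Ne.isUnit fun h =>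
    hx (IsFractionRing.injective (B ⊗[R] K) L (h.trans (map_zero _).symm))
  let g : M →ₐ[R] L :=
    { IsLocalization.Away.lift (S := M) x (g := f.toRingHom) hu with
      commutes' := fun r => by
        show IsLocalization.Away.lift (S := M) x (g := f.toRingHom) hu _ = _
        rw [← i.commutes r, show i (algebraMap R B r) = algebraMap B M (algebraMap R B r) from rfl,
          IsLocalization.Away.lift_eq]
        exact f.commutes r }
  exact RingHom.domain_nontrivial (Algebra.TensorProduct.lift g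
    ((IsScalarTower.toAlgHom R (B ⊗[R] K) L).comp Algebra.TensorProduct.includeRight)
    fun _ _ => Commute.all _ _).toRingHom

end Chart

section Models

variable (N : ℕ) [NeZero N] {ℓ : ℕ} [Fact ℓ.Prime]

/-- The Gauss model of the finite chart. -/
theorem exists_chartModel_fin (hN : ¬ ℓ ∣ N) : Nonempty (ChartModel N ℓ (jFull N)) := by
  obtain ⟨A, hA⟩ := FermatAgent.GaloisBasic.exists_liesOverPrime (Fact.out : ℓ.Prime)
  refine ⟨⟨ratModel N hA hN, fun q => (mem_ratVal_iff hA).trans Iff.rfl, jField_rat N, ?_⟩⟩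
  exact ModularCurve.coeffMap_jqModC _

/-- The Gauss model of the chart at infinity. -/
theorem exists_chartModel_inf (hN : ¬ ℓ ∣ N) : Nonempty (ChartModel N ℓ (jFull N)⁻¹) := by
  obtain ⟨A, hA⟩ := FermatAgent.GaloisBasic.exists_liesOverPrime (Fact.out : ℓ.Prime)
  obtain ⟨y, hy⟩ := (isUnit_jqModC (ratVal A)).exists_right_inv
  refine ⟨⟨(ratModel N hA hN).invCoord hy, fun q => (mem_ratVal_iff hA).trans Iff.rfl,
    jField_rat N, ?_⟩⟩
  have h1 : (ratModel N hA hN).incl (jqModC (ratVal A)) * (ratModel N hA hN).incl y = 1 := by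
    rw [← map_mul]
    exact (congrArg _ hy).trans (map_one _)
  rw [IntermediateField.coe_inv, coe_jFull]
  show (ratModel N hA hN).incl y = _
  rw [eq_inv_of_mul_eq_one_right h1]
  exact congrArg _ (ModularCurve.coeffMap_jqModC _)

/-- The special fibre of the finite chart is a domain. -/
theorem isDomain_chartFin (hN : ¬ ℓ ∣ N) (K : Type*) [Field K] [CharP K ℓ]
    [Algebra (GaloisRep.ratLocalizedAt ℓ) K] :
    IsDomain (chartAlgFin N ℓ ⊗[GaloisRep.ratLocalizedAt ℓ] K) :=
  (exists_chartModel_fin N hN).some.isDomain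

/-- The special fibre of the chart at infinity is a domain. -/
theorem isDomain_chartInf (hN : ¬ ℓ ∣ N) (K : Type*) [Field K] [CharP K ℓ]
    [Algebra (GaloisRep.ratLocalizedAt ℓ) K] :
    IsDomain (chartAlgInf N ℓ ⊗[GaloisRep.ratLocalizedAt ℓ] K) :=
  (exists_chartModel_inf N hN).some.isDomain

/-- The special fibre of the overlap of the two charts is nonempty. -/
theorem nontrivial_chartMid (hN : ¬ ℓ ∣ N) (K : Type*) [Field K] [CharP K ℓ]
    [Algebra (GaloisRep.ratLocalizedAt ℓ) K] :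
    Nontrivial (chartAlgMid N ℓ ⊗[GaloisRep.ratLocalizedAt ℓ] K) := by
  have := isDomain_chartFin N hN K
  exact nontrivial_tensor_away (inclFin N ℓ) (jChartFin N ℓ) (isLocalization_away_inclFin N ℓ)
    (exists_chartModel_fin N hN).some.coord_tmul_one_ne_zero

end Models

end FermatAgent.Curve.Red
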