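import Fermat.Agent.Curve.Red.Igusa

/-!
# The geometric special fibres of the Igusa model are integral

A fibre is covered by the two chart fibres, spectra of domains, meeting in the nonempty overlap.
-/

set_option autoImplicit false

open AlgebraicGeometry CategoryTheory CategoryTheory.Limits TensorProduct
open ModularCurve ModularCurve.IgusaScheme

noncomputable section

namespace FermatAgent.Curve.Red

/-- A scheme covered by two integral open subschemes which meet is integral. -/
theorem isIntegral_of_two_opens {X Y₁ Y₂ Z : Scheme} (a : Y₁ ⟶ X) (b : Y₂ ⟶ X) (p : Z ⟶ Y₁)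
    (q : Z ⟶ Y₂) [IsOpenImmersion a] [IsOpenImmersion b] [IsIntegral Y₁] [IsIntegral Y₂]
    [Nonempty Z] (hcomm : p ≫ a = q ≫ b)
    (hcov : ∀ x : X, x ∈ Set.range a.base ∨ x ∈ Set.range b.base) : IsIntegral X := by
  have : Nonempty X := ⟨a.base (p.base (Classical.arbitrary Z))⟩
  have : IsReduced X := by
    have : ∀ x : X, _root_.IsReduced (X.presheaf.stalk x) := fun x => by
      rcases hcov x with ⟨y, rfl⟩ | ⟨y, rfl⟩
      · exact isReduced_of_injective (a.stalkMap y).hom
          (asIso (a.stalkMap y)).commRingCatIsoToRingEquiv.injective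
      · exact isReduced_of_injective (b.stalkMap y).hom
          (asIso (b.stalkMap y)).commRingCatIsoToRingEquiv.injective
    exact isReduced_of_isReduced_stalk X
  have hA : IsPreirreducible (Set.range a.base) := by
    rw [← Set.image_univ]
    exact (PreirreducibleSpace.isPreirreducible_univ).image _ a.continuous.continuousOn
  have hB : IsPreirreducible (Set.range b.base) := by
    rw [← Set.image_univ]
    exact (PreirreducibleSpace.isPreirreducible_univ).image _ b.continuous.continuousOn
  have hsub : Set.univ ⊆ closure (Set.range a.base) := by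
    intro x _
    rcases hcov x with hx | hx
    · exact subset_closure hx
    · have hne : (Set.range b.base ∩ Set.range a.base).Nonempty :=
        ⟨a.base (p.base (Classical.arbitrary Z)),
          ⟨q.base (Classical.arbitrary Z), by
            rw [← Scheme.Hom.comp_apply, ← hcomm, Scheme.Hom.comp_apply]⟩, ⟨_, rfl⟩⟩
      exact closure_mono Set.inter_subset_right
        (subset_closure_inter_of_isPreirreducible_of_isOpen hB a.opensRange.2 hne hx)
  have : PreirreducibleSpace X := ⟨Set.eq_univ_of_univ_subset hsub ▸ hA.closure⟩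
  have : IrreducibleSpace X := ⟨‹_›⟩
  exact isIntegral_of_irreducibleSpace_of_isReduced X

section Fibre

variable {R B K : Type} [CommRing R] [CommRing B] [CommRing K] [Algebra R B] [Algebra R K]
  {f : Spec (CommRingCat.of B) ⟶ Spec (CommRingCat.of R)}

/-- An affine fibre with domain coordinate ring is integral. -/
theorem isIntegral_pullback_spec [IsDomain (B ⊗[R] K)]
    (hf : f = Spec.map (CommRingCat.ofHom (algebraMap R B))) :
    IsIntegral (pullback f (Spec.map (CommRingCat.ofHom (algebraMap R K)))) := by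
  subst hf
  have : IsIntegral (Spec (CommRingCat.of (B ⊗[R] K))) := inferInstance
  have : Nonempty
      ↑(pullback (Spec.map (CommRingCat.ofHom (algebraMap R B)))
        (Spec.map (CommRingCat.ofHom (algebraMap R K)))) :=
    Nonempty.map (Scheme.homeoOfIso (pullbackSpecIso R B K)).symm
      (inferInstanceAs (Nonempty (PrimeSpectrum (B ⊗[R] K))))
  exact isIntegral_of_isOpenImmersion (pullbackSpecIso R B K).hom

/-- An affine fibre with nonzero coordinate ring is nonempty. -/
theorem nonempty_pullback_spec [Nontrivial (B ⊗[R] K)]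
    (hf : f = Spec.map (CommRingCat.ofHom (algebraMap R B))) :
    Nonempty ↑(pullback f (Spec.map (CommRingCat.ofHom (algebraMap R K)))) := by
  subst hf
  have : Nonempty (Spec (CommRingCat.of (B ⊗[R] K))) :=
    inferInstanceAs (Nonempty (PrimeSpectrum (B ⊗[R] K)))
  exact Nonempty.map (Scheme.homeoOfIso (pullbackSpecIso R B K)).symm ‹_›

end Fibre

/-- At `ℓ ∤ N` the fibres of the Igusa model in characteristic `ℓ` are integral. -/
theorem isIntegral_igusaFibre (N : ℕ) [NeZero N] (ℓ : ℕ) [Fact ℓ.Prime] (hN : ¬ ℓ ∣ N) (K : Type)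
    [Field K] [CharP K ℓ] [Algebra (GaloisRep.ratLocalizedAt ℓ) K] :
    IsIntegral ↑(pullback (igusaTo N ℓ)
      (Spec.map (CommRingCat.ofHom (algebraMap ↥(GaloisRep.ratLocalizedAt ℓ) K)))) := by
  set g := Spec.map (CommRingCat.ofHom (algebraMap ↥(GaloisRep.ratLocalizedAt ℓ) K))
  have eM : fFin N ℓ ≫ ιFin N ℓ ≫ igusaTo N ℓ = Spec.map (CommRingCat.ofHom
      (algebraMap (GaloisRep.ratLocalizedAt ℓ) (chartAlgMid N ℓ))) := by
    rw [ιFin_igusaTo, ← Spec.map_comp, ← CommRingCat.ofHom_comp]
    congr 3
  have := isDomain_chartFin N hN K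
  have := isDomain_chartInf N hN K
  have := nontrivial_chartMid N hN K
  have := isIntegral_pullback_spec (K := K) (ιFin_igusaTo N ℓ)
  have := isIntegral_pullback_spec (K := K) (ιInf_igusaTo N ℓ)
  have := nonempty_pullback_spec (K := K) eM
  let a : pullback (ιFin N ℓ ≫ igusaTo N ℓ) g ⟶ pullback (igusaTo N ℓ) g :=
    pullback.map _ _ _ _ (ιFin N ℓ) (𝟙 _) (𝟙 _) (by simp) (by simp)
  let b : pullback (ιInf N ℓ ≫ igusaTo N ℓ) g ⟶ pullback (igusaTo N ℓ) g :=
    pullback.map _ _ _ _ (ιInf N ℓ) (𝟙 _) (𝟙 _) (by simp) (by simp)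
  refine isIntegral_of_two_opens a b
    (pullback.map (fFin N ℓ ≫ ιFin N ℓ ≫ igusaTo N ℓ) g _ g (fFin N ℓ) (𝟙 _) (𝟙 _)
      (by simp) (by simp))
    (pullback.map (fFin N ℓ ≫ ιFin N ℓ ≫ igusaTo N ℓ) g _ g (fInf N ℓ) (𝟙 _) (𝟙 _)
      (by rw [Category.comp_id, ← Category.assoc, ← Category.assoc, glue_condition]) (by simp))
    ?_ fun x => ?_
  · apply pullback.hom_ext
    · simp only [a, b, pullback.map, Category.assoc, pullback.lift_fst, pullback.lift_fst_assoc,
        glue_condition]
    · simp only [a, b, pullback.map, Category.assoc, pullback.lift_snd, pullback.lift_snd_assoc]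
  · rcases mem_range_ιFin_or_mem_range_ιInf N ℓ
      ((pullback.fst (igusaTo N ℓ) g).base x) with h | h
    · left
      rw [Scheme.Pullback.range_map]
      exact ⟨h, ⟨(pullback.snd (igusaTo N ℓ) g).base x, rfl⟩⟩
    · right
      rw [Scheme.Pullback.range_map]
      exact ⟨h, ⟨(pullback.snd (igusaTo N ℓ) g).base x, rfl⟩⟩

end FermatAgent.Curve.Red
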