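import Mathlib
import Fermat.Prelude.Def_ModularCurve_JqCoeff
import Fermat.Prelude.Def_ModularCurve_LaurentCoeff
import Fermat.Prelude.Thm_ModularCurve_coeff_jqModC_neg_one

/-!
# Laurent series of nonzero order are transcendental; integrally closed localisations of `k[X]`
-/

set_option autoImplicit false

open Polynomial

noncomputable section

namespace FermatAgent.Curve.Red

variable {k : Type*} [Field k]

theorem coeff_mul_eq_zero_of_lt {R : Type*} [Semiring R] {s t : LaurentSeries R} {d e : ℤ}
    (hs : ∀ n < d, s.coeff n = 0) (ht : ∀ n < e, t.coeff n = 0) {n : ℤ} (hn : n < d + e) :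
    (s * t).coeff n = 0 := by
  rw [HahnSeries.coeff_mul]
  refine Finset.sum_eq_zero fun ij hij => ?_
  rw [Finset.mem_antidiagonal] at hij
  rcases lt_or_ge ij.1 d with h1 | h1
  · rw [hs _ h1, zero_mul]
  · rw [ht _ (by omega), mul_zero]

/-- A series with no terms of degree `≤ 0` is transcendental unless it vanishes. -/
theorem eq_zero_of_eval₂_of_pos {x : LaurentSeries k} (hx0 : x ≠ 0)
    (hx : ∀ n ≤ 0, x.coeff n = 0) (P : k[X]) (h : P.eval₂ HahnSeries.C x = 0) : P = 0 := by
  suffices H : ∀ (d : ℕ) (P : k[X]), P.natDegree ≤ d → P.eval₂ HahnSeries.C x = 0 → P = 0 from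
    H _ P le_rfl h
  intro d
  induction d with
  | zero =>
    intro P hd h
    rw [Polynomial.eq_C_of_natDegree_le_zero hd, eval₂_C] at h
    rw [Polynomial.eq_C_of_natDegree_le_zero hd, HahnSeries.C_injective (h.trans (map_zero _).symm),
      map_zero]
  | succ d ih =>
    intro P hd h
    rw [← X_mul_divX_add P, eval₂_add, eval₂_mul, eval₂_X, eval₂_C] at h
    have hQ : ∀ n < (0 : ℤ), (P.divX.eval₂ HahnSeries.C x).coeff n = 0 := by
      intro n hn
      rw [eval₂_eq_sum_range, HahnSeries.coeff_sum]
      refine Finset.sum_eq_zero fun i _ => ?_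
      have hpow : ∀ (i : ℕ), ∀ n < (0 : ℤ), (x ^ i).coeff n = 0 := by
        intro i
        induction i with
        | zero => intro n hn; simp [HahnSeries.coeff_one, hn.ne]
        | succ i hi =>
          intro n hn
          rw [pow_succ]
          exact coeff_mul_eq_zero_of_lt hi (d := 0) (e := 1)
            (fun j hj => hx j (by omega)) (by omega)
      rw [HahnSeries.C_apply, HahnSeries.coeff_single_mul, hpow i _ (by omega), mul_zero]
    have h0 := congrArg (fun s : LaurentSeries k => s.coeff 0) h
    simp only [HahnSeries.coeff_add, HahnSeries.coeff_zero, HahnSeries.C_apply,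
      HahnSeries.coeff_single_same] at h0
    rw [coeff_mul_eq_zero_of_lt (d := 1) (e := 0) (fun j hj => hx j (by omega)) hQ (by omega),
      zero_add] at h0
    rw [h0, map_zero, add_zero, mul_eq_zero] at h
    have := ih P.divX (by
      rcases eq_or_ne P 0 with rfl | hP
      · simp
      · rw [natDegree_divX_eq_natDegree_tsub_one]; omega) (h.resolve_left hx0)
    rw [← X_mul_divX_add P, this, h0, mul_zero, map_zero, add_zero]

/-- A series of negative order is transcendental. -/
theorem eq_zero_of_eval₂_of_neg {x : LaurentSeries k} {d : ℤ} (hd : d < 0)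
    (hne : x.coeff d ≠ 0) (P : k[X])
    (h : P.eval₂ HahnSeries.C x = 0) : P = 0 := by
  have hx0 : x ≠ 0 := fun e => hne (by rw [e]; rfl)
  have hxinv : ∀ n ≤ 0, x⁻¹.coeff n = 0 := by
    by_contra! H
    obtain ⟨n, hn, hne'⟩ := H
    have hinv0 : x⁻¹ ≠ 0 := inv_ne_zero hx0
    have hord : x⁻¹.order ≤ n := HahnSeries.order_le_of_coeff_ne_zero hne'
    have hxo : x.order ≤ d := HahnSeries.order_le_of_coeff_ne_zero hne
    have := HahnSeries.order_mul hx0 hinv0
    rw [mul_inv_cancel₀ hx0, HahnSeries.order_one] at this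
    omega
  by_contra hP
  have hrev : P.reverse.eval₂ HahnSeries.C x⁻¹ = 0 := by
    have : Invertible x := invertibleOfNonzero hx0
    have := eval₂_reverse_mul_pow (i := HahnSeries.C) x P
    rw [invOf_eq_inv, h] at this
    exact (mul_eq_zero.mp this).resolve_right (pow_ne_zero _ hx0)
  exact hP (reverse_eq_zero.mp (eq_zero_of_eval₂_of_pos (inv_ne_zero hx0) hxinv _ hrev))

/-- The series of `j` is invertible. -/
theorem isUnit_jqModC (R : Type*) [CommRing R] : IsUnit (ModularCurve.jqModC R) := by
  unfold ModularCurve.jqModC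
  refine IsUnit.mul (IsUnit.of_mul_eq_one (HahnSeries.single (1 : ℤ) (1 : R)) (by simp)) ?_
  refine IsUnit.map _ (PowerSeries.isUnit_iff_constantCoeff.mpr ?_)
  rw [← PowerSeries.coeff_zero_eq_constantCoeff_apply, PowerSeries.coeff_map,
    PowerSeries.coeff_zero_eq_constantCoeff_apply, ModularCurve.constantCoeff_jNum, map_one]
  exact isUnit_one

/-- The series of `j` is transcendental. -/
theorem transcendental_jqModC (K : Type*) [Field K] :
    Transcendental K (ModularCurve.jqModC K) :=
  transcendental_iff.mpr fun p hp => by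
    refine eq_zero_of_eval₂_of_neg (d := -1) (by norm_num)
      (by rw [ModularCurve.coeff_jqModC_neg_one]; exact one_ne_zero) p ?_
    rw [← hp, aeval_def]
    congr 1
    exact RingHom.ext fun a => by
      rw [HahnSeries.C_apply, ModularCurve.algebraMap_laurentSeries_eq_single]

/-- `k[X][1/s]` is integrally closed, in the form used for series. -/
theorem dvd_pow_of_integral {S : Type*} [CommRing S] {φ : k[X] →+* S}
    (hφ : Function.Injective φ) {F G s : k[X]} (hco : IsCoprime F G) (d N : ℕ) (a : ℕ → k[X])
    (ha : a d = s ^ N)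
    (h : ∑ i ∈ Finset.range (d + 1), φ (a i) * φ F ^ i * φ G ^ (d - i) = 0) : G ∣ s ^ N := by
  have h' : ∑ i ∈ Finset.range (d + 1), a i * F ^ i * G ^ (d - i) = 0 := by
    apply hφ
    simpa [map_sum] using h
  rw [Finset.sum_range_succ, Nat.sub_self, pow_zero, mul_one, ha] at h'
  have hdvd : G ∣ s ^ N * F ^ d := by
    rw [show s ^ N * F ^ d = -∑ i ∈ Finset.range d, a i * F ^ i * G ^ (d - i) by
      linear_combination h']
    refine dvd_neg.mpr (Finset.dvd_sum fun i hi => ?_)
    refine dvd_mul_of_dvd_right (dvd_pow_self G ?_) _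
    have := Finset.mem_range.mp hi
    omega
  exact (hco.pow_left).symm.dvd_of_dvd_mul_right hdvd

end FermatAgent.Curve.Red
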