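import Fermat.Agent.Curve.Red.Content
import Fermat.Agent.Curve.Red.Transcend

/-!
# Reductions of the invariant ring and the integral closure lemma

Reductions of elements of `polRing` are one rational function of the reduced Hauptmodul, the
same at every cusp.  A tuple `red_γ b / red_γ r` integral over it is the reduction of one element.
-/

set_option autoImplicit false

open UpperHalfPlane CongruenceSubgroup Polynomial
open scoped MatrixGroups

noncomputable section

namespace FermatAgent.Curve.Red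

open FermatAgent.ES

variable {M m : ℕ} [NeZero M] {k : Type*} [Field k] (D : RedDatum M k) (haux : AuxLevel M m)

theorem isIntegral_mono {S : Type*} [CommRing S] {A B : Subring S} (h : A ≤ B) {x : S}
    (hx : IsIntegral A x) : IsIntegral B x :=
  hx.map_of_comp_eq (Subring.inclusion h) (RingHom.id S) (RingHom.ext fun _ => rfl)

theorem RedDatum.coe_polRing {f : ℍ → ℂ} (hf : f ∈ polRing haux D.R) : f ∈ BRing M D.R :=
  polRing_le_BRing haux D.good hf

/-- The Hauptmodul as an element of `BRing M R`. -/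
def RedDatum.tB : BRing M D.R :=
  ⟨haupt haux.dvd, polFun_mem_BRing haux D.good (one_le haux)⟩

/-- The root `c` as an element of `R`. -/
def RedDatum.rootR : D.R := ⟨hauptRoot haux, (hauptRoot_spec haux D.good).1⟩

/-- `X (X - 1) (X - c)` over `R`. -/
def RedDatum.sPol : D.R[X] := X * (X - 1) * (X - C (D.rootR haux))

/-- Evaluation of integral polynomials at `t`. -/
def RedDatum.evT : D.R[X] →+* BRing M D.R := eval₂RingHom D.constB (D.tB haux)

/-- Evaluation of reduced polynomials at the reduction of `t` at `γ∞`. -/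
def RedDatum.redEv (γ : SL(2, ℤ)) : k[X] →+* LaurentSeries k :=
  eval₂RingHom HahnSeries.C (D.redHom γ (D.tB haux))

/-- The reduction of a polynomial in the Hauptmodul. -/
theorem RedDatum.redHom_evT (γ : SL(2, ℤ)) (F : D.R[X]) :
    D.redHom γ (D.evT haux F) = D.redEv haux γ (F.map D.π) := by
  rw [RedDatum.evT, RedDatum.redEv, coe_eval₂RingHom, coe_eval₂RingHom, hom_eval₂, eval₂_map]
  congr 1
  exact RingHom.ext fun a => D.redHom_constB γ a

theorem RedDatum.coe_evT (F : D.R[X]) (τ : ℍ) :
    (D.evT haux F : ℍ → ℂ) τ = (F.map D.R.subtype).eval (haupt haux.dvd τ) := by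
  induction F using Polynomial.induction_on' with
  | add p q hp hq => simp [hp, hq]
  | monomial n a =>
    simp [RedDatum.evT, RedDatum.tB, Polynomial.eval₂_monomial, Polynomial.map_monomial]

/-- Invariant functions become polynomials in the Hauptmodul on clearing a power of `s`. -/
theorem RedDatum.exists_evT_of_mem {a : BRing M D.R} (ha : (a : ℍ → ℂ) ∈ polRing haux D.R) :
    ∃ (e : ℕ) (F : D.R[X]), a * D.evT haux (D.sPol haux) ^ e = D.evT haux F := by
  obtain ⟨e, F, hF⟩ := exists_poly_of_mem haux D.good ha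
  refine ⟨e, F, Subtype.ext (funext fun τ => ?_)⟩
  rw [D.coe_evT, ← hF τ]
  simp [RedDatum.coe_evT, RedDatum.sPol, RedDatum.rootR, cuspPoly]

include haux in
theorem RedDatum.exists_pole_redHom_polFun (γ : SL(2, ℤ)) : ∃ (l : ℕ) (hl : l ≤ m) (d : ℤ), d < 0 ∧
    (∀ n < d, (D.redHom γ ⟨_, polFun_mem_BRing haux D.good hl⟩).coeff n = 0) ∧
      (D.redHom γ ⟨_, polFun_mem_BRing haux D.good hl⟩).coeff d ≠ 0 := by
  have := haux.neZero
  obtain ⟨δ, hδ, l, hl, j, hγ⟩ := exists_cusp_decomp haux.small γ
  set f : BRing M D.R := ⟨_, polFun_mem_BRing haux D.good hl⟩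
  have e : ∀ n, (lexp M γ (f : ℍ → ℂ)).coeff n =
      (lexp M (cuspRep l) (f : ℍ → ℂ)).coeff n * (zetaC M ^ j) ^ n := by
    intro n
    have e : lexp M γ (f : ℍ → ℂ) = lexp M (δ * (cuspRep l * ModularGroup.T ^ j)) (f : ℍ → ℂ) := by
      rcases hγ with h | h
      · rw [← h]
      · rw [← h, lexp_neg]
    rw [e, ← lexp_act, show act δ (f : ℍ → ℂ) = f from act_polFun haux hδ l,
      lexp_mul_T_pow f.2.1, coeff_twistSer]
  have hlead := leadUnit_polFun haux D.good l l hl
  rw [(polOrd_table haux.small l hl l hl).1 rfl] at hlead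
  refine ⟨l, hl, ((M / m : ℕ) : ℤ) * -1, ?_, fun n hn => ?_, ?_⟩
  · have : 0 < M / m := Nat.div_pos (Nat.le_of_dvd (Nat.pos_of_ne_zero (NeZero.ne M)) haux.dvd)
      (Nat.pos_of_ne_zero (NeZero.ne m))
    omega
  · rw [coeff_redHom, ← map_zero D.π]
    congr 1
    exact Subtype.ext (by
      show (lexp M γ (f : ℍ → ℂ)).coeff n = 0
      rw [e n, hlead.coeff_of_lt hn, zero_mul])
  · rw [coeff_redHom]
    refine (D.unit_iff _).mpr ?_
    show UnitIn D.R ((lexp M γ (f : ℍ → ℂ)).coeff _)
    rw [e]
    refine hlead.unitIn_coeff.mul ?_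
    have hu := D.good.unit_root.pow j
    rcases Int.eq_nat_or_neg (((M / m : ℕ) : ℤ) * -1) with ⟨n, h | h⟩
    · rw [h, zpow_natCast]; exact hu.pow n
    · rw [h, zpow_neg, zpow_natCast]; exact (hu.pow n).inv

include haux in
/-- The reduced Hauptmodul is transcendental at every cusp. -/
theorem RedDatum.redEv_injective (γ : SL(2, ℤ)) : Function.Injective (D.redEv haux γ) := by
  rw [injective_iff_map_eq_zero]
  intro F hF
  obtain ⟨l, hl, d, hd, -, hne⟩ := D.exists_pole_redHom_polFun haux γ
  set P : BRing M D.R := ⟨_, polFun_mem_BRing haux D.good hl⟩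
  rcases polFun_cases haux D.good hl with h | ⟨α, r, hα, hr, h⟩
  · have : P = D.tB haux := Subtype.ext h
    rw [this] at hne
    exact eq_zero_of_eval₂_of_neg hd hne F hF
  · have hrR : r ∈ D.R := by
      rcases hr with rfl | rfl | rfl
      · exact D.R.zero_mem
      · exact D.R.one_mem
      · exact (hauptRoot_spec haux D.good).1
    have hrel : P * (D.tB haux - D.constB ⟨r, hrR⟩) = D.constB ⟨α, hα.2.1⟩ :=
      Subtype.ext (funext fun τ => h τ)
    have hrel' := congrArg (D.redHom γ) hrel
    rw [map_mul, map_sub, D.redHom_constB, D.redHom_constB] at hrel'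
    set c := D.π ⟨r, hrR⟩
    set a := D.π ⟨α, hα.2.1⟩
    have ha : a ≠ 0 := (D.unit_iff _).mpr hα
    set G := F.comp (Polynomial.X + Polynomial.C c)
    set x := D.redHom γ (D.tB haux) - HahnSeries.C c
    have hG : G.eval₂ HahnSeries.C x = 0 := by
      rw [eval₂_comp, eval₂_add, eval₂_X, eval₂_C, sub_add_cancel]; exact hF
    have hx0 : x ≠ 0 := fun e => ha (by
      rw [e, mul_zero] at hrel'
      exact HahnSeries.C_injective (hrel'.symm.trans (map_zero _).symm))
    have hpos : ∀ n ≤ 0, x.coeff n = 0 := by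
      by_contra! H
      obtain ⟨n, hn, hne'⟩ := H
      have hP0 : D.redHom γ P ≠ 0 := fun e => hne (by rw [e]; rfl)
      have h1 : (D.redHom γ P).order ≤ d := HahnSeries.order_le_of_coeff_ne_zero hne
      have h2 : x.order ≤ n := HahnSeries.order_le_of_coeff_ne_zero hne'
      have h3 := HahnSeries.order_mul hP0 hx0
      rw [hrel', HahnSeries.order_C] at h3
      omega
    have := eq_zero_of_eval₂_of_pos hx0 hpos G hG
    have h2 := congrArg (fun p => Polynomial.comp p (Polynomial.X - Polynomial.C c)) this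
    simp only [G, zero_comp, comp_assoc, add_comp, X_comp, C_comp, sub_add_cancel, comp_X] at h2
    exact h2

include haux in
/-- The polynomial `s` is invertible on the invariant ring. -/
theorem RedDatum.inv_sPol_mem : ∃ u : BRing M D.R, (u : ℍ → ℂ) ∈ polRing haux D.R ∧
    D.evT haux (D.sPol haux) * u = 1 := by
  have hX : ∃ u ∈ polRing haux D.R, ∀ τ, haupt haux.dvd τ * u τ = 1 :=
    ⟨_, polFun_mem_polRing haux D.R (two_le haux), fun τ => by
      rw [mul_comm]; exact congrFun (polFun_two_mul_haupt haux) τ⟩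
  have h1 : ∃ u ∈ polRing haux D.R, ∀ τ, (haupt haux.dvd τ - 1) * u τ = 1 :=
    ⟨_, polFun_mem_polRing haux D.R (Nat.zero_le _), fun τ => by
      rw [mul_comm]; exact congrFun (polFun_zero_mul haux) τ⟩
  have hc : ∃ u ∈ polRing haux D.R, ∀ τ, (haupt haux.dvd τ - hauptRoot haux) * u τ = 1 := by
    by_cases hm : m = 3
    · obtain ⟨-, -, -, α, hα, h⟩ := polFun_three haux hm D.good
      refine ⟨(fun _ => α⁻¹) * polFun haux.dvd 3, mul_mem (const_mem_polRing haux hα.2.2)
        (polFun_mem_polRing haux D.R (le_of_eq hm.symm)), fun τ => ?_⟩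
      have := h τ
      have := hα.1
      simp only [Pi.mul_apply]
      field_simp
      linear_combination h τ
    · simpa [hauptRoot, hm] using hX
  obtain ⟨a, ha, ha'⟩ := hX
  obtain ⟨b, hb, hb'⟩ := h1
  obtain ⟨c, hc, hc'⟩ := hc
  have hmem := mul_mem (mul_mem ha hb) hc
  refine ⟨⟨_, D.coe_polRing haux hmem⟩, hmem, Subtype.ext (funext fun τ => ?_)⟩
  simp only [Subring.coe_mul, Pi.mul_apply, RedDatum.coe_evT, RedDatum.sPol, Polynomial.map_mul,
    Polynomial.map_sub, Polynomial.map_X, Polynomial.map_one, Polynomial.map_C, Polynomial.eval_mul,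
    Polynomial.eval_sub, Polynomial.eval_X, Polynomial.eval_one, Polynomial.eval_C,
    OneMemClass.coe_one, Pi.one_apply, RedDatum.rootR, Subring.coe_subtype]
  linear_combination (haupt haux.dvd τ * a τ) * (haupt haux.dvd τ - 1) * b τ * hc' τ +
    (haupt haux.dvd τ * a τ) * hb' τ + ha' τ

include haux in
theorem RedDatum.exists_polRing_of_ratio {F : D.R[X]} (e : ℕ) : ∃ u : BRing M D.R,
    (u : ℍ → ℂ) ∈ polRing haux D.R ∧ u * D.evT haux (D.sPol haux) ^ e = D.evT haux F := by
  obtain ⟨v, hv, hv1⟩ := D.inv_sPol_mem haux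
  have hFm : (D.evT haux F : ℍ → ℂ) ∈ polRing haux D.R := by
    induction F using Polynomial.induction_on' with
    | add p q hp hq => rw [map_add]; exact add_mem hp hq
    | monomial n a =>
      rw [RedDatum.evT, coe_eval₂RingHom, eval₂_monomial]
      exact mul_mem (const_mem_polRing haux a.2) (pow_mem (haupt_mem_polRing haux D.R) n)
  refine ⟨D.evT haux F * v ^ e, mul_mem hFm (pow_mem hv e), ?_⟩
  rw [mul_assoc, ← mul_pow, mul_comm v, hv1, one_pow, mul_one]

include haux in
/-- The reduction of `s` is nonzero. -/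
theorem RedDatum.redEv_sPol_ne_zero (γ : SL(2, ℤ)) :
    D.redEv haux γ ((D.sPol haux).map D.π) ≠ 0 := fun h => by
  obtain ⟨v, -, hv⟩ := D.inv_sPol_mem haux
  have := congrArg (D.redHom γ) hv
  rw [map_mul, D.redHom_evT, h, zero_mul, map_one] at this
  exact zero_ne_one this

include haux in
/-- An invariant element reduces to zero at one cusp iff at every cusp. -/
theorem RedDatum.redHom_polRing_eq_zero {a : BRing M D.R} (ha : (a : ℍ → ℂ) ∈ polRing haux D.R)
    {γ : SL(2, ℤ)} (h : D.redHom γ a = 0) (δ : SL(2, ℤ)) : D.redHom δ a = 0 := by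
  obtain ⟨e, F, hF⟩ := D.exists_evT_of_mem haux ha
  have h1 := congrArg (D.redHom γ) hF
  rw [map_mul, h, zero_mul, D.redHom_evT] at h1
  have hF0 : F.map D.π = 0 := D.redEv_injective haux γ (h1.symm.trans (map_zero _).symm)
  have h2 := congrArg (D.redHom δ) hF
  rw [map_mul, D.redHom_evT, hF0, map_zero, map_pow, D.redHom_evT] at h2
  exact (mul_eq_zero.mp h2).resolve_right (pow_ne_zero _ (D.redEv_sPol_ne_zero haux δ))

/-- The elements whose reduction at `γ∞` is that of a `Γ(m)`-invariant one. -/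
def RedDatum.polImage (γ : SL(2, ℤ)) : Subring (LaurentSeries k) :=
  ((polRing haux D.R).comap (BRing M D.R).subtype).map (D.redHom γ)

include haux in
/-- A fraction integral over the reduced invariant ring is the reduction of an invariant element. -/
theorem RedDatum.exists_of_integral {b r : BRing M D.R} (hb : (b : ℍ → ℂ) ∈ polRing haux D.R)
    (hr : (r : ℍ → ℂ) ∈ polRing haux D.R) {γ : SL(2, ℤ)} (hr0 : D.redHom γ r ≠ 0)
    (hint : IsIntegral (D.polImage haux γ) (D.redHom γ b / D.redHom γ r)) :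
    ∃ u : BRing M D.R, (u : ℍ → ℂ) ∈ polRing haux D.R ∧
      ∀ δ, D.redHom δ u * D.redHom δ r = D.redHom δ b := by
  obtain ⟨eb, Fb, hb'⟩ := D.exists_evT_of_mem haux hb
  obtain ⟨er, Fr, hr'⟩ := D.exists_evT_of_mem haux hr
  set s := (D.sPol haux).map D.π with hs
  have hFb : ∀ δ, D.redHom δ b * D.redEv haux δ s ^ eb = D.redEv haux δ (Fb.map D.π) := fun δ => by
    have := congrArg (D.redHom δ) hb'
    rwa [map_mul, map_pow, D.redHom_evT, D.redHom_evT] at this
  have hFr : ∀ δ, D.redHom δ r * D.redEv haux δ s ^ er = D.redEv haux δ (Fr.map D.π) := fun δ => by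
    have := congrArg (D.redHom δ) hr'
    rwa [map_mul, map_pow, D.redHom_evT, D.redHom_evT] at this
  have hs0 : ∀ δ, D.redEv haux δ s ≠ 0 := D.redEv_sPol_ne_zero haux
  set F1 := Fb.map D.π * s ^ er
  set G1 := Fr.map D.π * s ^ eb
  have hG1 : G1 ≠ 0 := fun h => by
    have : D.redEv haux γ (Fr.map D.π) = 0 := by
      have := congrArg (D.redEv haux γ) h
      rw [map_zero, map_mul, map_pow] at this
      exact (mul_eq_zero.mp this).resolve_right (pow_ne_zero _ (hs0 γ))
    rw [← hFr] at this
    exact mul_ne_zero hr0 (pow_ne_zero _ (hs0 γ)) this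
  obtain ⟨G, F, c, hrel, hG, hF⟩ := UniqueFactorizationMonoid.exists_reduced_factors G1 hG1 F1
  have hco : IsCoprime F G := hrel.isCoprime.symm
  have hG0 : G ≠ 0 := fun h => hG1 (by rw [← hG, h, mul_zero])
  -- clear the denominators in the monic relation
  obtain ⟨p, hp, hroot⟩ := hint
  have hcoef : ∀ i, ∃ (e : ℕ) (a : k[X]),
      ((p.coeff i : D.polImage haux γ) : LaurentSeries k) * D.redEv haux γ s ^ e =
        D.redEv haux γ a := by
    intro i
    obtain ⟨x, hx, hxe⟩ := (p.coeff i).2
    obtain ⟨e, A, hA⟩ := D.exists_evT_of_mem haux hx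
    refine ⟨e, A.map D.π, ?_⟩
    rw [← hxe, ← D.redHom_evT, ← D.redHom_evT, ← map_pow, ← map_mul, hA]
  choose e a ha using hcoef
  set d := p.natDegree
  set N := ∑ i ∈ Finset.range (d + 1), e i
  have hv : D.redHom γ b / D.redHom γ r * D.redEv haux γ G = D.redEv haux γ F := by
    have hg : D.redEv haux γ c ≠ 0 := fun h =>
      hG1 (by rw [← hG, D.redEv_injective haux γ (h.trans (map_zero _).symm), zero_mul])
    refine mul_left_cancel₀ hg ?_
    rw [mul_left_comm, ← map_mul, ← map_mul, hF, hG, map_mul, map_mul, map_pow, map_pow,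
      ← hFb, ← hFr]
    field_simp
  have hdvd : G ∣ s ^ N := by
    refine dvd_pow_of_integral (D.redEv_injective haux γ) hco d N
      (fun i => if i = d then s ^ N else a i * s ^ (N - e i)) (if_pos rfl) ?_
    have key : ∀ i ∈ Finset.range (d + 1),
        D.redEv haux γ (if i = d then s ^ N else a i * s ^ (N - e i)) * D.redEv haux γ F ^ i *
          D.redEv haux γ G ^ (d - i) = D.redEv haux γ s ^ N * D.redEv haux γ G ^ d *
          (((p.coeff i : D.polImage haux γ) : LaurentSeries k) *
            (D.redHom γ b / D.redHom γ r) ^ i) := by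
      intro i hi
      have hid : i ≤ d := Nat.lt_succ_iff.mp (Finset.mem_range.mp hi)
      have hc : D.redEv haux γ (if i = d then s ^ N else a i * s ^ (N - e i)) =
          ((p.coeff i : D.polImage haux γ) : LaurentSeries k) * D.redEv haux γ s ^ N := by
        split_ifs with hh
        · subst hh
          rw [hp.coeff_natDegree, OneMemClass.coe_one, one_mul, map_pow]
        · have hle : e i ≤ N := Finset.single_le_sum (fun _ _ => Nat.zero_le _) hi
          rw [map_mul, map_pow, ← ha, mul_assoc, ← pow_add, Nat.add_sub_cancel' hle]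
      rw [hc, ← hv, mul_pow]
      rw [show D.redEv haux γ G ^ d = D.redEv haux γ G ^ i * D.redEv haux γ G ^ (d - i) by
        rw [← pow_add, Nat.add_sub_cancel' hid]]
      ring
    rw [Finset.sum_congr rfl key, ← Finset.mul_sum]
    rw [eval₂_eq_sum_range] at hroot
    rw [show ∑ i ∈ Finset.range (d + 1), ((p.coeff i : D.polImage haux γ) : LaurentSeries k) *
      (D.redHom γ b / D.redHom γ r) ^ i = 0 from hroot, mul_zero]
  obtain ⟨Q, hQ⟩ := hdvd
  obtain ⟨U, hU⟩ := Polynomial.map_surjective D.π D.surj (F * Q)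
  obtain ⟨u, hu, hu'⟩ := D.exists_polRing_of_ratio haux (F := U) N
  refine ⟨u, hu, fun δ => ?_⟩
  have h1 := congrArg (D.redHom δ) hu'
  rw [map_mul, map_pow, D.redHom_evT, D.redHom_evT, hU, ← map_pow, hQ, map_mul, map_mul,
    ← mul_assoc] at h1
  have hQ0 : D.redEv haux δ Q ≠ 0 := fun h =>
    pow_ne_zero N (hs0 δ) (by rw [← map_pow, hQ, map_mul, h, mul_zero])
  have h2 : D.redHom δ u * D.redEv haux δ G = D.redEv haux δ F := mul_right_cancel₀ hQ0 h1
  refine mul_right_cancel₀ (mul_ne_zero (pow_ne_zero er (hs0 δ)) (pow_ne_zero eb (hs0 δ))) ?_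
  have h3 : D.redHom δ u * D.redEv haux δ G1 = D.redEv haux δ F1 := by
    rw [← hF, ← hG, map_mul, map_mul, mul_left_comm, h2]
  simp only [F1, G1, map_mul, map_pow, ← hFb, ← hFr] at h3
  linear_combination h3

theorem act_of_mem_polRing {A : Subring ℂ} {x : ℍ → ℂ} (hx : x ∈ polRing haux A) {δ : SL(2, ℤ)}
    (hδ : δ ∈ Gamma m) : act δ x = x := by
  induction hx using Subring.closure_induction with
  | mem y hy =>
    rcases hy with ⟨c, -, rfl⟩ | ⟨j, -, rfl⟩
    · rfl
    · exact act_polFun haux hδ j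
  | zero => rfl
  | one => rfl
  | add y z _ _ hy hz => rw [act_add, hy, hz]
  | neg y _ hy => rw [act_neg, hy]
  | mul y z _ _ hy hz => rw [act_mulFun, hy, hz]

include haux in
theorem RedDatum.redHom_repG_mul {x : BRing M D.R} (hx : (x : ℍ → ℂ) ∈ polRing haux D.R)
    (g : GalGrp M m) (γ : SL(2, ℤ)) : D.redHom (repG M m g * γ) x = D.redHom γ x := by
  rw [← D.redHom_actB]
  congr 1
  exact Subtype.ext (act_of_mem_polRing haux hx (repG_mem g))

theorem RedDatum.polImage_repG_le (g : GalGrp M m) (γ : SL(2, ℤ)) :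
    D.polImage haux (repG M m g * γ) ≤ D.polImage haux γ := by
  rintro _ ⟨x, hx, rfl⟩
  exact ⟨x, hx, (D.redHom_repG_mul haux hx g γ).symm⟩

include haux in
/-- A monic polynomial over the invariant ring with root `f`: the product over the translates. -/
theorem RedDatum.charPol_spec (f : BRing M D.R) (P : (BRing M D.R)[X])
    (hP : P = ∏ g : GalGrp M m, (X - C (D.actB (repG M m g) f))) :
    P.Monic ∧ (∀ i, ((P.coeff i : BRing M D.R) : ℍ → ℂ) ∈ polRing haux D.R) ∧ P.eval f = 0 := by
  classical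
  subst hP
  refine ⟨monic_prod_of_monic _ _ fun _ _ => monic_X_sub_C _, fun i => ?_, ?_⟩
  · have hPmap : (∏ g : GalGrp M m, (X - C (D.actB (repG M m g) f))).map
        (BRing M D.R).subtype = charFun M m (f : ℍ → ℂ) := by
      simp [charFun, Polynomial.map_prod]
    have := charFun_coeff_mem_polRing haux D.good f.2 i
    rwa [← hPmap, coeff_map] at this
  · rw [eval_prod]
    refine Finset.prod_eq_zero (Finset.mem_univ 1) ?_
    rw [eval_sub, eval_X, eval_C, sub_eq_zero]
    have := act_eq_act_repG (m := m) f.2.1 (1 : Gamma m)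
    rw [Subgroup.coe_one, act_one, QuotientGroup.mk_one] at this
    exact Subtype.ext this

theorem RedDatum.isIntegral_redHom (x : BRing M D.R) (γ : SL(2, ℤ)) :
    IsIntegral (D.polImage haux γ) (D.redHom γ x) := by
  set P : (BRing M D.R)[X] := ∏ g : GalGrp M m, (X - C (D.actB (repG M m g) x)) with hP
  obtain ⟨hmon, hcoe, hPx⟩ := D.charPol_spec haux x P hP
  have hlift : P.map (D.redHom γ) ∈ lifts (D.polImage haux γ).subtype := by
    rw [lifts_iff_coeff_lifts]
    intro i
    rw [coeff_map]
    exact ⟨⟨_, ⟨P.coeff i, hcoe i, rfl⟩⟩, rfl⟩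
  obtain ⟨Q, hQ, -, hQmon⟩ := lifts_and_degree_eq_and_monic hlift (hmon.map _)
  refine ⟨Q, hQmon, ?_⟩
  rw [← Polynomial.eval_map]
  change (Q.map (D.polImage haux γ).subtype).eval _ = 0
  rw [hQ, Polynomial.eval_map, Polynomial.eval₂_at_apply, hPx, map_zero]

include haux in
theorem RedDatum.exists_trace_of_integral {b r : BRing M D.R}
    (hr : (r : ℍ → ℂ) ∈ polRing haux D.R) (hr0 : D.redHom 1 r ≠ 0)
    (hint : ∀ γ, IsIntegral (D.polImage haux γ) (D.redHom γ b / D.redHom γ r))
    (S : Finset (GalGrp M m)) : ∃ u : BRing M D.R, (u : ℍ → ℂ) ∈ polRing haux D.R ∧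
      ∀ γ, D.redHom γ u * D.redHom γ r =
        ∑ g : GalGrp M m, D.redHom (repG M m g * γ)
          (⟨sepB haux S, sepB_mem haux D.good S⟩ * b) := by
  set bS : BRing M D.R := ⟨_, trComp_mem haux D.good b.2 S⟩
  set x : BRing M D.R := ⟨sepB haux S, sepB_mem haux D.good S⟩ with hx
  have hbS : (bS : ℍ → ℂ) ∈ polRing haux D.R := invariant_mem_polRing haux D.good bS.2
    fun δ hδ => trComp_invariant haux b.2.1 S hδ
  have hsum : ∀ γ, D.redHom γ bS = ∑ g : GalGrp M m, D.redHom (repG M m g * γ) (x * b) := by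
    intro γ
    simp only [← D.redHom_actB, ← map_sum]
    congr 1
    refine Subtype.ext ?_
    rw [AddSubmonoidClass.coe_finsetSum]
    rfl
  have hi : IsIntegral (D.polImage haux 1) (D.redHom 1 bS / D.redHom 1 r) := by
    rw [hsum, Finset.sum_div]
    refine IsIntegral.sum _ fun g _ => ?_
    rw [map_mul, mul_div_assoc]
    have himg := D.polImage_repG_le haux g 1
    refine IsIntegral.mul ?_ ?_
    · exact isIntegral_mono himg (D.isIntegral_redHom haux x _)
    · rw [← D.redHom_repG_mul haux hr g 1]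
      exact isIntegral_mono himg (hint _)
  obtain ⟨u, hu, hu'⟩ := D.exists_of_integral haux hbS hr hr0 hi
  exact ⟨u, hu, fun γ => by rw [hu' γ, hsum]⟩

include haux in
/-- The integral closure lemma on all cusps. -/
theorem RedDatum.mem_image_of_integral {b r : BRing M D.R}
    (hr : (r : ℍ → ℂ) ∈ polRing haux D.R) (hr0 : D.redHom 1 r ≠ 0)
    (hint : ∀ γ, IsIntegral (D.polImage haux γ) (D.redHom γ b / D.redHom γ r)) :
    ∃ h : BRing M D.R, ∀ γ, D.redHom γ h * D.redHom γ r = D.redHom γ b := by
  classical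
  have htr := D.exists_trace_of_integral haux hr hr0 hint
  choose u hu hu' using htr
  set s := (Finset.univ.erase (1 : GalGrp M m)).powerset
  refine ⟨∑ S ∈ s, ⟨sepA haux S, sepA_mem haux D.good S⟩ * u S, fun γ => ?_⟩
  simp only [map_sum, map_mul, Finset.sum_mul, mul_assoc, hu', Finset.mul_sum]
  rw [Finset.sum_comm]
  have hdelta : ∀ g : GalGrp M m, (∑ S ∈ s,
      (⟨sepA haux S, sepA_mem haux D.good S⟩ : BRing M D.R) *
        D.actB (repG M m g) ⟨sepB haux S, sepB_mem haux D.good S⟩) =
      if g = 1 then 1 else 0 := fun g => Subtype.ext (by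
    rw [AddSubmonoidClass.coe_finsetSum]
    refine (sum_sepA_mul_act_sepB haux g).trans ?_
    split_ifs <;> rfl)
  calc ∑ g, ∑ S ∈ s, D.redHom γ ⟨sepA haux S, sepA_mem haux D.good S⟩ *
        (D.redHom (repG M m g * γ) ⟨sepB haux S, sepB_mem haux D.good S⟩ *
          D.redHom (repG M m g * γ) b)
      = ∑ g, D.redHom γ (∑ S ∈ s, (⟨sepA haux S, sepA_mem haux D.good S⟩ : BRing M D.R) *
          D.actB (repG M m g) ⟨sepB haux S, sepB_mem haux D.good S⟩) *
            D.redHom (repG M m g * γ) b := by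
        simp only [map_sum, map_mul, D.redHom_actB, Finset.sum_mul, mul_assoc]
    _ = D.redHom γ b := by
        simp only [hdelta]
        rw [Finset.sum_eq_single 1 (fun g _ hg => by simp [hg]) (by simp), if_pos rfl, map_one,
          one_mul, ← D.redHom_actB]
        congr 1
        refine Subtype.ext ?_
        have := act_eq_act_repG (m := m) b.2.1 (1 : Gamma m)
        rw [Subgroup.coe_one, act_one, QuotientGroup.mk_one] at this
        exact this.symm

end FermatAgent.Curve.Red
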