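import Fermat.Agent.Curve.Red.Galois

/-!
# Regularity of the finite chart: lifting residual elements integral over `k[j]`

A residual function integral over `k[j]` is a quotient `b̄/r̄` of reductions; a multiple of `r` is
invariant, hence a polynomial in `j`, and the integral relation transfers, so the quotient comes
from an element integral at level `M` (`RedDatum.exists_lift_intOver`).  Averaging over the
automorphisms gives invariant lifts (`RedDatum.exists_invariant_lift`).
-/

set_option autoImplicit false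

open UpperHalfPlane hiding I
open CongruenceSubgroup Polynomial Metric
open scoped MatrixGroups
open ModularCurve (coeffMap qExpand jqModC jqNModC qExpandAlgHomC modularFunctionFieldFullC)

noncomputable section

namespace FermatAgent.Curve.Red

open FermatAgent.ES

variable {M m N : ℕ} [NeZero M] [NeZero N] {k : Type*} [Field k] (D : RedDatum M k)
  (haux : AuxLevel M m)

/-- `P(j)` as an element of `BRing M R`. -/
def RedDatum.evJB : D.R[X] →+* BRing M D.R := eval₂RingHom D.constB D.jB

/-- The reduction of a polynomial in `j`. -/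
theorem RedDatum.redHom_evJB (γ : SL(2, ℤ)) (P : D.R[X]) :
    D.redHom γ (D.evJB P) = qExpand k M (evalJ k (P.map D.π)) := by
  rw [evJB, coe_eval₂RingHom, hom_eval₂, evalJ, coe_eval₂RingHom, eval₂_map, hom_eval₂,
    D.redHom_jB]
  congr 1
  refine RingHom.ext fun a => ?_
  rw [RingHom.comp_apply, D.redHom_constB, RingHom.comp_apply, RingHom.comp_apply,
    HahnSeries.C_apply, ModularCurve.qExpand_single, mul_zero]

/-- Polynomials in `j` are invariant. -/
theorem RedDatum.actB_evJB (γ : SL(2, ℤ)) (P : D.R[X]) :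
    D.actB γ (D.evJB P) = D.evJB (M := M) P := by
  rw [evJB, coe_eval₂RingHom, hom_eval₂]
  congr 1
  exact Subtype.ext (funext fun τ => jFun_smul γ τ)

/-- The function of a polynomial in `j`. -/
theorem RedDatum.coe_evJB (P : D.R[X]) :
    ((D.evJB P : BRing M D.R) : ℍ → ℂ) = fun τ => (P.map D.R.subtype).eval (jFun τ) := by
  induction P using Polynomial.induction_on' with
  | add p q hp hq =>
    funext τ
    rw [map_add, Subring.coe_add, Pi.add_apply, hp, hq, Polynomial.map_add, eval_add]
  | monomial n a =>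
    funext τ
    rw [evJB, coe_eval₂RingHom, eval₂_monomial, Polynomial.map_monomial, eval_monomial]
    rfl

/-- An element invariant under `SL(2, ℤ)` is a polynomial in `j` with coefficients in `R`. -/
theorem RedDatum.exists_eq_evJB {f : BRing M D.R} (hinv : ∀ γ, D.actB γ f = f) :
    ∃ P : D.R[X], f = D.evJB P := by
  obtain ⟨q, hq⟩ := D.exists_poly_of_invariant f.2 fun γ => congrArg Subtype.val (hinv γ)
  exact ⟨q, Subtype.ext (by rw [D.coe_evJB, hq])⟩

/-- `j` in the residual field. -/
def RedDatum.jRes : D.ResField := D.resMap (M := M) D.jB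

/-- The residual field inside Laurent series. -/
def RedDatum.resEmb : D.ResField →ₐ[k] LaurentSeries k :=
  IsFractionRing.liftAlgHom (g := D.resSub.val) Subtype.coe_injective

/-- The residual field embeds by the reduced expansion at `∞`. -/
theorem RedDatum.resEmb_resMap (f : BRing M D.R) : D.resEmb (D.resMap f) = D.redHom 1 f := by
  show IsFractionRing.liftAlgHom (g := D.resSub.val) _
    (algebraMap D.resSub D.ResField (D.toSub f)) = _
  rw [IsFractionRing.liftAlgHom_apply, IsFractionRing.lift_algebraMap]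
  rfl

theorem RedDatum.resEmb_aeval (p : k[X]) :
    D.resEmb (aeval (D.jRes (M := M)) p) = qExpand k M (evalJ k p) := by
  obtain ⟨P, rfl⟩ := Polynomial.map_surjective D.π D.surj p
  rw [← D.redHom_evJB 1, ← D.resEmb_resMap]
  congr 1
  rw [RedDatum.jRes, evJB, coe_eval₂RingHom, hom_eval₂, aeval_def, eval₂_map]
  congr 1
  ext a : 1
  apply D.resEmb.toRingHom.injective
  show D.resEmb (algebraMap k D.ResField (D.π a)) = D.resEmb (D.resMap (D.constB a))
  rw [D.resEmb_resMap, D.redHom_constB, AlgHom.commutes, HahnSeries.C_apply,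
    ModularCurve.algebraMap_laurentSeries_eq_single]

theorem RedDatum.resMap_evJB (P : D.R[X]) :
    D.resMap (D.evJB P) = aeval (D.jRes (M := M)) (P.map D.π) := by
  apply D.resEmb.toRingHom.injective
  show D.resEmb _ = D.resEmb _
  rw [D.resEmb_resMap, D.resEmb_aeval, D.redHom_evJB]

theorem RedDatum.transcendental_jRes : Transcendental k (D.jRes (M := M)) :=
  transcendental_iff.2 fun p hp => by
    have h := congrArg D.resEmb hp
    rw [D.resEmb_aeval, map_zero] at h
    exact eq_zero_of_eval₂_of_neg (d := -1) (by norm_num)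
      (by rw [ModularCurve.coeff_jqModC_neg_one]; exact one_ne_zero) p
      (ModularCurve.qExpand_injective M (h.trans (map_zero _).symm))

theorem RedDatum.resAut_jRes (γ : SL(2, ℤ)) : D.resAut haux γ (D.jRes (M := M)) = D.jRes := by
  rw [jRes, D.resAut_resMap]
  exact congrArg _ (Subtype.ext (funext fun τ => jFun_smul γ⁻¹ τ))

include haux in
/-- An element with nonzero residue has a multiple with nonzero residual trace (independence of
characters). -/
theorem RedDatum.exists_trace_ne_zero {r : BRing M D.R} (hr : D.resMap r ≠ 0) :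
    ∃ w : BRing M D.R, ∑ g : D.resGroup haux (⊤ : Subgroup SL(2, ℤ)),
      (g : D.ResField ≃ₐ[k] D.ResField) (D.resMap (r * w)) ≠ 0 := by
  classical
  set H : Subgroup SL(2, ℤ) := ⊤
  by_contra! hall
  have hinj : Function.Injective fun g : D.resGroup haux H =>
      (((g : D.ResField ≃ₐ[k] D.ResField) : D.ResField →* D.ResField).comp
        (D.resMap (M := M) : BRing M D.R →* D.ResField)) := by
    intro g g' h
    refine Subtype.ext (AlgEquiv.ext fun y => ?_)
    obtain ⟨b', r', -, rfl⟩ := D.exists_eq_div y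
    have h1 : ∀ f : BRing M D.R, (g : D.ResField ≃ₐ[k] D.ResField) (D.resMap f) =
        (g' : D.ResField ≃ₐ[k] D.ResField) (D.resMap f) := fun f =>
      congrArg (fun φ : BRing M D.R →* D.ResField => φ f) h
    rw [map_div₀, map_div₀, h1, h1]
  have hli := (linearIndependent_monoidHom (BRing M D.R) D.ResField).comp _ hinj
  rw [Fintype.linearIndependent_iff] at hli
  have h0 := hli (fun g => (g : D.ResField ≃ₐ[k] D.ResField) (D.resMap r)) (funext fun w => by
    simpa [Finset.sum_apply, map_mul] using hall w) (1 : D.resGroup haux H)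
  exact hr ((map_eq_zero_iff _ (EquivLike.injective _)).1 h0)

include haux in
/-- Residual traces to level one are polynomials in `j`. -/
theorem RedDatum.exists_trace_eq_aeval (f : BRing M D.R) :
    ∃ p : k[X], ∑ g : D.resGroup haux (⊤ : Subgroup SL(2, ℤ)),
      (g : D.ResField ≃ₐ[k] D.ResField) (D.resMap f) = aeval (D.jRes (M := M)) p := by
  classical
  set H : Subgroup SL(2, ℤ) := ⊤
  have hinv : ∀ γ, D.actB γ (∑ g : D.resGroup haux H, D.actB (D.resRep haux g)⁻¹ f) =
      ∑ g : D.resGroup haux H, D.actB (D.resRep haux g)⁻¹ f := by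
    intro γ
    have h := D.coeff_symPoly_mem haux H f ((Finset.univ : Finset (D.resGroup haux H)).card - 1) γ
      trivial
    rwa [RedDatum.symPoly,
      prod_X_sub_C_coeff_card_pred _ _ (Finset.card_pos.2 ⟨1, Finset.mem_univ _⟩), map_neg,
      neg_inj] at h
  obtain ⟨P, hP⟩ := D.exists_eq_evJB hinv
  refine ⟨P.map D.π, ?_⟩
  rw [← D.resMap_evJB, ← hP, map_sum]
  exact Finset.sum_congr rfl fun g _ => by rw [← D.resAut_resMap haux, D.resAut_resRep haux]

include haux in
/-- The field fixed by all residual automorphisms is `k(j)`. -/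
theorem RedDatum.mem_adjoin_of_fixed {z : D.ResField}
    (hz : ∀ g ∈ D.resGroup haux (⊤ : Subgroup SL(2, ℤ)), g z = z) :
    z ∈ IntermediateField.adjoin k {D.jRes (M := M)} := by
  obtain ⟨b, r, hr, rfl⟩ := D.exists_eq_div z
  obtain ⟨w, hw⟩ := D.exists_trace_ne_zero haux hr
  obtain ⟨p, hp⟩ := D.exists_trace_eq_aeval haux (b * w)
  obtain ⟨q, hq⟩ := D.exists_trace_eq_aeval haux (r * w)
  have heq : D.resMap b / D.resMap r = aeval (D.jRes (M := M)) p / aeval (D.jRes (M := M)) q := by
    rw [eq_div_iff (hq ▸ hw), ← hp, ← hq, Finset.mul_sum]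
    refine Finset.sum_congr rfl fun g _ => ?_
    conv_lhs => rw [← hz _ g.2]
    rw [← map_mul, map_mul D.resMap, map_mul D.resMap, ← mul_assoc, div_mul_cancel₀ _ hr]
  rw [heq]
  exact (IntermediateField.mem_adjoin_simple_iff k _).2 ⟨p, q, rfl⟩

include haux in
theorem RedDatum.isFF_resField : IsFF k D.ResField := by
  classical
  set G := D.resGroup haux (⊤ : Subgroup SL(2, ℤ))
  let K0 := IntermediateField.fixedField G
  have : FiniteDimensional K0 D.ResField :=
    inferInstanceAs (FiniteDimensional (FixedPoints.subfield G D.ResField) D.ResField)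
  have hK0 : K0 = IntermediateField.adjoin k {D.jRes (M := M)} := by
    refine le_antisymm (fun z hz => D.mem_adjoin_of_fixed haux fun g hg => hz ⟨g, hg⟩) ?_
    rw [IntermediateField.adjoin_simple_le_iff, IntermediateField.mem_fixedField_iff]
    rintro _ ⟨γ, -, rfl⟩
    exact D.resAut_jRes haux γ
  refine ⟨⟨D.jRes, D.transcendental_jRes, ?_⟩⟩
  rw [← hK0]
  infer_instance

/-- An integral element satisfies a monic relation. -/
theorem IntOver.exists_rel {F : Type*} [Field F] [Algebra k F] {x h : F} (hh : IntOver k x h) :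
    ∃ (d : ℕ) (p : ℕ → k[X]), p d = 1 ∧ ∑ i ∈ Finset.range (d + 1), aeval x (p i) * h ^ i = 0 := by
  obtain ⟨P, hP, h0⟩ := hh
  exact ⟨P.natDegree, P.coeff, hP, by rw [eval₂_eq_sum_range] at h0; exact h0⟩

include haux in
/-- An element with nonzero reduction has a multiple in the invariant ring whose reduction vanishes
at no cusp: the norm. -/
theorem RedDatum.exists_invariant_multiple {r : BRing M D.R} (hr : D.redHom 1 r ≠ 0) :
    ∃ u : BRing M D.R, ((r * u : BRing M D.R) : ℍ → ℂ) ∈ polRing haux D.R ∧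
      ∀ γ, D.redHom γ (r * u) ≠ 0 := by
  classical
  set P : (BRing M D.R)[X] := ∏ g : GalGrp M m, (X - C (D.actB (repG M m g) r)) with hP
  obtain ⟨-, hcoe, hPr⟩ := D.charPol_spec haux r P hP
  have h1 := congrArg (fun Q : (BRing M D.R)[X] => Q.eval r) P.X_mul_divX_add
  simp only [eval_add, eval_mul, eval_X, eval_C, hPr] at h1
  have hu : P.coeff 0 = r * -(P.divX.eval r) := by linear_combination h1
  refine ⟨-(P.divX.eval r), hu ▸ hcoe 0, fun γ h0 => ?_⟩
  rw [← hu, coeff_zero_eq_eval_zero, hP, eval_prod, map_prod] at h0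
  obtain ⟨g, -, hg⟩ := Finset.prod_eq_zero_iff.1 h0
  rw [eval_sub, eval_X, eval_C, zero_sub, map_neg, neg_eq_zero, D.redHom_actB] at hg
  exact hr ((D.redHom_eq_zero_iff haux _ 1).1 hg)

include haux in
/-- A relation with coefficients in `R[j]` vanishing modulo the maximal ideal makes the reduced
quotient integral over the reduced invariant ring. -/
theorem RedDatum.isIntegral_div_of_relation {b r : BRing M D.R} {d : ℕ} {Q : ℕ → D.R[X]}
    (hd : (Q d).map D.π = 1) {γ : SL(2, ℤ)} (hr : D.redHom γ r ≠ 0)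
    (h : D.redHom γ (∑ i ∈ Finset.range (d + 1), D.evJB (Q i) * b ^ i * r ^ (d - i)) = 0) :
    IsIntegral (D.polImage haux γ) (D.redHom γ b / D.redHom γ r) := by
  have hmemJ : ∀ i, D.redHom γ (D.evJB (Q i)) ∈ D.polImage haux γ := fun i =>
    ⟨D.evJB (Q i), invariant_mem_polRing haux D.good (D.evJB (Q i)).2 fun δ _ =>
      congrArg Subtype.val (D.actB_evJB δ (Q i)), rfl⟩
  set c : ℕ → D.polImage haux γ := fun i => ⟨_, hmemJ i⟩
  refine ⟨X ^ d + ∑ i ∈ Finset.range d, C (c i) * X ^ i, monic_X_pow_add
    ((degree_sum_le _ _).trans_lt ((Finset.sup_lt_iff (WithBot.bot_lt_coe d)).2 fun i hi =>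
      (degree_C_mul_X_pow_le i _).trans_lt (WithBot.coe_lt_coe.2 (Finset.mem_range.1 hi)))), ?_⟩
  have hd1 : D.redHom γ (D.evJB (Q d)) = 1 := by
    rw [D.redHom_evJB, hd, map_one, map_one]
  simp only [Finset.sum_range_succ, Nat.sub_self, pow_zero, mul_one, map_add, map_sum,
    map_mul, map_pow, hd1, one_mul] at h
  rw [eval₂_add, eval₂_X_pow, eval₂_finsetSum]
  simp only [eval₂_mul, eval₂_C, eval₂_X_pow]
  refine mul_left_cancel₀ (pow_ne_zero d hr) ?_
  rw [mul_zero, mul_add, Finset.mul_sum, div_pow, mul_div_cancel₀ _ (pow_ne_zero d hr),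
    add_comm]
  refine Eq.trans ?_ h
  congr 1
  refine Finset.sum_congr rfl fun i hi => ?_
  have hid : i ≤ d := (Finset.mem_range.mp hi).le
  show _ * (D.redHom γ (D.evJB (Q i)) * _) = _
  rw [div_pow, show D.redHom γ r ^ d = D.redHom γ r ^ (d - i) * D.redHom γ r ^ i by
    rw [← pow_add, Nat.sub_add_cancel hid]]
  field_simp

include haux in
/-- Every residual element integral over `k[j]` lifts. -/
theorem RedDatum.exists_lift_intOver {h : D.ResField} (hh : IntOver k (D.jRes (M := M)) h) :
    ∃ f : BRing M D.R, D.resMap f = h := by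
  classical
  obtain ⟨b, r, hr, rfl⟩ := D.exists_eq_div h
  -- make the denominator invariant
  have hr1 : D.redHom 1 r ≠ 0 := fun h0 => hr (D.resMap_eq_zero.2 h0)
  obtain ⟨u, hu, hne⟩ := D.exists_invariant_multiple haux hr1
  obtain ⟨r0, hr0u⟩ : ∃ r0, r0 = r * u := ⟨_, rfl⟩
  rw [← hr0u] at hu hne
  have hr01 : D.redHom 1 r0 ≠ 0 := hne 1
  -- integrality at every cusp
  obtain ⟨d, p, hpd, hrel⟩ := IntOver.exists_rel hh
  choose Q hQ using fun i => Polynomial.map_surjective D.π D.surj (p i)
  set E : BRing M D.R :=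
    ∑ i ∈ Finset.range (d + 1), D.evJB (Q i) * (b * u) ^ i * r0 ^ (d - i)
  have hE : D.redHom 1 E = 0 := by
    rw [← D.resMap_eq_zero]
    have hr0 : D.resMap r0 ≠ 0 := fun h0 => hr01 (D.resMap_eq_zero.1 h0)
    have hbr : D.resMap b / D.resMap r = D.resMap (b * u) / D.resMap r0 := by
      rw [hr0u, map_mul] at hr0
      rw [hr0u, map_mul, map_mul]
      rw [mul_div_mul_right _ _ (right_ne_zero_of_mul hr0)]
    rw [hbr] at hrel
    simp only [E, map_sum, map_mul, map_pow, D.resMap_evJB, hQ]
    simp only [map_mul, div_pow] at hrel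
    calc ∑ i ∈ Finset.range (d + 1), aeval D.jRes (p i) * (D.resMap b * D.resMap u) ^ i *
          D.resMap r0 ^ (d - i)
        = D.resMap r0 ^ d * ∑ i ∈ Finset.range (d + 1),
            aeval D.jRes (p i) * ((D.resMap b * D.resMap u) ^ i / D.resMap r0 ^ i) := by
          rw [Finset.mul_sum]
          refine Finset.sum_congr rfl fun i hi => ?_
          have hid : i ≤ d := Nat.lt_succ_iff.mp (Finset.mem_range.mp hi)
          rw [show D.resMap r0 ^ d = D.resMap r0 ^ (d - i) * D.resMap r0 ^ i by
            rw [← pow_add, Nat.sub_add_cancel hid]]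
          field_simp
      _ = 0 := by rw [hrel, mul_zero]
  obtain ⟨f, hf⟩ := D.mem_image_of_integral haux (b := b * u) hu hr01 fun γ =>
    D.isIntegral_div_of_relation haux (Q := Q) ((hQ d).trans hpd) (hne γ)
      ((D.redHom_eq_zero_iff haux 1 γ).1 hE)
  refine ⟨f, ?_⟩
  have h1 : D.resMap f * D.resMap r0 = D.resMap (b * u) := by
    rw [← map_mul, D.resMap_eq_resMap, map_mul]
    exact hf 1
  rw [eq_div_iff hr]
  have hu0 : D.resMap u ≠ 0 := fun h0 => hr01 (D.resMap_eq_zero.1 (by
    rw [hr0u, map_mul, h0, mul_zero]))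
  refine mul_right_cancel₀ hu0 ?_
  rw [hr0u, map_mul, map_mul] at h1
  rw [mul_assoc, h1]

theorem RedDatum.resMap_jGenB_fixed (hNM : N ∣ M) (d : JIdx N) :
    ∀ g ∈ D.resGroup haux (Gamma0 N), g (D.resMap (D.jGenB hNM d)) = D.resMap (D.jGenB hNM d) := by
  rintro _ ⟨γ, hγ, rfl⟩
  rw [D.resAut_resMap]
  exact congrArg _ (Subtype.ext (funext fun τ => jGenF_gamma0 (inv_mem hγ) d τ))

include haux in
/-- **Regularity of the finite chart.** -/
theorem RedDatum.exists_invariant_lift [IsAlgClosed k] (hNM : N ∣ M) {z : LaurentSeries k}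
    (hz : z ∈ modularFunctionFieldFullC k N) (hint : (evalJ k).IsIntegralElem z) :
    ∃ f ∈ D.invB (Gamma0 N), D.redHom 1 f = qExpand k M z := by
  classical
  have := D.isFF_resField haux
  set G := D.resGroup haux (Gamma0 N)
  set K0 := IntermediateField.fixedField G
  have hle : (modularFunctionFieldFullC k N).map (qExpandAlgHomC k M) ≤
      K0.map (D.resEmb (M := M)) := by
    rw [modularFunctionFieldFullC, IntermediateField.adjoin_map, IntermediateField.adjoin_le_iff]
    rintro _ ⟨_, ⟨d, hd0, hd, rfl⟩, rfl⟩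
    refine ⟨D.resMap (D.jGenB hNM ⟨d, Nat.mem_divisors.mpr ⟨hd, NeZero.ne N⟩⟩),
      (IntermediateField.mem_fixedField_iff _ _).2 (D.resMap_jGenB_fixed haux hNM _), ?_⟩
    show D.resEmb _ = _
    rw [D.resEmb_resMap, D.redHom_one_jGenB]
    rfl
  obtain ⟨y, hy, hyz⟩ := hle ⟨z, hz, rfl⟩
  replace hyz : D.resEmb y = qExpand k M z := hyz
  have hyint : IntOver k (D.jRes (M := M)) y := by
    obtain ⟨P, hP, h0⟩ := hint
    refine ⟨P, hP, D.resEmb.toRingHom.injective ?_⟩
    rw [map_zero, hom_eval₂]
    have h1 := congrArg (qExpand k M) h0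
    rw [hom_eval₂, map_zero] at h1
    refine Eq.trans ?_ h1
    congr 1
    exact RingHom.ext fun p => D.resEmb_aeval p
  let R0 : Subalgebra k D.ResField :=
    { toSubsemiring := ((D.invB (Gamma0 N)).map (D.resMap (M := M))).toSubsemiring
      algebraMap_mem' := fun a => by
        obtain ⟨r, rfl⟩ := D.surj a
        refine ⟨D.constB r, fun γ _ => D.actB_constB γ r, D.resEmb.toRingHom.injective ?_⟩
        show D.resEmb _ = D.resEmb _
        rw [D.resEmb_resMap, D.redHom_constB, AlgHom.commutes, HahnSeries.C_apply,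
          ModularCurve.algebraMap_laurentSeries_eq_single] }
  have hmem : y ∈ R0 := by
    refine mem_of_invariant (G := G) R0 D.transcendental_jRes (fun g hg => ?_) (fun h hh i => ?_)
      hyint ((IntermediateField.mem_fixedField_iff _ _).1 hy)
    · obtain ⟨γ, -, rfl⟩ := hg
      exact D.resAut_jRes haux γ
    · obtain ⟨f, rfl⟩ := D.exists_lift_intOver haux hh
      rw [← D.map_symPoly, coeff_map]
      exact ⟨_, D.coeff_symPoly_mem haux _ f i, rfl⟩
  obtain ⟨f, hf, hfy⟩ := hmem
  exact ⟨f, hf, by rw [← D.resEmb_resMap, hfy, hyz]⟩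

end FermatAgent.Curve.Red
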