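import Fermat.Agent.ES.Ring.Fibre
import Fermat.Prelude.Def_ModularCurve_LaurentCoeff
import Fermat.Prelude.Def_FLTPrelim_Ramification

/-!
# Reduction data at a prime of good reduction, level `M`

`RedDatum M k` packages a valuation ring `R` of a subfield `L ⊆ ℂ` with residue map `π : R → k`
for which the `M`-th roots of unity stay distinct.  The elements of `BRing M R` are reduced
coefficientwise at every cusp.
-/

set_option autoImplicit false

open Filter Topology UpperHalfPlane CongruenceSubgroup
open scoped MatrixGroups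
open ModularCurve (coeffMap coeffMap_coeff)

noncomputable section

namespace FermatAgent.Curve.Red

open FermatAgent.ES

/-- A valuation ring inside `ℂ` with residue field `k`, suitable for level `M`. -/
structure RedDatum (M : ℕ) (k : Type*) [Field k] where
  /-- the field of constants -/
  L : Subfield ℂ
  /-- the valuation ring -/
  R : Subring ℂ
  le : ∀ x ∈ R, x ∈ L
  val : ∀ x ∈ L, x ∈ R ∨ x⁻¹ ∈ R
  /-- the residue map -/
  π : R →+* k
  surj : Function.Surjective π
  unit_iff : ∀ x : R, π x ≠ 0 ↔ UnitIn R (x : ℂ)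
  arch : ∀ a c : ℂ, a ∈ R → c ∈ R → ¬UnitIn R a → c ≠ 0 → ∃ n : ℕ, ∃ d ∈ R, a ^ n = c * d
  good : GoodRoot M R (zetaC M)

variable {M : ℕ} {k : Type*} [Field k] (D : RedDatum M k)

namespace RedDatum

/-- The multiples of `a`. -/
def mulSub (a : ℂ) : AddSubgroup ℂ := D.R.toAddSubgroup.map (AddMonoidHom.mulLeft a)

/-- Membership in the multiples of `a`. -/
theorem mem_mulSub {a x : ℂ} : x ∈ D.mulSub a ↔ ∃ d ∈ D.R, a * d = x := Iff.rfl

/-- The multiples form a module over `R`. -/
theorem mulSub_closed (a : ℂ) : ∀ r ∈ D.R, ∀ x ∈ D.mulSub a, r * x ∈ D.mulSub a := by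
  rintro r hr _ ⟨d, hd, rfl⟩
  exact ⟨r * d, D.R.mul_mem hr hd, show a * (r * d) = r * (a * d) by ring⟩

theorem self_mem_mulSub (a : ℂ) : a ∈ D.mulSub a := ⟨1, D.R.one_mem, mul_one a⟩

/-- Multiples of a multiple are multiples. -/
theorem mulSub_le_of_mem {a b : ℂ} (h : a ∈ D.mulSub b) : D.mulSub a ≤ D.mulSub b := by
  rintro _ ⟨d, hd, rfl⟩
  obtain ⟨e, he, rfl⟩ := D.mem_mulSub.mp h
  exact ⟨e * d, D.R.mul_mem he hd, show b * (e * d) = b * e * d by ring⟩

theorem mem_mulSub_total {a b : ℂ} (ha : a ∈ D.L) (hb : b ∈ D.L) :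
    a ∈ D.mulSub b ∨ b ∈ D.mulSub a := by
  rcases eq_or_ne b 0 with rfl | hb0
  · exact Or.inr (AddSubgroup.zero_mem _)
  rcases eq_or_ne a 0 with rfl | ha0
  · exact Or.inl (AddSubgroup.zero_mem _)
  rcases D.val (a / b) (D.L.div_mem ha hb) with h | h
  · exact Or.inl ⟨a / b, h, mul_div_cancel₀ a hb0⟩
  · rw [inv_div] at h
    exact Or.inr ⟨b / a, h, mul_div_cancel₀ b ha0⟩

/-- Among finitely many constants one divides all the others. -/
theorem exists_max {ι : Type*} (s : Finset ι) (hs : s.Nonempty) (x : ι → ℂ)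
    (hx : ∀ i ∈ s, x i ∈ D.L) : ∃ i ∈ s, ∀ j ∈ s, x j ∈ D.mulSub (x i) := by
  classical
  induction hs using Finset.Nonempty.cons_induction with
  | singleton a =>
    refine ⟨a, Finset.mem_singleton_self a, fun j hj => ?_⟩
    rw [Finset.mem_singleton.mp hj]
    exact D.self_mem_mulSub _
  | cons a s ha hs ih =>
    obtain ⟨i, hi, hmax⟩ := ih fun j hj => hx j (Finset.mem_cons_of_mem hj)
    rcases D.mem_mulSub_total (hx a (Finset.mem_cons_self a s))
      (hx i (Finset.mem_cons_of_mem hi)) with h | h
    · refine ⟨i, Finset.mem_cons_of_mem hi, fun j hj => ?_⟩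
      rcases Finset.mem_cons.mp hj with rfl | hj
      · exact h
      · exact hmax j hj
    · refine ⟨a, Finset.mem_cons_self a s, fun j hj => ?_⟩
      rcases Finset.mem_cons.mp hj with rfl | hj
      · exact D.self_mem_mulSub _
      · exact D.mulSub_le_of_mem h (hmax j hj)

/-- The residue vanishes exactly at nonunits. -/
theorem pi_eq_zero_iff {x : D.R} : D.π x = 0 ↔ ¬UnitIn D.R (x : ℂ) := by
  rw [← D.unit_iff x, not_not]

/-- A nonunit power divides any nonzero constant eventually. -/
theorem eq_zero_of_forall_pow_dvd {a c : ℂ} (ha : a ∈ D.R) (hc : c ∈ D.R) (hu : ¬UnitIn D.R a)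
    (h : ∀ n : ℕ, c ∈ D.mulSub (a ^ n)) : c = 0 := by
  by_contra hc0
  obtain ⟨n, d, hd, he⟩ := D.arch a c ha hc hu hc0
  obtain ⟨e, he', h1⟩ := D.mem_mulSub.mp (h (n + 1))
  refine hu ⟨?_, ha, ?_⟩
  · rintro rfl
    simp [eq_comm, hc0] at h1
  · have : a * (d * e) = 1 := by
      refine mul_left_cancel₀ hc0 ?_
      calc c * (a * (d * e)) = a * (c * d) * e := by ring
        _ = a ^ (n + 1) * e := by rw [← he]; ring
        _ = c * 1 := by rw [h1, mul_one]
    rw [eq_inv_of_mul_eq_one_right this |>.symm]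
    exact D.R.mul_mem hd he'

end RedDatum

/-- The Laurent series with coefficients in `A`. -/
def serSub (A : Subring ℂ) : Subring (LaurentSeries ℂ) where
  carrier := {s | SerIn A s}
  one_mem' := SerIn.one
  zero_mem' := SerIn.zero
  mul_mem' := fun hs ht => SerIn.mul hs ht
  add_mem' := fun hs ht => SerIn.add hs ht
  neg_mem' := fun hs => SerIn.neg hs

/-- Series over a subring embed. -/
theorem coeffMap_subtype_injective (A : Subring ℂ) :
    Function.Injective (coeffMap A.subtype) := fun _ _ h =>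
  HahnSeries.ext (funext fun n => Subtype.ext (congrArg (fun s => s.coeff n) h))

/-- A series over `A` as a series in `A((q))`. -/
def liftSer (A : Subring ℂ) : serSub A →+* LaurentSeries A :=
  let f : serSub A → LaurentSeries A := fun s =>
    { coeff := fun n => ⟨(s : LaurentSeries ℂ).coeff n, s.2 n⟩
      isPWO_support' := (s : LaurentSeries ℂ).isPWO_support.mono fun n hn => by
        simp only [Function.mem_support, ne_eq] at hn ⊢
        exact fun h => hn (Subtype.ext h) }
  have hf : ∀ s, coeffMap A.subtype (f s) = s := fun s => HahnSeries.ext (funext fun _ => rfl)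
  { toFun := f
    map_one' := coeffMap_subtype_injective A (by rw [hf, map_one, OneMemClass.coe_one])
    map_zero' := coeffMap_subtype_injective A (by rw [hf, map_zero, ZeroMemClass.coe_zero])
    map_mul' := fun x y => coeffMap_subtype_injective A (by
      rw [hf, map_mul, hf, hf, Subring.coe_mul])
    map_add' := fun x y => coeffMap_subtype_injective A (by
      rw [hf, map_add, hf, hf, Subring.coe_add]) }

/-- The coefficients of a lifted series. -/
@[simp] theorem coeff_liftSer (A : Subring ℂ) (s : serSub A) (n : ℤ) :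
    (((liftSer A s).coeff n : A) : ℂ) = (s : LaurentSeries ℂ).coeff n := rfl

namespace RedDatum

variable [NeZero M]

/-- The expansion at `γ∞` of an element with integral expansions. -/
def serHom (γ : SL(2, ℤ)) : BRing M D.R →+* serSub D.R :=
  ((expHom (M := M) γ).comp
    ({ toFun := fun f => ⟨f.1, f.2.1⟩
       map_one' := rfl
       map_mul' := fun _ _ => rfl
       map_zero' := rfl
       map_add' := fun _ _ => rfl } : BRing M D.R →+* BSub M)).codRestrict _ fun f => f.2.2 γ

@[simp] theorem coe_serHom (γ : SL(2, ℤ)) (f : BRing M D.R) :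
    (D.serHom γ f : LaurentSeries ℂ) = lexp M γ (f : ℍ → ℂ) := rfl

/-- The reduced expansion at `γ∞`. -/
def redHom (γ : SL(2, ℤ)) : BRing M D.R →+* LaurentSeries k :=
  ((coeffMap D.π).comp (liftSer D.R)).comp (D.serHom γ)

/-- The reduced expansion is coefficientwise. -/
theorem coeff_redHom (γ : SL(2, ℤ)) (f : BRing M D.R) (n : ℤ) :
    (D.redHom γ f).coeff n = D.π ⟨(lexp M γ (f : ℍ → ℂ)).coeff n, f.2.2 γ n⟩ := rfl

/-- The translate of an element of `BRing M R`. -/
def actB (γ : SL(2, ℤ)) : BRing M D.R →+* BRing M D.R :=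
  ((actHom γ).comp (BRing M D.R).subtype).codRestrict _ fun f => act_mem_BRing f.2 γ

/-- The translate as a function. -/
@[simp] theorem coe_actB (γ : SL(2, ℤ)) (f : BRing M D.R) :
    (D.actB γ f : ℍ → ℂ) = act γ (f : ℍ → ℂ) := rfl

/-- The reduced expansion of a translate is that at the translated cusp. -/
theorem redHom_actB (γ δ : SL(2, ℤ)) (f : BRing M D.R) :
    D.redHom δ (D.actB γ f) = D.redHom (γ * δ) f := by
  ext n
  simp only [coeff_redHom, coe_actB, lexp_act]

/-- `-1` acts trivially. -/
theorem redHom_neg (γ : SL(2, ℤ)) (f : BRing M D.R) : D.redHom (-γ) f = D.redHom γ f := by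
  ext n
  simp only [coeff_redHom, lexp_neg]

/-- Constants. -/
def constB : D.R →+* BRing M D.R where
  toFun a := ⟨fun _ => (a : ℂ), const_mem_BRing a.2⟩
  map_one' := rfl
  map_mul' _ _ := rfl
  map_zero' := rfl
  map_add' _ _ := rfl

/-- The function of a constant. -/
@[simp] theorem coe_constB (a : D.R) : ((D.constB (M := M) a : BRing M D.R) : ℍ → ℂ) =
    fun _ => (a : ℂ) := rfl

/-- The expansion of a constant. -/
theorem lexp_const (γ : SL(2, ℤ)) (a : ℂ) :
    lexp M γ (fun _ : ℍ => a) = HahnSeries.C a := lexp_eq (HasLExp.const a)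

/-- The reduction of a constant. -/
theorem redHom_constB (γ : SL(2, ℤ)) (a : D.R) :
    D.redHom γ (D.constB a) = HahnSeries.C (D.π a) := by
  ext n
  rw [coeff_redHom]
  rcases eq_or_ne n 0 with rfl | hn
  · simp [lexp_const, HahnSeries.C_apply]
  · rw [HahnSeries.C_apply, HahnSeries.coeff_single_of_ne hn, ← map_zero D.π]
    congr 1
    exact Subtype.ext (by simp [lexp_const, HahnSeries.C_apply, HahnSeries.coeff_single_of_ne hn])

end RedDatum

end FermatAgent.Curve.Red
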